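/-
GATE-B / B1-MULTI (RULING R4 5608 §3.2, abstract-base form of helper51 5654 (a)), helper54.

`NN lam B n` : the `O`-algebra `B` is FINITE FREE over a noetherian DOMAIN `S` (itself an
`O`-algebra, compatibly) with `dim S = n + 1` and `dim S ⧸ (lam) ≤ n`.

This is the only invariant the multi-prime `hP` proof carries along the tower of charts: the base
`O⟦x₁..x_g⟧` has `NN _ g`, a power series step in `k` variables raises `n` by `k`
(`S ↦ S⟦k variables⟧`), and a finite free extension (Weierstrass chart) keeps `n`.

DEFINITION ONLY (so that the providers of the steps and the consumers can work in parallel).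
-/
import Mathlib

set_option autoImplicit false

universe u

namespace Fermat.Agent.GB.Local.Multi

/-- `NN lam B n` (RULING R4 §3.2): `B` is finite free over a noetherian domain `S`, an `O`-algebra
compatibly, with `dim S = n + 1` and `dim S ⧸ (lam) ≤ n`. -/
def NN {O : Type u} [CommRing O] (lam : O) (B : Type u) [CommRing B] [Algebra O B] (n : ℕ) :
    Prop :=
  ∃ (S : Type u) (_ : CommRing S) (_ : IsDomain S) (_ : IsNoetherianRing S) (_ : Algebra O S)
    (_ : Algebra S B) (_ : IsScalarTower O S B) (_ : Module.Free S B) (_ : Module.Finite S B),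
    ringKrullDim S = (n : WithBot ℕ∞) + 1 ∧
      ringKrullDim (S ⧸ Ideal.span {algebraMap O S lam}) ≤ (n : WithBot ℕ∞)

end Fermat.Agent.GB.Local.Multi
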