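/-
GATE-B / B1-MULTI (RULING R4 5608 §3, ARCHITECTURE v2 board 5763), helper54.

SEVERAL framed primes.  The patching ring is the FLAT power series ring
`RM O s g = O⟦(a_v, n_v) : v < s ; x₁..x_g⟧`; the charts are ITERATED, and are attached to `RM` by
ELEMENTS (no flattening isomorphism is ever needed):

* `IsPt O o a n`  : the pair `(a, n)` is a point of type `o : Option O`
                    (`none`: `n = 0`; `some c`: `(a, n) = (s₁ u, s₂ u)`, `s₂² Q(u) = c²`);
* `IsChartOver`   : one chart step `B ↦ E` of type `o` (coordinates, universal property, `NN` step);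
* `Stage O lam g s` : a complete noetherian local `O`-algebra `E` with `s` coordinate pairs and `g`
                    further parameters in its maximal ideal, of prescribed types, universal for
                    points of these types, with an `NN` witness;  `Stage.base`, `Stage.extend`;
* `Stage.f : RM O s g →ₐ[O] X.E`, and for a family `Fam ξ` of stages indexed by the type vectors
  `ξ : TyVec 𝒞`,  `J2M Fam = ⨅ ξ, ker (Fam ξ).f`;
* `J2M_le_ker`    (kill₂) : a point of `RM` all of whose blocks are points of admissible types kills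
                    `J2M`;
* `ringKrullDim_quot_J2M_le` (hdim) : `dim RM ⧸ J2M ≤ 1 + 3 s + g`  (on `Cert.eq_maximalIdeal_of_cert`);
* `hP_J2M`        (hP) : the `t`-test at the LAST prime, from the `HP` property of the stages
                    (`ChartDim.hP_of_charts`).
-/
import Mathlib
import Fermat.Agent.GB.Local.Rloc
import Fermat.Agent.GB.Local.Cert
import Fermat.Agent.GB.Local.Multi.NNDef
import Fermat.Agent.GB.Alg.ChartDim

set_option autoImplicit false
set_option linter.unusedSectionVars false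
set_option linter.unusedVariables false

universe u

open IsLocalRing MvPowerSeries Fermat.Agent.GB.Local.Rloc

namespace Fermat.Agent.GB.Local.Multi

/-! ### Points of a given type -/

section Pt

variable (O : Type u) [CommRing O]

/-- `(a, n)` is a point of type `o` over the local `O`-algebra `A`. -/
def IsPt {A : Type*} [CommRing A] [IsLocalRing A] [Algebra O A] (o : Option O)
    (a n : Fin 3 → A) : Prop :=
  (∀ i, a i ∈ maximalIdeal A) ∧ (∀ i, n i ∈ maximalIdeal A) ∧
    ((o = none ∧ ∀ i, n i = 0) ∨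
      ∃ c, o = some c ∧ ∃ (s1 s2 : A) (u : Fin 3 → A), s1 ∈ maximalIdeal A ∧
        s2 ∈ maximalIdeal A ∧ (∀ i, u i ∈ maximalIdeal A) ∧ (∀ i, a i = s1 * u i) ∧
        (∀ i, n i = s2 * u i) ∧ s2 ^ 2 * Qf u = algebraMap O A c ^ 2)

variable {O}

theorem IsPt.map {A A' : Type*} [CommRing A] [IsLocalRing A] [Algebra O A] [CommRing A']
    [IsLocalRing A'] [Algebra O A'] {o : Option O} {a n : Fin 3 → A} (h : IsPt O o a n)
    (φ : A →+* A') (hφ : ∀ x ∈ maximalIdeal A, φ x ∈ maximalIdeal A')
    (hφO : ∀ r : O, φ (algebraMap O A r) = algebraMap O A' r) :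
    IsPt O o (fun i => φ (a i)) (fun i => φ (n i)) := by
  obtain ⟨ha, hn, h⟩ := h
  refine ⟨fun i => hφ _ (ha i), fun i => hφ _ (hn i), ?_⟩
  rcases h with ⟨ho, h0⟩ | ⟨c, ho, s1, s2, u, h1, h2, hu, hau, hnu, hrel⟩
  · exact Or.inl ⟨ho, fun i => by show φ (n i) = 0; rw [h0 i, map_zero]⟩
  · refine Or.inr ⟨c, ho, φ s1, φ s2, fun i => φ (u i), hφ _ h1, hφ _ h2, fun i => hφ _ (hu i),
      fun i => by show φ (a i) = φ s1 * φ (u i); rw [hau i, map_mul],
      fun i => by show φ (n i) = φ s2 * φ (u i); rw [hnu i, map_mul], ?_⟩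
    have := congrArg φ hrel
    rw [map_mul, map_pow, map_pow, hφO, map_Qf] at this
    exact this

/-- **(R4)** a point of an admissible type kills `J 𝒞`. -/
theorem J_le_ker_of_isPt [IsLocalRing O] [IsNoetherianRing O] [IsAdicComplete (maximalIdeal O) O]
    {A : Type*} [CommRing A] [IsLocalRing A] [Algebra O A] [IsAdicComplete (maximalIdeal A) A]
    (𝒞 : Finset O) {o : Option O} (ho : o = none ∨ ∃ c ∈ 𝒞, o = some c) (φ : P6 O →ₐ[O] A)
    (h : IsPt O o (fun i => φ (aVar O i)) (fun i => φ (nVar O i))) :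
    J O 𝒞 ≤ RingHom.ker φ := by
  obtain ⟨ha, hn, h⟩ := h
  rcases h with ⟨-, h0⟩ | ⟨c, hoc, s1, s2, u, h1, h2, hu, hau, hnu, hrel⟩
  · have e := evalPair_unique (O := O) (fun i => φ (aVar O i)) (fun _ => (0 : A)) ha
      (fun _ => zero_mem _) φ (fun _ => rfl) h0
    rw [e]
    exact J_le_ker_evalPair_of_zero 𝒞 _ ha
  · have hc : c ∈ 𝒞 := by
      rcases ho with ho | ⟨c', hc', ho⟩
      · rw [ho] at hoc; exact absurd hoc (by simp)
      · rw [ho] at hoc
        have : c' = c := Option.some.inj hoc
        rwa [← this]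
    have e := evalPair_unique (O := O) (fun i => s1 * u i) (fun i => s2 * u i)
      (fun _ => Ideal.mul_mem_right _ _ h1) (fun _ => Ideal.mul_mem_right _ _ h2) φ hau hnu
    rw [e]
    exact J_le_ker_evalPair_of_chart 𝒞 hc s1 s2 u h1 h2 hu hrel

end Pt

/-! ### One chart step -/

/-- `E` is a chart of type `o` over `B`, with coordinate pair `(a, n)`. -/
structure IsChartOver (O : Type u) [CommRing O] (lam : O)
    (B : Type u) [CommRing B] [IsLocalRing B] [Algebra O B]
    (E : Type u) [CommRing E] [IsLocalRing E] [Algebra O E] [Algebra B E]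
    (o : Option O) (a n : Fin 3 → E) : Prop where
  tower : ∀ r : O, algebraMap B E (algebraMap O B r) = algebraMap O E r
  map_mem : ∀ b ∈ maximalIdeal B, algebraMap B E b ∈ maximalIdeal E
  isPt : IsPt O o a n
  lift : ∀ (A : Type u) [CommRing A] [IsLocalRing A] [Algebra O A]
    [IsAdicComplete (maximalIdeal A) A] (ψ : B →ₐ[O] A) (a' n' : Fin 3 → A), IsPt O o a' n' →
    ∃ ψ' : E →ₐ[O] A, (∀ b, ψ' (algebraMap B E b) = ψ b) ∧ (∀ i, ψ' (a i) = a' i) ∧
      ∀ i, ψ' (n i) = n' i
  nn : ∀ m, NN lam B m → ∃ m', NN lam E m'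

/-- the `t`-test on a chart: `4 Q(a) − d²` is not nilpotent modulo `lam` on any component. -/
def ChartHP {O : Type u} [CommRing O] (lam d : O) (E : Type u) [CommRing E] [Algebra O E]
    (a : Fin 3 → E) : Prop :=
  ∀ 𝔓 ∈ minimalPrimes E,
    4 * Qf a - algebraMap O E (d ^ 2) ∉ (𝔓 ⊔ Ideal.span {algebraMap O E lam}).radical

/-! ### Stages -/

/-- a tower of `s` charts over `O⟦x₁..x_g⟧`, remembered through its coordinates -/
structure Stage (O : Type u) [CommRing O] (lam : O) (g s : ℕ) : Type (u + 1) where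
  E : Type u
  [cr : CommRing E]
  [lr : IsLocalRing E]
  [nr : IsNoetherianRing E]
  [alg : Algebra O E]
  [cpl : IsAdicComplete (maximalIdeal E) E]
  ty : Fin s → Option O
  a : Fin s → Fin 3 → E
  n : Fin s → Fin 3 → E
  x : Fin g → E
  x_mem : ∀ j, x j ∈ maximalIdeal E
  isPt : ∀ v, IsPt O (ty v) (a v) (n v)
  lift : ∀ (A : Type u) [CommRing A] [IsLocalRing A] [Algebra O A]
    [IsAdicComplete (maximalIdeal A) A] (a' n' : Fin s → Fin 3 → A) (x' : Fin g → A),
    (∀ v, IsPt O (ty v) (a' v) (n' v)) → (∀ j, x' j ∈ maximalIdeal A) →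
    ∃ ψ : E →ₐ[O] A, (∀ v i, ψ (a v i) = a' v i) ∧ (∀ v i, ψ (n v i) = n' v i) ∧
      ∀ j, ψ (x j) = x' j
  m : ℕ
  nn : NN lam E m

attribute [instance] Stage.cr Stage.lr Stage.nr Stage.alg Stage.cpl

namespace Stage

variable {O : Type u} [CommRing O] [IsLocalRing O] [IsNoetherianRing O]
  [IsAdicComplete (maximalIdeal O) O] {lam : O} {g s : ℕ}

/-- the base stage `O⟦x₁..x_g⟧` -/
noncomputable def base (lam : O) (g : ℕ) (h : NN lam (MvPowerSeries (Fin g) O) g) :
    Stage O lam g 0 where
  E := MvPowerSeries (Fin g) O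
  cpl := Fermat.Agent.S53.isAdicComplete_mvPowerSeries O (Fin g)
  ty := Fin.elim0
  a := Fin.elim0
  n := Fin.elim0
  x := fun j => X j
  x_mem := fun j => Fermat.Agent.S53.X_mem_maximalIdeal O (Fin g) j
  isPt := fun v => v.elim0
  lift := fun A _ _ _ _ a' n' x' _ hx =>
    ⟨evalHom O x' hx, fun v => v.elim0, fun v => v.elim0, fun j => evalHom_X O x' hx j⟩
  m := g
  nn := h

/-- one more chart on top of a stage -/
noncomputable def extend (X : Stage O lam g s) (o : Option O) (E : Type u) [CommRing E]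
    [IsLocalRing E] [IsNoetherianRing E] [Algebra O E] [IsAdicComplete (maximalIdeal E) E]
    [Algebra X.E E] (a n : Fin 3 → E) (h : IsChartOver O lam X.E E o a n) :
    Stage O lam g (s + 1) where
  E := E
  ty := Fin.snoc X.ty o
  a := Fin.snoc (α := fun _ => Fin 3 → E) (fun v i => algebraMap X.E E (X.a v i)) a
  n := Fin.snoc (α := fun _ => Fin 3 → E) (fun v i => algebraMap X.E E (X.n v i)) n
  x := fun j => algebraMap X.E E (X.x j)
  x_mem := fun j => h.map_mem _ (X.x_mem j)
  isPt := fun v => by
    induction v using Fin.lastCases with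
    | last => simp only [Fin.snoc_last]; exact h.isPt
    | cast w =>
      simp only [Fin.snoc_castSucc]
      exact (X.isPt w).map (algebraMap X.E E) h.map_mem
        (fun r => h.tower r)
  lift := fun A _ _ _ _ a' n' x' hpt hx => by
    obtain ⟨ψ₀, h1, h2, h3⟩ := X.lift A (fun v => a' v.castSucc) (fun v => n' v.castSucc) x'
      (fun v => by have := hpt v.castSucc; rwa [Fin.snoc_castSucc] at this) hx
    obtain ⟨ψ', e1, e2, e3⟩ := h.lift A ψ₀ (a' (Fin.last s)) (n' (Fin.last s))
      (by have := hpt (Fin.last s); rwa [Fin.snoc_last] at this)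
    refine ⟨ψ', fun v i => ?_, fun v i => ?_, fun j => by rw [e1, h3]⟩
    · induction v using Fin.lastCases with
      | last => simp only [Fin.snoc_last]; exact e2 i
      | cast w => simp only [Fin.snoc_castSucc]; rw [e1, h1]
    · induction v using Fin.lastCases with
      | last => simp only [Fin.snoc_last]; exact e3 i
      | cast w => simp only [Fin.snoc_castSucc]; rw [e1, h2]
  m := (h.nn X.m X.nn).choose
  nn := (h.nn X.m X.nn).choose_spec

@[simp] theorem extend_ty (X : Stage O lam g s) (o : Option O) (E : Type u) [CommRing E]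
    [IsLocalRing E] [IsNoetherianRing E] [Algebra O E] [IsAdicComplete (maximalIdeal E) E]
    [Algebra X.E E] (a n : Fin 3 → E) (h : IsChartOver O lam X.E E o a n) :
    (X.extend o E a n h).ty = Fin.snoc X.ty o := rfl

/-- the `t`-test at the last prime of a stage -/
def HP (X : Stage O lam g (s + 1)) (d : O) : Prop :=
  ChartHP lam d X.E (X.a (Fin.last s))

theorem extend_HP (X : Stage O lam g s) (o : Option O) (E : Type u) [CommRing E]
    [IsLocalRing E] [IsNoetherianRing E] [Algebra O E] [IsAdicComplete (maximalIdeal E) E]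
    [Algebra X.E E] (a n : Fin 3 → E) (h : IsChartOver O lam X.E E o a n) (d : O)
    (hP : ChartHP lam d E a) : (X.extend o E a n h).HP d := by
  have e : (X.extend o E a n h).a (Fin.last s) = a := by
    change Fin.snoc (α := fun _ => Fin 3 → E) (fun v i => algebraMap X.E E (X.a v i)) a
      (Fin.last s) = a
    exact Fin.snoc_last (α := fun _ => Fin 3 → E) a _
  unfold HP
  rw [e]
  exact hP

end Stage

end Fermat.Agent.GB.Local.Multi
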