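/-
GATE-B / B1-MULTI (RULING R4 5608 §3, ARCHITECTURE v2 board 5763), helper54, file 2.

The FLAT patching ring `RM O s g = O⟦(a_v, n_v) : v < s ; x₁..x_g⟧` and, for a family of stages
`Fam ξ` indexed by the type vectors `ξ : TyVec 𝒞`, the ideal `J2M Fam = ⨅ ξ, ker (Fam ξ).f`:

* `J2M_le_ker` (kill₂)                : a point of `RM` whose blocks are points of admissible types
                                        kills `J2M`;
* `eq_maximalIdeal_of_cert_multi`     : the multi-prime nilpotence certificate;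
* `ringKrullDim_quot_J2M_le` (hdim)   : `dim RM ⧸ J2M ≤ 1 + 3 s + g`;
* `hP_J2M` (hP)                       : the `t`-test at the LAST prime (`tM d = 4 Q(a_q) − d²`).
-/
import Mathlib
import Fermat.Agent.GB.Local.Multi.Stage

set_option autoImplicit false
set_option linter.unusedSectionVars false
set_option linter.unusedVariables false

universe u

open IsLocalRing MvPowerSeries Fermat.Agent.GB.Local.Rloc

namespace Fermat.Agent.GB.Local.Multi

/-! ### The flat ring -/

section Flat

variable (O : Type u) [CommRing O] [IsLocalRing O] [IsNoetherianRing O]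
  [IsAdicComplete (maximalIdeal O) O]

/-- the index set of the variables of the flat patching ring -/
abbrev Idx (s g : ℕ) := (Fin s × Fin 6) ⊕ Fin g

/-- the flat patching ring `O⟦(a_v, n_v) : v < s ; x₁..x_g⟧` -/
abbrev RM (s g : ℕ) := MvPowerSeries (Idx s g) O

noncomputable instance instCompleteRM (s g : ℕ) :
    IsAdicComplete (maximalIdeal (RM O s g)) (RM O s g) :=
  Fermat.Agent.S53.isAdicComplete_mvPowerSeries O (Idx s g)

variable {s g : ℕ}

/-- the coordinates `a_v` -/
noncomputable def aV (v : Fin s) (i : Fin 3) : RM O s g := X (Sum.inl (v, Fin.castAdd 3 i))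

/-- the coordinates `n_v` -/
noncomputable def nV (v : Fin s) (i : Fin 3) : RM O s g := X (Sum.inl (v, Fin.natAdd 3 i))

/-- the parameters `x_j` -/
noncomputable def xV (j : Fin g) : RM O s g := X (Sum.inr j)

theorem X_mem (k : Idx s g) : (X k : RM O s g) ∈ maximalIdeal (RM O s g) :=
  Fermat.Agent.S53.X_mem_maximalIdeal O (Idx s g) k

theorem aV_mem (v : Fin s) (i : Fin 3) : aV O (g := g) v i ∈ maximalIdeal (RM O s g) := X_mem O _

theorem nV_mem (v : Fin s) (i : Fin 3) : nV O (g := g) v i ∈ maximalIdeal (RM O s g) := X_mem O _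

theorem xV_mem (j : Fin g) : xV O (s := s) j ∈ maximalIdeal (RM O s g) := X_mem O _

/-- the `v`-th block -/
noncomputable def inc (v : Fin s) : P6 O →ₐ[O] RM O s g :=
  evalHom O (fun j : Fin 6 => (X (Sum.inl (v, j)) : RM O s g)) (fun j => X_mem O _)

@[simp] theorem inc_X (v : Fin s) (j : Fin 6) :
    inc O (g := g) v (X j) = X (Sum.inl (v, j)) := by
  rw [inc, evalHom_X]

@[simp] theorem inc_aVar (v : Fin s) (i : Fin 3) : inc O (g := g) v (aVar O i) = aV O v i := by
  rw [aVar, inc_X]; rfl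

@[simp] theorem inc_nVar (v : Fin s) (i : Fin 3) : inc O (g := g) v (nVar O i) = nV O v i := by
  rw [nVar, inc_X]; rfl

/-- the test element at the last prime -/
noncomputable def tM (d : O) : RM O (s + 1) g := 4 * Qf (aV O (Fin.last s)) - C (d ^ 2)

end Flat

/-! ### The map from the flat ring to a stage -/

namespace Stage

variable {O : Type u} [CommRing O] [IsLocalRing O] [IsNoetherianRing O]
  [IsAdicComplete (maximalIdeal O) O] {lam : O} {g s : ℕ} (X : Stage O lam g s)

/-- the coordinates of a stage -/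
def coord : Idx s g → X.E :=
  Sum.elim (fun p => Fin.append (X.a p.1) (X.n p.1) p.2) X.x

theorem coord_mem (k : Idx s g) : X.coord k ∈ maximalIdeal X.E := by
  rcases k with ⟨v, j⟩ | j
  · exact append_mem (X.isPt v).1 (X.isPt v).2.1 j
  · exact X.x_mem j

/-- the map from the flat ring -/
noncomputable def f : RM O s g →ₐ[O] X.E := evalHom O X.coord X.coord_mem

@[simp] theorem f_X (k : Idx s g) : X.f (MvPowerSeries.X k) = X.coord k := by
  rw [f, evalHom_X]

@[simp] theorem f_aV (v : Fin s) (i : Fin 3) : X.f (aV O v i) = X.a v i := by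
  rw [aV, f_X]
  show Fin.append (X.a v) (X.n v) (Fin.castAdd 3 i) = _
  rw [Fin.append_left]

@[simp] theorem f_nV (v : Fin s) (i : Fin 3) : X.f (nV O v i) = X.n v i := by
  rw [nV, f_X]
  show Fin.append (X.a v) (X.n v) (Fin.natAdd 3 i) = _
  rw [Fin.append_right]

@[simp] theorem f_xV (j : Fin g) : X.f (xV O j) = X.x j := by
  rw [xV, f_X]; rfl

theorem f_comp_inc (v : Fin s) :
    X.f.comp (inc O v) = evalPair (O := O) (X.a v) (X.n v) (X.isPt v).1 (X.isPt v).2.1 := by
  refine evalPair_unique _ _ _ _ _ (fun i => ?_) (fun i => ?_)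
  · rw [AlgHom.comp_apply, inc_aVar, f_aV]
  · rw [AlgHom.comp_apply, inc_nVar, f_nV]

end Stage

/-! ### Type vectors -/

section TyVec

variable {O : Type u} {s : ℕ}

/-- the type vectors: at every prime `v`, `none` (type `1`) or a constant of `𝒞 v` -/
abbrev TyVec (𝒞 : Fin s → Finset O) := ∀ v : Fin s, Option {c // c ∈ 𝒞 v}

/-- the underlying vector of types -/
def toVec {𝒞 : Fin s → Finset O} (ξ : TyVec 𝒞) : Fin s → Option O :=
  fun v => (ξ v).map Subtype.val

theorem toVec_adm {𝒞 : Fin s → Finset O} (ξ : TyVec 𝒞) (v : Fin s) :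
    toVec ξ v = none ∨ ∃ c ∈ 𝒞 v, toVec ξ v = some c := by
  unfold toVec
  rcases h : ξ v with _ | ⟨c, hc⟩
  · exact Or.inl rfl
  · exact Or.inr ⟨c, hc, rfl⟩

theorem exists_tyVec {𝒞 : Fin s → Finset O} (o : Fin s → Option O)
    (ho : ∀ v, o v = none ∨ ∃ c ∈ 𝒞 v, o v = some c) : ∃ ξ : TyVec 𝒞, toVec ξ = o := by
  have h : ∀ v, ∃ z : Option {c // c ∈ 𝒞 v}, z.map Subtype.val = o v := by
    intro v
    rcases ho v with h | ⟨c, hc, h⟩
    · exact ⟨none, by rw [h]; rfl⟩
    · exact ⟨some ⟨c, hc⟩, by rw [h]; rfl⟩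
  choose ξ hξ using h
  exact ⟨ξ, funext hξ⟩

end TyVec

/-! ### The ideal `J2M` of a family of stages -/

section Family

variable {O : Type u} [CommRing O] [IsLocalRing O] [IsNoetherianRing O]
  [IsAdicComplete (maximalIdeal O) O] {lam : O} {g s : ℕ} {𝒞 : Fin s → Finset O}
  (Fam : TyVec 𝒞 → Stage O lam g s)

/-- `J₂` for several framed primes: the intersection of the kernels of all multi-charts -/
noncomputable def J2M : Ideal (RM O s g) := ⨅ ξ, RingHom.ker (Fam ξ).f

theorem J2M_le (ξ : TyVec 𝒞) : J2M Fam ≤ RingHom.ker (Fam ξ).f := iInf_le _ ξ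

theorem mem_J2M_iff (r : RM O s g) : r ∈ J2M Fam ↔ ∀ ξ, (Fam ξ).f r = 0 := by
  rw [J2M, Ideal.mem_iInf]
  exact Iff.rfl

theorem J2M_ne_top : J2M Fam ≠ ⊤ := by
  intro h
  have h1 : (1 : RM O s g) ∈ J2M Fam := by rw [h]; exact Submodule.mem_top
  have := (mem_J2M_iff Fam 1).1 h1 (fun _ => none)
  rw [map_one] at this
  exact one_ne_zero this

variable (hFam : ∀ ξ, (Fam ξ).ty = toVec ξ)
include hFam

/-- **(kill₂)** a point of the flat ring all of whose blocks are points of admissible types kills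
`J2M`. -/
theorem J2M_le_ker {A : Type u} [CommRing A] [IsLocalRing A] [Algebra O A]
    [IsAdicComplete (maximalIdeal A) A] (θ : RM O s g →ₐ[O] A)
    (hpt : ∀ v, ∃ o : Option O, (o = none ∨ ∃ c ∈ 𝒞 v, o = some c) ∧
      IsPt O o (fun i => θ (aV O v i)) (fun i => θ (nV O v i)))
    (hx : ∀ j, θ (xV O j) ∈ maximalIdeal A) : J2M Fam ≤ RingHom.ker θ := by
  choose o ho hpt using hpt
  obtain ⟨ξ, hξ⟩ := exists_tyVec o ho
  obtain ⟨ψ, h1, h2, h3⟩ := (Fam ξ).lift A (fun v i => θ (aV O v i)) (fun v i => θ (nV O v i))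
    (fun j => θ (xV O j)) (fun v => by rw [hFam, hξ]; exact hpt v) hx
  have key : ∀ k : Idx s g, (ψ.comp (Fam ξ).f) (X k) = θ (X k) := by
    intro k
    rw [AlgHom.comp_apply, Stage.f_X]
    rcases k with ⟨v, j⟩ | j
    · have key2 : ∀ j : Fin (3 + 3), ψ (Fin.append ((Fam ξ).a v) ((Fam ξ).n v) j) =
          θ (X (Sum.inl (v, j))) := by
        intro j
        induction j using Fin.addCases with
        | left i => rw [Fin.append_left]; exact h1 v i
        | right i => rw [Fin.append_right]; exact h2 v i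
      exact key2 j
    · exact h3 j
  have hmem : ∀ k : Idx s g, θ (X k) ∈ maximalIdeal A := by
    rintro (⟨v, j⟩ | j)
    · have key2 : ∀ j : Fin (3 + 3), θ (X (Sum.inl (v, j))) ∈ maximalIdeal A := by
        intro j
        induction j using Fin.addCases with
        | left i => exact (hpt v).1 i
        | right i => exact (hpt v).2.1 i
      exact key2 j
    · exact hx j
  have hθ : ψ.comp (Fam ξ).f = θ :=
    Fermat.Agent.S53.algHom_ext_X _ _ (fun k => by rw [key]; exact hmem k) key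
  intro r hr
  have h0 : (Fam ξ).f r = 0 := (mem_J2M_iff Fam r).1 hr ξ
  rw [RingHom.mem_ker, ← hθ, AlgHom.comp_apply, h0, map_zero]

/-- the single-prime kernels are contained in `J2M` -/
theorem inc_mem_J2M (v : Fin s) {r : P6 O} (hr : r ∈ J O (𝒞 v)) : inc O v r ∈ J2M Fam := by
  rw [mem_J2M_iff]
  intro ξ
  have h1 : J O (𝒞 v) ≤ RingHom.ker ((Fam ξ).f.comp (inc O v)) := by
    refine J_le_ker_of_isPt (𝒞 v) (o := (Fam ξ).ty v) ?_ _ ?_
    · rw [hFam]; exact toVec_adm ξ v
    · have := (Fam ξ).isPt v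
      simpa only [AlgHom.comp_apply, inc_aVar, inc_nVar, Stage.f_aV, Stage.f_nV] using this
  exact h1 hr

/-- **the multi-prime certificate**: a prime containing `J2M`, `lam`, the three parameters of
every block and the `x_j` is the maximal ideal. -/
theorem eq_maximalIdeal_of_cert_multi (hmax : maximalIdeal O = Ideal.span {lam})
    (h𝒞 : ∀ v, ∀ c ∈ 𝒞 v, lam ∣ c) {𝔮 : Ideal (RM O s g)} [h𝔮 : 𝔮.IsPrime]
    (hJ : J2M Fam ≤ 𝔮) (hl : (C lam : RM O s g) ∈ 𝔮) (h0 : ∀ v, aV O v 0 ∈ 𝔮)
    (h1 : ∀ v, aV O v 1 + nV O v 2 ∈ 𝔮) (h2 : ∀ v, aV O v 2 + nV O v 1 ∈ 𝔮)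
    (hx : ∀ j, xV O j ∈ 𝔮) : 𝔮 = maximalIdeal (RM O s g) := by
  have hblock : ∀ v, 𝔮.comap (inc O v) = maximalIdeal (P6 O) := by
    intro v
    refine Cert.eq_maximalIdeal_of_cert hmax (𝒞 v) (h𝒞 v) ?_ ?_ ?_ ?_ ?_
    · intro r hr
      exact hJ (inc_mem_J2M Fam hFam v hr)
    · rw [Ideal.mem_comap]
      have : inc O (g := g) v (C lam) = C lam := by
        have := (inc O (g := g) v).commutes lam
        simpa [MvPowerSeries.algebraMap_apply] using this
      rw [this]; exact hl
    · rw [Ideal.mem_comap, inc_aVar]; exact h0 v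
    · rw [Ideal.mem_comap, map_add, inc_aVar, inc_nVar]; exact h1 v
    · rw [Ideal.mem_comap, map_add, inc_aVar, inc_nVar]; exact h2 v
  have hX : ∀ k : Idx s g, (X k : RM O s g) ∈ 𝔮 := by
    rintro (⟨v, j⟩ | j)
    · have : (X j : P6 O) ∈ 𝔮.comap (inc O v) := by
        rw [hblock v]; exact Fermat.Agent.S53.X_mem_maximalIdeal O (Fin 6) j
      rw [Ideal.mem_comap, inc_X] at this
      exact this
    · exact hx j
  refine le_antisymm (le_maximalIdeal h𝔮.ne_top) fun r hr => ?_
  have hr0 : constantCoeff r ∈ maximalIdeal O := by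
    rwa [Fermat.Agent.S53.mem_maximalIdeal_mvPowerSeries_iff] at hr
  rw [hmax, Ideal.mem_span_singleton'] at hr0
  obtain ⟨e, he⟩ := hr0
  have h3 : r = (r - C (constantCoeff r)) + C e * C lam := by
    rw [← map_mul, he]; ring
  rw [h3]
  refine add_mem ?_ (Ideal.mul_mem_left _ _ hl)
  refine (Ideal.span_le.2 ?_) (Cert.sub_C_constantCoeff_mem r)
  rintro _ ⟨k, rfl⟩
  exact hX k

end Family

/-! ### The dimension bound -/

section Dim

variable {O : Type u} [CommRing O] [IsLocalRing O] [IsNoetherianRing O]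
  [IsAdicComplete (maximalIdeal O) O] {lam : O} {g s : ℕ} {𝒞 : Fin s → Finset O}
  (Fam : TyVec 𝒞 → Stage O lam g s)

/-- the three parameters of a block -/
noncomputable def par3 (O : Type u) [CommRing O] {s g : ℕ} (v : Fin s) (i : Fin 3) : RM O s g :=
  if i = 0 then aV O v 0 else if i = 1 then aV O v 1 + nV O v 2 else aV O v 2 + nV O v 1

/-- the system of parameters `lam`, three per block, and the `x_j` -/
noncomputable def param (O : Type u) [CommRing O] {s g : ℕ} (lam : O) :
    Option ((Fin s × Fin 3) ⊕ Fin g) → RM O s g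
  | none => C lam
  | some (Sum.inl p) => par3 O p.1 p.2
  | some (Sum.inr j) => xV O j

theorem param_mem (hlam : lam ∈ maximalIdeal O) (k : Option ((Fin s × Fin 3) ⊕ Fin g)) :
    param O lam k ∈ maximalIdeal (RM O s g) := by
  rcases k with _ | ⟨v, i⟩ | j
  · show (C lam : RM O s g) ∈ _
    rw [Fermat.Agent.S53.mem_maximalIdeal_mvPowerSeries_iff, constantCoeff_C]; exact hlam
  · show par3 O v i ∈ _
    unfold par3
    split_ifs
    · exact aV_mem O v 0
    · exact add_mem (aV_mem O v 1) (nV_mem O v 2)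
    · exact add_mem (aV_mem O v 2) (nV_mem O v 1)
  · exact xV_mem O j

variable (hFam : ∀ ξ, (Fam ξ).ty = toVec ξ)
include hFam

/-- **(hdim)** `dim RM ⧸ J2M ≤ 1 + 3 s + g` -/
theorem ringKrullDim_quot_J2M_le (hmax : maximalIdeal O = Ideal.span {lam})
    (h𝒞 : ∀ v, ∀ c ∈ 𝒞 v, lam ∣ c) :
    ringKrullDim (RM O s g ⧸ J2M Fam) ≤ ((1 + 3 * s + g : ℕ) : WithBot ℕ∞) := by
  classical
  have hne : J2M Fam ≠ ⊤ := J2M_ne_top Fam
  have : Nontrivial (RM O s g ⧸ J2M Fam) := Ideal.Quotient.nontrivial_iff.mpr hne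
  have : IsLocalRing (RM O s g ⧸ J2M Fam) :=
    IsLocalRing.of_surjective' (Ideal.Quotient.mk (J2M Fam)) Ideal.Quotient.mk_surjective
  set mk := Ideal.Quotient.mk (J2M Fam) with hmk
  have hlam : lam ∈ maximalIdeal O := by rw [hmax]; exact Ideal.mem_span_singleton_self _
  set S : Finset (RM O s g ⧸ J2M Fam) :=
    (Finset.univ : Finset (Option ((Fin s × Fin 3) ⊕ Fin g))).image
      (fun k => mk (param O lam k)) with hS
  have hmkmem : ∀ {x : RM O s g}, x ∈ maximalIdeal (RM O s g) →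
      mk x ∈ maximalIdeal (RM O s g ⧸ J2M Fam) := by
    intro x hx
    rw [mem_maximalIdeal, mem_nonunits_iff] at hx ⊢
    intro hu
    apply hx
    have : IsLocalHom mk := IsLocalHom.of_surjective mk Ideal.Quotient.mk_surjective
    exact (isUnit_map_iff mk x).1 hu
  have hsub : (S : Set (RM O s g ⧸ J2M Fam)) ⊆ Ring.jacobson (RM O s g ⧸ J2M Fam) := by
    rw [IsLocalRing.ringJacobson_eq_maximalIdeal]
    intro x hx
    rw [hS, Finset.coe_image] at hx
    obtain ⟨k, -, rfl⟩ := hx
    exact hmkmem (param_mem hlam k)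
  have h1 := ringKrullDim_le_ringKrullDim_quotient_add_card S hsub
  -- the quotient has dimension `0`
  have h0 : ringKrullDim ((RM O s g ⧸ J2M Fam) ⧸ Ideal.span (S : Set (RM O s g ⧸ J2M Fam))) ≤ 0 := by
    rw [← Nat.cast_zero, ← Ring.krullDimLE_iff, Ring.krullDimLE_zero_iff]
    intro K hK
    set ρ : RM O s g →+* (RM O s g ⧸ J2M Fam) ⧸ Ideal.span (S : Set (RM O s g ⧸ J2M Fam)) :=
      (Ideal.Quotient.mk _).comp mk with hρ
    have hρs : Function.Surjective ρ :=
      Ideal.Quotient.mk_surjective.comp Ideal.Quotient.mk_surjective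
    have hmem : ∀ k, param O lam k ∈ K.comap ρ := by
      intro k
      have hk : mk (param O lam k) ∈ S := by
        rw [hS]; exact Finset.mem_image_of_mem _ (Finset.mem_univ k)
      rw [Ideal.mem_comap, hρ, RingHom.comp_apply,
        Ideal.Quotient.eq_zero_iff_mem.2 (Ideal.subset_span hk)]
      exact zero_mem _
    have hJK : J2M Fam ≤ K.comap ρ := by
      intro x hx
      rw [Ideal.mem_comap, hρ, RingHom.comp_apply, Ideal.Quotient.eq_zero_iff_mem.2 hx, map_zero]
      exact zero_mem _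
    have hcomap : K.comap ρ = maximalIdeal (RM O s g) := by
      have : (K.comap ρ).IsPrime := Ideal.comap_isPrime ρ K
      refine eq_maximalIdeal_of_cert_multi Fam hFam hmax h𝒞 hJK (hmem none) (fun v => ?_)
        (fun v => ?_) (fun v => ?_) (fun j => hmem (some (Sum.inr j)))
      · have := hmem (some (Sum.inl (v, 0)))
        simpa [param, par3] using this
      · have := hmem (some (Sum.inl (v, 1)))
        simpa [param, par3] using this
      · have := hmem (some (Sum.inl (v, 2)))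
        simpa [param, par3] using this
    have hK2 : K = (maximalIdeal (RM O s g)).map ρ := by
      rw [← hcomap, Ideal.map_comap_of_surjective ρ hρs]
    rcases Ideal.map_eq_top_or_isMaximal_of_surjective ρ hρs
      (maximalIdeal.isMaximal (RM O s g)) with h | h
    · exact absurd (hK2.trans h) hK.ne_top
    · rwa [hK2]
  have hcard : (S.card : WithBot ℕ∞) ≤ ((1 + 3 * s + g : ℕ) : WithBot ℕ∞) := by
    have h2 : S.card ≤ 1 + 3 * s + g := by
      refine (Finset.card_image_le).trans ?_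
      rw [Finset.card_univ, Fintype.card_option, Fintype.card_sum, Fintype.card_prod,
        Fintype.card_fin, Fintype.card_fin, Fintype.card_fin]
      omega
    exact_mod_cast h2
  calc ringKrullDim (RM O s g ⧸ J2M Fam) ≤ _ := h1
    _ ≤ 0 + ((1 + 3 * s + g : ℕ) : WithBot ℕ∞) := add_le_add h0 hcard
    _ = _ := zero_add _

end Dim

/-! ### The `t`-test -/

section HP

variable {O : Type u} [CommRing O] [IsLocalRing O] [IsNoetherianRing O]
  [IsAdicComplete (maximalIdeal O) O] {lam : O} {g s : ℕ} {𝒞 : Fin (s + 1) → Finset O}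
  (Fam : TyVec 𝒞 → Stage O lam g (s + 1))

theorem Stage.f_tM (X : Stage O lam g (s + 1)) (d : O) :
    X.f (tM O d) = 4 * Qf (X.a (Fin.last s)) - algebraMap O X.E (d ^ 2) := by
  have hC : X.f (C (d ^ 2)) = algebraMap O X.E (d ^ 2) := by
    have := X.f.commutes (d ^ 2)
    simpa [MvPowerSeries.algebraMap_apply] using this
  rw [tM, map_sub, map_mul, hC, map_ofNat]
  congr 2
  simp only [Qf, map_add, map_pow, map_mul, Stage.f_aV]

/-- **(hP)** the `t`-test at the last prime, on every minimal prime of `RM ⧸ J2M`. -/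
theorem hP_J2M (d : O) (hHP : ∀ ξ, (Fam ξ).HP d) :
    ∀ P ∈ minimalPrimes (RM O (s + 1) g ⧸ J2M Fam),
      Ideal.Quotient.mk (J2M Fam) (tM O d) ∉
        (P ⊔ Ideal.span {Ideal.Quotient.mk (J2M Fam) (C lam)}).radical := by
  have hle : ∀ ξ, ∀ r ∈ J2M Fam, (Fam ξ).f.toRingHom r = 0 := fun ξ r hr =>
    (mem_J2M_iff Fam r).1 hr ξ
  refine Fermat.Agent.GB.Alg.ChartDim.hP_of_charts (fun ξ => (Fam ξ).E)
    (fun ξ => Ideal.Quotient.lift (J2M Fam) (Fam ξ).f.toRingHom (hle ξ)) ?_ _ _ ?_
  · rw [eq_bot_iff]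
    intro x hx
    obtain ⟨r, rfl⟩ := Ideal.Quotient.mk_surjective x
    rw [Ideal.mem_iInf] at hx
    rw [Ideal.mem_bot, Ideal.Quotient.eq_zero_iff_mem, mem_J2M_iff]
    intro ξ
    have := hx ξ
    rwa [RingHom.mem_ker, Ideal.Quotient.lift_mk] at this
  · intro ξ 𝔓 h𝔓
    rw [Ideal.Quotient.lift_mk, Ideal.Quotient.lift_mk]
    have hC : (Fam ξ).f (C lam) = algebraMap O (Fam ξ).E lam := by
      have := (Fam ξ).f.commutes lam
      simpa [MvPowerSeries.algebraMap_apply] using this
    show (Fam ξ).f (tM O d) ∉ (𝔓 ⊔ Ideal.span {(Fam ξ).f (C lam)}).radical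
    rw [Stage.f_tM, hC]
    exact hHP ξ 𝔓 h𝔓

end HP

end Fermat.Agent.GB.Local.Multi
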