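/-
GATE-B / B1-MULTI, KILLMULTI part 3 (helper59, GO helper53 5708 §3; helper54 5763 "DVR wrapper"):
the POINT SUPPLY at one framed prime, WITH the framing conjugation, in the `IsPt` shape of
helper54's ARCHITECTURE v2 (`n = 0`, or `a = s₁ u`, `n = s₂ u`, `s₂² Q(u) = c²` with
`s₁, s₂, u ∈ 𝔪`).

Setting: `O'` a local principal ideal domain with `𝔪 = (π)` (a complete DVR in the application),
`B''` a local `O'`-algebra with local structure map containing a square root `ϖ` of `π`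
(`B'' = SqrtUnif.Bsqrt π`), `σ` the set of ALL framing variables, `A := B''⟦σ⟧`,
`j : O'⟦σ⟧ → A` the coefficientwise map.  ONE ring `A` serves all framed primes.

* `exists_decomp_conj` : `F, S ∈ M₂(O')` residually scalar, `tl F ∥ tl S`, `tl S ≠ 0`,
  `γ ∈ GL₂(O'⟦σ⟧)` ⟹ `j (tl (γ F γ⁻¹)) = s₁ • u`, `j (tl (γ S γ⁻¹)) = s₂ • u`,
  `s₂² Q(u) = Q(tl S)` with `s₁, s₂, u i ∈ 𝔪_A`  (helper59 `SqrtUnif.exists_decomp_Q` + helper51's
  `conjTl` calculus).
* `tl_conj_eq_zero` : `tl S = 0` ⟹ `tl (γ S γ⁻¹) = 0`.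
* `isPt_of_tame` : from the TAME RELATION at the prime (hypotheses of
  `TameC.J_le_ker_evalPair_conj_of_tame`): either `tl (γ S γ⁻¹) = 0`, or there is
  `c ∈ cSet h ζ (p^a)` and a decomposition over `A` with `s₂² Q(u) = c²`.
* `isPt_of_tame_bsqrt` : the same with `B'' = Bsqrt π`, `π` any uniformiser of the complete DVR
  `O'`, together with the facts that make `A = (Bsqrt π)⟦σ⟧` a legitimate target
  (`isAdicComplete`, injectivity of `j`).
-/
import Mathlib
import Fermat.Agent.GB.Local.TameC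
import Fermat.Agent.GB.Local.SqrtUnif

set_option autoImplicit false
set_option linter.unusedSectionVars false
set_option linter.style.haveILetI false

open IsLocalRing

namespace Fermat.Agent.GB.Local.Multi.KillMulti

open Fermat.Agent.GB.Local.TamePoint Fermat.Agent.GB.Local.R4Point Fermat.Agent.GB.Local.TameC
open Fermat.Agent.GB.Local.SqrtUnif Matrix

/-! ### The framed decomposition -/

section Decomp

variable {O' : Type*} [CommRing O'] [IsDomain O'] [IsPrincipalIdealRing O'] [IsLocalRing O']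
variable {B'' : Type*} [CommRing B''] [IsLocalRing B''] [Algebra O' B'']
  [IsLocalHom (algebraMap O' B'')]
variable {σ : Type*}

/-- the coefficientwise map `O'⟦σ⟧ → B''⟦σ⟧` -/
noncomputable abbrev jmap (O' B'' : Type*) [CommRing O'] [CommRing B''] [Algebra O' B'']
    (σ : Type*) : MvPowerSeries σ O' →+* MvPowerSeries σ B'' :=
  MvPowerSeries.map (algebraMap O' B'')

theorem jmap_C (x : O') : jmap O' B'' σ (MvPowerSeries.C x) =
    MvPowerSeries.C (algebraMap O' B'' x) := by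
  rw [jmap, MvPowerSeries.map_C]

/-- `tl S = 0` ⟹ the framed coordinates of `S` vanish -/
theorem tl_conj_eq_zero {h : O'} (hh : 2 * h = 1) (S : Matrix (Fin 2) (Fin 2) O')
    (hn0 : tl h S = 0) {γ γi : Matrix (Fin 2) (Fin 2) (MvPowerSeries σ O')} (hγ : γ * γi = 1)
    (i : Fin 3) : tl (MvPowerSeries.C h) (γ * S.map MvPowerSeries.C * γi) i = 0 := by
  have hh' : 2 * (MvPowerSeries.C h : MvPowerSeries σ O') = 1 := by
    rw [← map_ofNat (MvPowerSeries.C (σ := σ) (R := O')) 2, ← map_mul, hh, map_one]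
  rw [tl_conj hh' hγ]
  have : tl (MvPowerSeries.C h : MvPowerSeries σ O') (S.map MvPowerSeries.C) = 0 := by
    funext k
    rw [tl_map, hn0]
    simp
  rw [this, conjTl_zero]
  rfl

/-- **the framed decomposition over `A = B''⟦σ⟧`.** -/
theorem exists_decomp_conj {π : O'} (hπ : maximalIdeal O' = Ideal.span {π}) {ϖ : B''}
    (hϖ : ϖ ^ 2 = algebraMap O' B'' π) {h : O'} (hh : 2 * h = 1)
    (F S : Matrix (Fin 2) (Fin 2) O') (ha : ∀ i, tl h F i ∈ maximalIdeal O')
    (hn : ∀ i, tl h S i ∈ maximalIdeal O') (hmin : Minors (tl h F) (tl h S))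
    (hn0 : tl h S ≠ 0) {γ γi : Matrix (Fin 2) (Fin 2) (MvPowerSeries σ O')} (hγ : γ * γi = 1) :
    ∃ (s1 s2 : MvPowerSeries σ B'') (u : Fin 3 → MvPowerSeries σ B''),
      s1 ∈ maximalIdeal (MvPowerSeries σ B'') ∧ s2 ∈ maximalIdeal (MvPowerSeries σ B'') ∧
      (∀ i, u i ∈ maximalIdeal (MvPowerSeries σ B'')) ∧
      (∀ i, jmap O' B'' σ (tl (MvPowerSeries.C h) (γ * F.map MvPowerSeries.C * γi) i) =
        s1 * u i) ∧
      (∀ i, jmap O' B'' σ (tl (MvPowerSeries.C h) (γ * S.map MvPowerSeries.C * γi) i) =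
        s2 * u i) ∧
      s2 ^ 2 * Q u = MvPowerSeries.C (algebraMap O' B'' (Q (tl h S))) := by
  obtain ⟨s1, s2, u, h1, h2, hu, hau, hnu, hq⟩ :=
    exists_decomp_Q hπ hϖ (tl h F) (tl h S) ha hn hmin hn0
  set j := jmap O' B'' σ with hj
  set hB : MvPowerSeries σ B'' := MvPowerSeries.C (algebraMap O' B'' h) with hhB
  have hh' : 2 * (MvPowerSeries.C h : MvPowerSeries σ O') = 1 := by
    rw [← map_ofNat (MvPowerSeries.C (σ := σ) (R := O')) 2, ← map_mul, hh, map_one]
  have hhB2 : 2 * hB = 1 := by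
    have := congrArg j hh'
    rwa [map_mul, map_ofNat, map_one, hj, jmap_C] at this
  set γB := γ.map j with hγB
  set γiB := γi.map j with hγiB
  have hγB1 : γB * γiB = 1 := by
    have := congrArg (fun M : Matrix (Fin 2) (Fin 2) (MvPowerSeries σ O') => M.map j) hγ
    simpa [Matrix.map_mul, hγB, hγiB] using this
  -- the images of the framed coordinates
  have key : ∀ (M : Matrix (Fin 2) (Fin 2) O') (s : B'')
      (hs : ∀ i, algebraMap O' B'' (tl h M i) = s * u i) (i : Fin 3),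
      j (tl (MvPowerSeries.C h) (γ * M.map MvPowerSeries.C * γi) i) =
        MvPowerSeries.C s * conjTl hB γB γiB (fun k => MvPowerSeries.C (u k)) i := by
    intro M s hs i
    rw [tl_conj hh' hγ]
    have := map_conjTl j (MvPowerSeries.C h) γ γi
      (tl (MvPowerSeries.C h) (M.map MvPowerSeries.C)) i
    rw [this, hj, jmap_C]
    have h3 : (fun k => jmap O' B'' σ (tl (MvPowerSeries.C h) (M.map MvPowerSeries.C) k)) =
        fun k => MvPowerSeries.C s * MvPowerSeries.C (u k) := by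
      funext k
      rw [tl_map, jmap_C, hs, map_mul]
    rw [h3, conjTl_smul]
  refine ⟨MvPowerSeries.C s1, MvPowerSeries.C s2,
    conjTl hB γB γiB (fun k => MvPowerSeries.C (u k)), C_mem_maximalIdeal σ h1,
    C_mem_maximalIdeal σ h2, ?_, fun i => key F s1 hau i, fun i => key S s2 hnu i, ?_⟩
  · exact conjTl_mem hB γB γiB _ (fun k => C_mem_maximalIdeal σ (hu k))
  · rw [Q_conjTl hhB2 hγB1]
    have hQC : Q (fun k => (MvPowerSeries.C (u k) : MvPowerSeries σ B'')) =
        MvPowerSeries.C (Q u) := by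
      simp only [Q, map_add, map_pow, map_mul]
    rw [hQC, ← map_pow, ← map_mul, hq]

end Decomp

/-! ### From the tame relation to the point shape -/

section Tame

variable {O : Type*} [CommRing O]
variable {O' : Type*} [CommRing O'] [IsDomain O'] [IsDiscreteValuationRing O'] [Algebra O O']
variable {B'' : Type*} [CommRing B''] [IsLocalRing B''] [Algebra O' B''] [Algebra O B'']
  [IsScalarTower O O' B''] [IsLocalHom (algebraMap O' B'')]
variable {σ : Type*}

/-- **the point shape from the tame relation** (one framed prime, arbitrary framing `γ`).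
`F = ρ(φ_v)`, `S = ρ(σ_v)` over the DVR `O'`, `F S = S^q F`, both residually scalar, `S`
residually trivial and not non-trivially unipotent.  Then the framed pair
`(a', n') = (tl (γ F γ⁻¹), tl (γ S γ⁻¹))` over `O'⟦σ⟧` is of type `none` (`n' = 0`) or of type
`some c`, `c ∈ cSet h ζ (p^a)`, over `A = B''⟦σ⟧`. -/
theorem isPt_of_tame {π : O'} (hπ : Irreducible π) {ϖ : B''}
    (hϖ : ϖ ^ 2 = algebraMap O' B'' π)
    {p : ℕ} (hp : p.Prime) (hp2 : p ≠ 2) (hpO' : (p : O') ∈ maximalIdeal O')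
    (S F : Matrix (Fin 2) (Fin 2) O') (hF : F.det ≠ 0) (hS : S.det = 1)
    {q a n' : ℕ} (hfac : q - 1 = p ^ a * n') (hn' : ¬ p ∣ n') (hpq : p ∣ q - 1) (hq : 1 ≤ q)
    (hrel : F * S = S ^ q * F) (hres : S.trace - 2 ∈ maximalIdeal O')
    {h ζ : O} (hh : 2 * h = 1) (hζ : IsPrimitiveRoot (algebraMap O O' ζ) (p ^ a))
    (hFres : ∀ i, tl (algebraMap O O' h) F i ∈ maximalIdeal O')
    (hSres : ∀ i, tl (algebraMap O O' h) S i ∈ maximalIdeal O')
    (hnu : (S - 1) ^ 2 = 0 → S = 1)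
    {γ γi : Matrix (Fin 2) (Fin 2) (MvPowerSeries σ O')} (hγ : γ * γi = 1) :
    (∀ i, tl (MvPowerSeries.C (algebraMap O O' h)) (γ * S.map MvPowerSeries.C * γi) i = 0) ∨
    ∃ c ∈ cSet h ζ (p ^ a), ∃ (s1 s2 : MvPowerSeries σ B'') (u : Fin 3 → MvPowerSeries σ B''),
      s1 ∈ maximalIdeal (MvPowerSeries σ B'') ∧ s2 ∈ maximalIdeal (MvPowerSeries σ B'') ∧
      (∀ i, u i ∈ maximalIdeal (MvPowerSeries σ B'')) ∧
      (∀ i, jmap O' B'' σ (tl (MvPowerSeries.C (algebraMap O O' h))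
        (γ * F.map MvPowerSeries.C * γi) i) = s1 * u i) ∧
      (∀ i, jmap O' B'' σ (tl (MvPowerSeries.C (algebraMap O O' h))
        (γ * S.map MvPowerSeries.C * γi) i) = s2 * u i) ∧
      s2 ^ 2 * Q u = algebraMap O (MvPowerSeries σ B'') c ^ 2 := by
  have hh' : 2 * algebraMap O O' h = 1 := by
    rw [← map_ofNat (algebraMap O O') 2, ← map_mul, hh, map_one]
  rcases point_cases (maximalIdeal.isMaximal O').ne_top hp hp2 hpO' S F hF hS hfac hn' hpq hq hrel
    hres hζ hh' with ⟨-, huni⟩ | ⟨k, hk0, hk, -, hmin, hQ, hne⟩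
  · -- unipotent branch: `S = 1`
    left
    have hS1 := hnu huni
    intro i
    refine tl_conj_eq_zero hh' S ?_ hγ i
    rw [hS1]; exact tl_one_mat _
  · -- semisimple branch
    right
    have hc0 : algebraMap O O' (cOf h ζ (p ^ a) k) ≠ 0 := by
      rw [map_cOf]; exact c_ne_zero hh' hne
    have hQ' : Q (tl (algebraMap O O' h) S) = algebraMap O O' (cOf h ζ (p ^ a) k) ^ 2 := by
      rw [hQ, map_cOf]; rfl
    have hn0 : tl (algebraMap O O' h) S ≠ 0 := by
      intro h0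
      rw [h0] at hQ'
      have : Q (0 : Fin 3 → O') = 0 := by simp [Q]
      rw [this] at hQ'
      exact hc0 ((pow_eq_zero_iff (two_ne_zero)).1 hQ'.symm)
    obtain ⟨s1, s2, u, h1, h2, hu, hau, hnu', hq⟩ :=
      exists_decomp_conj (B'' := B'') (σ := σ) hπ.maximalIdeal_eq hϖ hh' F S hFres hSres hmin hn0 hγ
    refine ⟨cOf h ζ (p ^ a) k, cOf_mem_cSet h ζ hk0 hk, s1, s2, u, h1, h2, hu, hau, hnu', ?_⟩
    rw [hq, hQ', map_pow, map_pow, MvPowerSeries.algebraMap_apply,
      ← IsScalarTower.algebraMap_apply]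

end Tame

/-! ### The concrete target `A = (Bsqrt π)⟦σ⟧` -/

section Bsqrt

variable {O : Type*} [CommRing O]
variable {O' : Type*} [CommRing O'] [IsDomain O'] [IsDiscreteValuationRing O'] [Algebra O O']
variable {σ : Type*}

/-- injectivity of `O'⟦σ⟧ → (Bsqrt π)⟦σ⟧` -/
theorem jmap_injective (π : O') : Function.Injective (jmap O' (Bsqrt π) σ) :=
  map_injective_of_injective (algebraMap O' (Bsqrt π)) (algebraMap_injective π) σ

/-- `j` maps the maximal ideal into the maximal ideal -/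
theorem jmap_mem_maximalIdeal {π : O'} (hπ : Irreducible π) {x : MvPowerSeries σ O'}
    (hx : x ∈ maximalIdeal (MvPowerSeries σ O')) :
    haveI := isLocalRing_of_irreducible π hπ
    jmap O' (Bsqrt π) σ x ∈ maximalIdeal (MvPowerSeries σ (Bsqrt π)) := by
  haveI := isLocalRing_of_irreducible π hπ
  rw [Fermat.Agent.S53.PSC.mem_maximalIdeal_iff] at hx ⊢
  rw [jmap, ← MvPowerSeries.coeff_zero_eq_constantCoeff_apply, MvPowerSeries.coeff_map,
    MvPowerSeries.coeff_zero_eq_constantCoeff_apply]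
  have := isLocalHom_algebraMap π
  exact _root_.map_nonunit (algebraMap O' (Bsqrt π)) _ hx

/-- **the point shape from the tame relation, over `(Bsqrt π)⟦σ⟧`.** -/
theorem isPt_of_tame_bsqrt {π : O'} (hπ : Irreducible π)
    {p : ℕ} (hp : p.Prime) (hp2 : p ≠ 2) (hpO' : (p : O') ∈ maximalIdeal O')
    (S F : Matrix (Fin 2) (Fin 2) O') (hF : F.det ≠ 0) (hS : S.det = 1)
    {q a n' : ℕ} (hfac : q - 1 = p ^ a * n') (hn' : ¬ p ∣ n') (hpq : p ∣ q - 1) (hq : 1 ≤ q)
    (hrel : F * S = S ^ q * F) (hres : S.trace - 2 ∈ maximalIdeal O')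
    {h ζ : O} (hh : 2 * h = 1) (hζ : IsPrimitiveRoot (algebraMap O O' ζ) (p ^ a))
    (hFres : ∀ i, tl (algebraMap O O' h) F i ∈ maximalIdeal O')
    (hSres : ∀ i, tl (algebraMap O O' h) S i ∈ maximalIdeal O')
    (hnu : (S - 1) ^ 2 = 0 → S = 1)
    {γ γi : Matrix (Fin 2) (Fin 2) (MvPowerSeries σ O')} (hγ : γ * γi = 1) :
    haveI := isLocalRing_of_irreducible π hπ
    (∀ i, tl (MvPowerSeries.C (algebraMap O O' h)) (γ * S.map MvPowerSeries.C * γi) i = 0) ∨
    ∃ c ∈ cSet h ζ (p ^ a), ∃ (s1 s2 : MvPowerSeries σ (Bsqrt π))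
      (u : Fin 3 → MvPowerSeries σ (Bsqrt π)),
      s1 ∈ maximalIdeal (MvPowerSeries σ (Bsqrt π)) ∧
      s2 ∈ maximalIdeal (MvPowerSeries σ (Bsqrt π)) ∧
      (∀ i, u i ∈ maximalIdeal (MvPowerSeries σ (Bsqrt π))) ∧
      (∀ i, jmap O' (Bsqrt π) σ (tl (MvPowerSeries.C (algebraMap O O' h))
        (γ * F.map MvPowerSeries.C * γi) i) = s1 * u i) ∧
      (∀ i, jmap O' (Bsqrt π) σ (tl (MvPowerSeries.C (algebraMap O O' h))
        (γ * S.map MvPowerSeries.C * γi) i) = s2 * u i) ∧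
      s2 ^ 2 * Q u = algebraMap O (MvPowerSeries σ (Bsqrt π)) c ^ 2 := by
  haveI := isLocalRing_of_irreducible π hπ
  haveI := isLocalHom_algebraMap π
  exact isPt_of_tame (B'' := Bsqrt π) (σ := σ) hπ (varpi_sq π) hp hp2 hpO' S F hF hS hfac hn' hpq
    hq hrel hres hh hζ hFres hSres hnu hγ

end Bsqrt

end Fermat.Agent.GB.Local.Multi.KillMulti
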