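/-
GATE-B / B1-MULTI, KILLMULTI part 4 (helper59): the `T`-LEVEL form of `kill₂` for several framed
primes, against helper54's `Multi/Family.J2M_le_ker`.

* `le_ker_of_points` : GENERIC (no charts).  `Θ : R →ₐ[O] T⟦σ⟧`, a jointly injective family of
  points `x i : T →ₐ[O] O' i`, injective enlargements `j i : O' i⟦σ⟧ →ₐ[O] A i`; if `J` is killed by
  every composite `R → T⟦σ⟧ → O' i⟦σ⟧ → A i`, then `J ≤ ker Θ`.
* `J2M_le_ker_of_points` : the same with `J = J2M Fam`, the hypothesis being that at every point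
  `i` and every framed prime `v` the block `(Θ a_v, Θ n_v)`, pushed to `A i`, is a point (`IsPt`) of
  an admissible type.  (`T`-level twin of helper51's `Kill2.J2_le_ker_of_points`; in the
  application `A i = (Bsqrt π_i)⟦σ⟧` or `(Broot 6 π_i)⟦σ⟧`.)
* `isPt_of_disj` / `isPt_of_tame` : the supply at a prime of `q`-kind in helper54's `IsPt`
  vocabulary, from `KillMulti.isPt_of_tame` (tame relation, residually scalar, not non-trivially
  unipotent), with the framing conjugation.
-/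
import Mathlib
import Fermat.Agent.GB.Local.Multi.Family
import Fermat.Agent.GB.Local.Multi.KillMulti

set_option autoImplicit false
set_option linter.unusedSectionVars false
set_option linter.unusedVariables false
set_option linter.style.haveILetI false

universe u

open IsLocalRing

namespace Fermat.Agent.GB.Local.Multi.KillMultiT

open Fermat.Agent.GB.Local.TamePoint Fermat.Agent.GB.Local.R4Point Fermat.Agent.GB.Local.TameC
open Fermat.Agent.GB.Local.Rloc Fermat.Agent.GB.Local.Multi Matrix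

/-! ### The generic `T`-level lemma -/

section Generic

variable {O : Type*} [CommRing O] {R T : Type*} [CommRing R] [CommRing T] [Algebra O R]
  [Algebra O T] {σ : Type*}

/-- **generic `T`-level `kill`**: an ideal killed at all points of a jointly injective family is
killed by `Θ`. -/
theorem le_ker_of_points (J : Ideal R) (Θ : R →ₐ[O] MvPowerSeries σ T)
    {ι : Type*} {O' : ι → Type*} [∀ i, CommRing (O' i)] [∀ i, Algebra O (O' i)]
    (x : ∀ i, T →ₐ[O] O' i) (hxinj : ∀ t : T, (∀ i, x i t = 0) → t = 0)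
    {A : ι → Type*} [∀ i, CommRing (A i)] (j : ∀ i, MvPowerSeries σ (O' i) →+* A i)
    (hj : ∀ i, Function.Injective (j i))
    (h : ∀ i, ∀ r ∈ J, j i (MvPowerSeries.map (x i : T →+* O' i) (Θ r)) = 0) :
    J ≤ RingHom.ker (Θ : R →+* MvPowerSeries σ T) := by
  intro r hr
  rw [RingHom.mem_ker]
  ext d
  rw [map_zero]
  refine hxinj _ fun i => ?_
  have h1 : MvPowerSeries.map (x i : T →+* O' i) (Θ r) = 0 :=
    hj i ((h i r hr).trans (map_zero (j i)).symm)
  have h2 := congrArg (MvPowerSeries.coeff d) h1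
  rwa [MvPowerSeries.coeff_map, map_zero] at h2

end Generic

/-! ### The multi-prime `T`-level `kill₂` -/

section Multi

variable {O : Type u} [CommRing O] [IsLocalRing O] [IsNoetherianRing O]
  [IsAdicComplete (maximalIdeal O) O] {lam : O} {g s : ℕ} {𝒞 : Fin s → Finset O}
  (Fam : TyVec 𝒞 → Stage O lam g s) (hFam : ∀ ξ, (Fam ξ).ty = toVec ξ)

include hFam in
/-- **`kill₂` for several framed primes, `T`-level.** -/
theorem J2M_le_ker_of_points {T : Type*} [CommRing T] [Algebra O T] {σ : Type*}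
    (Θ : RM O s g →ₐ[O] MvPowerSeries σ T)
    {ι : Type*} {O' : ι → Type*} [∀ i, CommRing (O' i)] [∀ i, Algebra O (O' i)]
    (x : ∀ i, T →ₐ[O] O' i) (hxinj : ∀ t : T, (∀ i, x i t = 0) → t = 0)
    {A : ι → Type u} [∀ i, CommRing (A i)] [∀ i, IsLocalRing (A i)] [∀ i, Algebra O (A i)]
    [∀ i, IsAdicComplete (maximalIdeal (A i)) (A i)]
    (j : ∀ i, MvPowerSeries σ (O' i) →ₐ[O] A i) (hj : ∀ i, Function.Injective (j i))
    (hpt : ∀ i v, ∃ o : Option O, (o = none ∨ ∃ c ∈ 𝒞 v, o = some c) ∧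
      IsPt O o (fun k => j i (MvPowerSeries.map (x i : T →+* O' i) (Θ (aV O v k))))
        (fun k => j i (MvPowerSeries.map (x i : T →+* O' i) (Θ (nV O v k)))))
    (hx : ∀ i l, j i (MvPowerSeries.map (x i : T →+* O' i) (Θ (xV O l))) ∈ maximalIdeal (A i)) :
    J2M Fam ≤ RingHom.ker (Θ : RM O s g →+* MvPowerSeries σ T) := by
  refine le_ker_of_points (J2M Fam) Θ x hxinj (fun i => (j i : MvPowerSeries σ (O' i) →+* A i))
    hj fun i r hr => ?_
  -- the composite point
  let θ : RM O s g →ₐ[O] A i := (j i).comp ((MvPowerSeries.mapAlgHom (σ := σ) (x i)).comp Θ)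
  have hθ : ∀ r, θ r = j i (MvPowerSeries.map (x i : T →+* O' i) (Θ r)) := fun r => rfl
  have h1 : J2M Fam ≤ RingHom.ker θ :=
    J2M_le_ker Fam hFam θ (fun v => by simpa only [hθ] using hpt i v)
      (fun l => by rw [hθ]; exact hx i l)
  have h2 := h1 hr
  rw [RingHom.mem_ker, hθ] at h2
  exact h2

end Multi

/-! ### The supply at a prime of `q`-kind, in `IsPt` vocabulary -/

section Supply

variable {O : Type u} [CommRing O]
variable {O' : Type*} [CommRing O'] [IsDomain O'] [IsDiscreteValuationRing O'] [Algebra O O']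
variable {B'' : Type*} [CommRing B''] [IsLocalRing B''] [Algebra O' B''] [Algebra O B'']
  [IsScalarTower O O' B''] [IsLocalHom (algebraMap O' B'')]
variable {σ : Type*} [Finite σ]

open Fermat.Agent.GB.Local.Multi.KillMulti

/-- `j` maps the maximal ideal into the maximal ideal (abstract `B''`) -/
theorem jmap_mem {x : MvPowerSeries σ O'} (hx : x ∈ maximalIdeal (MvPowerSeries σ O')) :
    jmap O' B'' σ x ∈ maximalIdeal (MvPowerSeries σ B'') := by
  rw [Fermat.Agent.S53.PSC.mem_maximalIdeal_iff] at hx ⊢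
  rw [jmap, ← MvPowerSeries.coeff_zero_eq_constantCoeff_apply, MvPowerSeries.coeff_map,
    MvPowerSeries.coeff_zero_eq_constantCoeff_apply]
  exact _root_.map_nonunit (algebraMap O' B'') _ hx

/-- from the explicit disjunction to `IsPt` -/
theorem isPt_of_disj (𝒞 : Finset O) {a' n' : Fin 3 → MvPowerSeries σ O'}
    (ha' : ∀ i, a' i ∈ maximalIdeal (MvPowerSeries σ O'))
    (hn' : ∀ i, n' i ∈ maximalIdeal (MvPowerSeries σ O'))
    (h : (∀ i, n' i = 0) ∨
      ∃ c ∈ 𝒞, ∃ (s1 s2 : MvPowerSeries σ B'') (u : Fin 3 → MvPowerSeries σ B''),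
        s1 ∈ maximalIdeal (MvPowerSeries σ B'') ∧ s2 ∈ maximalIdeal (MvPowerSeries σ B'') ∧
        (∀ i, u i ∈ maximalIdeal (MvPowerSeries σ B'')) ∧
        (∀ i, jmap O' B'' σ (a' i) = s1 * u i) ∧ (∀ i, jmap O' B'' σ (n' i) = s2 * u i) ∧
        s2 ^ 2 * Q u = algebraMap O (MvPowerSeries σ B'') c ^ 2) :
    ∃ o : Option O, (o = none ∨ ∃ c ∈ 𝒞, o = some c) ∧
      IsPt O o (fun i => jmap O' B'' σ (a' i)) (fun i => jmap O' B'' σ (n' i)) := by
  rcases h with h0 | ⟨c, hc, s1, s2, u, h1, h2, hu, hau, hnu, hrel⟩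
  · refine ⟨none, Or.inl rfl, fun i => jmap_mem (ha' i), fun i => jmap_mem (hn' i),
      Or.inl ⟨rfl, fun i => ?_⟩⟩
    show jmap O' B'' σ (n' i) = 0
    rw [h0 i, map_zero]
  · exact ⟨some c, Or.inr ⟨c, hc, rfl⟩, fun i => jmap_mem (ha' i), fun i => jmap_mem (hn' i),
      Or.inr ⟨c, rfl, s1, s2, u, h1, h2, hu, hau, hnu, hrel⟩⟩

/-- **the supply at a prime of `q`-kind**: from the tame relation to `IsPt` over `A = B''⟦σ⟧`. -/
theorem isPt_of_tame {π : O'} (hπ : Irreducible π) {ϖ : B''}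
    (hϖ : ϖ ^ 2 = algebraMap O' B'' π)
    {p : ℕ} (hp : p.Prime) (hp2 : p ≠ 2) (hpO' : (p : O') ∈ maximalIdeal O')
    (S F : Matrix (Fin 2) (Fin 2) O') (hF : F.det ≠ 0) (hS : S.det = 1)
    {q a n' : ℕ} (hfac : q - 1 = p ^ a * n') (hn' : ¬ p ∣ n') (hpq : p ∣ q - 1) (hq : 1 ≤ q)
    (hrel : F * S = S ^ q * F) (hres : S.trace - 2 ∈ maximalIdeal O')
    {h ζ : O} (hh : 2 * h = 1) (hζ : IsPrimitiveRoot (algebraMap O O' ζ) (p ^ a))
    (hFres : ∀ i, tl (algebraMap O O' h) F i ∈ maximalIdeal O')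
    (hSres : ∀ i, tl (algebraMap O O' h) S i ∈ maximalIdeal O')
    (hnu : (S - 1) ^ 2 = 0 → S = 1)
    {γ γi : Matrix (Fin 2) (Fin 2) (MvPowerSeries σ O')} (hγ : γ * γi = 1) :
    ∃ o : Option O, (o = none ∨ ∃ c ∈ cSet h ζ (p ^ a), o = some c) ∧
      IsPt O o
        (fun i => jmap O' B'' σ (tl (MvPowerSeries.C (algebraMap O O' h))
          (γ * F.map MvPowerSeries.C * γi) i))
        (fun i => jmap O' B'' σ (tl (MvPowerSeries.C (algebraMap O O' h))
          (γ * S.map MvPowerSeries.C * γi) i)) := by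
  have hh' : 2 * algebraMap O O' h = 1 := by
    rw [← map_ofNat (algebraMap O O') 2, ← map_mul, hh, map_one]
  refine isPt_of_disj (B'' := B'') (cSet h ζ (p ^ a))
    (fun i => tl_conj_mem_maximalIdeal hh' F hFres hγ i)
    (fun i => tl_conj_mem_maximalIdeal hh' S hSres hγ i) ?_
  exact KillMulti.isPt_of_tame (B'' := B'') (σ := σ) hπ hϖ hp hp2 hpO' S F hF hS hfac hn' hpq hq
    hrel hres hh hζ hFres hSres hnu hγ

end Supply

end Fermat.Agent.GB.Local.Multi.KillMultiT
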