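/-
GATE-B / B1-MULTI → B9, PLUG:kill₂ part 1 (helper59): reduction of the `TWInput.kill₂` FIELD
`∀ r ∈ J₂, ∀ n, a₂ (coeff n (Θ r)) = 0` to a statement about the points of the image
`Tχ := T ⧸ ker a₂` of the Hecke algebra `T` in `End_O (M^χ)`.

* `Tchi a₂ = T ⧸ kerAct a₂`, `mkChi`, `actChi : Tchi a₂ →ₐ[O] End_O M` (injective);
* instances for `Tchi a₂`: `IsReduced` (helper66 `Points.smul_eq_zero_of_sq_smul_eq_zero`: `T`
  reduced integral over the domain `O`, `M` torsion-free), `Module.Finite`, `IsTorsionFree`,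
  `Module.Free` (over a PID), `Nontrivial` / `IsLocalRing` (`M ≠ 0`, `T` local);
* `ThetaChi Θ a₂ : R →ₐ[O] (Tchi a₂)⟦σ⟧` and `field_of_le_ker` : `J ≤ ker (ThetaChi Θ a₂)` ⟹ the
  `kill₂` field for `J`;
* `kill₂_of_isPt` : the `kill₂` field for `J = J2M Fam` from the point shape (`IsPt`) at every
  DVR point `ψ i : Tchi a₂ → Rq i` (helper83 `Glue/Points`) and every framed prime, pushed to
  complete local rings `A i ⊇ (Rq i)⟦σ⟧` (`= (Broot 6 π_i)⟦σ⟧` in the application).
-/
import Mathlib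
import Fermat.Agent.GB.Local.Multi.KillMultiT
import Fermat.Agent.GB.Alg.Points
import Fermat.Agent.GB.Glue.Points

set_option autoImplicit false
set_option linter.unusedSectionVars false
set_option linter.unusedVariables false
set_option linter.style.haveILetI false

open IsLocalRing Module

namespace Fermat.Agent.GB.Local.Multi.Kill2Field

open Fermat.Agent.GB.Local.Multi Fermat.Agent.GB.Local.Rloc

/-! ### The image of `T` in `End_O M` -/

section Tchi

variable {O : Type*} [CommRing O] {T : Type*} [CommRing T] [Algebra O T]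
  {M : Type*} [AddCommGroup M] [Module O M] (a₂ : T →ₐ[O] Module.End O M)

/-- the kernel of the action -/
def kerAct : Ideal T := RingHom.ker (a₂ : T →+* Module.End O M)

theorem mem_kerAct {t : T} : t ∈ kerAct a₂ ↔ a₂ t = 0 := Iff.rfl

/-- `Tχ`: the image of `T` in `End_O M`, as a quotient of `T` -/
abbrev Tchi : Type _ := T ⧸ kerAct a₂

/-- the projection `T → Tχ` -/
noncomputable def mkChi : T →ₐ[O] Tchi a₂ := Ideal.Quotient.mkₐ O (kerAct a₂)

theorem mkChi_surjective : Function.Surjective (mkChi a₂) := Ideal.Quotient.mk_surjective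

theorem mkChi_eq_zero_iff {t : T} : mkChi a₂ t = 0 ↔ a₂ t = 0 := by
  rw [mkChi, Ideal.Quotient.mkₐ_eq_mk, Ideal.Quotient.eq_zero_iff_mem, mem_kerAct]

/-- the faithful action of `Tχ` -/
noncomputable def actChi : Tchi a₂ →ₐ[O] Module.End O M :=
  Ideal.Quotient.liftₐ (kerAct a₂) a₂ (fun t ht => ht)

@[simp] theorem actChi_mkChi (t : T) : actChi a₂ (mkChi a₂ t) = a₂ t := rfl

theorem actChi_injective : Function.Injective (actChi a₂) := by
  rw [injective_iff_map_eq_zero]
  intro x hx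
  obtain ⟨t, rfl⟩ := mkChi_surjective a₂ x
  rw [actChi_mkChi] at hx
  exact (mkChi_eq_zero_iff a₂).2 hx

instance instFiniteTchi [Module.Finite O T] : Module.Finite O (Tchi a₂) := inferInstance

instance instTorsionFreeTchi [IsDomain O] [IsTorsionFree O M] : IsTorsionFree O (Tchi a₂) :=
  Function.Injective.moduleIsTorsionFree (actChi a₂) (actChi_injective a₂)
    (fun r x => map_smul (actChi a₂) r x)

instance instFreeTchi [IsDomain O] [IsPrincipalIdealRing O] [Module.Finite O T]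
    [IsTorsionFree O M] : Module.Free O (Tchi a₂) :=
  Module.free_of_finite_type_torsion_free'

theorem nontrivial_Tchi [Nontrivial M] : Nontrivial (Tchi a₂) := by
  rw [Ideal.Quotient.nontrivial_iff]
  intro h
  have h1 : (1 : T) ∈ kerAct a₂ := by rw [h]; exact Submodule.mem_top
  rw [mem_kerAct, map_one] at h1
  obtain ⟨m, hm⟩ := exists_ne (0 : M)
  have := congrArg (fun f : Module.End O M => f m) h1
  exact hm this

theorem isLocalRing_Tchi [Nontrivial M] [IsLocalRing T] : IsLocalRing (Tchi a₂) := by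
  haveI := nontrivial_Tchi a₂
  exact IsLocalRing.of_surjective' (Ideal.Quotient.mk (kerAct a₂)) Ideal.Quotient.mk_surjective

/-- **`Tχ` is reduced** (`T` reduced and integral over the domain `O`, `M` torsion-free). -/
theorem isReduced_Tchi [IsDomain O] [IsReduced T] [Algebra.IsIntegral O T] [IsTorsionFree O M] :
    IsReduced (Tchi a₂) := by
  letI : Module T M := Module.compHom M (a₂ : T →+* Module.End O M)
  have hsmul : ∀ (r : T) (m : M), r • m = a₂ r m := fun _ _ => rfl
  haveI : IsScalarTower O T M := ⟨fun a r m => by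
    rw [hsmul, hsmul, map_smul, LinearMap.smul_apply]⟩
  rw [isReduced_iff_pow_one_lt 2 (by norm_num)]
  intro x hx
  obtain ⟨s, rfl⟩ := mkChi_surjective a₂ x
  rw [← map_pow, mkChi_eq_zero_iff, pow_two] at hx
  rw [mkChi_eq_zero_iff]
  ext m
  rw [LinearMap.zero_apply, ← hsmul]
  refine Fermat.Agent.GB.Alg.Points.smul_eq_zero_of_sq_smul_eq_zero O s (fun m' => ?_) m
  rw [hsmul, hx, LinearMap.zero_apply]

end Tchi

/-! ### The reduction of the field -/

section Field

variable {O : Type*} [CommRing O] {T : Type*} [CommRing T] [Algebra O T]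
  {M : Type*} [AddCommGroup M] [Module O M] (a₂ : T →ₐ[O] Module.End O M)
  {R : Type*} [CommRing R] [Algebra O R] {σ : Type*}

/-- `Θχ : R → Tχ⟦σ⟧` -/
noncomputable def ThetaChi (Θ : R →ₐ[O] MvPowerSeries σ T) : R →ₐ[O] MvPowerSeries σ (Tchi a₂) :=
  (MvPowerSeries.mapAlgHom (σ := σ) (mkChi a₂)).comp Θ

theorem ThetaChi_apply (Θ : R →ₐ[O] MvPowerSeries σ T) (r : R) :
    ThetaChi a₂ Θ r = MvPowerSeries.map (mkChi a₂ : T →+* Tchi a₂) (Θ r) := rfl

/-- **the `kill₂` field from `J ≤ ker Θχ`.** -/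
theorem field_of_le_ker (Θ : R →ₐ[O] MvPowerSeries σ T) (J : Ideal R)
    (h : J ≤ RingHom.ker (ThetaChi a₂ Θ : R →+* MvPowerSeries σ (Tchi a₂))) :
    ∀ r ∈ J, ∀ n, a₂ (MvPowerSeries.coeff n (Θ r)) = 0 := by
  intro r hr n
  have h1 := h hr
  rw [RingHom.mem_ker] at h1
  have h2 : ThetaChi a₂ Θ r = 0 := h1
  rw [ThetaChi_apply] at h2
  have h3 := congrArg (MvPowerSeries.coeff n) h2
  rw [MvPowerSeries.coeff_map, map_zero] at h3
  exact (mkChi_eq_zero_iff a₂).1 h3

end Field

/-! ### The field for `J2M`, from the point shape at the DVR points of `Tχ` -/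

section Points

open Fermat.Agent.GB.Glue.Points

variable {O : Type} [CommRing O] [IsDomain O] [IsDiscreteValuationRing O]
  [IsAdicComplete (maximalIdeal O) O] [CharZero O]
  {T : Type} [CommRing T] [Algebra O T] [Module.Finite O T] [IsReduced T]
  {M : Type} [AddCommGroup M] [Module O M] [IsTorsionFree O M]
  (a₂ : T →ₐ[O] Module.End O M)
  {lam : O} {g s : ℕ} {𝒞 : Fin s → Finset O}
  (Fam : TyVec 𝒞 → Stage O lam g s) (hFam : ∀ ξ, (Fam ξ).ty = toVec ξ)

include hFam in
/-- **PLUG:kill₂** — the `TWInput.kill₂` field for `J₂ = J2M Fam`: at every DVR point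
`ψ i : Tχ → Rq i` and every framed prime `v` the block `(Θ a_v, Θ n_v)`, pushed to a complete
local `O`-algebra `A i ⊇ (Rq i)⟦σ⟧`, is a point of an admissible type. -/
theorem kill₂_of_isPt {σ : Type*} (Θ : RM O s g →ₐ[O] MvPowerSeries σ T)
    {A : Fermat.Agent.GB.Glue.Points.Idx O (Tchi a₂) → Type} [∀ i, CommRing (A i)] [∀ i, IsLocalRing (A i)]
    [∀ i, Algebra O (A i)] [∀ i, IsAdicComplete (maximalIdeal (A i)) (A i)]
    (j : ∀ i : Fermat.Agent.GB.Glue.Points.Idx O (Tchi a₂), MvPowerSeries σ (Rq i) →ₐ[O] A i)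
    (hj : ∀ i, Function.Injective (j i))
    (hpt : ∀ (i : Fermat.Agent.GB.Glue.Points.Idx O (Tchi a₂)) (v : Fin s), ∃ o : Option O,
      (o = none ∨ ∃ c ∈ 𝒞 v, o = some c) ∧
      IsPt O o
        (fun k => j i (MvPowerSeries.map ((ψ i).comp (mkChi a₂) : T →+* Rq i) (Θ (aV O v k))))
        (fun k => j i (MvPowerSeries.map ((ψ i).comp (mkChi a₂) : T →+* Rq i) (Θ (nV O v k)))))
    (hx : ∀ (i : Fermat.Agent.GB.Glue.Points.Idx O (Tchi a₂)) (l : Fin g),
      j i (MvPowerSeries.map ((ψ i).comp (mkChi a₂) : T →+* Rq i) (Θ (xV O l))) ∈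
        maximalIdeal (A i)) :
    ∀ r ∈ J2M Fam, ∀ n, a₂ (MvPowerSeries.coeff n (Θ r)) = 0 := by
  haveI := isReduced_Tchi a₂
  refine field_of_le_ker a₂ Θ (J2M Fam) ?_
  have hmap : ∀ (i : Fermat.Agent.GB.Glue.Points.Idx O (Tchi a₂)) (f : MvPowerSeries σ T),
      MvPowerSeries.map (ψ i : Tchi a₂ →+* Rq i)
        (MvPowerSeries.map (mkChi a₂ : T →+* Tchi a₂) f) =
      MvPowerSeries.map ((ψ i).comp (mkChi a₂) : T →+* Rq i) f := by
    intro i f
    ext d
    simp only [MvPowerSeries.coeff_map]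
    rfl
  refine KillMultiT.J2M_le_ker_of_points Fam hFam (ThetaChi a₂ Θ)
    (fun i : Fermat.Agent.GB.Glue.Points.Idx O (Tchi a₂) => ψ i) (fun t ht => eq_zero_of_forall_ψ ht) j hj
    (fun i v => ?_) (fun i l => ?_)
  · obtain ⟨o, ho, hpt'⟩ := hpt i v
    refine ⟨o, ho, ?_⟩
    simpa only [ThetaChi_apply, hmap] using hpt'
  · simpa only [ThetaChi_apply, hmap] using hx i l

end Points

end Fermat.Agent.GB.Local.Multi.Kill2Field
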