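/-
GATE-B / B1-MULTI → B9, PLUG:kill₂ part 2 (helper59): the `TWInput.kill₂` field in the forms that
survive any choice of chart types (RULING R5: `D1 | W_c` at `q`, `Unr | St` at `v ≠ q`).

* `kill₂_of_points` : GENERIC in the ideal `J` — no charts, no point predicate.  If at every DVR
  point `ψ i : Tχ → Rq i` (helper83 `Glue/Points`, `Tχ = T ⧸ ker a₂`) the composite
  `R → T⟦σ⟧ → (Rq i)⟦σ⟧ → A i` (`j i` injective) kills `J`, then
  `∀ r ∈ J, ∀ n, a₂ (coeff n (Θ r)) = 0`.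
* `theta i` : that composite as an `O`-algebra hom `R →ₐ[O] A i` — the `θ` to which the
  kill-criterion of an existential package (`FamilyBuild.exists_package` and its `R5` successor) is
  applied; `kill₂_of_criterion` : the field from such a criterion, stated for an arbitrary
  predicate `Good` on points.
* `kill₂_of_pred` : the field for `J = G.J2M Fam` (helper54's chart-type-agnostic `FamilyG`).
-/
import Mathlib
import Fermat.Agent.GB.Local.Multi.Kill2Field
import Fermat.Agent.GB.Local.Multi.FamilyG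

set_option autoImplicit false
set_option linter.unusedSectionVars false
set_option linter.unusedVariables false
set_option linter.style.haveILetI false

open IsLocalRing Module

namespace Fermat.Agent.GB.Local.Multi.Kill2FieldG

open Fermat.Agent.GB.Local.Multi Fermat.Agent.GB.Local.Rloc
open Fermat.Agent.GB.Local.Multi.Kill2Field Fermat.Agent.GB.Glue.Points

variable {O : Type} [CommRing O] [IsDomain O] [IsDiscreteValuationRing O]
  [IsAdicComplete (maximalIdeal O) O] [CharZero O]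
  {T : Type} [CommRing T] [Algebra O T] [Module.Finite O T] [IsReduced T]
  {M : Type} [AddCommGroup M] [Module O M] [IsTorsionFree O M]
  (a₂ : T →ₐ[O] Module.End O M)
  {R : Type*} [CommRing R] [Algebra O R] {σ : Type*}

/-- the point of `R` attached to the DVR point `i` of `Tχ` and the enlargement `j i` -/
noncomputable def theta (Θ : R →ₐ[O] MvPowerSeries σ T)
    {A : Fermat.Agent.GB.Glue.Points.Idx O (Tchi a₂) → Type*} [∀ i, CommRing (A i)]
    [∀ i, Algebra O (A i)]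
    (j : ∀ i : Fermat.Agent.GB.Glue.Points.Idx O (Tchi a₂), MvPowerSeries σ (Rq i) →ₐ[O] A i)
    (i : Fermat.Agent.GB.Glue.Points.Idx O (Tchi a₂)) : R →ₐ[O] A i :=
  (j i).comp ((MvPowerSeries.mapAlgHom (σ := σ) ((ψ i).comp (mkChi a₂))).comp Θ)

theorem theta_apply (Θ : R →ₐ[O] MvPowerSeries σ T)
    {A : Fermat.Agent.GB.Glue.Points.Idx O (Tchi a₂) → Type*} [∀ i, CommRing (A i)]
    [∀ i, Algebra O (A i)]
    (j : ∀ i : Fermat.Agent.GB.Glue.Points.Idx O (Tchi a₂), MvPowerSeries σ (Rq i) →ₐ[O] A i)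
    (i : Fermat.Agent.GB.Glue.Points.Idx O (Tchi a₂)) (r : R) :
    theta a₂ Θ j i r =
      j i (MvPowerSeries.map ((ψ i).comp (mkChi a₂) : T →+* Rq i) (Θ r)) := rfl

/-- **PLUG:kill₂, generic form.** -/
theorem kill₂_of_points (J : Ideal R) (Θ : R →ₐ[O] MvPowerSeries σ T)
    {A : Fermat.Agent.GB.Glue.Points.Idx O (Tchi a₂) → Type*} [∀ i, CommRing (A i)]
    [∀ i, Algebra O (A i)]
    (j : ∀ i : Fermat.Agent.GB.Glue.Points.Idx O (Tchi a₂), MvPowerSeries σ (Rq i) →ₐ[O] A i)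
    (hj : ∀ i, Function.Injective (j i))
    (h : ∀ i, J ≤ RingHom.ker (theta a₂ Θ j i : R →+* A i)) :
    ∀ r ∈ J, ∀ n, a₂ (MvPowerSeries.coeff n (Θ r)) = 0 := by
  haveI := isReduced_Tchi a₂
  refine field_of_le_ker a₂ Θ J ?_
  refine KillMultiT.le_ker_of_points J (ThetaChi a₂ Θ)
    (fun i : Fermat.Agent.GB.Glue.Points.Idx O (Tchi a₂) => ψ i)
    (fun t ht => eq_zero_of_forall_ψ ht)
    (fun i => (j i : MvPowerSeries σ (Rq i) →+* A i)) hj (fun i r hr => ?_)
  have h1 := h i hr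
  rw [RingHom.mem_ker] at h1
  have h2 : theta a₂ Θ j i r = 0 := h1
  rw [theta_apply] at h2
  have hmap : MvPowerSeries.map (ψ i : Tchi a₂ →+* Rq i) (ThetaChi a₂ Θ r) =
      MvPowerSeries.map ((ψ i).comp (mkChi a₂) : T →+* Rq i) (Θ r) := by
    rw [ThetaChi_apply]
    ext d
    simp only [MvPowerSeries.coeff_map]
    rfl
  show j i (MvPowerSeries.map (ψ i : Tchi a₂ →+* Rq i) (ThetaChi a₂ Θ r)) = 0
  rw [hmap]
  exact h2

/-- **PLUG:kill₂ from a kill-criterion** (the third clause of an existential package):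
`Good A θ` is any predicate on points (e.g. "every block is a point of an admissible type and the
`x_j` go to `𝔪`"), `hcrit` says that good points kill `J`. -/
theorem kill₂_of_criterion (J : Ideal R) (Θ : R →ₐ[O] MvPowerSeries σ T)
    (Good : ∀ (A : Type) [CommRing A] [IsLocalRing A] [Algebra O A]
      [IsAdicComplete (maximalIdeal A) A], (R →ₐ[O] A) → Prop)
    (hcrit : ∀ (A : Type) [CommRing A] [IsLocalRing A] [Algebra O A]
      [IsAdicComplete (maximalIdeal A) A] (θ : R →ₐ[O] A), Good A θ →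
      J ≤ RingHom.ker (θ : R →+* A))
    {A : Fermat.Agent.GB.Glue.Points.Idx O (Tchi a₂) → Type} [∀ i, CommRing (A i)]
    [∀ i, IsLocalRing (A i)] [∀ i, Algebra O (A i)]
    [∀ i, IsAdicComplete (maximalIdeal (A i)) (A i)]
    (j : ∀ i : Fermat.Agent.GB.Glue.Points.Idx O (Tchi a₂), MvPowerSeries σ (Rq i) →ₐ[O] A i)
    (hj : ∀ i, Function.Injective (j i))
    (hgood : ∀ i, Good (A i) (theta a₂ Θ j i)) :
    ∀ r ∈ J, ∀ n, a₂ (MvPowerSeries.coeff n (Θ r)) = 0 :=
  kill₂_of_points a₂ J Θ j hj fun i => hcrit (A i) (theta a₂ Θ j i) (hgood i)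

/-- **PLUG:kill₂ for `G.J2M`** (helper54's chart-type-agnostic family). -/
theorem kill₂_of_pred {P : G.PtSpec O} {lam : O} {g s : ℕ} {𝒯 : Fin s → Finset P.T}
    (Fam : G.TyVec 𝒯 → G.Stage P lam g s) (hFam : ∀ ξ, (Fam ξ).ty = G.toVec ξ)
    (Θ : RM O s g →ₐ[O] MvPowerSeries σ T)
    {A : Fermat.Agent.GB.Glue.Points.Idx O (Tchi a₂) → Type} [∀ i, CommRing (A i)]
    [∀ i, IsLocalRing (A i)] [∀ i, Algebra O (A i)]
    [∀ i, IsAdicComplete (maximalIdeal (A i)) (A i)]
    (j : ∀ i : Fermat.Agent.GB.Glue.Points.Idx O (Tchi a₂), MvPowerSeries σ (Rq i) →ₐ[O] A i)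
    (hj : ∀ i, Function.Injective (j i))
    (hpt : ∀ i v, ∃ t ∈ 𝒯 v, P.pred t (A i) (fun k => theta a₂ Θ j i (aV O v k))
      (fun k => theta a₂ Θ j i (nV O v k)))
    (hx : ∀ i l, theta a₂ Θ j i (xV O l) ∈ maximalIdeal (A i)) :
    ∀ r ∈ G.J2M Fam, ∀ n, a₂ (MvPowerSeries.coeff n (Θ r)) = 0 :=
  kill₂_of_points a₂ (G.J2M Fam) Θ j hj fun i =>
    G.J2M_le_ker Fam hFam (theta a₂ Θ j i) (hpt i) (hx i)

end Fermat.Agent.GB.Local.Multi.Kill2FieldG
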