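/-
GATE-B / B1-MULTI → B9, PLUG:kill₂ part 3a (helper59): the ONE target ring for the points of ALL
framed primes (helper59 5841, accepted by helper6 5932 §5).

For a complete discrete valuation ring `O'` (in the application `O' = Rq i`, a DVR point of the
Hecke algebra) choose a uniformiser `π = unif O'` once and for all and put

  `B6 O' := Broot 6 π = O'[μ]/(μ⁶ − π)`,  `sqrtPi := μ³` (`sqrtPi² = π`),  `cbrtPi := μ²`
  (`cbrtPi³ = π`),  `A6 O' σ := (B6 O')⟦σ⟧`,  `j6 : O'⟦σ⟧ →ₐ[O] A6 O' σ`.

`B6 O'` is a complete DVR-like local domain (instances below are GLOBAL: `IsLocalRing`,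
`IsDomain`, `IsNoetherianRing`, `IsAdicComplete`, `IsLocalHom (algebraMap O' (B6 O'))`), so that
`A6 O' σ` is a complete local `O`-algebra, a legitimate test ring for the kill-criterion of the
B1-MULTI package; `j6` is injective and maps `𝔪` into `𝔪`.  The square root serves the `W_c`
chart at `q` (`KillMultiT.isPt_of_tame`), the cube root serves helper6's `St` chart at `v ≠ q`.
-/
import Mathlib
import Fermat.Agent.GB.Local.RootUnif
import Fermat.Agent.GB.Local.Multi.KillMultiT

set_option autoImplicit false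
set_option linter.unusedSectionVars false
set_option linter.style.haveILetI false

open IsLocalRing

namespace Fermat.Agent.GB.Local.Multi.RootSix

open Fermat.Agent.GB.Local.RootUnif Fermat.Agent.GB.Local.R4Point
open Fermat.Agent.GB.Local.Multi.KillMulti

section Base

variable (O' : Type*) [CommRing O'] [IsDomain O'] [IsDiscreteValuationRing O']

/-- a uniformiser of `O'`, chosen once and for all -/
noncomputable def unif : O' := Classical.choose (IsDiscreteValuationRing.exists_irreducible O')

theorem unif_irreducible : Irreducible (unif O') :=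
  Classical.choose_spec (IsDiscreteValuationRing.exists_irreducible O')

theorem maximalIdeal_eq_span_unif : maximalIdeal O' = Ideal.span {unif O'} :=
  (unif_irreducible O').maximalIdeal_eq

theorem unif_mem : unif O' ∈ maximalIdeal O' :=
  mem_maximalIdeal_of_irreducible _ (unif_irreducible O')

/-- **`B6 O' = O'[μ]/(μ⁶ − π)`** -/
abbrev B6 : Type _ := Broot 6 (unif O')

instance instIsLocalRingB6 : IsLocalRing (B6 O') :=
  isLocalRing_of_irreducible 6 _ (unif_irreducible O')

instance instIsDomainB6 : IsDomain (B6 O') := isDomain_broot 6 _ (unif_irreducible O')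

instance instIsLocalHomB6 : IsLocalHom (algebraMap O' (B6 O')) := isLocalHom_algebraMap 6 _

instance instIsAdicCompleteB6 [IsAdicComplete (maximalIdeal O') O'] :
    IsAdicComplete (maximalIdeal (B6 O')) (B6 O') :=
  isAdicComplete_of_irreducible 6 _ (unif_irreducible O')

/-- the sixth root of `π` -/
noncomputable def mu6 : B6 O' := mu 6 (unif O')

theorem mu6_pow : mu6 O' ^ 6 = algebraMap O' (B6 O') (unif O') := mu_pow 6 _

theorem mu6_mem : mu6 O' ∈ maximalIdeal (B6 O') := mu_mem_maximalIdeal 6 _ (unif_mem O')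

theorem maximalIdeal_B6 : maximalIdeal (B6 O') = Ideal.span {mu6 O'} :=
  maximalIdeal_of_irreducible 6 _ (unif_irreducible O')

/-- the square root of `π` -/
noncomputable def sqrtPi : B6 O' := mu6 O' ^ 3

theorem sqrtPi_sq : sqrtPi O' ^ 2 = algebraMap O' (B6 O') (unif O') := by
  rw [sqrtPi, ← pow_mul, mu6_pow]

theorem sqrtPi_mem : sqrtPi O' ∈ maximalIdeal (B6 O') :=
  Ideal.pow_mem_of_mem _ (mu6_mem O') 3 (by norm_num)

/-- the cube root of `π` -/
noncomputable def cbrtPi : B6 O' := mu6 O' ^ 2

theorem cbrtPi_cube : cbrtPi O' ^ 3 = algebraMap O' (B6 O') (unif O') := by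
  rw [cbrtPi, ← pow_mul, mu6_pow]

theorem cbrtPi_mem : cbrtPi O' ∈ maximalIdeal (B6 O') :=
  Ideal.pow_mem_of_mem _ (mu6_mem O') 2 (by norm_num)

theorem algebraMap_B6_injective : Function.Injective (algebraMap O' (B6 O')) :=
  algebraMap_injective 6 _

theorem algebraMap_B6_mem {x : O'} (hx : x ∈ maximalIdeal O') :
    algebraMap O' (B6 O') x ∈ maximalIdeal (B6 O') :=
  _root_.map_nonunit (algebraMap O' (B6 O')) x hx

end Base

section Series

variable (O : Type*) [CommRing O] (O' : Type*) [CommRing O'] [IsDomain O']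
  [IsDiscreteValuationRing O'] [Algebra O O'] (σ : Type*)

/-- **the target ring `A6 O' σ = (B6 O')⟦σ⟧`** -/
abbrev A6 : Type _ := MvPowerSeries σ (B6 O')

instance instIsAdicCompleteA6 [IsAdicComplete (maximalIdeal O') O'] [Finite σ] :
    IsAdicComplete (maximalIdeal (A6 O' σ)) (A6 O' σ) :=
  isAdicComplete_ps (B6 O') σ

/-- the coefficientwise embedding `O'⟦σ⟧ → (B6 O')⟦σ⟧` as an `O`-algebra hom -/
noncomputable def j6 : MvPowerSeries σ O' →ₐ[O] A6 O' σ :=
  MvPowerSeries.mapAlgHom (IsScalarTower.toAlgHom O O' (B6 O'))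

theorem j6_apply (x : MvPowerSeries σ O') : j6 O O' σ x = jmap O' (B6 O') σ x := rfl

theorem j6_injective : Function.Injective (j6 O O' σ) :=
  map_injective_of_injective (algebraMap O' (B6 O')) (algebraMap_B6_injective O') σ

theorem j6_mem {x : MvPowerSeries σ O'} (hx : x ∈ maximalIdeal (MvPowerSeries σ O')) :
    j6 O O' σ x ∈ maximalIdeal (A6 O' σ) := by
  rw [j6_apply]
  rw [Fermat.Agent.S53.PSC.mem_maximalIdeal_iff] at hx ⊢
  rw [jmap, ← MvPowerSeries.coeff_zero_eq_constantCoeff_apply, MvPowerSeries.coeff_map,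
    MvPowerSeries.coeff_zero_eq_constantCoeff_apply]
  exact _root_.map_nonunit (algebraMap O' (B6 O')) _ hx

theorem j6_C (x : O') : j6 O O' σ (MvPowerSeries.C x) =
    MvPowerSeries.C (algebraMap O' (B6 O') x) := by
  rw [j6_apply, jmap_C]

end Series

end Fermat.Agent.GB.Local.Multi.RootSix
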