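/-
GATE-B / B1-MULTI → B9, PLUG:kill₂ part 3b (helper59): the POINT SUPPLY for the `TWInput.kill₂`
field, from `T`-LEVEL hypotheses (helper51 `Kill2T` binder shape), at the DVR points of
`Tχ = T ⧸ ker a₂`, with target rings `A i := A6 (Rq i) σ = (Rq i)[π^{1/6}]⟦σ⟧` (`RootSix`).

* `phi a₂ i : T →ₐ[O] Rq i` — the DVR point `i` of `Tχ` seen on `T`; `phi_mem` (local).
* `j6fam` — the family of enlargements `j6 : (Rq i)⟦σ⟧ → A6 (Rq i) σ` (injective: `j6fam_injective`).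
* `theta_tl` — TRANSPORT: if `Θ r = tl (γ M γ⁻¹) k` over `T⟦σ⟧` then
  `theta a₂ Θ j6fam i r = jmap (tl (γ_i M_i γ_i⁻¹) k)` with `M_i = M.map (phi i)` over the DVR
  `Rq i` — the shape consumed by `KillMultiT.isPt_of_tame` (q) and by helper6's `StPoint` (v ≠ q).
* `theta_mem` — `Θ r ∈ 𝔪 ⟹ theta … i r ∈ 𝔪` (for the `x_j`).
* `isPt_q` — **the supply at `q`**: from the tame relation over `T` (+ `hnu` = B5 at the point):
  `∃ o, (o = none ∨ ∃ c ∈ cSet h ζ (p^a), o = some c) ∧ IsPt O o (θ_i a) (θ_i n)`.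
* The final `kill₂` field under RULING R5 (`isPt_q` at `q`, helper6's `StPoint` at `v ≠ q`, against
  helper51's `R5.exists_package`) is in `Multi/Kill2R5.lean`.
-/
import Mathlib
import Fermat.Agent.GB.Local.Multi.RootSix
import Fermat.Agent.GB.Local.Multi.Kill2FieldG
import Fermat.Agent.GB.Local.Kill2

set_option autoImplicit false
set_option linter.unusedSectionVars false
set_option linter.unusedVariables false
set_option linter.style.haveILetI false

open IsLocalRing Module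

namespace Fermat.Agent.GB.Local.Multi.Kill2Q

open Fermat.Agent.GB.Local.TamePoint Fermat.Agent.GB.Local.R4Point Fermat.Agent.GB.Local.TameC
open Fermat.Agent.GB.Local.Rloc Fermat.Agent.GB.Local.Multi Matrix
open Fermat.Agent.GB.Local.Multi.Kill2Field Fermat.Agent.GB.Local.Multi.Kill2FieldG
open Fermat.Agent.GB.Local.Multi.RootSix Fermat.Agent.GB.Local.Multi.KillMulti
open Fermat.Agent.GB.Glue.Points

variable {O : Type} [CommRing O] [IsDomain O] [IsDiscreteValuationRing O]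
  [IsAdicComplete (maximalIdeal O) O] [CharZero O]
  {T : Type} [CommRing T] [Algebra O T] [Module.Finite O T] [IsReduced T] [IsLocalRing T]
  {M : Type} [AddCommGroup M] [Module O M] [IsTorsionFree O M] [Nontrivial M]
  (a₂ : T →ₐ[O] Module.End O M)

/-- the DVR point `i` of `Tχ`, seen on `T` -/
noncomputable abbrev phi (i : Fermat.Agent.GB.Glue.Points.Idx O (Tchi a₂)) : T →ₐ[O] Rq i :=
  (ψ i).comp (mkChi a₂)

/-- `phi i` is local -/
theorem phi_mem (i : Fermat.Agent.GB.Glue.Points.Idx O (Tchi a₂)) {t : T}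
    (ht : t ∈ maximalIdeal T) : phi a₂ i t ∈ maximalIdeal (Rq i) := by
  haveI := isLocalRing_Tchi a₂
  have hloc : IsLocalHom (ψ i : Tchi a₂ →+* Rq i) := isLocalHom_ψ i
  have h1 : mkChi a₂ t ∈ maximalIdeal (Tchi a₂) := by
    rw [mem_maximalIdeal, mem_nonunits_iff]
    intro hu
    obtain ⟨y, hy⟩ := hu.exists_right_inv
    obtain ⟨s, rfl⟩ := mkChi_surjective a₂ y
    have h2 : mkChi a₂ (t * s - 1) = 0 := by rw [map_sub, map_mul, hy, map_one, sub_self]
    rw [mkChi_eq_zero_iff, ← mem_kerAct] at h2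
    have hne : kerAct a₂ ≠ ⊤ := by
      have := nontrivial_Tchi a₂
      exact (Ideal.Quotient.nontrivial_iff).1 this
    have h3 : t * s - 1 ∈ maximalIdeal T := IsLocalRing.le_maximalIdeal hne h2
    have h4 : t * s ∈ maximalIdeal T := Ideal.mul_mem_right _ _ ht
    have h5 : (1 : T) ∈ maximalIdeal T := by
      have := Ideal.sub_mem _ h4 h3
      rwa [sub_sub_cancel] at this
    exact (Ideal.ne_top_iff_one _).1 (maximalIdeal.isMaximal T).ne_top h5
  exact _root_.map_nonunit (ψ i : Tchi a₂ →+* Rq i) _ h1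

/-- the family of enlargements `(Rq i)⟦σ⟧ → (Rq i)[π^{1/6}]⟦σ⟧` -/
noncomputable def j6fam (σ : Type) (i : Fermat.Agent.GB.Glue.Points.Idx O (Tchi a₂)) :
    MvPowerSeries σ (Rq i) →ₐ[O] A6 (Rq i) σ :=
  j6 O (Rq i) σ

theorem j6fam_injective (σ : Type) (i : Fermat.Agent.GB.Glue.Points.Idx O (Tchi a₂)) :
    Function.Injective (j6fam a₂ σ i) :=
  j6_injective O (Rq i) σ

variable {R : Type*} [CommRing R] [Algebra O R] {σ : Type}

/-- `θ_i r` in terms of the coefficientwise maps -/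
theorem theta_j6 (Θ : R →ₐ[O] MvPowerSeries σ T)
    (i : Fermat.Agent.GB.Glue.Points.Idx O (Tchi a₂)) (r : R) :
    theta a₂ Θ (j6fam a₂ σ) i r =
      jmap (Rq i) (B6 (Rq i)) σ (MvPowerSeries.map (phi a₂ i : T →+* Rq i) (Θ r)) := rfl

/-- **TRANSPORT** of a framed coordinate to the point `i`. -/
theorem theta_tl (Θ : R →ₐ[O] MvPowerSeries σ T) (h : O) (Mx : Matrix (Fin 2) (Fin 2) T)
    (γ γi : Matrix (Fin 2) (Fin 2) (MvPowerSeries σ T)) {r : R} {k : Fin 3}
    (hΘ : Θ r = tl (MvPowerSeries.C (algebraMap O T h)) (γ * Mx.map MvPowerSeries.C * γi) k)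
    (i : Fermat.Agent.GB.Glue.Points.Idx O (Tchi a₂)) :
    theta a₂ Θ (j6fam a₂ σ) i r =
      jmap (Rq i) (B6 (Rq i)) σ (tl (MvPowerSeries.C (algebraMap O (Rq i) h))
        (γ.map (MvPowerSeries.map (phi a₂ i : T →+* Rq i)) *
          (Mx.map (phi a₂ i)).map MvPowerSeries.C *
          γi.map (MvPowerSeries.map (phi a₂ i : T →+* Rq i))) k) := by
  rw [theta_j6, hΘ, Fermat.Agent.GB.Local.Kill2.map_tl_conj]
  have hc : (phi a₂ i : T →+* Rq i) (algebraMap O T h) = algebraMap O (Rq i) h :=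
    (phi a₂ i).commutes h
  rw [hc]
  rfl

/-- the framing matrices stay inverse to each other at the point -/
theorem gamma_map {γ γi : Matrix (Fin 2) (Fin 2) (MvPowerSeries σ T)} (hγ : γ * γi = 1)
    (i : Fermat.Agent.GB.Glue.Points.Idx O (Tchi a₂)) :
    γ.map (MvPowerSeries.map (phi a₂ i : T →+* Rq i)) *
      γi.map (MvPowerSeries.map (phi a₂ i : T →+* Rq i)) = 1 := by
  set m := MvPowerSeries.map (σ := σ) (phi a₂ i : T →+* Rq i)
  rw [← Matrix.map_mul, hγ, Matrix.map_one m (map_zero m) (map_one m)]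

/-- `Θ r ∈ 𝔪 ⟹ θ_i r ∈ 𝔪` -/
theorem theta_mem (Θ : R →ₐ[O] MvPowerSeries σ T) {r : R}
    (hr : Θ r ∈ maximalIdeal (MvPowerSeries σ T))
    (i : Fermat.Agent.GB.Glue.Points.Idx O (Tchi a₂)) :
    theta a₂ Θ (j6fam a₂ σ) i r ∈ maximalIdeal (A6 (Rq i) σ) := by
  have h1 : MvPowerSeries.map (phi a₂ i : T →+* Rq i) (Θ r) ∈
      maximalIdeal (MvPowerSeries σ (Rq i)) := by
    rw [Fermat.Agent.S53.PSC.mem_maximalIdeal_iff] at hr ⊢
    rw [← MvPowerSeries.coeff_zero_eq_constantCoeff_apply, MvPowerSeries.coeff_map,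
      MvPowerSeries.coeff_zero_eq_constantCoeff_apply]
    exact phi_mem a₂ i hr
  exact j6_mem O (Rq i) σ h1

/-- the residual conditions at the point -/
theorem tl_phi_mem {h : O} (Mx : Matrix (Fin 2) (Fin 2) T)
    (hres : ∀ k, tl (algebraMap O T h) Mx k ∈ maximalIdeal T)
    (i : Fermat.Agent.GB.Glue.Points.Idx O (Tchi a₂)) (k : Fin 3) :
    tl (algebraMap O (Rq i) h) (Mx.map (phi a₂ i)) k ∈ maximalIdeal (Rq i) := by
  have hc : phi a₂ i (algebraMap O T h) = algebraMap O (Rq i) h := (phi a₂ i).commutes h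
  rw [← hc]
  have := tl_map (phi a₂ i : T →+* Rq i) (algebraMap O T h) Mx k
  rw [RingHom.coe_coe] at this
  rw [this]
  exact phi_mem a₂ i (hres k)

/-- **the supply at `q`** (`W_c | D1` charts), from `T`-level hypotheses. -/
theorem isPt_q [Finite σ] (Θ : R →ₐ[O] MvPowerSeries σ T) (aR nR : Fin 3 → R)
    {p : ℕ} (hp : p.Prime) (hp2 : p ≠ 2) (hpO : (p : O) ∈ maximalIdeal O)
    (S F : Matrix (Fin 2) (Fin 2) T) {q a n' : ℕ} (hFdet : F.det = (q : T)) (hS : S.det = 1)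
    (hfac : q - 1 = p ^ a * n') (hn' : ¬ p ∣ n') (hpq : p ∣ q - 1) (hq : 1 ≤ q)
    (hrel : F * S = S ^ q * F) (hres : S.trace - 2 ∈ maximalIdeal T)
    {h ζ : O} (hh : 2 * h = 1) (hζ : IsPrimitiveRoot ζ (p ^ a))
    (hFres : ∀ k, tl (algebraMap O T h) F k ∈ maximalIdeal T)
    (hSres : ∀ k, tl (algebraMap O T h) S k ∈ maximalIdeal T)
    {γ γi : Matrix (Fin 2) (Fin 2) (MvPowerSeries σ T)} (hγ : γ * γi = 1)
    (hΘa : ∀ k, Θ (aR k) =
      tl (MvPowerSeries.C (algebraMap O T h)) (γ * F.map MvPowerSeries.C * γi) k)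
    (hΘn : ∀ k, Θ (nR k) =
      tl (MvPowerSeries.C (algebraMap O T h)) (γ * S.map MvPowerSeries.C * γi) k)
    (i : Fermat.Agent.GB.Glue.Points.Idx O (Tchi a₂))
    (hnu : (S.map (phi a₂ i) - 1) ^ 2 = 0 → S.map (phi a₂ i) = 1) :
    ∃ o : Option O, (o = none ∨ ∃ c ∈ cSet h ζ (p ^ a), o = some c) ∧
      IsPt O o (fun k => theta a₂ Θ (j6fam a₂ σ) i (aR k))
        (fun k => theta a₂ Θ (j6fam a₂ σ) i (nR k)) := by
  have hS' : (S.map (phi a₂ i)).det = 1 := by
    have := congrArg (phi a₂ i) hS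
    rwa [AlgHom.map_det, map_one] at this
  have hF' : (F.map (phi a₂ i)).det ≠ 0 := by
    have h1 : (F.map (phi a₂ i)).det = phi a₂ i F.det := (AlgHom.map_det (phi a₂ i) F).symm
    rw [h1, hFdet, map_natCast]
    exact Nat.cast_ne_zero.mpr (by omega)
  have hrel' : F.map (phi a₂ i) * S.map (phi a₂ i) = S.map (phi a₂ i) ^ q * F.map (phi a₂ i) := by
    have := congrArg ((phi a₂ i : T →+* Rq i).mapMatrix (m := Fin 2)) hrel
    rw [map_mul, map_mul, map_pow] at this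
    exact this
  have hres' : (S.map (phi a₂ i)).trace - 2 ∈ maximalIdeal (Rq i) := by
    have h1 : (S.map (phi a₂ i)).trace - 2 = phi a₂ i (S.trace - 2) := by
      rw [map_sub, map_ofNat, Matrix.trace_fin_two, Matrix.trace_fin_two, map_add]
      rfl
    rw [h1]
    exact phi_mem a₂ i hres
  have hζ' : IsPrimitiveRoot (algebraMap O (Rq i) ζ) (p ^ a) :=
    hζ.map_of_injective (algebraMap_Rq_injective i)
  have key := KillMultiT.isPt_of_tame (O := O) (O' := Rq i) (B'' := B6 (Rq i)) (σ := σ)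
    (unif_irreducible (Rq i)) (sqrtPi_sq (Rq i)) hp hp2 (natCast_mem_maximalIdeal_Rq i hpO)
    (S.map (phi a₂ i)) (F.map (phi a₂ i)) hF' hS' hfac hn' hpq hq hrel' hres' hh hζ'
    (tl_phi_mem a₂ F hFres i) (tl_phi_mem a₂ S hSres i) hnu (gamma_map a₂ hγ i)
  obtain ⟨o, ho, hpt⟩ := key
  refine ⟨o, ho, ?_⟩
  have ha : (fun k => theta a₂ Θ (j6fam a₂ σ) i (aR k)) = fun k =>
      jmap (Rq i) (B6 (Rq i)) σ (tl (MvPowerSeries.C (algebraMap O (Rq i) h))
        (γ.map (MvPowerSeries.map (phi a₂ i : T →+* Rq i)) *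
          (F.map (phi a₂ i)).map MvPowerSeries.C *
          γi.map (MvPowerSeries.map (phi a₂ i : T →+* Rq i))) k) :=
    funext fun k => theta_tl a₂ Θ h F γ γi (hΘa k) i
  have hn : (fun k => theta a₂ Θ (j6fam a₂ σ) i (nR k)) = fun k =>
      jmap (Rq i) (B6 (Rq i)) σ (tl (MvPowerSeries.C (algebraMap O (Rq i) h))
        (γ.map (MvPowerSeries.map (phi a₂ i : T →+* Rq i)) *
          (S.map (phi a₂ i)).map MvPowerSeries.C *
          γi.map (MvPowerSeries.map (phi a₂ i : T →+* Rq i))) k) :=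
    funext fun k => theta_tl a₂ Θ h S γ γi (hΘn k) i
  rw [ha, hn]
  exact hpt

end Fermat.Agent.GB.Local.Multi.Kill2Q
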