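/-
GATE-B / B1-MULTI (3.1) of helper53 5608 (helper51): the Weierstrass form of the scalar chart.

For a complete noetherian local ring `B` and `c ∈ 𝔪_B`:
* `B4 B = B⟦y, u₁, u₂, s₁⟧` (`MvPowerSeries (Fin 4) B`),
* `Fc B c = X⁴ − 2y X³ + (y² + u₁u₂) X² − c² ∈ B4[X]` — this IS `s₂² Q(u) − c²` with `s₂ = X`,
  `u₀ = s₂ − y` — a DISTINGUISHED polynomial,
* `WChart B c = B4⟦X⟧ ⧸ (Fc)` is finite free of rank `4` over `B4`
  (Mathlib `Polynomial.IsDistinguishedAt.algEquivQuotient`), local, noetherian, complete,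
  `B4 → WChart` injective; coordinates `s2, u0, u1, u2, s1` with `s2² (u0² + u1 u2) = c²`.
-/
import Mathlib
import Fermat.Agent.S53.PSComplete
import Fermat.Prelude.Thm_IsLocalRing_isAdicComplete_of_module_finite
import Fermat.Agent.GB.Local.DimCert
import Fermat.Agent.GB.Local.TamePoint

set_option autoImplicit false
set_option linter.unusedSectionVars false
set_option linter.dupNamespace false
set_option linter.style.haveILetI false

open IsLocalRing Polynomial

namespace Fermat.Agent.GB.Local.Multi.WChart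

/-! ### Generic: quotient of `A⟦X⟧` by a distinguished polynomial -/

section Generic

variable {A : Type*} [CommRing A] {I : Ideal A} [IsAdicComplete I A] {g : A[X]}

/-- `A⟦X⟧ ⧸ (g) ≃ AdjoinRoot g` for `g` distinguished -/
noncomputable def equivAdjoinRoot (H : g.IsDistinguishedAt I) :
    (PowerSeries A ⧸ Ideal.span {(g : PowerSeries A)}) ≃ₐ[A] AdjoinRoot g :=
  H.algEquivQuotient.symm

theorem finite_quotient (H : g.IsDistinguishedAt I) :
    Module.Finite A (PowerSeries A ⧸ Ideal.span {(g : PowerSeries A)}) := by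
  have := H.monic.finite_adjoinRoot
  exact Module.Finite.equiv (equivAdjoinRoot H).symm.toLinearEquiv

theorem free_quotient (H : g.IsDistinguishedAt I) :
    Module.Free A (PowerSeries A ⧸ Ideal.span {(g : PowerSeries A)}) := by
  have := H.monic.free_adjoinRoot
  exact Module.Free.of_equiv (equivAdjoinRoot H).symm.toLinearEquiv

end Generic

/-! ### The quartic -/

section Quartic

variable {A : Type*} [CommRing A]

/-- `X⁴ + a₃ X³ + a₂ X² + a₀` -/
noncomputable def quartic (a3 a2 a0 : A) : A[X] :=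
  X ^ 4 + (C a3 * X ^ 3 + C a2 * X ^ 2 + C a0)

theorem degree_lower_lt (a3 a2 a0 : A) :
    (C a3 * X ^ 3 + C a2 * X ^ 2 + C a0 : A[X]).degree < (4 : ℕ) := by
  refine (degree_add_le _ _).trans_lt (max_lt ((degree_add_le _ _).trans_lt (max_lt ?_ ?_)) ?_)
  · exact (degree_C_mul_X_pow_le 3 a3).trans_lt (by norm_num)
  · exact (degree_C_mul_X_pow_le 2 a2).trans_lt (by norm_num)
  · exact degree_C_le.trans_lt (by norm_num)

theorem quartic_monic (a3 a2 a0 : A) : (quartic a3 a2 a0).Monic :=
  monic_X_pow_add (degree_lower_lt a3 a2 a0)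

theorem quartic_natDegree [Nontrivial A] (a3 a2 a0 : A) : (quartic a3 a2 a0).natDegree = 4 := by
  rw [quartic, natDegree_add_eq_left_of_degree_lt, natDegree_X_pow]
  rw [degree_X_pow]
  exact degree_lower_lt a3 a2 a0

theorem quartic_coeff (a3 a2 a0 : A) (n : ℕ) :
    (quartic a3 a2 a0).coeff n =
      if n = 4 then 1 else if n = 3 then a3 else if n = 2 then a2 else if n = 0 then a0 else 0 := by
  simp only [quartic, coeff_add, coeff_X_pow, coeff_C_mul, coeff_C]
  rcases n with _ | _ | _ | _ | _ | n <;> simp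

theorem quartic_isDistinguishedAt (I : Ideal A) {a3 a2 a0 : A} (h3 : a3 ∈ I) (h2 : a2 ∈ I)
    (h0 : a0 ∈ I) : (quartic a3 a2 a0).IsDistinguishedAt I := by
  refine ⟨⟨fun {n} hn => ?_⟩, quartic_monic a3 a2 a0⟩
  rcases subsingleton_or_nontrivial A with _ | _
  · rw [Subsingleton.elim ((quartic a3 a2 a0).coeff n) 0]; exact I.zero_mem
  rw [quartic_natDegree] at hn
  rw [quartic_coeff]
  interval_cases n <;> simp [h3, h2, h0]

end Quartic

/-! ### Injectivity of `A → A⟦X⟧ ⧸ (g)` -/

section Inj

variable {A : Type*} [CommRing A] {I : Ideal A} [IsAdicComplete I A] {g : A[X]}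

theorem algebraMap_adjoinRoot_injective [Nontrivial A] (hg : g.Monic) (hd : 0 < g.natDegree) :
    Function.Injective (algebraMap A (AdjoinRoot g)) := by
  rw [injective_iff_map_eq_zero]
  intro a ha
  set b := AdjoinRoot.powerBasisAux' hg with hb
  have h1 : b ⟨0, hd⟩ = 1 := by
    have := (AdjoinRoot.powerBasis' hg).basis_eq_pow ⟨0, hd⟩
    exact this.trans (pow_zero _)
  have h2 : a • b ⟨0, hd⟩ = 0 := by
    rw [h1, Algebra.smul_def, mul_one]; exact ha
  have h3 := congrArg (fun x => b.repr x ⟨0, hd⟩) h2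
  simpa using h3

theorem algebraMap_quotient_injective [Nontrivial A] (H : g.IsDistinguishedAt I)
    (hd : 0 < g.natDegree) :
    Function.Injective (algebraMap A (PowerSeries A ⧸ Ideal.span {(g : PowerSeries A)})) := by
  intro a a' h
  apply algebraMap_adjoinRoot_injective H.monic hd
  have := congrArg (equivAdjoinRoot H) h
  rwa [AlgEquiv.commutes, AlgEquiv.commutes] at this

end Inj

/-! ### The chart -/

section Chart

variable (B : Type*) [CommRing B]

/-- `B⟦y, u₁, u₂, s₁⟧` -/
abbrev B4 := MvPowerSeries (Fin 4) B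

/-- the coordinate `y = s₂ − u₀` -/
noncomputable def yv : B4 B := MvPowerSeries.X 0
/-- the coordinate `u₁` -/
noncomputable def u1v : B4 B := MvPowerSeries.X 1
/-- the coordinate `u₂` -/
noncomputable def u2v : B4 B := MvPowerSeries.X 2
/-- the coordinate `s₁` -/
noncomputable def s1v : B4 B := MvPowerSeries.X 3

/-- `F_c = X⁴ − 2y X³ + (y² + u₁u₂) X² − c²` -/
noncomputable def Fc (c : B) : (B4 B)[X] :=
  quartic (-(2 * yv B)) (yv B ^ 2 + u1v B * u2v B) (-(MvPowerSeries.C (c ^ 2)))

/-- **the Weierstrass chart** `B⟦y,u₁,u₂,s₁⟧⟦s₂⟧ ⧸ (F_c)` -/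
abbrev WChart (c : B) := PowerSeries (B4 B) ⧸ Ideal.span {((Fc B c : (B4 B)[X]) : PowerSeries (B4 B))}

variable [IsLocalRing B]

theorem X_mem (i : Fin 4) : (MvPowerSeries.X i : B4 B) ∈ maximalIdeal (B4 B) := by
  rw [Fermat.Agent.S53.PSC.mem_maximalIdeal_iff]; simp

theorem Fc_isDistinguishedAt {c : B} (hc : c ∈ maximalIdeal B) :
    (Fc B c).IsDistinguishedAt (maximalIdeal (B4 B)) := by
  refine quartic_isDistinguishedAt _ ?_ ?_ ?_
  · exact neg_mem (Ideal.mul_mem_left _ _ (X_mem B 0))
  · exact add_mem (Ideal.pow_mem_of_mem _ (X_mem B 0) 2 (by norm_num))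
      (Ideal.mul_mem_right _ _ (X_mem B 1))
  · refine neg_mem ?_
    rw [Fermat.Agent.S53.PSC.mem_maximalIdeal_iff, MvPowerSeries.constantCoeff_C]
    exact Ideal.pow_mem_of_mem _ hc 2 (by norm_num)

theorem Fc_natDegree (c : B) : (Fc B c).natDegree = 4 := quartic_natDegree _ _ _

variable [IsNoetherianRing B] [IsAdicComplete (maximalIdeal B) B]

theorem isAdicComplete_B4 : IsAdicComplete (maximalIdeal (B4 B)) (B4 B) :=
  Fermat.Agent.S53.isAdicComplete_mvPowerSeries B (Fin 4)

variable {B}

theorem finite_WChart {c : B} (hc : c ∈ maximalIdeal B) : Module.Finite (B4 B) (WChart B c) := by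
  have := isAdicComplete_B4 B
  exact finite_quotient (Fc_isDistinguishedAt B hc)

theorem free_WChart {c : B} (hc : c ∈ maximalIdeal B) : Module.Free (B4 B) (WChart B c) := by
  have := isAdicComplete_B4 B
  exact free_quotient (Fc_isDistinguishedAt B hc)

theorem algebraMap_WChart_injective {c : B} (hc : c ∈ maximalIdeal B) :
    Function.Injective (algebraMap (B4 B) (WChart B c)) := by
  have := isAdicComplete_B4 B
  exact algebraMap_quotient_injective (Fc_isDistinguishedAt B hc)
    (by rw [Fc_natDegree]; norm_num)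

theorem nontrivial_WChart {c : B} (hc : c ∈ maximalIdeal B) : Nontrivial (WChart B c) :=
  (algebraMap_WChart_injective hc).nontrivial

theorem isLocalRing_WChart {c : B} (hc : c ∈ maximalIdeal B) : IsLocalRing (WChart B c) := by
  have := nontrivial_WChart hc
  exact IsLocalRing.of_surjective' (Ideal.Quotient.mk _) Ideal.Quotient.mk_surjective

end Chart

/-! ### Instances, coordinates and the relation -/

section Coord

variable {B : Type*} [CommRing B] [IsLocalRing B] [IsNoetherianRing B]
  [IsAdicComplete (maximalIdeal B) B] {c : B}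

theorem algebraMap_WChart_apply (a : B4 B) :
    algebraMap (B4 B) (WChart B c) a = Ideal.Quotient.mk _ (PowerSeries.C a) := rfl

theorem C_mem_maximalIdeal_powerSeries {a : B4 B} (ha : a ∈ maximalIdeal (B4 B)) :
    (PowerSeries.C a : PowerSeries (B4 B)) ∈ maximalIdeal (PowerSeries (B4 B)) := by
  rw [mem_maximalIdeal, mem_nonunits_iff, PowerSeries.isUnit_iff_constantCoeff,
    PowerSeries.constantCoeff_C]
  exact ha

theorem X_mem_maximalIdeal_powerSeries :
    (PowerSeries.X : PowerSeries (B4 B)) ∈ maximalIdeal (PowerSeries (B4 B)) := by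
  rw [mem_maximalIdeal, mem_nonunits_iff, PowerSeries.isUnit_iff_constantCoeff,
    PowerSeries.constantCoeff_X]
  exact not_isUnit_zero

theorem mk_mem_maximalIdeal (hc : c ∈ maximalIdeal B) {f : PowerSeries (B4 B)}
    (hf : f ∈ maximalIdeal (PowerSeries (B4 B))) :
    haveI := isLocalRing_WChart hc
    (Ideal.Quotient.mk _ f : WChart B c) ∈ maximalIdeal (WChart B c) := by
  haveI := isLocalRing_WChart hc
  exact Fermat.Agent.GB.Local.DimCert.map_mem_maximalIdeal_of_surjective
    (Ideal.Quotient.mk (Ideal.span {((Fc B c : (B4 B)[X]) : PowerSeries (B4 B))}))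
    Ideal.Quotient.mk_surjective hf

theorem algebraMap_mem_maximalIdeal (hc : c ∈ maximalIdeal B) {a : B4 B}
    (ha : a ∈ maximalIdeal (B4 B)) :
    haveI := isLocalRing_WChart hc
    algebraMap (B4 B) (WChart B c) a ∈ maximalIdeal (WChart B c) :=
  mk_mem_maximalIdeal hc (C_mem_maximalIdeal_powerSeries ha)

theorem isLocalHom_algebraMap_WChart (hc : c ∈ maximalIdeal B) :
    haveI := isLocalRing_WChart hc
    IsLocalHom (algebraMap (B4 B) (WChart B c)) := by
  haveI := isLocalRing_WChart hc
  constructor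
  intro a ha
  by_contra hnu
  have h1 : a ∈ maximalIdeal (B4 B) := (mem_maximalIdeal _).mpr hnu
  exact (mem_maximalIdeal _).mp (algebraMap_mem_maximalIdeal hc h1) ha

theorem isAdicComplete_WChart (hc : c ∈ maximalIdeal B) :
    haveI := isLocalRing_WChart hc
    IsAdicComplete (maximalIdeal (WChart B c)) (WChart B c) := by
  haveI := isLocalRing_WChart hc
  haveI := isAdicComplete_B4 B
  haveI := finite_WChart hc
  haveI := isLocalHom_algebraMap_WChart hc
  exact IsLocalRing.isAdicComplete_of_module_finite (𝒪 := B4 B) (T := WChart B c)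

variable (B c)

/-- the coordinate `s₂` -/
noncomputable def s2 : WChart B c := Ideal.Quotient.mk _ PowerSeries.X
/-- the coordinate `y` -/
noncomputable def yW : WChart B c := algebraMap (B4 B) (WChart B c) (yv B)
/-- the coordinate `u₁` -/
noncomputable def u1 : WChart B c := algebraMap (B4 B) (WChart B c) (u1v B)
/-- the coordinate `u₂` -/
noncomputable def u2 : WChart B c := algebraMap (B4 B) (WChart B c) (u2v B)
/-- the coordinate `s₁` -/
noncomputable def s1 : WChart B c := algebraMap (B4 B) (WChart B c) (s1v B)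
/-- the coordinate `u₀ = s₂ − y` -/
noncomputable def u0 : WChart B c := s2 B c - yW B c

/-- the vector `u = (u₀, u₁, u₂)` -/
noncomputable def uVec : Fin 3 → WChart B c := ![u0 B c, u1 B c, u2 B c]

theorem coe_Fc : ((Fc B c : (B4 B)[X]) : PowerSeries (B4 B)) =
    PowerSeries.X ^ 4 + (PowerSeries.C (-(2 * yv B)) * PowerSeries.X ^ 3 +
      PowerSeries.C (yv B ^ 2 + u1v B * u2v B) * PowerSeries.X ^ 2 +
      PowerSeries.C (-(MvPowerSeries.C (c ^ 2)))) := by
  rw [Fc, quartic, Polynomial.coe_add, Polynomial.coe_add, Polynomial.coe_add, Polynomial.coe_pow,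
    Polynomial.coe_mul, Polynomial.coe_mul, Polynomial.coe_pow, Polynomial.coe_pow,
    Polynomial.coe_C, Polynomial.coe_C, Polynomial.coe_C, Polynomial.coe_X]

/-- the relation in any quotient of `B4⟦X⟧` in which `F_c` vanishes -/
theorem relation_aux (I : Ideal (PowerSeries (B4 B)))
    (hmem : ((Fc B c : (B4 B)[X]) : PowerSeries (B4 B)) ∈ I) :
    (Ideal.Quotient.mk I PowerSeries.X) ^ 2 *
      ((Ideal.Quotient.mk I PowerSeries.X - Ideal.Quotient.mk I (PowerSeries.C (yv B))) ^ 2 +
        Ideal.Quotient.mk I (PowerSeries.C (u1v B)) * Ideal.Quotient.mk I (PowerSeries.C (u2v B))) =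
      Ideal.Quotient.mk I (PowerSeries.C (MvPowerSeries.C (c ^ 2))) := by
  have h0 := Ideal.Quotient.eq_zero_iff_mem.mpr hmem
  rw [coe_Fc] at h0
  simp only [map_add, map_mul, map_pow, map_neg, map_ofNat] at h0
  simp only [map_pow]
  linear_combination h0

/-- **the relation of the chart**: `s₂² (u₀² + u₁ u₂) = c²` -/
theorem relation :
    s2 B c ^ 2 * (u0 B c ^ 2 + u1 B c * u2 B c) =
      algebraMap (B4 B) (WChart B c) (MvPowerSeries.C (c ^ 2)) :=
  relation_aux B c _ (Ideal.mem_span_singleton_self _)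

end Coord

/-! ### Membership in the maximal ideal, the coordinate pair `(a, n) = (s₁ • u, s₂ • u)` -/

section Pair

variable {B : Type*} [CommRing B] [IsLocalRing B] [IsNoetherianRing B]
  [IsAdicComplete (maximalIdeal B) B] {c : B}

open Fermat.Agent.GB.Local.TamePoint

theorem s2_mem (hc : c ∈ maximalIdeal B) :
    haveI := isLocalRing_WChart hc
    s2 B c ∈ maximalIdeal (WChart B c) :=
  mk_mem_maximalIdeal hc X_mem_maximalIdeal_powerSeries

theorem yW_mem (hc : c ∈ maximalIdeal B) :
    haveI := isLocalRing_WChart hc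
    yW B c ∈ maximalIdeal (WChart B c) :=
  algebraMap_mem_maximalIdeal hc (X_mem B 0)

theorem u1_mem (hc : c ∈ maximalIdeal B) :
    haveI := isLocalRing_WChart hc
    u1 B c ∈ maximalIdeal (WChart B c) :=
  algebraMap_mem_maximalIdeal hc (X_mem B 1)

theorem u2_mem (hc : c ∈ maximalIdeal B) :
    haveI := isLocalRing_WChart hc
    u2 B c ∈ maximalIdeal (WChart B c) :=
  algebraMap_mem_maximalIdeal hc (X_mem B 2)

theorem s1_mem (hc : c ∈ maximalIdeal B) :
    haveI := isLocalRing_WChart hc
    s1 B c ∈ maximalIdeal (WChart B c) :=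
  algebraMap_mem_maximalIdeal hc (X_mem B 3)

theorem u0_mem (hc : c ∈ maximalIdeal B) :
    haveI := isLocalRing_WChart hc
    u0 B c ∈ maximalIdeal (WChart B c) := by
  haveI := isLocalRing_WChart hc
  exact sub_mem (s2_mem hc) (yW_mem hc)

theorem uVec_mem (hc : c ∈ maximalIdeal B) (i : Fin 3) :
    haveI := isLocalRing_WChart hc
    uVec B c i ∈ maximalIdeal (WChart B c) := by
  haveI := isLocalRing_WChart hc
  fin_cases i
  · exact u0_mem hc
  · exact u1_mem hc
  · exact u2_mem hc

variable (B c)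

/-- the coordinate vector `a = s₁ • u` (the Frobenius part) -/
noncomputable def aPair : Fin 3 → WChart B c := fun i => s1 B c * uVec B c i

/-- the coordinate vector `n = s₂ • u` (the tame part) -/
noncomputable def nPair : Fin 3 → WChart B c := fun i => s2 B c * uVec B c i

variable {B c}

theorem aPair_mem (hc : c ∈ maximalIdeal B) (i : Fin 3) :
    haveI := isLocalRing_WChart hc
    aPair B c i ∈ maximalIdeal (WChart B c) := by
  haveI := isLocalRing_WChart hc
  exact Ideal.mul_mem_left _ _ (uVec_mem hc i)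

theorem nPair_mem (hc : c ∈ maximalIdeal B) (i : Fin 3) :
    haveI := isLocalRing_WChart hc
    nPair B c i ∈ maximalIdeal (WChart B c) := by
  haveI := isLocalRing_WChart hc
  exact Ideal.mul_mem_left _ _ (uVec_mem hc i)

variable (B c)

theorem Q_uVec : Q (uVec B c) = u0 B c ^ 2 + u1 B c * u2 B c := by
  simp [Q, uVec]

theorem Q_aPair : Q (aPair B c) = s1 B c ^ 2 * (u0 B c ^ 2 + u1 B c * u2 B c) := by
  simp only [Q, aPair, uVec, Matrix.cons_val_zero, Matrix.cons_val_one, Matrix.cons_val]
  ring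

/-- `Q(n) = c²` -/
theorem Q_nPair : Q (nPair B c) = algebraMap (B4 B) (WChart B c) (MvPowerSeries.C (c ^ 2)) := by
  rw [← relation]
  simp only [Q, nPair, uVec, Matrix.cons_val_zero, Matrix.cons_val_one, Matrix.cons_val]
  ring

/-- the pair is parallel: all `2 × 2` minors of `(a | n)` vanish -/
theorem minors_pair : Minors (aPair B c) (nPair B c) := by
  unfold Minors
  simp only [aPair, nPair]
  refine ⟨?_, ?_, ?_⟩ <;> ring

/-- compatibility of the two structure maps: `B → B4 → WChart` -/
theorem algebraMap_B_apply (b : B) :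
    algebraMap B (WChart B c) b = algebraMap (B4 B) (WChart B c) (MvPowerSeries.C b) := by
  rw [IsScalarTower.algebraMap_apply B (B4 B) (WChart B c), MvPowerSeries.algebraMap_apply]
  rfl

end Pair

end Fermat.Agent.GB.Local.Multi.WChart
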