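/-
GATE-B / B1-MULTI, KILLMULTI part 1 (helper59; helper51 5731 "YES write Multi/WChartHom.lean"):
the UNIVERSAL PROPERTY of helper51's Weierstrass chart `WChart B c = B⟦y,u₁,u₂,s₁⟧⟦s₂⟧ ⧸ (F_c)`.

`B` complete noetherian local, `c ∈ 𝔪_B`, `T` a complete local `B`-algebra.  Elements
`y u1 u2 s1 s2 ∈ 𝔪_T` with `s2² ((s2 − y)² + u1 u2) = c²` (image of `c` in `T`) define a
`B`-algebra homomorphism `g : WChart B c → T` with `g s2 = s2`, `g yW = y`, `g u1 = u1`,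
`g u2 = u2`, `g s1 = s1` (`exists_algHom_WChart`); hence `g u0 = s2 − y`,
`g (aPair i) = s1 * u i`, `g (nPair i) = s2 * u i` with `u = (s2 − y, u1, u2)`
(`exists_algHom_WChart_pair`), and in the form used by the point supply:
`exists_algHom_WChart_of_decomp` — given `s1 s2 ∈ 𝔪_T`, `u ∈ 𝔪_T³` with `s2² Q(u) = c²`.
-/
import Mathlib
import Fermat.Agent.GB.Local.Multi.WChart
import Fermat.Agent.GB.Local.Rloc

set_option autoImplicit false
set_option linter.unusedSectionVars false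
set_option linter.style.haveILetI false
set_option linter.unusedVariables false

open IsLocalRing

namespace Fermat.Agent.GB.Local.Multi.WChartHom

open Fermat.Agent.GB.Local.Multi.WChart Fermat.Agent.GB.Local.TamePoint

variable {B : Type*} [CommRing B] [IsLocalRing B] [IsNoetherianRing B]
  [IsAdicComplete (maximalIdeal B) B] {c : B}
variable {T : Type*} [CommRing T] [IsLocalRing T] [Algebra B T]
  [IsAdicComplete (maximalIdeal T) T]

/-- the four values `(y, u₁, u₂, s₁)` as a family indexed by `Fin 4` -/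
def fam4 (y u1 u2 s1 : T) : Fin 4 → T := ![y, u1, u2, s1]

theorem fam4_mem {y u1 u2 s1 : T} (hy : y ∈ maximalIdeal T) (h1 : u1 ∈ maximalIdeal T)
    (h2 : u2 ∈ maximalIdeal T) (hs1 : s1 ∈ maximalIdeal T) (i : Fin 4) :
    fam4 y u1 u2 s1 i ∈ maximalIdeal T := by
  fin_cases i
  · exact hy
  · exact h1
  · exact h2
  · exact hs1

/-- evaluation `B⟦y,u₁,u₂,s₁⟧ → T` -/
noncomputable def eval4 (y u1 u2 s1 : T) (hy : y ∈ maximalIdeal T) (h1 : u1 ∈ maximalIdeal T)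
    (h2 : u2 ∈ maximalIdeal T) (hs1 : s1 ∈ maximalIdeal T) : B4 B →ₐ[B] T :=
  Fermat.Agent.GB.Local.Rloc.evalHom B (fam4 y u1 u2 s1) (fam4_mem hy h1 h2 hs1)

section Eval4

variable (y u1 u2 s1 : T) (hy : y ∈ maximalIdeal T) (h1 : u1 ∈ maximalIdeal T)
  (h2 : u2 ∈ maximalIdeal T) (hs1 : s1 ∈ maximalIdeal T)

theorem eval4_yv : eval4 (B := B) y u1 u2 s1 hy h1 h2 hs1 (yv B) = y := by
  rw [eval4, yv, Fermat.Agent.GB.Local.Rloc.evalHom_X]; rfl

theorem eval4_u1v : eval4 (B := B) y u1 u2 s1 hy h1 h2 hs1 (u1v B) = u1 := by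
  rw [eval4, u1v, Fermat.Agent.GB.Local.Rloc.evalHom_X]; rfl

theorem eval4_u2v : eval4 (B := B) y u1 u2 s1 hy h1 h2 hs1 (u2v B) = u2 := by
  rw [eval4, u2v, Fermat.Agent.GB.Local.Rloc.evalHom_X]; rfl

theorem eval4_s1v : eval4 (B := B) y u1 u2 s1 hy h1 h2 hs1 (s1v B) = s1 := by
  rw [eval4, s1v, Fermat.Agent.GB.Local.Rloc.evalHom_X]; rfl

theorem eval4_C (b : B) :
    eval4 (B := B) y u1 u2 s1 hy h1 h2 hs1 (MvPowerSeries.C b) = algebraMap B T b := by
  have : (MvPowerSeries.C b : B4 B) = algebraMap B (B4 B) b := by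
    rw [MvPowerSeries.algebraMap_apply]; rfl
  rw [this, AlgHom.commutes]

end Eval4

/-- **the universal property of the Weierstrass chart** (ring hom form, with all the values). -/
theorem exists_ringHom_WChart (hc : c ∈ maximalIdeal B) (y u1 u2 s1 s2 : T)
    (hy : y ∈ maximalIdeal T) (h1 : u1 ∈ maximalIdeal T) (h2 : u2 ∈ maximalIdeal T)
    (hs1 : s1 ∈ maximalIdeal T) (hs2 : s2 ∈ maximalIdeal T)
    (hrel : s2 ^ 2 * ((s2 - y) ^ 2 + u1 * u2) = algebraMap B T c ^ 2) :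
    ∃ g : WChart B c →+* T, (∀ b : B, g (algebraMap B (WChart B c) b) = algebraMap B T b) ∧
      g (WChart.s2 B c) = s2 ∧ g (yW B c) = y ∧ g (WChart.u1 B c) = u1 ∧
      g (WChart.u2 B c) = u2 ∧ g (WChart.s1 B c) = s1 := by
  classical
  set ψ4 : B4 B →ₐ[B] T := eval4 y u1 u2 s1 hy h1 h2 hs1 with hψ4
  letI : Algebra (B4 B) T := ψ4.toRingHom.toAlgebra
  have halg : ∀ a : B4 B, algebraMap (B4 B) T a = ψ4 a := fun a => rfl
  -- evaluation of the last variable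
  obtain ⟨ψ5, hψ5⟩ := Fermat.Agent.S53.exists_algHom_X (𝒪 := B4 B) (A := T)
    (fun _ : Unit => s2) (fun _ => hs2)
  have hX : ψ5 (PowerSeries.X : PowerSeries (B4 B)) = s2 := hψ5 ()
  have hC : ∀ a : B4 B, ψ5 (PowerSeries.C a : PowerSeries (B4 B)) = ψ4 a := by
    intro a
    have : (PowerSeries.C a : PowerSeries (B4 B)) = algebraMap (B4 B) (PowerSeries (B4 B)) a :=
      rfl
    rw [this, AlgHom.commutes, halg]
  -- `F_c` dies
  have hF : ψ5 ((Fc B c : Polynomial (B4 B)) : PowerSeries (B4 B)) = 0 := by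
    rw [coe_Fc]
    simp only [map_add, map_mul, map_pow, hX, hC, map_neg, map_ofNat,
      eval4_yv, eval4_u1v, eval4_u2v, eval4_C, hψ4]
    linear_combination hrel
  have hker : ∀ a ∈ Ideal.span {((Fc B c : Polynomial (B4 B)) : PowerSeries (B4 B))},
      (ψ5 : PowerSeries (B4 B) →+* T) a = 0 := by
    intro a ha
    obtain ⟨r, rfl⟩ := Ideal.mem_span_singleton'.1 ha
    rw [map_mul]
    show (ψ5 : PowerSeries (B4 B) →+* T) r * ψ5 _ = 0
    rw [hF, mul_zero]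
  refine ⟨Ideal.Quotient.lift _ (ψ5 : PowerSeries (B4 B) →+* T) hker, ?_, ?_, ?_, ?_, ?_, ?_⟩
  · intro b
    rw [algebraMap_B_apply, algebraMap_WChart_apply, Ideal.Quotient.lift_mk]
    show ψ5 _ = _
    rw [hC, hψ4, eval4_C]
  · rw [WChart.s2, Ideal.Quotient.lift_mk]
    exact hX
  · rw [yW, algebraMap_WChart_apply, Ideal.Quotient.lift_mk]
    show ψ5 _ = _
    rw [hC, hψ4, eval4_yv]
  · rw [WChart.u1, algebraMap_WChart_apply, Ideal.Quotient.lift_mk]
    show ψ5 _ = _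
    rw [hC, hψ4, eval4_u1v]
  · rw [WChart.u2, algebraMap_WChart_apply, Ideal.Quotient.lift_mk]
    show ψ5 _ = _
    rw [hC, hψ4, eval4_u2v]
  · rw [WChart.s1, algebraMap_WChart_apply, Ideal.Quotient.lift_mk]
    show ψ5 _ = _
    rw [hC, hψ4, eval4_s1v]

/-- **the universal property of the Weierstrass chart** (`B`-algebra hom form). -/
theorem exists_algHom_WChart (hc : c ∈ maximalIdeal B) (y u1 u2 s1 s2 : T)
    (hy : y ∈ maximalIdeal T) (h1 : u1 ∈ maximalIdeal T) (h2 : u2 ∈ maximalIdeal T)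
    (hs1 : s1 ∈ maximalIdeal T) (hs2 : s2 ∈ maximalIdeal T)
    (hrel : s2 ^ 2 * ((s2 - y) ^ 2 + u1 * u2) = algebraMap B T c ^ 2) :
    ∃ g : WChart B c →ₐ[B] T, g (WChart.s2 B c) = s2 ∧ g (yW B c) = y ∧
      g (WChart.u1 B c) = u1 ∧ g (WChart.u2 B c) = u2 ∧ g (WChart.s1 B c) = s1 := by
  obtain ⟨g, hg, e1, e2, e3, e4, e5⟩ :=
    exists_ringHom_WChart hc y u1 u2 s1 s2 hy h1 h2 hs1 hs2 hrel
  exact ⟨{ g with commutes' := hg }, e1, e2, e3, e4, e5⟩

/-- the values of the coordinate pair under a hom with prescribed chart values -/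
theorem algHom_pair {g : WChart B c →ₐ[B] T} {y u1 u2 s1 s2 : T}
    (e1 : g (WChart.s2 B c) = s2) (e2 : g (yW B c) = y) (e3 : g (WChart.u1 B c) = u1)
    (e4 : g (WChart.u2 B c) = u2) (e5 : g (WChart.s1 B c) = s1) :
    (∀ i, g (aPair B c i) = s1 * ![s2 - y, u1, u2] i) ∧
      (∀ i, g (nPair B c i) = s2 * ![s2 - y, u1, u2] i) := by
  have hu : ∀ i, g (uVec B c i) = ![s2 - y, u1, u2] i := by
    intro i
    fin_cases i
    · show g (u0 B c) = s2 - y
      rw [u0, map_sub, e1, e2]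
    · exact e3
    · exact e4
  refine ⟨fun i => ?_, fun i => ?_⟩
  · rw [aPair, map_mul, e5, hu]
  · rw [nPair, map_mul, e1, hu]

/-- **universal property, decomposition form**: `s1 s2 ∈ 𝔪_T`, `u ∈ 𝔪_T³` with
`s2² Q(u) = c²` give `g : WChart B c →ₐ[B] T` with `g aPair = s1 • u`, `g nPair = s2 • u`. -/
theorem exists_algHom_WChart_of_decomp (hc : c ∈ maximalIdeal B) (s1 s2 : T) (u : Fin 3 → T)
    (hs1 : s1 ∈ maximalIdeal T) (hs2 : s2 ∈ maximalIdeal T) (hu : ∀ i, u i ∈ maximalIdeal T)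
    (hrel : s2 ^ 2 * Q u = algebraMap B T c ^ 2) :
    ∃ g : WChart B c →ₐ[B] T, (∀ i, g (aPair B c i) = s1 * u i) ∧
      (∀ i, g (nPair B c i) = s2 * u i) := by
  have hrel' : s2 ^ 2 * ((s2 - (s2 - u 0)) ^ 2 + u 1 * u 2) = algebraMap B T c ^ 2 := by
    rw [← hrel, Q]; ring
  obtain ⟨g, e1, e2, e3, e4, e5⟩ := exists_algHom_WChart hc (s2 - u 0) (u 1) (u 2) s1 s2
    (sub_mem hs2 (hu 0)) (hu 1) (hu 2) hs1 hs2 hrel'
  obtain ⟨ha, hn⟩ := algHom_pair e1 e2 e3 e4 e5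
  have hvec : ∀ i, (![s2 - (s2 - u 0), u 1, u 2] : Fin 3 → T) i = u i := by
    intro i
    fin_cases i
    · show s2 - (s2 - u 0) = u 0
      ring
    · rfl
    · rfl
  refine ⟨g, fun i => ?_, fun i => ?_⟩
  · rw [ha, hvec]
  · rw [hn, hvec]

end Fermat.Agent.GB.Local.Multi.WChartHom
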