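/-
GATE-B / B1-MULTI, KILLMULTI part 2 (helper59, GO helper53 5708 §3): LIFTING of coordinatised
`O`-algebras — the chart-type AGNOSTIC half of `kill₂` for several framed primes.

A *coordinatised* `O`-algebra is a pair `(E, ω : σ → E)`; it LIFTS to values `v : σ → T` in an
`O`-algebra `T` if some `O`-algebra hom `g : E → T` sends `ω s ↦ v s`:

  `LiftTo O ω v := ∃ g : E →ₐ[O] T, ∀ s, g (ω s) = v s`.

* `LiftTo.base`        : `(O⟦τ⟧, X)` lifts to any family of `𝔪_T` (`T` complete local);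
* `LiftTo.of_isEmpty`  : no coordinates, nothing to do (`E = O`, or any `E` with a point);
* `LiftTo.step`        : GENERIC STEP — `E'` an `E`-algebra such that every `g : E →ₐ[O] T` extends to
  `g' : E' →+* T` with prescribed new values: then
  `(E', Sum.elim (algebraMap ∘ ω) ω')` lifts to `Sum.elim v v'`;
* `exists_extend_mvPowerSeries`, `LiftTo.step_mvPowerSeries`, `LiftTo.step_unr` : the power
  series step `E' = E⟦τ⟧` (the `D1`/`Unr` chart `E⟦a₀,a₁,a₂⟧`, `n ↦ 0`);
* `exists_extend_WChart`, `LiftTo.step_W` : the Weierstrass chart step `E' = WChart E c`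
  (`Multi/WChartHom`);
* `LiftTo.reindex`, `LiftTo.congr` : bookkeeping;
* `ker_le_ker_of_liftTo` (+ `_of_injective`, + the `MvPowerSeries σ O` instance
  `ker_le_ker_of_liftTo_mvPowerSeries`) : KERNEL LEMMA — if `f : R → E` and `x : R → T` are
  `O`-algebra homs out of a ring `R` whose homs into `T` are determined by the values on
  generators, and `(E, f ∘ gen)` lifts to `x ∘ gen`, then `ker f ≤ ker x`.

So for ANY tower of charts built by iterating steps, a point `x` whose local component at every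
framed prime has the shape of the chart chosen there kills `ker (R → E_ξ) ⊇ ⨅_ξ ker (R → E_ξ)`.
-/
import Mathlib
import Fermat.Agent.GB.Local.Multi.WChartHom

set_option autoImplicit false
set_option linter.unusedSectionVars false
set_option linter.style.haveILetI false
set_option linter.unusedVariables false

open IsLocalRing

namespace Fermat.Agent.GB.Local.Multi.Lift

open Fermat.Agent.GB.Local.Multi.WChart Fermat.Agent.GB.Local.TamePoint

variable (O : Type*) [CommRing O]

/-- the coordinatised `O`-algebra `(E, ω)` lifts to the values `v` in `T` -/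
def LiftTo {σ E T : Type*} [CommRing E] [CommRing T] [Algebra O E] [Algebra O T]
    (ω : σ → E) (v : σ → T) : Prop :=
  ∃ g : E →ₐ[O] T, ∀ s, g (ω s) = v s

variable {O}

section Basic

variable {σ E T : Type*} [CommRing E] [CommRing T] [Algebra O E] [Algebra O T]

theorem LiftTo.of_isEmpty [IsEmpty σ] (g : E →ₐ[O] T) (ω : σ → E) (v : σ → T) :
    LiftTo O ω v :=
  ⟨g, fun s => isEmptyElim s⟩

/-- `O` itself, without coordinates -/
theorem LiftTo.self_of_isEmpty [IsEmpty σ] (ω : σ → O) (v : σ → T) : LiftTo O ω v :=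
  LiftTo.of_isEmpty (Algebra.ofId O T) ω v

theorem LiftTo.congr {ω ω' : σ → E} {v v' : σ → T} (h : LiftTo O ω v) (hω : ∀ s, ω s = ω' s)
    (hv : ∀ s, v s = v' s) : LiftTo O ω' v' := by
  obtain ⟨g, hg⟩ := h
  exact ⟨g, fun s => by rw [← hω, hg, hv]⟩

theorem LiftTo.reindex {σ' : Type*} {ω : σ → E} {v : σ → T} (h : LiftTo O ω v) (e : σ' → σ) :
    LiftTo O (fun s => ω (e s)) (fun s => v (e s)) := by
  obtain ⟨g, hg⟩ := h
  exact ⟨g, fun s => hg (e s)⟩

/-- post-composition with an algebra hom of the targets -/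
theorem LiftTo.map {T' : Type*} [CommRing T'] [Algebra O T'] {ω : σ → E} {v : σ → T}
    (h : LiftTo O ω v) (j : T →ₐ[O] T') : LiftTo O ω (fun s => j (v s)) := by
  obtain ⟨g, hg⟩ := h
  exact ⟨j.comp g, fun s => by rw [AlgHom.comp_apply, hg]⟩

/-- **GENERIC STEP.** -/
theorem LiftTo.step {σ' E' : Type*} [CommRing E'] [Algebra O E'] [Algebra E E']
    [IsScalarTower O E E'] {ω : σ → E} {ω' : σ' → E'} {v : σ → T} {v' : σ' → T}
    (h : LiftTo O ω v)
    (hstep : ∀ g : E →ₐ[O] T, (∀ s, g (ω s) = v s) →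
      ∃ g' : E' →+* T, (∀ e, g' (algebraMap E E' e) = g e) ∧ ∀ s, g' (ω' s) = v' s) :
    LiftTo O (Sum.elim (fun s => algebraMap E E' (ω s)) ω') (Sum.elim v v') := by
  obtain ⟨g, hg⟩ := h
  obtain ⟨g', hg'1, hg'2⟩ := hstep g hg
  refine ⟨{ g' with commutes' := fun r => ?_ }, fun s => ?_⟩
  · show g' (algebraMap O E' r) = algebraMap O T r
    rw [IsScalarTower.algebraMap_apply O E E', hg'1, AlgHom.commutes]
  · rcases s with s | s
    · show g' (algebraMap E E' (ω s)) = v s
      rw [hg'1, hg]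
    · exact hg'2 s

end Basic

/-! ### The base: a power series ring over `O` -/

section Base

variable [IsLocalRing O] {τ T : Type*} [Finite τ] [CommRing T] [IsLocalRing T] [Algebra O T]
  [IsAdicComplete (maximalIdeal T) T]

theorem LiftTo.base (v : τ → T) (hv : ∀ s, v s ∈ maximalIdeal T) :
    LiftTo O (MvPowerSeries.X : τ → MvPowerSeries τ O) v :=
  Fermat.Agent.S53.exists_algHom_X (𝒪 := O) v hv

end Base

/-! ### The power series step -/

section PSStep

variable {E T : Type*} [CommRing E] [IsLocalRing E] [CommRing T] [IsLocalRing T]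
  [IsAdicComplete (maximalIdeal T) T] {τ : Type*} [Finite τ]

/-- every ring hom `g : E → T` extends to `E⟦τ⟧` with prescribed values in `𝔪_T` -/
theorem exists_extend_mvPowerSeries (g : E →+* T) (t : τ → T) (ht : ∀ s, t s ∈ maximalIdeal T) :
    ∃ g' : MvPowerSeries τ E →+* T, (∀ e, g' (MvPowerSeries.C e) = g e) ∧
      ∀ s, g' (MvPowerSeries.X s) = t s := by
  letI : Algebra E T := g.toAlgebra
  obtain ⟨φ, hφ⟩ := Fermat.Agent.S53.exists_algHom_X (𝒪 := E) (A := T) t ht
  refine ⟨φ, fun e => ?_, hφ⟩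
  have : (MvPowerSeries.C e : MvPowerSeries τ E) = algebraMap E (MvPowerSeries τ E) e := by
    rw [MvPowerSeries.algebraMap_apply]; rfl
  rw [this]
  show φ (algebraMap E (MvPowerSeries τ E) e) = g e
  rw [AlgHom.commutes]
  rfl

variable [Algebra O E] [Algebra O T]

/-- the power series step with arbitrary new coordinates expressed through the variables -/
theorem LiftTo.step_mvPowerSeries {σ σ' : Type*} {ω : σ → E} {v : σ → T} (h : LiftTo O ω v)
    (t : τ → T) (ht : ∀ s, t s ∈ maximalIdeal T) (ω' : σ' → MvPowerSeries τ E) (v' : σ' → T)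
    (hv' : ∀ g' : MvPowerSeries τ E →+* T, (∀ s, g' (MvPowerSeries.X s) = t s) →
      ∀ s, g' (ω' s) = v' s) :
    LiftTo O (Sum.elim (fun s => (algebraMap E (MvPowerSeries τ E)) (ω s)) ω') (Sum.elim v v') := by
  refine h.step fun g _ => ?_
  obtain ⟨g', h1, h2⟩ := exists_extend_mvPowerSeries (g : E →+* T) t ht
  refine ⟨g', fun e => ?_, hv' g' h2⟩
  rw [MvPowerSeries.algebraMap_apply, Algebra.algebraMap_self, RingHom.id_apply, h1]
  rfl

/-- **the `D1`/`Unr` chart step** `E' = E⟦a₀,a₁,a₂⟧`, coordinate pair `(a, n) = (X, 0)`: lifts to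
any pair `(a', 0)` with `a' ∈ 𝔪_T³`. -/
theorem LiftTo.step_unr {σ : Type*} {ω : σ → E} {v : σ → T} (h : LiftTo O ω v)
    (a' : Fin 3 → T) (ha' : ∀ i, a' i ∈ maximalIdeal T) :
    LiftTo O
      (Sum.elim (fun s => (algebraMap E (MvPowerSeries (Fin 3) E)) (ω s))
        (Sum.elim (MvPowerSeries.X : Fin 3 → MvPowerSeries (Fin 3) E) (fun _ : Fin 3 => 0)))
      (Sum.elim v (Sum.elim a' (fun _ : Fin 3 => 0))) := by
  refine h.step_mvPowerSeries a' ha' _ _ fun g' hg' s => ?_
  rcases s with i | i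
  · exact hg' i
  · exact map_zero g'

end PSStep

/-! ### The Weierstrass chart step -/

section WStep

variable {E T : Type*} [CommRing E] [IsLocalRing E] [IsNoetherianRing E]
  [IsAdicComplete (maximalIdeal E) E] [CommRing T] [IsLocalRing T]
  [IsAdicComplete (maximalIdeal T) T]

/-- every ring hom `g : E → T` extends to `WChart E c` with the coordinate pair going to a
prescribed pair `(s1 • u, s2 • u)`, `s2² Q(u) = g(c)²`. -/
theorem exists_extend_WChart {c : E} (hc : c ∈ maximalIdeal E) (g : E →+* T) (s1 s2 : T)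
    (u : Fin 3 → T) (hs1 : s1 ∈ maximalIdeal T) (hs2 : s2 ∈ maximalIdeal T)
    (hu : ∀ i, u i ∈ maximalIdeal T) (hrel : s2 ^ 2 * Q u = g c ^ 2) :
    ∃ g' : WChart E c →+* T, (∀ e, g' (algebraMap E (WChart E c) e) = g e) ∧
      (∀ i, g' (aPair E c i) = s1 * u i) ∧ (∀ i, g' (nPair E c i) = s2 * u i) := by
  letI : Algebra E T := g.toAlgebra
  obtain ⟨φ, h1, h2⟩ := WChartHom.exists_algHom_WChart_of_decomp (B := E) (T := T) hc s1 s2 u
    hs1 hs2 hu hrel
  exact ⟨φ, fun e => φ.commutes e, h1, h2⟩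

variable [Algebra O E] [Algebra O T]

/-- **the Weierstrass chart step**: `E' = WChart E c_E` (`c_E` the image of `c : O`), coordinate
pair `(aPair, nPair)`: lifts to any pair `(s1 • u, s2 • u)` with `s1, s2, u i ∈ 𝔪_T` and
`s2² Q(u) = c²`. -/
theorem LiftTo.step_W {σ : Type*} {ω : σ → E} {v : σ → T} (h : LiftTo O ω v) {c : O}
    (hc : algebraMap O E c ∈ maximalIdeal E) (s1 s2 : T) (u : Fin 3 → T)
    (hs1 : s1 ∈ maximalIdeal T) (hs2 : s2 ∈ maximalIdeal T) (hu : ∀ i, u i ∈ maximalIdeal T)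
    (hrel : s2 ^ 2 * Q u = algebraMap O T c ^ 2) :
    LiftTo O
      (Sum.elim (fun s => algebraMap E (WChart E (algebraMap O E c)) (ω s))
        (Sum.elim (aPair E (algebraMap O E c)) (nPair E (algebraMap O E c))))
      (Sum.elim v (Sum.elim (fun i => s1 * u i) (fun i => s2 * u i))) := by
  refine h.step fun g _ => ?_
  have hrel' : s2 ^ 2 * Q u = (g : E →+* T) (algebraMap O E c) ^ 2 := by
    rw [hrel]
    show _ = g (algebraMap O E c) ^ 2
    rw [AlgHom.commutes]
  obtain ⟨g', h1, h2, h3⟩ := exists_extend_WChart hc (g : E →+* T) s1 s2 u hs1 hs2 hu hrel'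
  refine ⟨g', h1, fun s => ?_⟩
  rcases s with i | i
  · exact h2 i
  · exact h3 i

end WStep

/-! ### The kernel lemma -/

section Kernel

variable {R σ E T : Type*} [CommRing R] [CommRing E] [CommRing T] [Algebra O R] [Algebra O E]
  [Algebra O T]

/-- **KERNEL LEMMA** (abstract form). -/
theorem ker_le_ker_of_liftTo (gen : σ → R)
    (hext : ∀ φ ψ : R →ₐ[O] T, (∀ s, φ (gen s) = ψ (gen s)) → φ = ψ)
    (f : R →ₐ[O] E) (x : R →ₐ[O] T)
    (h : LiftTo O (fun s => f (gen s)) (fun s => x (gen s))) :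
    RingHom.ker (f : R →+* E) ≤ RingHom.ker (x : R →+* T) := by
  obtain ⟨g, hg⟩ := h
  have hcomp : g.comp f = x := hext _ _ fun s => by rw [AlgHom.comp_apply, hg]
  intro r hr
  rw [RingHom.mem_ker] at hr ⊢
  have hr' : f r = 0 := hr
  show x r = 0
  rw [← hcomp, AlgHom.comp_apply, hr', map_zero]

/-- **KERNEL LEMMA** after an injective enlargement `j : T₀ → T` of the target (`T₀ = O'⟦z⟧`,
`T = O'[√π]⟦z⟧`). -/
theorem ker_le_ker_of_liftTo_of_injective {T₀ : Type*} [CommRing T₀] [Algebra O T₀] (gen : σ → R)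
    (hext : ∀ φ ψ : R →ₐ[O] T, (∀ s, φ (gen s) = ψ (gen s)) → φ = ψ)
    (f : R →ₐ[O] E) (x : R →ₐ[O] T₀) (j : T₀ →ₐ[O] T) (hj : Function.Injective j)
    (h : LiftTo O (fun s => f (gen s)) (fun s => j (x (gen s)))) :
    RingHom.ker (f : R →+* E) ≤ RingHom.ker (x : R →+* T₀) := by
  have h1 := ker_le_ker_of_liftTo gen hext f (j.comp x) h
  intro r hr
  have h2 := h1 hr
  rw [RingHom.mem_ker] at h2 ⊢
  have h3 : j (x r) = 0 := h2
  exact hj (h3.trans (map_zero j).symm)

end Kernel

section KernelPS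

variable [IsLocalRing O] {σ E T : Type*} [Finite σ] [CommRing E] [CommRing T] [IsLocalRing T]
  [Algebra O E] [Algebra O T] [IsHausdorff (maximalIdeal T) T]

/-- the ext property of `O⟦σ⟧` relative to a family of values in `𝔪_T` -/
theorem algHom_ext_of_mem (φ ψ : MvPowerSeries σ O →ₐ[O] T)
    (hφ : ∀ s, φ (MvPowerSeries.X s) ∈ maximalIdeal T)
    (h : ∀ s, φ (MvPowerSeries.X s) = ψ (MvPowerSeries.X s)) : φ = ψ :=
  Fermat.Agent.S53.algHom_ext_X φ ψ hφ h

/-- **KERNEL LEMMA** for `R = O⟦σ⟧`. -/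
theorem ker_le_ker_of_liftTo_mvPowerSeries (f : MvPowerSeries σ O →ₐ[O] E)
    (x : MvPowerSeries σ O →ₐ[O] T) (hx : ∀ s, x (MvPowerSeries.X s) ∈ maximalIdeal T)
    (h : LiftTo O (fun s => f (MvPowerSeries.X s)) (fun s => x (MvPowerSeries.X s))) :
    RingHom.ker (f : MvPowerSeries σ O →+* E) ≤ RingHom.ker (x : MvPowerSeries σ O →+* T) := by
  obtain ⟨g, hg⟩ := h
  have hcomp : g.comp f = x := by
    refine algHom_ext_of_mem _ _ (fun s => ?_) (fun s => ?_)
    · rw [AlgHom.comp_apply, hg]; exact hx s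
    · rw [AlgHom.comp_apply, hg]
  intro r hr
  rw [RingHom.mem_ker] at hr ⊢
  have hr' : f r = 0 := hr
  show x r = 0
  rw [← hcomp, AlgHom.comp_apply, hr', map_zero]

/-- **KERNEL LEMMA** for `R = O⟦σ⟧` after an injective enlargement of the target. -/
theorem ker_le_ker_of_liftTo_mvPowerSeries_of_injective {T₀ : Type*} [CommRing T₀]
    [Algebra O T₀] (f : MvPowerSeries σ O →ₐ[O] E) (x : MvPowerSeries σ O →ₐ[O] T₀)
    (j : T₀ →ₐ[O] T) (hj : Function.Injective j)
    (hx : ∀ s, j (x (MvPowerSeries.X s)) ∈ maximalIdeal T)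
    (h : LiftTo O (fun s => f (MvPowerSeries.X s)) (fun s => j (x (MvPowerSeries.X s)))) :
    RingHom.ker (f : MvPowerSeries σ O →+* E) ≤ RingHom.ker (x : MvPowerSeries σ O →+* T₀) := by
  have h1 := ker_le_ker_of_liftTo_mvPowerSeries f (j.comp x) hx h
  intro r hr
  have h2 := h1 hr
  rw [RingHom.mem_ker] at h2 ⊢
  have h3 : j (x r) = 0 := h2
  exact hj (h3.trans (map_zero j).symm)

end KernelPS

end Fermat.Agent.GB.Local.Multi.Lift
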