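/-
GATE-B / B1-MULTI (helper51): the `D1` / `Unr` chart `B⟦a₀, a₁, a₂⟧` (type `none`, `n = 0`) as an
INSTANCE of helper54's stage vocabulary (`GB/Local/Multi/Stage.lean`).

* `isChartOver_D1` : `IsChartOver O lam B (MvPowerSeries (Fin 3) B) none X 0`;
* `nn_D1`          : `NN lam B m → NN lam B⟦a⟧ (m + 3)`;
* `chartHP_D1`     : `ChartHP lam d B⟦a⟧ X` — the `t`-test of RULING R4 §3.4, case `ξ_q = 1`: every
  minimal prime of `B⟦a⟧` is coefficientwise, so it lies in `𝔪_B⟦a⟧`, as does `lam`; but
  `t = 4 (a₀² + a₁a₂) − d²` has the unit coefficient `4`.  No dimension theory;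
* `extendD1`, `extendD1_ty`, `extendD1_HP` : the stage-level forms.
-/
import Mathlib
import Fermat.Agent.GB.Local.Multi.Stage
import Fermat.Agent.GB.Local.Multi.Lift
import Fermat.Agent.GB.Local.Chart
import Fermat.Agent.GB.Alg.NNStep
import Fermat.Agent.GB.Alg.PSMinPrimes

set_option autoImplicit false
set_option linter.unusedSectionVars false
set_option linter.style.haveILetI false

universe u

open IsLocalRing

namespace Fermat.Agent.GB.Local.Multi.D1Inst

open Fermat.Agent.GB.Local.Multi Fermat.Agent.GB.Local.Rloc Fermat.Agent.GB.Alg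

variable {O : Type u} [CommRing O] {lam : O}
variable {B : Type u} [CommRing B] [IsLocalRing B] [Algebra O B]

/-- the chart ring `B⟦a₀, a₁, a₂⟧` -/
abbrev D1 (B : Type u) [CommRing B] := MvPowerSeries (Fin 3) B

theorem C_mem {b : B} (hb : b ∈ maximalIdeal B) :
    (MvPowerSeries.C b : D1 B) ∈ maximalIdeal (D1 B) := by
  rw [Fermat.Agent.S53.PSC.mem_maximalIdeal_iff, MvPowerSeries.constantCoeff_C]
  exact hb

theorem X_mem (i : Fin 3) : (MvPowerSeries.X i : D1 B) ∈ maximalIdeal (D1 B) := by
  rw [Fermat.Agent.S53.PSC.mem_maximalIdeal_iff]; simp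

theorem algebraMap_O_apply (r : O) :
    algebraMap O (D1 B) r = MvPowerSeries.C (algebraMap O B r) := by
  rw [MvPowerSeries.algebraMap_apply]

theorem algebraMap_B_apply (b : B) : algebraMap B (D1 B) b = MvPowerSeries.C b := by
  rw [MvPowerSeries.algebraMap_apply]; rfl

/-- the `NN` step of the `D1` chart: `m ↦ m + 3` -/
theorem nn_D1 {m : ℕ} (h : NN lam B m) : NN lam (D1 B) (m + 3) := h.mvPowerSeries 3

variable (lam B) in
/-- **`B⟦a₀,a₁,a₂⟧` is a chart of type `none`** -/
theorem isChartOver_D1 :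
    IsChartOver O lam B (D1 B) none (fun i => MvPowerSeries.X i) (fun _ => 0) := by
  refine
    { tower := fun r => by rw [algebraMap_B_apply, algebraMap_O_apply]
      map_mem := fun b hb => by rw [algebraMap_B_apply]; exact C_mem hb
      isPt := ⟨X_mem, fun _ => zero_mem _, Or.inl ⟨rfl, fun _ => rfl⟩⟩
      lift := ?_
      nn := fun m h => ⟨m + 3, nn_D1 h⟩ }
  intro A _ _ _ _ ψ a' n' hpt
  obtain ⟨ha', hn', h⟩ := hpt
  have hn0 : ∀ i, n' i = 0 := by
    rcases h with ⟨-, h0⟩ | ⟨c', hc', -⟩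
    · exact h0
    · exact absurd hc' (by simp)
  obtain ⟨g', e1, e2⟩ := Lift.exists_extend_mvPowerSeries (ψ : B →+* A) a' ha'
  refine ⟨{ g' with commutes' := fun r => ?_ }, fun b => ?_, e2, fun i => ?_⟩
  · show g' (algebraMap O (D1 B) r) = algebraMap O A r
    rw [algebraMap_O_apply, e1]
    exact ψ.commutes r
  · show g' (algebraMap B (D1 B) b) = ψ b
    rw [algebraMap_B_apply, e1]
    rfl
  · show g' 0 = n' i
    rw [map_zero, hn0]

/-- **the `t`-test for the `D1` chart** (RULING R4 §3.4, case `ξ_q = 1`) -/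
theorem chartHP_D1 [IsNoetherianRing B] (hlam : algebraMap O B lam ∈ maximalIdeal B)
    (h2 : IsUnit (2 : O)) {d : O} (hd : algebraMap O B d ∈ maximalIdeal B) :
    ChartHP lam d (D1 B) (fun i => MvPowerSeries.X i) := by
  intro 𝔓 h𝔓 hmem
  rw [PSDim.minimalPrimes_mvPowerSeries] at h𝔓
  obtain ⟨P, hP, rfl⟩ := h𝔓
  have hPp : P.IsPrime := hP.1.1
  have hPle : P ≤ maximalIdeal B := IsLocalRing.le_maximalIdeal hPp.ne_top
  have hprime : (PSDim.coeffIdeal (Fin 3) (maximalIdeal B)).IsPrime :=
    PSDim.coeffIdeal_isPrime (maximalIdeal B)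
  have hle : PSDim.coeffIdeal (Fin 3) P ⊔ Ideal.span {algebraMap O (D1 B) lam} ≤
      PSDim.coeffIdeal (Fin 3) (maximalIdeal B) := by
    refine sup_le (PSDim.coeffIdeal_mono hPle) ?_
    rw [Ideal.span_le, Set.singleton_subset_iff, algebraMap_O_apply]
    exact PSDim.C_mem_coeffIdeal.mpr hlam
  have hmem' : 4 * Qf (fun i => (MvPowerSeries.X i : D1 B)) - algebraMap O (D1 B) (d ^ 2) ∈
      PSDim.coeffIdeal (Fin 3) (maximalIdeal B) := by
    have := Ideal.radical_mono hle hmem
    rwa [hprime.radical] at this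
  rw [PSDim.coeffIdeal, RingHom.mem_ker, algebraMap_O_apply, map_sub, MvPowerSeries.map_C,
    map_pow, map_pow, Ideal.Quotient.eq_zero_iff_mem.mpr hd, zero_pow two_ne_zero, map_zero,
    sub_zero, Qf] at hmem'
  simp only [map_mul, map_pow, map_add, MvPowerSeries.map_X, map_ofNat] at hmem'
  have h4 : (4 : MvPowerSeries (Fin 3) (B ⧸ maximalIdeal B)) ≠ 0 := by
    have h2' : IsUnit (2 : MvPowerSeries (Fin 3) (B ⧸ maximalIdeal B)) := by
      have := h2.map (((MvPowerSeries.C : _ →+* MvPowerSeries (Fin 3)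
        (B ⧸ maximalIdeal B)).comp (Ideal.Quotient.mk (maximalIdeal B))).comp (algebraMap O B))
      rwa [map_ofNat] at this
    have h22 : (4 : MvPowerSeries (Fin 3) (B ⧸ maximalIdeal B)) = 2 * 2 := by norm_num
    rw [h22]
    exact (h2'.mul h2').ne_zero
  have hQ := Fermat.Agent.GB.Local.Chart.Qform_ne_zero (k := B ⧸ maximalIdeal B) 0
  rw [Fermat.Agent.GB.Local.Chart.Qform] at hQ
  rcases mul_eq_zero.mp hmem' with h | h
  · exact h4 h
  · exact hQ h

/-! ### Extending a stage by a `D1` chart -/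

section Extend

variable [IsLocalRing O] [IsNoetherianRing O] [IsAdicComplete (maximalIdeal O) O] {g s : ℕ}

/-- one more prime, of type `none`, on top of a stage -/
noncomputable def extendD1 (X : Stage O lam g s) : Stage O lam g (s + 1) :=
  haveI := Fermat.Agent.S53.isAdicComplete_mvPowerSeries X.E (Fin 3)
  X.extend none (D1 X.E) (fun i => MvPowerSeries.X i) (fun _ => 0) (isChartOver_D1 lam X.E)

theorem extendD1_ty (X : Stage O lam g s) : (extendD1 X).ty = Fin.snoc X.ty none := rfl

/-- the `t`-test holds on a stage whose last chart is a `D1` chart -/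
theorem extendD1_HP (X : Stage O lam g s) (hlam : lam ∈ maximalIdeal O) (h2 : IsUnit (2 : O))
    {d : O} (hd : d ∈ maximalIdeal O)
    (hloc : ∀ r ∈ maximalIdeal O, algebraMap O X.E r ∈ maximalIdeal X.E) :
    (extendD1 X).HP d := by
  haveI := Fermat.Agent.S53.isAdicComplete_mvPowerSeries X.E (Fin 3)
  exact Stage.extend_HP X none (D1 X.E) (fun i => MvPowerSeries.X i) (fun _ => 0)
    (isChartOver_D1 lam X.E) d (chartHP_D1 (hloc _ hlam) h2 (hloc _ hd))

end Extend

/-! ### The structure map of a stage is local (when all chart constants are non-units) -/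

section Local

variable [IsLocalRing O] [IsNoetherianRing O] [IsAdicComplete (maximalIdeal O) O] {g s : ℕ}

/-- a stage all of whose chart constants lie in `𝔪_O` has a point over the residue field of `O`;
hence `𝔪_O` maps into the maximal ideal of the stage. -/
theorem algebraMap_mem_of_ty (X : Stage O lam g s)
    (hty : ∀ v c, X.ty v = some c → c ∈ maximalIdeal O) {r : O} (hr : r ∈ maximalIdeal O) :
    algebraMap O X.E r ∈ maximalIdeal X.E := by
  have hbot : maximalIdeal (ResidueField O) = ⊥ := IsLocalRing.maximalIdeal_eq_bot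
  haveI : IsAdicComplete (maximalIdeal (ResidueField O)) (ResidueField O) := by
    rw [hbot]; infer_instance
  have hres : ∀ c ∈ maximalIdeal O, algebraMap O (ResidueField O) c = 0 := fun c hc =>
    (IsLocalRing.residue_eq_zero_iff c).mpr hc
  have hpt : ∀ v, IsPt O (X.ty v) (fun _ => (0 : ResidueField O)) (fun _ => 0) := by
    intro v
    refine ⟨fun _ => zero_mem _, fun _ => zero_mem _, ?_⟩
    rcases hv : X.ty v with _ | c
    · exact Or.inl ⟨rfl, fun _ => rfl⟩
    · refine Or.inr ⟨c, rfl, 0, 0, fun _ => 0, zero_mem _, zero_mem _, fun _ => zero_mem _,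
        fun _ => (mul_zero _).symm, fun _ => (mul_zero _).symm, ?_⟩
      rw [hres c (hty v c hv)]
      simp
  obtain ⟨ψ, -, -, -⟩ := X.lift (ResidueField O) (fun _ _ => 0) (fun _ _ => 0) (fun _ => 0) hpt
    (fun _ => zero_mem _)
  by_contra hnot
  have hu : IsUnit (algebraMap O X.E r) := by
    by_contra hnu
    exact hnot ((mem_maximalIdeal _).mpr hnu)
  have := hu.map ψ
  rw [ψ.commutes, hres r hr] at this
  exact not_isUnit_zero this

/-- `extendD1_HP` with the locality hypothesis discharged -/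
theorem extendD1_HP' (X : Stage O lam g s)
    (hty : ∀ v c, X.ty v = some c → c ∈ maximalIdeal O) (hlam : lam ∈ maximalIdeal O)
    (h2 : IsUnit (2 : O)) {d : O} (hd : d ∈ maximalIdeal O) : (extendD1 X).HP d :=
  extendD1_HP X hlam h2 hd fun _ hr => algebraMap_mem_of_ty X hty hr

end Local

end Fermat.Agent.GB.Local.Multi.D1Inst
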