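/-
GATE-B / B1-MULTI (RULING R5 5804: charts `Unr | St` at `v ≠ q`, `D1 | W_c` at `q`), helper54.

CHART-TYPE-AGNOSTIC version of `Multi/Stage.lean`: the point types are an abstract specification
`P : PtSpec O` (a type `P.T` of chart types and a predicate `P.pred t A a n`, "the pair `(a, n)` over
the local `O`-algebra `A` is a point of type `t`", stable under local `O`-algebra maps), so that
`Unr`, `D1`, `EE_c`/`W_c`, `St_{e,c}` (and anything ruled later) are INSTANCES, not redesigns.

* `G.PtSpec`, `G.IsChartOver P lam B E t a n`, `G.Stage P lam g s`, `G.Stage.base`, `G.Stage.extend`,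
  `G.Stage.HP`, `G.Stage.extend_HP` : verbatim as in `Multi/Stage.lean`;
* `G.optSpec O` : the specification with `T = Option O` and `pred = IsPt O` of `Multi/Stage.lean`, and
  `IsChartOver.toG` : a chart in the sense of `Multi/Stage.lean` is a chart for `optSpec`.
-/
import Mathlib
import Fermat.Agent.GB.Local.Multi.Stage

set_option autoImplicit false
set_option linter.unusedSectionVars false
set_option linter.unusedVariables false

universe u

open IsLocalRing MvPowerSeries Fermat.Agent.GB.Local.Rloc

namespace Fermat.Agent.GB.Local.Multi.G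

/-! ### Point specifications -/

/-- a specification of point types: chart types `T` and, for every local `O`-algebra `A`, the
predicate "`(a, n)` is a point of type `t`", stable under local homomorphisms of `O`-algebras. -/
structure PtSpec (O : Type u) [CommRing O] : Type (u + 1) where
  T : Type u
  pred : T → ∀ (A : Type u) [CommRing A] [IsLocalRing A] [Algebra O A],
    (Fin 3 → A) → (Fin 3 → A) → Prop
  mem_a : ∀ {t : T} {A : Type u} [CommRing A] [IsLocalRing A] [Algebra O A] {a n : Fin 3 → A},
    pred t A a n → ∀ i, a i ∈ maximalIdeal A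
  mem_n : ∀ {t : T} {A : Type u} [CommRing A] [IsLocalRing A] [Algebra O A] {a n : Fin 3 → A},
    pred t A a n → ∀ i, n i ∈ maximalIdeal A
  map : ∀ {t : T} {A A' : Type u} [CommRing A] [IsLocalRing A] [Algebra O A] [CommRing A']
    [IsLocalRing A'] [Algebra O A'] {a n : Fin 3 → A}, pred t A a n → ∀ (φ : A →+* A'),
    (∀ x ∈ maximalIdeal A, φ x ∈ maximalIdeal A') →
    (∀ r : O, φ (algebraMap O A r) = algebraMap O A' r) →
    pred t A' (fun i => φ (a i)) (fun i => φ (n i))

/-- the specification of `Multi/Stage.lean`: `none` (`n = 0`) and `some c` (`s₂² Q(u) = c²`) -/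
def optSpec (O : Type u) [CommRing O] : PtSpec O where
  T := Option O
  pred := fun o A _ _ _ a n => IsPt O o a n
  mem_a := fun h => h.1
  mem_n := fun h => h.2.1
  map := fun h φ hφ hφO => h.map φ hφ hφO

/-! ### One chart step -/

/-- `E` is a chart of type `t` over `B`, with coordinate pair `(a, n)`. -/
structure IsChartOver {O : Type u} [CommRing O] (P : PtSpec O) (lam : O)
    (B : Type u) [CommRing B] [IsLocalRing B] [Algebra O B]
    (E : Type u) [CommRing E] [IsLocalRing E] [Algebra O E] [Algebra B E]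
    (t : P.T) (a n : Fin 3 → E) : Prop where
  tower : ∀ r : O, algebraMap B E (algebraMap O B r) = algebraMap O E r
  map_mem : ∀ b ∈ maximalIdeal B, algebraMap B E b ∈ maximalIdeal E
  isPt : P.pred t E a n
  lift : ∀ (A : Type u) [CommRing A] [IsLocalRing A] [Algebra O A]
    [IsAdicComplete (maximalIdeal A) A] (ψ : B →ₐ[O] A) (a' n' : Fin 3 → A), P.pred t A a' n' →
    ∃ ψ' : E →ₐ[O] A, (∀ b, ψ' (algebraMap B E b) = ψ b) ∧ (∀ i, ψ' (a i) = a' i) ∧
      ∀ i, ψ' (n i) = n' i
  nn : ∀ m, NN lam B m → ∃ m', NN lam E m'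

/-- a chart in the sense of `Multi/Stage.lean` is a chart for `optSpec`. -/
theorem _root_.Fermat.Agent.GB.Local.Multi.IsChartOver.toG {O : Type u} [CommRing O] {lam : O}
    {B : Type u} [CommRing B] [IsLocalRing B] [Algebra O B]
    {E : Type u} [CommRing E] [IsLocalRing E] [Algebra O E] [Algebra B E]
    {o : Option O} {a n : Fin 3 → E} (h : Multi.IsChartOver O lam B E o a n) :
    IsChartOver (optSpec O) lam B E o a n where
  tower := h.tower
  map_mem := h.map_mem
  isPt := h.isPt
  lift := fun A _ _ _ _ ψ a' n' hpt => h.lift A ψ a' n' hpt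
  nn := h.nn

/-! ### Stages -/

/-- a tower of `s` charts over `O⟦x₁..x_g⟧`, remembered through its coordinates -/
structure Stage {O : Type u} [CommRing O] (P : PtSpec O) (lam : O) (g s : ℕ) : Type (u + 1) where
  E : Type u
  [cr : CommRing E]
  [lr : IsLocalRing E]
  [nr : IsNoetherianRing E]
  [alg : Algebra O E]
  [cpl : IsAdicComplete (maximalIdeal E) E]
  ty : Fin s → P.T
  a : Fin s → Fin 3 → E
  n : Fin s → Fin 3 → E
  x : Fin g → E
  x_mem : ∀ j, x j ∈ maximalIdeal E
  isPt : ∀ v, P.pred (ty v) E (a v) (n v)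
  lift : ∀ (A : Type u) [CommRing A] [IsLocalRing A] [Algebra O A]
    [IsAdicComplete (maximalIdeal A) A] (a' n' : Fin s → Fin 3 → A) (x' : Fin g → A),
    (∀ v, P.pred (ty v) A (a' v) (n' v)) → (∀ j, x' j ∈ maximalIdeal A) →
    ∃ ψ : E →ₐ[O] A, (∀ v i, ψ (a v i) = a' v i) ∧ (∀ v i, ψ (n v i) = n' v i) ∧
      ∀ j, ψ (x j) = x' j
  m : ℕ
  nn : NN lam E m
  lam_mem : algebraMap O E lam ∈ maximalIdeal E

attribute [instance] Stage.cr Stage.lr Stage.nr Stage.alg Stage.cpl

namespace Stage

variable {O : Type u} [CommRing O] [IsLocalRing O] [IsNoetherianRing O]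
  [IsAdicComplete (maximalIdeal O) O] {P : PtSpec O} {lam : O} {g s : ℕ}

/-- the base stage `O⟦x₁..x_g⟧` -/
noncomputable def base (P : PtSpec O) (lam : O) (g : ℕ)
    (h : NN lam (MvPowerSeries (Fin g) O) g) (hlam : lam ∈ maximalIdeal O) : Stage P lam g 0 where
  E := MvPowerSeries (Fin g) O
  cpl := Fermat.Agent.S53.isAdicComplete_mvPowerSeries O (Fin g)
  ty := Fin.elim0
  a := Fin.elim0
  n := Fin.elim0
  x := fun j => X j
  x_mem := fun j => Fermat.Agent.S53.X_mem_maximalIdeal O (Fin g) j
  isPt := fun v => v.elim0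
  lift := fun A _ _ _ _ a' n' x' _ hx =>
    ⟨evalHom O x' hx, fun v => v.elim0, fun v => v.elim0, fun j => evalHom_X O x' hx j⟩
  m := g
  nn := h
  lam_mem := by
    rw [MvPowerSeries.algebraMap_apply, Algebra.algebraMap_self_apply,
      Fermat.Agent.S53.mem_maximalIdeal_mvPowerSeries_iff, constantCoeff_C]
    exact hlam

/-- one more chart on top of a stage -/
noncomputable def extend (X : Stage P lam g s) (t : P.T) (E : Type u) [CommRing E]
    [IsLocalRing E] [IsNoetherianRing E] [Algebra O E] [IsAdicComplete (maximalIdeal E) E]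
    [Algebra X.E E] (a n : Fin 3 → E) (h : IsChartOver P lam X.E E t a n) :
    Stage P lam g (s + 1) where
  E := E
  ty := Fin.snoc X.ty t
  a := Fin.snoc (α := fun _ => Fin 3 → E) (fun v i => algebraMap X.E E (X.a v i)) a
  n := Fin.snoc (α := fun _ => Fin 3 → E) (fun v i => algebraMap X.E E (X.n v i)) n
  x := fun j => algebraMap X.E E (X.x j)
  x_mem := fun j => h.map_mem _ (X.x_mem j)
  isPt := fun v => by
    induction v using Fin.lastCases with
    | last => simp only [Fin.snoc_last]; exact h.isPt
    | cast w =>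
      simp only [Fin.snoc_castSucc]
      exact P.map (X.isPt w) (algebraMap X.E E) h.map_mem (fun r => h.tower r)
  lift := fun A _ _ _ _ a' n' x' hpt hx => by
    obtain ⟨ψ₀, h1, h2, h3⟩ := X.lift A (fun v => a' v.castSucc) (fun v => n' v.castSucc) x'
      (fun v => by have := hpt v.castSucc; rwa [Fin.snoc_castSucc] at this) hx
    obtain ⟨ψ', e1, e2, e3⟩ := h.lift A ψ₀ (a' (Fin.last s)) (n' (Fin.last s))
      (by have := hpt (Fin.last s); rwa [Fin.snoc_last] at this)
    refine ⟨ψ', fun v i => ?_, fun v i => ?_, fun j => by rw [e1, h3]⟩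
    · induction v using Fin.lastCases with
      | last => simp only [Fin.snoc_last]; exact e2 i
      | cast w => simp only [Fin.snoc_castSucc]; rw [e1, h1]
    · induction v using Fin.lastCases with
      | last => simp only [Fin.snoc_last]; exact e3 i
      | cast w => simp only [Fin.snoc_castSucc]; rw [e1, h2]
  m := (h.nn X.m X.nn).choose
  nn := (h.nn X.m X.nn).choose_spec
  lam_mem := by
    rw [← h.tower]
    exact h.map_mem _ X.lam_mem

@[simp] theorem extend_ty (X : Stage P lam g s) (t : P.T) (E : Type u) [CommRing E]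
    [IsLocalRing E] [IsNoetherianRing E] [Algebra O E] [IsAdicComplete (maximalIdeal E) E]
    [Algebra X.E E] (a n : Fin 3 → E) (h : IsChartOver P lam X.E E t a n) :
    (X.extend t E a n h).ty = Fin.snoc X.ty t := rfl

/-- the `t`-test at the last prime of a stage -/
def HP (X : Stage P lam g (s + 1)) (d : O) : Prop :=
  ChartHP lam d X.E (X.a (Fin.last s))

theorem extend_HP (X : Stage P lam g s) (t : P.T) (E : Type u) [CommRing E]
    [IsLocalRing E] [IsNoetherianRing E] [Algebra O E] [IsAdicComplete (maximalIdeal E) E]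
    [Algebra X.E E] (a n : Fin 3 → E) (h : IsChartOver P lam X.E E t a n) (d : O)
    (hP : ChartHP lam d E a) : (X.extend t E a n h).HP d := by
  have e : (X.extend t E a n h).a (Fin.last s) = a := by
    change Fin.snoc (α := fun _ => Fin 3 → E) (fun v i => algebraMap X.E E (X.a v i)) a
      (Fin.last s) = a
    exact Fin.snoc_last (α := fun _ => Fin 3 → E) a _
  unfold HP
  rw [e]
  exact hP

end Stage

end Fermat.Agent.GB.Local.Multi.G
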