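/-
GATE-B / B1-MULTI (RULING R5 5804), helper54, file 2 of the chart-type-agnostic version.

For a point specification `P`, finite sets `𝒯 v ⊆ P.T` of allowed chart types at the framed primes
`v < s`, and a family of stages `Fam ξ` indexed by the type vectors `ξ : TyVec 𝒯`:

* `G.J2M Fam = ⨅ ξ, ker (Fam ξ).f` in the flat ring `RM O s g` of `Multi/Family.lean`;
* `G.J2M_le_ker` (kill₂) : a point of `RM` whose blocks are points of allowed types kills `J2M`;
* `G.ringKrullDim_quot_J2M_le` (hdim) : `dim RM ⧸ J2M ≤ 1 + 3 s + g`, from a per-type certificate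
  "the two minors and `Q(n)` are, on points of type `t`, the values of elements of `(lam)`"
  (helper66's `MultiCertMod.ringKrullDim_le_of_family_mod`);
* `G.hP_J2M` (hP) : the `t`-test at the LAST prime.
-/
import Mathlib
import Fermat.Agent.GB.Local.Multi.StageG
import Fermat.Agent.GB.Local.Multi.Family
import Fermat.Agent.GB.Alg.MultiCertMod

set_option autoImplicit false
set_option linter.unusedSectionVars false
set_option linter.unusedVariables false

universe u

open IsLocalRing MvPowerSeries Fermat.Agent.GB.Local.Rloc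

namespace Fermat.Agent.GB.Local.Multi.G

/-! ### The map from the flat ring to a stage -/

namespace Stage

variable {O : Type u} [CommRing O] [IsLocalRing O] [IsNoetherianRing O]
  [IsAdicComplete (maximalIdeal O) O] {P : PtSpec O} {lam : O} {g s : ℕ} (X : Stage P lam g s)

/-- the coordinates of a stage -/
def coord : Idx s g → X.E :=
  Sum.elim (fun p => Fin.append (X.a p.1) (X.n p.1) p.2) X.x

theorem coord_mem (k : Idx s g) : X.coord k ∈ maximalIdeal X.E := by
  rcases k with ⟨v, j⟩ | j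
  · exact append_mem (P.mem_a (X.isPt v)) (P.mem_n (X.isPt v)) j
  · exact X.x_mem j

/-- the map from the flat ring -/
noncomputable def f : RM O s g →ₐ[O] X.E := evalHom O X.coord X.coord_mem

@[simp] theorem f_X (k : Idx s g) : X.f (MvPowerSeries.X k) = X.coord k := by
  rw [f, evalHom_X]

@[simp] theorem f_aV (v : Fin s) (i : Fin 3) : X.f (aV O v i) = X.a v i := by
  rw [aV, f_X]
  show Fin.append (X.a v) (X.n v) (Fin.castAdd 3 i) = _
  rw [Fin.append_left]

@[simp] theorem f_nV (v : Fin s) (i : Fin 3) : X.f (nV O v i) = X.n v i := by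
  rw [nV, f_X]
  show Fin.append (X.a v) (X.n v) (Fin.natAdd 3 i) = _
  rw [Fin.append_right]

@[simp] theorem f_xV (j : Fin g) : X.f (xV O j) = X.x j := by
  rw [xV, f_X]; rfl

theorem f_comp_inc (v : Fin s) :
    X.f.comp (inc O v) =
      evalPair (O := O) (X.a v) (X.n v) (P.mem_a (X.isPt v)) (P.mem_n (X.isPt v)) := by
  refine evalPair_unique _ _ _ _ _ (fun i => ?_) (fun i => ?_)
  · rw [AlgHom.comp_apply, inc_aVar, f_aV]
  · rw [AlgHom.comp_apply, inc_nVar, f_nV]

theorem f_C (r : O) : X.f (C r) = algebraMap O X.E r := by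
  have := X.f.commutes r
  simpa [MvPowerSeries.algebraMap_apply] using this

theorem f_tM {s : ℕ} (X : Stage P lam g (s + 1)) (d : O) :
    X.f (tM O d) = 4 * Qf (X.a (Fin.last s)) - algebraMap O X.E (d ^ 2) := by
  rw [tM, map_sub, map_mul, f_C, map_ofNat]
  congr 2
  simp only [Qf, map_add, map_pow, map_mul, f_aV]

end Stage

/-! ### Type vectors -/

section TyVec

variable {T : Type u} {s : ℕ}

/-- the type vectors: at every prime `v` an allowed type -/
abbrev TyVec (𝒯 : Fin s → Finset T) := ∀ v : Fin s, {t // t ∈ 𝒯 v}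

/-- the underlying vector of types -/
def toVec {𝒯 : Fin s → Finset T} (ξ : TyVec 𝒯) : Fin s → T := fun v => (ξ v).1

theorem toVec_mem {𝒯 : Fin s → Finset T} (ξ : TyVec 𝒯) (v : Fin s) : toVec ξ v ∈ 𝒯 v :=
  (ξ v).2

end TyVec

/-! ### The ideal `J2M` of a family of stages -/

section Family

variable {O : Type u} [CommRing O] [IsLocalRing O] [IsNoetherianRing O]
  [IsAdicComplete (maximalIdeal O) O] {P : PtSpec O} {lam : O} {g s : ℕ}
  {𝒯 : Fin s → Finset P.T} (Fam : TyVec 𝒯 → Stage P lam g s)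

/-- `J₂` for several framed primes: the intersection of the kernels of all multi-charts -/
noncomputable def J2M : Ideal (RM O s g) := ⨅ ξ, RingHom.ker (Fam ξ).f

theorem J2M_le (ξ : TyVec 𝒯) : J2M Fam ≤ RingHom.ker (Fam ξ).f := iInf_le _ ξ

theorem mem_J2M_iff (r : RM O s g) : r ∈ J2M Fam ↔ ∀ ξ, (Fam ξ).f r = 0 := by
  rw [J2M, Ideal.mem_iInf]
  exact Iff.rfl

theorem J2M_ne_top (hne : ∀ v, (𝒯 v).Nonempty) : J2M Fam ≠ ⊤ := by
  intro h
  have h1 : (1 : RM O s g) ∈ J2M Fam := by rw [h]; exact Submodule.mem_top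
  have := (mem_J2M_iff Fam 1).1 h1 (fun v => ⟨(hne v).choose, (hne v).choose_spec⟩)
  rw [map_one] at this
  exact one_ne_zero this

/-- the quotient maps `RM ⧸ J2M → E_ξ` -/
noncomputable def quotMap (ξ : TyVec 𝒯) : RM O s g ⧸ J2M Fam →+* (Fam ξ).E :=
  Ideal.Quotient.lift (J2M Fam) (Fam ξ).f.toRingHom (fun r hr => (mem_J2M_iff Fam r).1 hr ξ)

@[simp] theorem quotMap_mk (ξ : TyVec 𝒯) (r : RM O s g) :
    quotMap Fam ξ (Ideal.Quotient.mk (J2M Fam) r) = (Fam ξ).f r := by
  rw [quotMap, Ideal.Quotient.lift_mk]; rfl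

theorem iInf_ker_quotMap : ⨅ ξ, RingHom.ker (quotMap Fam ξ) = ⊥ := by
  rw [eq_bot_iff]
  intro x hx
  obtain ⟨r, rfl⟩ := Ideal.Quotient.mk_surjective x
  rw [Ideal.mem_iInf] at hx
  rw [Ideal.mem_bot, Ideal.Quotient.eq_zero_iff_mem, mem_J2M_iff]
  intro ξ
  have := hx ξ
  rwa [RingHom.mem_ker, quotMap_mk] at this

variable (hFam : ∀ ξ, (Fam ξ).ty = toVec ξ)
include hFam

/-- **(kill₂)** a point of the flat ring all of whose blocks are points of allowed types kills
`J2M`. -/
theorem J2M_le_ker {A : Type u} [CommRing A] [IsLocalRing A] [Algebra O A]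
    [IsAdicComplete (maximalIdeal A) A] (θ : RM O s g →ₐ[O] A)
    (hpt : ∀ v, ∃ t ∈ 𝒯 v, P.pred t A (fun i => θ (aV O v i)) (fun i => θ (nV O v i)))
    (hx : ∀ j, θ (xV O j) ∈ maximalIdeal A) : J2M Fam ≤ RingHom.ker θ := by
  choose t ht hpt using hpt
  let ξ : TyVec 𝒯 := fun v => ⟨t v, ht v⟩
  obtain ⟨ψ, h1, h2, h3⟩ := (Fam ξ).lift A (fun v i => θ (aV O v i)) (fun v i => θ (nV O v i))
    (fun j => θ (xV O j)) (fun v => by rw [hFam]; exact hpt v) hx
  have key : ∀ k : Idx s g, (ψ.comp (Fam ξ).f) (X k) = θ (X k) := by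
    intro k
    rw [AlgHom.comp_apply, Stage.f_X]
    rcases k with ⟨v, j⟩ | j
    · have key2 : ∀ j : Fin (3 + 3), ψ (Fin.append ((Fam ξ).a v) ((Fam ξ).n v) j) =
          θ (X (Sum.inl (v, j))) := by
        intro j
        induction j using Fin.addCases with
        | left i => rw [Fin.append_left]; exact h1 v i
        | right i => rw [Fin.append_right]; exact h2 v i
      exact key2 j
    · exact h3 j
  have hmem : ∀ k : Idx s g, θ (X k) ∈ maximalIdeal A := by
    rintro (⟨v, j⟩ | j)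
    · have key2 : ∀ j : Fin (3 + 3), θ (X (Sum.inl (v, j))) ∈ maximalIdeal A := by
        intro j
        induction j using Fin.addCases with
        | left i => exact P.mem_a (hpt v) i
        | right i => exact P.mem_n (hpt v) i
      exact key2 j
    · exact hx j
  have hθ : ψ.comp (Fam ξ).f = θ :=
    Fermat.Agent.S53.algHom_ext_X _ _ (fun k => by rw [key]; exact hmem k) key
  intro r hr
  have h0 : (Fam ξ).f r = 0 := (mem_J2M_iff Fam r).1 hr ξ
  rw [RingHom.mem_ker, ← hθ, AlgHom.comp_apply, h0, map_zero]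

end Family

/-! ### The dimension bound -/

section Dim

variable {O : Type u} [CommRing O] [IsLocalRing O] [IsNoetherianRing O]
  [IsAdicComplete (maximalIdeal O) O] {P : PtSpec O} {lam : O} {g s : ℕ}
  {𝒯 : Fin s → Finset P.T} (Fam : TyVec 𝒯 → Stage P lam g s)

/-- the per-type certificate: on points of type `t`, the minors `a₀n₂ − a₂n₀`, `a₁n₂ − a₂n₁` and
`Q(n)` are the values of three elements of `(lam) ⊆ P6 O`. -/
def HasCert (P : PtSpec O) (lam : O) (t : P.T) : Prop :=
  ∃ m : Fin 3 → P6 O, (∀ k, m k ∈ Ideal.span {(C lam : P6 O)}) ∧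
    ∀ (A : Type u) [CommRing A] [IsLocalRing A] [Algebra O A] [IsAdicComplete (maximalIdeal A) A]
      (a n : Fin 3 → A) (h : P.pred t A a n),
      a 0 * n 2 - a 2 * n 0 = evalPair (O := O) a n (P.mem_a h) (P.mem_n h) (m 0) ∧
      a 1 * n 2 - a 2 * n 1 = evalPair (O := O) a n (P.mem_a h) (P.mem_n h) (m 1) ∧
      n 0 ^ 2 + n 1 * n 2 = evalPair (O := O) a n (P.mem_a h) (P.mem_n h) (m 2)

theorem inc_mem_span (v : Fin s) {r : P6 O} (hr : r ∈ Ideal.span {(C lam : P6 O)}) :
    inc O (g := g) v r ∈ Ideal.span {(C lam : RM O s g)} := by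
  obtain ⟨e, rfl⟩ := Ideal.mem_span_singleton'.1 hr
  have hC : inc O (g := g) v (C lam) = C lam := by
    have := (inc O (g := g) v).commutes lam
    simpa [MvPowerSeries.algebraMap_apply] using this
  rw [map_mul, hC]
  exact Ideal.mul_mem_left _ _ (Ideal.mem_span_singleton_self _)

variable (hFam : ∀ ξ, (Fam ξ).ty = toVec ξ)
include hFam

/-- **(hdim)** `dim RM ⧸ J2M ≤ 1 + 3 s + g` -/
theorem ringKrullDim_quot_J2M_le (hmax : maximalIdeal O = Ideal.span {lam})
    (hne : ∀ v, (𝒯 v).Nonempty) (hcert : ∀ v, ∀ t ∈ 𝒯 v, HasCert P lam t) :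
    ringKrullDim (RM O s g ⧸ J2M Fam) ≤ ((1 + 3 * s + g : ℕ) : WithBot ℕ∞) := by
  classical
  have hJne : J2M Fam ≠ ⊤ := J2M_ne_top Fam hne
  have : Nontrivial (RM O s g ⧸ J2M Fam) := Ideal.Quotient.nontrivial_iff.mpr hJne
  have : IsLocalRing (RM O s g ⧸ J2M Fam) :=
    IsLocalRing.of_surjective' (Ideal.Quotient.mk (J2M Fam)) Ideal.Quotient.mk_surjective
  set mk := Ideal.Quotient.mk (J2M Fam) with hmk
  have hlam : lam ∈ maximalIdeal O := by rw [hmax]; exact Ideal.mem_span_singleton_self _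
  have hmkmem : ∀ {x : RM O s g}, x ∈ maximalIdeal (RM O s g) →
      mk x ∈ maximalIdeal (RM O s g ⧸ J2M Fam) := by
    intro x hx
    rw [mem_maximalIdeal, mem_nonunits_iff] at hx ⊢
    intro hu
    apply hx
    have : IsLocalHom mk := IsLocalHom.of_surjective mk Ideal.Quotient.mk_surjective
    exact (isUnit_map_iff mk x).1 hu
  -- the certificates
  have hc : ∀ (ξ : TyVec 𝒯) (v : Fin s), HasCert P lam ((Fam ξ).ty v) := fun ξ v => by
    rw [hFam]; exact hcert v _ (toVec_mem ξ v)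
  choose m hmspan hmrel using hc
  have hrel : ∀ (ξ : TyVec 𝒯) (v : Fin s),
      (Fam ξ).a v 0 * (Fam ξ).n v 2 - (Fam ξ).a v 2 * (Fam ξ).n v 0 =
        (Fam ξ).f (inc O v (m ξ v 0)) ∧
      (Fam ξ).a v 1 * (Fam ξ).n v 2 - (Fam ξ).a v 2 * (Fam ξ).n v 1 =
        (Fam ξ).f (inc O v (m ξ v 1)) ∧
      (Fam ξ).n v 0 ^ 2 + (Fam ξ).n v 1 * (Fam ξ).n v 2 = (Fam ξ).f (inc O v (m ξ v 2)) := by
    intro ξ v
    have h := hmrel ξ v (Fam ξ).E ((Fam ξ).a v) ((Fam ξ).n v) ((Fam ξ).isPt v)
    rw [← Stage.f_comp_inc] at h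
    exact h
  have hCl : (C lam : RM O s g) ∈ maximalIdeal (RM O s g) := by
    rw [Fermat.Agent.S53.mem_maximalIdeal_mvPowerSeries_iff, constantCoeff_C]; exact hlam
  have hspanmk : ∀ {r : RM O s g}, r ∈ Ideal.span {(C lam : RM O s g)} →
      mk r ∈ Ideal.span {mk (C lam)} := by
    intro r hr
    obtain ⟨e, rfl⟩ := Ideal.mem_span_singleton'.1 hr
    rw [map_mul]
    exact Ideal.mul_mem_left _ _ (Ideal.mem_span_singleton_self _)
  have key := Fermat.Agent.GB.Alg.MultiCertMod.ringKrullDim_le_of_family_mod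
    (R := RM O s g ⧸ J2M Fam) (σ := Fin s) (τ := Fin g) (D := fun ξ => (Fam ξ).E)
    (quotMap Fam) (iInf_ker_quotMap Fam) (mk (C lam)) (fun v i => mk (aV O v i))
    (fun v i => mk (nV O v i)) (fun j => mk (xV O j))
    (fun ξ v => mk (inc O v (m ξ v 0))) (fun ξ v => mk (inc O v (m ξ v 1)))
    (fun ξ v => mk (inc O v (m ξ v 2))) ?_ (hmkmem hCl) (fun v i => hmkmem (aV_mem O v i))
    (fun v i => hmkmem (nV_mem O v i)) (fun j => hmkmem (xV_mem O j))
    (fun ξ v => hspanmk (inc_mem_span v (hmspan ξ v 0)))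
    (fun ξ v => hspanmk (inc_mem_span v (hmspan ξ v 1)))
    (fun ξ v => hspanmk (inc_mem_span v (hmspan ξ v 2))) ?_ ?_ ?_
  · simpa only [Fintype.card_fin] using key
  · -- the maximal ideal is generated by `lam` and the coordinates
    intro p hp hl ha hn hx
    have hcp : (p.comap mk).IsPrime := Ideal.comap_isPrime mk p
    have hX : ∀ k : Idx s g, (X k : RM O s g) ∈ p.comap mk := by
      rintro (⟨v, j⟩ | j)
      · have key2 : ∀ j : Fin (3 + 3), (X (Sum.inl (v, j)) : RM O s g) ∈ p.comap mk := by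
          intro j
          induction j using Fin.addCases with
          | left i => exact ha v i
          | right i => exact hn v i
        exact key2 j
      · exact hx j
    have hall : maximalIdeal (RM O s g) ≤ p.comap mk := by
      intro r hr
      have hr0 : constantCoeff r ∈ maximalIdeal O := by
        rwa [Fermat.Agent.S53.mem_maximalIdeal_mvPowerSeries_iff] at hr
      rw [hmax, Ideal.mem_span_singleton'] at hr0
      obtain ⟨e, he⟩ := hr0
      have h3 : r = (r - C (constantCoeff r)) + C e * C lam := by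
        rw [← map_mul, he]; ring
      rw [h3]
      refine add_mem ?_ (Ideal.mul_mem_left _ _ hl)
      refine (Ideal.span_le.2 ?_) (Cert.sub_C_constantCoeff_mem r)
      rintro _ ⟨k, rfl⟩
      exact hX k
    intro y hy
    obtain ⟨r, rfl⟩ := Ideal.Quotient.mk_surjective y
    have hr : r ∈ maximalIdeal (RM O s g) := by
      rw [mem_maximalIdeal, mem_nonunits_iff] at hy ⊢
      intro hu
      exact hy (hu.map mk)
    exact hall hr
  · intro ξ v
    rw [← map_mul, ← map_mul, ← map_sub, quotMap_mk, quotMap_mk, map_sub, map_mul, map_mul,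
      Stage.f_aV, Stage.f_aV, Stage.f_nV, Stage.f_nV]
    exact (hrel ξ v).1
  · intro ξ v
    rw [← map_mul, ← map_mul, ← map_sub, quotMap_mk, quotMap_mk, map_sub, map_mul, map_mul,
      Stage.f_aV, Stage.f_aV, Stage.f_nV, Stage.f_nV]
    exact (hrel ξ v).2.1
  · intro ξ v
    rw [← map_pow, ← map_mul, ← map_add, quotMap_mk, quotMap_mk, map_add, map_pow, map_mul,
      Stage.f_nV, Stage.f_nV, Stage.f_nV]
    exact (hrel ξ v).2.2

end Dim

/-! ### The `t`-test -/

section HP

variable {O : Type u} [CommRing O] [IsLocalRing O] [IsNoetherianRing O]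
  [IsAdicComplete (maximalIdeal O) O] {P : PtSpec O} {lam : O} {g s : ℕ}
  {𝒯 : Fin (s + 1) → Finset P.T} (Fam : TyVec 𝒯 → Stage P lam g (s + 1))

/-- **(hP)** the `t`-test at the last prime, on every minimal prime of `RM ⧸ J2M`. -/
theorem hP_J2M (d : O) (hHP : ∀ ξ, (Fam ξ).HP d) :
    ∀ Q ∈ minimalPrimes (RM O (s + 1) g ⧸ J2M Fam),
      Ideal.Quotient.mk (J2M Fam) (tM O d) ∉
        (Q ⊔ Ideal.span {Ideal.Quotient.mk (J2M Fam) (C lam)}).radical := by
  refine Fermat.Agent.GB.Alg.ChartDim.hP_of_charts (fun ξ => (Fam ξ).E) (quotMap Fam)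
    (iInf_ker_quotMap Fam) _ _ ?_
  intro ξ 𝔓 h𝔓
  rw [quotMap_mk, quotMap_mk, Stage.f_tM, Stage.f_C]
  exact hHP ξ 𝔓 h𝔓

end HP

end Fermat.Agent.GB.Local.Multi.G
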