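/-
GATE-B / B1-MULTI, design (III) (board 5688, referee 5729), helper6: the STEINBERG chart at a framed
prime `v ≠ q` with `v ≡ 1 (p)` and scalar residual Frobenius.

For a complete noetherian local ring `B` and `c ∈ 𝔪_B` (`c = (v − 1)/2`):
* `B4 B = B⟦β, v₂, y₂, s⟧` (`MvPowerSeries (Fin 4) B`, helper51's `WChart.B4`),
* `Dc B c = β² − v₂ y₂ + c ∈ 𝔪_{B4}`,  `Gc B c = X² − Dc ∈ B4[X]` — a DISTINGUISHED polynomial,
* `StChart B c = B4⟦X⟧ ⧸ (Gc)` is finite free of rank `2` over `B4`, local, complete,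
  `B4 → StChart` injective;
* coordinates `α = X`, `v₁ = α + β`, `y₁ = α − β`, `v₂`, `y₂`, `s`, with `v₁ y₁ + v₂ y₂ = c`;
* for a sign `e` the coordinate pair
  `a = e • (v₁y₁ − v₂y₂, 2 v₁y₂, 2 v₂y₁)` (`A₀ = e (2 v yᵀ − c)`),
  `n = s • (−v₁v₂, v₁², −v₂²)`            (`N = s · v (v^⊥)ᵀ`),
  with `Q a = e² c²`, `Q n = 0`, `⟨a, n⟩ = 0`, `[A₀, N] = 2 e c N`.
-/
import Mathlib
import Fermat.Agent.GB.Local.Multi.WChart
import Fermat.Agent.S53.PSEval

set_option autoImplicit false
set_option linter.unusedSectionVars false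
set_option linter.dupNamespace false
set_option linter.style.haveILetI false
set_option linter.unusedSimpArgs false

open IsLocalRing Polynomial

namespace Fermat.Agent.GB.Local.Multi.StChart

open Fermat.Agent.GB.Local.Multi.WChart

/-! ### The quadratic `X² − D` -/

section Quadratic

variable {A : Type*} [CommRing A]

/-- `X² − D` -/
noncomputable def quadr (D : A) : A[X] := X ^ 2 - C D

theorem quadr_monic (D : A) : (quadr D).Monic := monic_X_pow_sub_C D (by norm_num)

theorem quadr_natDegree [Nontrivial A] (D : A) : (quadr D).natDegree = 2 :=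
  natDegree_X_pow_sub_C

theorem quadr_coeff (D : A) (n : ℕ) :
    (quadr D).coeff n = if n = 2 then 1 else if n = 0 then -D else 0 := by
  simp only [quadr, coeff_sub, coeff_X_pow, coeff_C]
  rcases n with _ | _ | _ | n <;> simp

theorem quadr_isDistinguishedAt (I : Ideal A) {D : A} (hD : D ∈ I) :
    (quadr D).IsDistinguishedAt I := by
  refine ⟨⟨fun {n} hn => ?_⟩, quadr_monic D⟩
  rcases subsingleton_or_nontrivial A with _ | _
  · rw [Subsingleton.elim ((quadr D).coeff n) 0]; exact I.zero_mem
  rw [quadr_natDegree] at hn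
  rw [quadr_coeff]
  interval_cases n <;> simp [hD]

end Quadratic

/-! ### The chart -/

section Chart

variable (B : Type*) [CommRing B]

/-- the coordinate `β = (v₁ − y₁)/2` -/
noncomputable def bv : B4 B := MvPowerSeries.X 0
/-- the coordinate `v₂` -/
noncomputable def v2v : B4 B := MvPowerSeries.X 1
/-- the coordinate `y₂` -/
noncomputable def y2v : B4 B := MvPowerSeries.X 2
/-- the coordinate `s` -/
noncomputable def sv : B4 B := MvPowerSeries.X 3

/-- `D_c = β² − v₂ y₂ + c` -/
noncomputable def Dc (c : B) : B4 B := bv B ^ 2 - v2v B * y2v B + MvPowerSeries.C c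

/-- `G_c = X² − D_c` -/
noncomputable def Gc (c : B) : (B4 B)[X] := quadr (Dc B c)

/-- **the Steinberg chart** `B⟦β,v₂,y₂,s⟧⟦α⟧ ⧸ (α² − D_c)` -/
abbrev StChart (c : B) :=
  PowerSeries (B4 B) ⧸ Ideal.span {((Gc B c : (B4 B)[X]) : PowerSeries (B4 B))}

variable [IsLocalRing B]

theorem Dc_mem {c : B} (hc : c ∈ maximalIdeal B) : Dc B c ∈ maximalIdeal (B4 B) := by
  refine add_mem (sub_mem (Ideal.pow_mem_of_mem _ (X_mem B 0) 2 (by norm_num))
    (Ideal.mul_mem_right _ _ (X_mem B 1))) ?_
  rw [Fermat.Agent.S53.PSC.mem_maximalIdeal_iff, MvPowerSeries.constantCoeff_C]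
  exact hc

theorem Gc_isDistinguishedAt {c : B} (hc : c ∈ maximalIdeal B) :
    (Gc B c).IsDistinguishedAt (maximalIdeal (B4 B)) :=
  quadr_isDistinguishedAt _ (Dc_mem B hc)

theorem Gc_natDegree (c : B) : (Gc B c).natDegree = 2 := quadr_natDegree _

variable [IsNoetherianRing B] [IsAdicComplete (maximalIdeal B) B]

variable {B}

theorem finite_StChart {c : B} (hc : c ∈ maximalIdeal B) : Module.Finite (B4 B) (StChart B c) := by
  have := isAdicComplete_B4 B
  exact finite_quotient (Gc_isDistinguishedAt B hc)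

theorem free_StChart {c : B} (hc : c ∈ maximalIdeal B) : Module.Free (B4 B) (StChart B c) := by
  have := isAdicComplete_B4 B
  exact free_quotient (Gc_isDistinguishedAt B hc)

theorem algebraMap_StChart_injective {c : B} (hc : c ∈ maximalIdeal B) :
    Function.Injective (algebraMap (B4 B) (StChart B c)) := by
  have := isAdicComplete_B4 B
  exact algebraMap_quotient_injective (Gc_isDistinguishedAt B hc)
    (by rw [Gc_natDegree]; norm_num)

theorem nontrivial_StChart {c : B} (hc : c ∈ maximalIdeal B) : Nontrivial (StChart B c) :=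
  (algebraMap_StChart_injective hc).nontrivial

theorem isLocalRing_StChart {c : B} (hc : c ∈ maximalIdeal B) : IsLocalRing (StChart B c) := by
  have := nontrivial_StChart hc
  exact IsLocalRing.of_surjective' (Ideal.Quotient.mk _) Ideal.Quotient.mk_surjective

end Chart

/-! ### Instances, coordinates and the relation -/

section Coord

variable {B : Type*} [CommRing B] [IsLocalRing B] [IsNoetherianRing B]
  [IsAdicComplete (maximalIdeal B) B] {c : B}

theorem algebraMap_StChart_apply (a : B4 B) :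
    algebraMap (B4 B) (StChart B c) a = Ideal.Quotient.mk _ (PowerSeries.C a) := rfl

theorem mk_mem_maximalIdeal (hc : c ∈ maximalIdeal B) {f : PowerSeries (B4 B)}
    (hf : f ∈ maximalIdeal (PowerSeries (B4 B))) :
    haveI := isLocalRing_StChart hc
    (Ideal.Quotient.mk _ f : StChart B c) ∈ maximalIdeal (StChart B c) := by
  haveI := isLocalRing_StChart hc
  exact Fermat.Agent.GB.Local.DimCert.map_mem_maximalIdeal_of_surjective
    (Ideal.Quotient.mk (Ideal.span {((Gc B c : (B4 B)[X]) : PowerSeries (B4 B))}))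
    Ideal.Quotient.mk_surjective hf

theorem algebraMap_mem_maximalIdeal (hc : c ∈ maximalIdeal B) {a : B4 B}
    (ha : a ∈ maximalIdeal (B4 B)) :
    haveI := isLocalRing_StChart hc
    algebraMap (B4 B) (StChart B c) a ∈ maximalIdeal (StChart B c) :=
  mk_mem_maximalIdeal hc (C_mem_maximalIdeal_powerSeries ha)

theorem isLocalHom_algebraMap_StChart (hc : c ∈ maximalIdeal B) :
    haveI := isLocalRing_StChart hc
    IsLocalHom (algebraMap (B4 B) (StChart B c)) := by
  haveI := isLocalRing_StChart hc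
  constructor
  intro a ha
  by_contra hnu
  have h1 : a ∈ maximalIdeal (B4 B) := (mem_maximalIdeal _).mpr hnu
  exact (mem_maximalIdeal _).mp (algebraMap_mem_maximalIdeal hc h1) ha

theorem isAdicComplete_StChart (hc : c ∈ maximalIdeal B) :
    haveI := isLocalRing_StChart hc
    IsAdicComplete (maximalIdeal (StChart B c)) (StChart B c) := by
  haveI := isLocalRing_StChart hc
  haveI := isAdicComplete_B4 B
  haveI := finite_StChart hc
  haveI := isLocalHom_algebraMap_StChart hc
  exact IsLocalRing.isAdicComplete_of_module_finite (𝒪 := B4 B) (T := StChart B c)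

variable (B c)

/-- the coordinate `α = (v₁ + y₁)/2` -/
noncomputable def al : StChart B c := Ideal.Quotient.mk _ PowerSeries.X
/-- the coordinate `β = (v₁ − y₁)/2` -/
noncomputable def be : StChart B c := algebraMap (B4 B) (StChart B c) (bv B)
/-- the coordinate `v₂` -/
noncomputable def v2 : StChart B c := algebraMap (B4 B) (StChart B c) (v2v B)
/-- the coordinate `y₂` -/
noncomputable def y2 : StChart B c := algebraMap (B4 B) (StChart B c) (y2v B)
/-- the coordinate `s` -/
noncomputable def sc : StChart B c := algebraMap (B4 B) (StChart B c) (sv B)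
/-- the coordinate `v₁ = α + β` -/
noncomputable def v1 : StChart B c := al B c + be B c
/-- the coordinate `y₁ = α − β` -/
noncomputable def y1 : StChart B c := al B c - be B c

theorem coe_Gc : ((Gc B c : (B4 B)[X]) : PowerSeries (B4 B)) =
    PowerSeries.X ^ 2 - PowerSeries.C (Dc B c) := by
  rw [Gc, quadr, Polynomial.coe_sub, Polynomial.coe_pow, Polynomial.coe_C, Polynomial.coe_X]

/-- the relation in any quotient of `B4⟦X⟧` in which `G_c` vanishes -/
theorem relation_aux (I : Ideal (PowerSeries (B4 B)))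
    (hmem : ((Gc B c : (B4 B)[X]) : PowerSeries (B4 B)) ∈ I) :
    (Ideal.Quotient.mk I PowerSeries.X) ^ 2 =
      Ideal.Quotient.mk I (PowerSeries.C (bv B)) ^ 2 -
        Ideal.Quotient.mk I (PowerSeries.C (v2v B)) * Ideal.Quotient.mk I (PowerSeries.C (y2v B)) +
        Ideal.Quotient.mk I (PowerSeries.C (MvPowerSeries.C c)) := by
  have h0 := Ideal.Quotient.eq_zero_iff_mem.mpr hmem
  rw [coe_Gc, Dc] at h0
  simp only [map_add, map_sub, map_mul, map_pow] at h0
  linear_combination h0

/-- `α² = β² − v₂ y₂ + c` -/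
theorem al_sq :
    al B c ^ 2 = be B c ^ 2 - v2 B c * y2 B c +
      algebraMap (B4 B) (StChart B c) (MvPowerSeries.C c) :=
  relation_aux B c _ (Ideal.mem_span_singleton_self _)

/-- **the relation of the chart**: `v₁ y₁ + v₂ y₂ = c` -/
theorem relation :
    v1 B c * y1 B c + v2 B c * y2 B c = algebraMap (B4 B) (StChart B c) (MvPowerSeries.C c) := by
  have h := al_sq B c
  simp only [v1, y1]
  linear_combination h

end Coord

/-! ### Membership in the maximal ideal, the coordinate pair -/

section Pair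

variable {B : Type*} [CommRing B] [IsLocalRing B] [IsNoetherianRing B]
  [IsAdicComplete (maximalIdeal B) B] {c : B}

open Fermat.Agent.GB.Local.TamePoint

theorem al_mem (hc : c ∈ maximalIdeal B) :
    haveI := isLocalRing_StChart hc
    al B c ∈ maximalIdeal (StChart B c) :=
  mk_mem_maximalIdeal hc X_mem_maximalIdeal_powerSeries

theorem be_mem (hc : c ∈ maximalIdeal B) :
    haveI := isLocalRing_StChart hc
    be B c ∈ maximalIdeal (StChart B c) :=
  algebraMap_mem_maximalIdeal hc (X_mem B 0)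

theorem v2_mem (hc : c ∈ maximalIdeal B) :
    haveI := isLocalRing_StChart hc
    v2 B c ∈ maximalIdeal (StChart B c) :=
  algebraMap_mem_maximalIdeal hc (X_mem B 1)

theorem y2_mem (hc : c ∈ maximalIdeal B) :
    haveI := isLocalRing_StChart hc
    y2 B c ∈ maximalIdeal (StChart B c) :=
  algebraMap_mem_maximalIdeal hc (X_mem B 2)

theorem sc_mem (hc : c ∈ maximalIdeal B) :
    haveI := isLocalRing_StChart hc
    sc B c ∈ maximalIdeal (StChart B c) :=
  algebraMap_mem_maximalIdeal hc (X_mem B 3)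

theorem v1_mem (hc : c ∈ maximalIdeal B) :
    haveI := isLocalRing_StChart hc
    v1 B c ∈ maximalIdeal (StChart B c) := by
  haveI := isLocalRing_StChart hc
  exact add_mem (al_mem hc) (be_mem hc)

theorem y1_mem (hc : c ∈ maximalIdeal B) :
    haveI := isLocalRing_StChart hc
    y1 B c ∈ maximalIdeal (StChart B c) := by
  haveI := isLocalRing_StChart hc
  exact sub_mem (al_mem hc) (be_mem hc)

variable (B c)

/-- the vector `(v₁y₁ − v₂y₂, 2 v₁y₂, 2 v₂y₁)`: traceless coordinates of `2 v yᵀ − c` -/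
noncomputable def aVec : Fin 3 → StChart B c :=
  ![v1 B c * y1 B c - v2 B c * y2 B c, 2 * (v1 B c * y2 B c), 2 * (v2 B c * y1 B c)]

/-- the vector `(−v₁v₂, v₁², −v₂²)`: traceless coordinates of `v (v^⊥)ᵀ` -/
noncomputable def nVec : Fin 3 → StChart B c :=
  ![-(v1 B c * v2 B c), v1 B c ^ 2, -(v2 B c ^ 2)]

/-- the coordinate vector `a = e • (v₁y₁ − v₂y₂, 2 v₁y₂, 2 v₂y₁)` (the Frobenius part), `e` the
sign -/
noncomputable def aPair (e : B) : Fin 3 → StChart B c :=
  fun i => algebraMap B (StChart B c) e * aVec B c i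

/-- the coordinate vector `n = s • (−v₁v₂, v₁², −v₂²)` (the tame part) -/
noncomputable def nPair : Fin 3 → StChart B c := fun i => sc B c * nVec B c i

variable {B c}

theorem aVec_mem (hc : c ∈ maximalIdeal B) (i : Fin 3) :
    haveI := isLocalRing_StChart hc
    aVec B c i ∈ maximalIdeal (StChart B c) := by
  haveI := isLocalRing_StChart hc
  fin_cases i
  · exact sub_mem (Ideal.mul_mem_right _ _ (v1_mem hc)) (Ideal.mul_mem_right _ _ (v2_mem hc))
  · exact Ideal.mul_mem_left _ _ (Ideal.mul_mem_right _ _ (v1_mem hc))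
  · exact Ideal.mul_mem_left _ _ (Ideal.mul_mem_right _ _ (v2_mem hc))

theorem aPair_mem (hc : c ∈ maximalIdeal B) (e : B) (i : Fin 3) :
    haveI := isLocalRing_StChart hc
    aPair B c e i ∈ maximalIdeal (StChart B c) := by
  haveI := isLocalRing_StChart hc
  exact Ideal.mul_mem_left _ _ (aVec_mem hc i)

theorem nPair_mem (hc : c ∈ maximalIdeal B) (i : Fin 3) :
    haveI := isLocalRing_StChart hc
    nPair B c i ∈ maximalIdeal (StChart B c) := by
  haveI := isLocalRing_StChart hc
  exact Ideal.mul_mem_right _ _ (sc_mem hc)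

variable (B c)

/-- compatibility of the two structure maps: `B → B4 → StChart` -/
theorem algebraMap_B_apply (b : B) :
    algebraMap B (StChart B c) b = algebraMap (B4 B) (StChart B c) (MvPowerSeries.C b) := by
  rw [IsScalarTower.algebraMap_apply B (B4 B) (StChart B c), MvPowerSeries.algebraMap_apply]
  rfl

/-- the relation with the constant in `B`-algebra form: `v₁ y₁ + v₂ y₂ = c` -/
theorem relation' :
    v1 B c * y1 B c + v2 B c * y2 B c = algebraMap B (StChart B c) c := by
  rw [relation, algebraMap_B_apply]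

/-- `Q (v₁y₁ − v₂y₂, 2 v₁y₂, 2 v₂y₁) = (v·y)² = c²` -/
theorem Q_aVec : Q (aVec B c) = algebraMap B (StChart B c) c ^ 2 := by
  rw [← relation']
  simp only [Q, aVec, Matrix.cons_val_zero, Matrix.cons_val_one, Matrix.cons_val]
  ring

/-- `Q a = e² c²` -/
theorem Q_aPair (e : B) :
    Q (aPair B c e) = algebraMap B (StChart B c) e ^ 2 * algebraMap B (StChart B c) c ^ 2 := by
  rw [← Q_aVec]
  simp only [Q, aPair]
  ring

/-- `Q n = 0` -/
theorem Q_nPair : Q (nPair B c) = 0 := by
  simp only [Q, nPair, nVec, Matrix.cons_val_zero, Matrix.cons_val_one, Matrix.cons_val]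
  ring

/-- `⟨a, n⟩ = 2 a₀n₀ + a₁n₂ + a₂n₁ = 0` (`tr (A₀ N) = 0`) -/
theorem inner_pair (e : B) :
    2 * (aPair B c e 0 * nPair B c 0) + aPair B c e 1 * nPair B c 2 +
      aPair B c e 2 * nPair B c 1 = 0 := by
  simp only [aPair, nPair, aVec, nVec, Matrix.cons_val_zero, Matrix.cons_val_one, Matrix.cons_val]
  ring

/-- `[A₀, N] = 2 e c N`, entry `(0,0)`: `a₁n₂ − a₂n₁ = 2 e c n₀` -/
theorem minor12 (e : B) :
    aPair B c e 1 * nPair B c 2 - aPair B c e 2 * nPair B c 1 =
      2 * (algebraMap B (StChart B c) e * algebraMap B (StChart B c) c) * nPair B c 0 := by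
  rw [← relation']
  simp only [aPair, nPair, aVec, nVec, Matrix.cons_val_zero, Matrix.cons_val_one, Matrix.cons_val]
  ring

/-- `[A₀, N] = 2 e c N`, entry `(0,1)`: `a₀n₁ − a₁n₀ = e c n₁` -/
theorem minor01 (e : B) :
    aPair B c e 0 * nPair B c 1 - aPair B c e 1 * nPair B c 0 =
      algebraMap B (StChart B c) e * algebraMap B (StChart B c) c * nPair B c 1 := by
  rw [← relation']
  simp only [aPair, nPair, aVec, nVec, Matrix.cons_val_zero, Matrix.cons_val_one, Matrix.cons_val]
  ring

/-- `[A₀, N] = 2 e c N`, entry `(1,0)`: `a₂n₀ − a₀n₂ = e c n₂`, i.e. `a₀n₂ − a₂n₀ = −e c n₂` -/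
theorem minor02 (e : B) :
    aPair B c e 0 * nPair B c 2 - aPair B c e 2 * nPair B c 0 =
      -(algebraMap B (StChart B c) e * algebraMap B (StChart B c) c * nPair B c 2) := by
  rw [← relation']
  simp only [aPair, nPair, aVec, nVec, Matrix.cons_val_zero, Matrix.cons_val_one, Matrix.cons_val]
  ring

end Pair

/-! ### Homomorphisms out of the chart -/

section Hom

variable {B : Type*} [CommRing B] [IsLocalRing B] [IsNoetherianRing B]
  [IsAdicComplete (maximalIdeal B) B] {c : B}
variable {T : Type*} [CommRing T] [IsLocalRing T] [Algebra B T]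
  [IsAdicComplete (maximalIdeal T) T]

/-- **points of the chart**: values `α', β', v₂', y₂', s'` in the maximal ideal of a complete local
`B`-algebra with `α'² = β'² − v₂' y₂' + c` define a `B`-algebra homomorphism out of `StChart B c`. -/
theorem exists_algHom_StChart (al' be' v2' y2' s' : T) (hal : al' ∈ maximalIdeal T)
    (hbe : be' ∈ maximalIdeal T) (hv2 : v2' ∈ maximalIdeal T) (hy2 : y2' ∈ maximalIdeal T)
    (hs : s' ∈ maximalIdeal T)
    (hrel : al' ^ 2 = be' ^ 2 - v2' * y2' + algebraMap B T c) :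
    ∃ φ : StChart B c →ₐ[B] T, φ (al B c) = al' ∧ φ (be B c) = be' ∧ φ (v2 B c) = v2' ∧
      φ (y2 B c) = y2' ∧ φ (sc B c) = s' := by
  let a : Fin 4 → T := ![be', v2', y2', s']
  have ha : ∀ i, a i ∈ maximalIdeal T := by
    intro i
    fin_cases i
    · exact hbe
    · exact hv2
    · exact hy2
    · exact hs
  obtain ⟨ψ4, hψ4⟩ := Fermat.Agent.S53.exists_algHom_X (𝒪 := B) (A := T) a ha
  letI : Algebra (B4 B) T := ψ4.toRingHom.toAlgebra
  have tower : IsScalarTower B (B4 B) T :=
    IsScalarTower.of_algebraMap_eq (fun r => (ψ4.commutes r).symm)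
  have halg : ∀ f : B4 B, algebraMap (B4 B) T f = ψ4 f := fun f => rfl
  obtain ⟨ψ, hψ⟩ := Fermat.Agent.S53.exists_algHom_X (𝒪 := B4 B) (A := T)
    (fun _ : Unit => al') (fun _ => hal)
  have hψC : ∀ f : B4 B, ψ (PowerSeries.C f) = ψ4 f := by
    intro f
    have h1 : (PowerSeries.C f : PowerSeries (B4 B)) =
        algebraMap (B4 B) (PowerSeries (B4 B)) f := by
      rw [PowerSeries.algebraMap_apply]; rfl
    rw [h1, AlgHom.commutes, halg]
  have hψX : ψ (PowerSeries.X : PowerSeries (B4 B)) = al' := hψ ()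
  have hker : ∀ x ∈ (Ideal.span {((Gc B c : (B4 B)[X]) : PowerSeries (B4 B))} :
      Ideal (PowerSeries (B4 B))), (ψ.restrictScalars B) x = 0 := by
    intro x hx
    obtain ⟨r, rfl⟩ := Ideal.mem_span_singleton'.mp hx
    have h0 : ψ ((Gc B c : (B4 B)[X]) : PowerSeries (B4 B)) = 0 := by
      rw [coe_Gc, map_sub, map_pow, hψX, hψC, Dc, map_add, map_sub, map_pow, map_mul, bv, v2v,
        y2v, hψ4, hψ4, hψ4]
      have hC : ψ4 (MvPowerSeries.C c) = algebraMap B T c := by
        have h2 : (MvPowerSeries.C c : B4 B) = algebraMap B (B4 B) c := by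
          rw [MvPowerSeries.algebraMap_apply]; rfl
        rw [h2, AlgHom.commutes]
      rw [hC, sub_eq_zero]
      exact hrel
    rw [AlgHom.restrictScalars_apply, map_mul, h0, mul_zero]
  refine ⟨Ideal.Quotient.liftₐ _ (ψ.restrictScalars B) hker, ?_, ?_, ?_, ?_, ?_⟩
  · show ψ PowerSeries.X = al'
    exact hψX
  · show ψ (PowerSeries.C (bv B)) = be'
    rw [hψC, bv, hψ4]; rfl
  · show ψ (PowerSeries.C (v2v B)) = v2'
    rw [hψC, v2v, hψ4]; rfl
  · show ψ (PowerSeries.C (y2v B)) = y2'
    rw [hψC, y2v, hψ4]; rfl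
  · show ψ (PowerSeries.C (sv B)) = s'
    rw [hψC, sv, hψ4]; rfl

end Hom

end Fermat.Agent.GB.Local.Multi.StChart
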