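/-
GATE-B / B1-MULTI, design (III) = RULING R5 (board 5804), helper6: POINTS OF STEINBERG TYPE.

For a commutative ring `D`, a sign `e`, vectors `v y : Fin 2 → D` and a scalar `s`:
* `stA e v y = e • (v₀y₀ − v₁y₁, 2 v₀y₁, 2 v₁y₀)`  = traceless coordinates of `e · 2 v yᵀ`,
* `stN s v   = s • (−v₀v₁, v₀², −v₁²)`            = traceless coordinates of `s · v (v^⊥)ᵀ`.
`IsStPt e c a n` : `(a, n) = (stA e v y, stN s v)` with `v, y, s` in the maximal ideal and
`v · y = c` — the points of the chart `Multi/StChart.lean`.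

* `IsStPt.map`   : stable under local homomorphisms;
* `IsStPt.conj`  : stable under conjugation `(a, n) ↦ (conjTl a, conjTl n)` by any `γ` with inverse
                   `γi` (framing for free): `v ↦ γ v`, `y ↦ γi ᵀ y`, `s ↦ s · det γi`;
* `isStPt_chart` : the coordinate pair of `StChart B c` is such a point;
* `exists_algHom_of_isStPt` : the universal property of `StChart B c` w.r.t. such points.
-/
import Mathlib
import Fermat.Agent.GB.Local.Multi.StChart
import Fermat.Agent.GB.Local.R4Point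

set_option autoImplicit false
set_option linter.unusedSectionVars false
set_option linter.unusedSimpArgs false

open IsLocalRing

namespace Fermat.Agent.GB.Local.Multi.StPt

open Matrix Fermat.Agent.GB.Local.TamePoint Fermat.Agent.GB.Local.R4Point

section Defs

variable {D : Type*} [CommRing D]

/-- `e • (v₀y₀ − v₁y₁, 2 v₀y₁, 2 v₁y₀)` -/
def stA (e : D) (v y : Fin 2 → D) : Fin 3 → D :=
  fun i => e * ![v 0 * y 0 - v 1 * y 1, 2 * (v 0 * y 1), 2 * (v 1 * y 0)] i

/-- `s • (−v₀v₁, v₀², −v₁²)` -/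
def stN (s : D) (v : Fin 2 → D) : Fin 3 → D :=
  fun i => s * ![-(v 0 * v 1), v 0 ^ 2, -(v 1 ^ 2)] i

/-- the matrix `e · 2 v yᵀ` -/
def matA (e : D) (v y : Fin 2 → D) : Matrix (Fin 2) (Fin 2) D :=
  !![e * (2 * (v 0 * y 0)), e * (2 * (v 0 * y 1)); e * (2 * (v 1 * y 0)), e * (2 * (v 1 * y 1))]

/-- the matrix `s · v (v^⊥)ᵀ` -/
def matN (s : D) (v : Fin 2 → D) : Matrix (Fin 2) (Fin 2) D :=
  !![s * -(v 0 * v 1), s * v 0 ^ 2; s * -(v 1 ^ 2), s * (v 0 * v 1)]

theorem tl_matA {h : D} (hh : 2 * h = 1) (e : D) (v y : Fin 2 → D) :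
    tl h (matA e v y) = stA e v y := by
  funext i
  fin_cases i
  · simp only [tl, matA, stA, Fin.zero_eta, Matrix.cons_val_zero, Matrix.of_apply,
      Matrix.cons_val', Matrix.cons_val_one, Matrix.cons_val_fin_one]
    linear_combination (e * (v 0 * y 0 - v 1 * y 1)) * hh
  · simp [tl, matA, stA]
  · simp [tl, matA, stA]

theorem tl_matN {h : D} (hh : 2 * h = 1) (s : D) (v : Fin 2 → D) :
    tl h (matN s v) = stN s v := by
  funext i
  fin_cases i
  · simp only [tl, matN, stN, Fin.zero_eta, Matrix.cons_val_zero, Matrix.of_apply,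
      Matrix.cons_val', Matrix.cons_val_one, Matrix.cons_val_fin_one]
    linear_combination (-(s * (v 0 * v 1))) * hh
  · simp [tl, matN, stN]
  · simp [tl, matN, stN]

/-- `γ (e · 2 v yᵀ) γi = e · 2 (γ v) (γiᵀ y)ᵀ` — no hypothesis on `γ, γi`. -/
theorem conj_matA (γ γi : Matrix (Fin 2) (Fin 2) D) (e : D) (v y : Fin 2 → D) :
    γ * matA e v y * γi = matA e (γ.mulVec v) (γi.transpose.mulVec y) := by
  ext i j
  fin_cases i <;> fin_cases j <;>
    simp only [matA, Matrix.mul_apply, Fin.sum_univ_two, Matrix.mulVec, dotProduct,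
      Matrix.transpose_apply, Matrix.of_apply, Matrix.cons_val', Matrix.cons_val_zero,
      Matrix.cons_val_one, Matrix.cons_val_fin_one, Fin.zero_eta, Fin.mk_one] <;> ring

/-- `γ (s · v (v^⊥)ᵀ) adj γ = s · (γ v) ((γ v)^⊥)ᵀ` — no hypothesis on `γ`. -/
theorem conj_matN_adj (γ : Matrix (Fin 2) (Fin 2) D) (s : D) (v : Fin 2 → D) :
    γ * matN s v * !![γ 1 1, -γ 0 1; -γ 1 0, γ 0 0] = matN s (γ.mulVec v) := by
  ext i j
  fin_cases i <;> fin_cases j <;>
    simp only [matN, Matrix.mul_apply, Fin.sum_univ_two, Matrix.mulVec, dotProduct,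
      Matrix.of_apply, Matrix.cons_val', Matrix.cons_val_zero,
      Matrix.cons_val_one, Matrix.cons_val_fin_one, Fin.zero_eta, Fin.mk_one] <;> ring

/-- if `γ γi = 1` then `γi = det γi • adj γ`. -/
theorem inv_eq_det_smul_adj {γ γi : Matrix (Fin 2) (Fin 2) D} (hγ : γ * γi = 1) :
    γi = γi.det • !![γ 1 1, -γ 0 1; -γ 1 0, γ 0 0] := by
  have hγ' : γi * γ = 1 := mul_eq_one_comm.mp hγ
  have e00 := congrFun (congrFun hγ' 0) 0
  have e01 := congrFun (congrFun hγ' 0) 1
  have e10 := congrFun (congrFun hγ' 1) 0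
  have e11 := congrFun (congrFun hγ' 1) 1
  simp only [Matrix.mul_apply, Fin.sum_univ_two, Matrix.one_apply_eq, Matrix.one_apply_ne,
    ne_eq, zero_ne_one, one_ne_zero, not_false_eq_true] at e00 e01 e10 e11
  ext i j
  fin_cases i <;> fin_cases j <;>
    simp only [Matrix.smul_apply, Matrix.det_fin_two, Matrix.of_apply, Matrix.cons_val',
      Matrix.cons_val_zero, Matrix.cons_val_one, Matrix.cons_val_fin_one, Fin.zero_eta,
      Fin.mk_one, smul_eq_mul]
  · linear_combination (-(γi 0 0)) * e11 + (γi 1 0) * e01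
  · linear_combination (-(γi 0 1)) * e11 + (γi 1 1) * e01
  · linear_combination (-(γi 1 0)) * e00 + (γi 0 0) * e10
  · linear_combination (-(γi 1 1)) * e00 + (γi 0 1) * e10

theorem matN_smul (t s : D) (v : Fin 2 → D) : t • matN s v = matN (s * t) v := by
  ext i j
  fin_cases i <;> fin_cases j <;>
    simp only [matN, Matrix.smul_apply, Matrix.of_apply, Matrix.cons_val', Matrix.cons_val_zero,
      Matrix.cons_val_one, Matrix.cons_val_fin_one, Fin.zero_eta, Fin.mk_one, smul_eq_mul] <;>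
    ring

/-- conjugation of `stA`: `v ↦ γ v`, `y ↦ γiᵀ y`. -/
theorem conjTl_stA {h : D} (hh : 2 * h = 1) {γ γi : Matrix (Fin 2) (Fin 2) D} (hγ : γ * γi = 1)
    (e : D) (v y : Fin 2 → D) :
    conjTl h γ γi (stA e v y) = stA e (γ.mulVec v) (γi.transpose.mulVec y) := by
  rw [← tl_matA hh, ← tl_conj hh hγ, conj_matA, tl_matA hh]

/-- conjugation of `stN`: `v ↦ γ v`, `s ↦ s · det γi`. -/
theorem conjTl_stN {h : D} (hh : 2 * h = 1) {γ γi : Matrix (Fin 2) (Fin 2) D} (hγ : γ * γi = 1)
    (s : D) (v : Fin 2 → D) :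
    conjTl h γ γi (stN s v) = stN (s * γi.det) (γ.mulVec v) := by
  rw [← tl_matN hh, ← tl_conj hh hγ]
  have h1 : γ * matN s v * γi = matN (s * γi.det) (γ.mulVec v) := by
    conv_lhs => rw [inv_eq_det_smul_adj hγ]
    rw [Matrix.mul_smul, conj_matN_adj, matN_smul]
  rw [h1, tl_matN hh]

/-- the pairing is invariant: `(γ v) · (γiᵀ y) = v · y`. -/
theorem dot_conj {γ γi : Matrix (Fin 2) (Fin 2) D} (hγ : γ * γi = 1) (v y : Fin 2 → D) :
    (γ.mulVec v) 0 * (γi.transpose.mulVec y) 0 + (γ.mulVec v) 1 * (γi.transpose.mulVec y) 1 =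
      v 0 * y 0 + v 1 * y 1 := by
  have hγ' : γi * γ = 1 := mul_eq_one_comm.mp hγ
  have e00 := congrFun (congrFun hγ' 0) 0
  have e01 := congrFun (congrFun hγ' 0) 1
  have e10 := congrFun (congrFun hγ' 1) 0
  have e11 := congrFun (congrFun hγ' 1) 1
  simp only [Matrix.mul_apply, Fin.sum_univ_two, Matrix.one_apply_eq, Matrix.one_apply_ne,
    ne_eq, zero_ne_one, one_ne_zero, not_false_eq_true] at e00 e01 e10 e11
  simp only [Matrix.mulVec, dotProduct, Fin.sum_univ_two, Matrix.transpose_apply]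
  linear_combination (v 0 * y 0) * e00 + (v 1 * y 0) * e01 + (v 0 * y 1) * e10 +
    (v 1 * y 1) * e11

end Defs

/-! ### The predicate -/

section Pred

variable {A : Type*} [CommRing A] [IsLocalRing A]

/-- `(a, n)` is a point of Steinberg type with sign `e` and constant `c`. -/
def IsStPt (e c : A) (a n : Fin 3 → A) : Prop :=
  ∃ (v y : Fin 2 → A) (s : A), (∀ i, v i ∈ maximalIdeal A) ∧ (∀ i, y i ∈ maximalIdeal A) ∧
    s ∈ maximalIdeal A ∧ v 0 * y 0 + v 1 * y 1 = c ∧ a = stA e v y ∧ n = stN s v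

theorem IsStPt.a_mem {e c : A} {a n : Fin 3 → A} (h : IsStPt e c a n) (i : Fin 3) :
    a i ∈ maximalIdeal A := by
  obtain ⟨v, y, s, hv, hy, hs, -, rfl, -⟩ := h
  refine Ideal.mul_mem_left _ _ ?_
  fin_cases i
  · exact sub_mem (Ideal.mul_mem_right _ _ (hv 0)) (Ideal.mul_mem_right _ _ (hv 1))
  · exact Ideal.mul_mem_left _ _ (Ideal.mul_mem_right _ _ (hv 0))
  · exact Ideal.mul_mem_left _ _ (Ideal.mul_mem_right _ _ (hv 1))

theorem IsStPt.n_mem {e c : A} {a n : Fin 3 → A} (h : IsStPt e c a n) (i : Fin 3) :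
    n i ∈ maximalIdeal A := by
  obtain ⟨v, y, s, hv, hy, hs, -, -, rfl⟩ := h
  exact Ideal.mul_mem_right _ _ hs

/-- stability under ring homomorphisms mapping the maximal ideal into the maximal ideal. -/
theorem IsStPt.map {A' : Type*} [CommRing A'] [IsLocalRing A'] {e c : A} {a n : Fin 3 → A}
    (h : IsStPt e c a n) (φ : A →+* A') (hφ : ∀ x ∈ maximalIdeal A, φ x ∈ maximalIdeal A') :
    IsStPt (φ e) (φ c) (fun i => φ (a i)) (fun i => φ (n i)) := by
  obtain ⟨v, y, s, hv, hy, hs, hc, rfl, rfl⟩ := h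
  refine ⟨fun i => φ (v i), fun i => φ (y i), φ s, fun i => hφ _ (hv i), fun i => hφ _ (hy i),
    hφ _ hs, ?_, ?_, ?_⟩
  · rw [← hc]; simp only [map_add, map_mul]
  · funext i
    fin_cases i <;> simp [stA, map_mul, map_sub, map_ofNat]
  · funext i
    fin_cases i <;> simp [stN, map_mul, map_neg, map_pow]

/-- **framing for free**: stability under conjugation. -/
theorem IsStPt.conj {h : A} (hh : 2 * h = 1) {γ γi : Matrix (Fin 2) (Fin 2) A} (hγ : γ * γi = 1)
    {e c : A} {a n : Fin 3 → A} (hpt : IsStPt e c a n) :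
    IsStPt e c (conjTl h γ γi a) (conjTl h γ γi n) := by
  obtain ⟨v, y, s, hv, hy, hs, hc, rfl, rfl⟩ := hpt
  refine ⟨γ.mulVec v, γi.transpose.mulVec y, s * γi.det, ?_, ?_, Ideal.mul_mem_right _ _ hs, ?_,
    conjTl_stA hh hγ e v y, conjTl_stN hh hγ s v⟩
  · intro i
    simp only [Matrix.mulVec, dotProduct, Fin.sum_univ_two]
    exact add_mem (Ideal.mul_mem_left _ _ (hv 0)) (Ideal.mul_mem_left _ _ (hv 1))
  · intro i
    simp only [Matrix.mulVec, dotProduct, Fin.sum_univ_two]
    exact add_mem (Ideal.mul_mem_left _ _ (hy 0)) (Ideal.mul_mem_left _ _ (hy 1))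
  · rw [dot_conj hγ, hc]

end Pred

/-! ### The chart -/

section Chart

open Fermat.Agent.GB.Local.Multi.StChart

variable {B : Type*} [CommRing B] [IsLocalRing B] [IsNoetherianRing B]
  [IsAdicComplete (maximalIdeal B) B] {c : B}

/-- the coordinate pair of the chart is a point of Steinberg type. -/
theorem isStPt_chart (hc : c ∈ maximalIdeal B) (e : B) :
    haveI := isLocalRing_StChart hc
    IsStPt (algebraMap B (StChart B c) e) (algebraMap B (StChart B c) c)
      (aPair B c e) (nPair B c) := by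
  have := isLocalRing_StChart hc
  refine ⟨![v1 B c, v2 B c], ![y1 B c, y2 B c], sc B c, ?_, ?_, sc_mem hc, ?_, ?_, ?_⟩
  · intro i; fin_cases i
    · exact v1_mem hc
    · exact v2_mem hc
  · intro i; fin_cases i
    · exact y1_mem hc
    · exact y2_mem hc
  · simp only [Matrix.cons_val_zero, Matrix.cons_val_one, Matrix.cons_val_fin_one]
    exact relation' B c
  · funext i
    fin_cases i <;> simp [aPair, aVec, stA]
  · funext i
    fin_cases i <;> simp [nPair, nVec, stN]

variable {T : Type*} [CommRing T] [IsLocalRing T] [Algebra B T]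
  [IsAdicComplete (maximalIdeal T) T]

/-- **universal property of the chart**: a point of Steinberg type of a complete local
`B`-algebra (in which `2` is invertible) defines a `B`-algebra homomorphism out of `StChart B c`. -/
theorem exists_algHom_of_isStPt {h : B} (hh : 2 * h = 1) (e : B) {a' n' : Fin 3 → T}
    (hpt : IsStPt (algebraMap B T e) (algebraMap B T c) a' n') :
    ∃ φ : StChart B c →ₐ[B] T, (∀ i, φ (aPair B c e i) = a' i) ∧ ∀ i, φ (nPair B c i) = n' i := by
  obtain ⟨v, y, s, hv, hy, hs, hc', rfl, rfl⟩ := hpt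
  have hhT : 2 * algebraMap B T h = 1 := by
    have := congrArg (algebraMap B T) hh
    rwa [map_mul, map_ofNat, map_one] at this
  obtain ⟨φ, hal, hbe, hv2, hy2, hsc⟩ := exists_algHom_StChart (B := B) (c := c) (T := T)
    (algebraMap B T h * (v 0 + y 0)) (algebraMap B T h * (v 0 - y 0)) (v 1) (y 1) s
    (Ideal.mul_mem_left _ _ (add_mem (hv 0) (hy 0)))
    (Ideal.mul_mem_left _ _ (sub_mem (hv 0) (hy 0))) (hv 1) (hy 1) hs
    (by
      have h4 : 4 * algebraMap B T h ^ 2 = 1 := by linear_combination (2 * algebraMap B T h + 1) * hhT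
      linear_combination hc' + (v 0 * y 0) * h4)
  have hv1 : φ (v1 B c) = v 0 := by
    rw [v1, map_add, hal, hbe]
    linear_combination (v 0) * hhT
  have hy1 : φ (y1 B c) = y 0 := by
    rw [y1, map_sub, hal, hbe]
    linear_combination (y 0) * hhT
  refine ⟨φ, fun i => ?_, fun i => ?_⟩
  · fin_cases i <;>
      simp only [aPair, aVec, stA, map_mul, map_sub, AlgHom.commutes, hv1, hy1, hv2, hy2,
        Matrix.cons_val_zero, Matrix.cons_val_one, Matrix.cons_val, Fin.zero_eta, Fin.mk_one,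
        Fin.reduceFinMk, map_ofNat]
  · fin_cases i <;>
      simp only [nPair, nVec, stN, map_mul, map_neg, map_pow, hv1, hv2, hsc,
        Matrix.cons_val_zero, Matrix.cons_val_one, Matrix.cons_val, Fin.zero_eta, Fin.mk_one,
        Fin.reduceFinMk]

end Chart

end Fermat.Agent.GB.Local.Multi.StPt
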