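/-
GATE-B / B1-MULTI under RULING R5 (board 5804), helper51: the POINT SPECIFICATION of R5 as an
instance of helper54's chart-type-agnostic `G.PtSpec` (`Multi/StageG.lean`), and the per-type
CERTIFICATES `G.HasCert` consumed by `G.ringKrullDim_quot_J2M_le` (`Multi/FamilyG.lean`).

Chart types `R5.Ty O = Option O ⊕ (O × O)`:
* `inl none`      : `D1` / `Unr`  (`n = 0`),
* `inl (some c)`  : `W_c` / `EE_c` (`(a, n) = (s₁ u, s₂ u)`, `s₂² Q(u) = c²`)  [helper54 `IsPt`],
* `inr (e, c)`    : `St_{e,c}` (`(a, n) = (stA e v y, stN s v)`, `v · y = c`)   [helper6 `IsStPt`].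
-/
import Mathlib
import Fermat.Agent.GB.Local.Multi.FamilyG
import Fermat.Agent.GB.Local.Multi.StPt

set_option autoImplicit false
set_option linter.unusedSectionVars false
set_option linter.unusedSimpArgs false

universe u

open IsLocalRing

namespace Fermat.Agent.GB.Local.Multi.R5

open Fermat.Agent.GB.Local.Multi Fermat.Agent.GB.Local.Rloc Fermat.Agent.GB.Local.Multi.StPt

/-- the chart types of RULING R5 -/
abbrev Ty (O : Type u) := Option O ⊕ (O × O)

variable (O : Type u) [CommRing O]

/-- the predicate "`(a, n)` is a point of type `t`" -/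
def pred (t : Ty O) (A : Type u) [CommRing A] [IsLocalRing A] [Algebra O A]
    (a n : Fin 3 → A) : Prop :=
  Sum.elim (fun o => IsPt O o a n)
    (fun ec => IsStPt (algebraMap O A ec.1) (algebraMap O A ec.2) a n) t

/-- **the point specification of R5** -/
@[reducible] def spec : G.PtSpec O where
  T := Ty O
  pred := fun t A _ _ _ a n => pred O t A a n
  mem_a := fun {t} {A} _ _ _ {a} {n} h => by
    rcases t with o | ec
    · exact (show IsPt O o a n from h).1
    · exact IsStPt.a_mem (show IsStPt _ _ a n from h)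
  mem_n := fun {t} {A} _ _ _ {a} {n} h => by
    rcases t with o | ec
    · exact (show IsPt O o a n from h).2.1
    · exact IsStPt.n_mem (show IsStPt _ _ a n from h)
  map := fun {t} {A} {A'} _ _ _ _ _ _ {a} {n} h φ hφ hφO => by
    rcases t with o | ec
    · exact (show IsPt O o a n from h).map φ hφ hφO
    · have := (show IsStPt _ _ a n from h).map φ hφ
      rw [hφO, hφO] at this
      exact this

variable {O}

theorem pred_inl {A : Type u} [CommRing A] [IsLocalRing A] [Algebra O A] (o : Option O)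
    (a n : Fin 3 → A) : (spec O).pred (Sum.inl o) A a n ↔ IsPt O o a n := Iff.rfl

theorem pred_inr {A : Type u} [CommRing A] [IsLocalRing A] [Algebra O A] (e c : O)
    (a n : Fin 3 → A) :
    (spec O).pred (Sum.inr (e, c)) A a n ↔ IsStPt (algebraMap O A e) (algebraMap O A c) a n :=
  Iff.rfl

/-! ### The relations of a Steinberg point -/

section StRel

variable {A : Type*} [CommRing A] [IsLocalRing A] {e c : A} {a n : Fin 3 → A}

theorem IsStPt.minor02 (h : IsStPt e c a n) : a 0 * n 2 - a 2 * n 0 = -(e * c) * n 2 := by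
  obtain ⟨v, y, s, -, -, -, hc, rfl, rfl⟩ := h
  simp only [stA, stN, Matrix.cons_val_zero, Matrix.cons_val_one, Matrix.cons_val]
  linear_combination (e * s * v 1 ^ 2) * hc

theorem IsStPt.minor12 (h : IsStPt e c a n) : a 1 * n 2 - a 2 * n 1 = 2 * (e * c) * n 0 := by
  obtain ⟨v, y, s, -, -, -, hc, rfl, rfl⟩ := h
  simp only [stA, stN, Matrix.cons_val_zero, Matrix.cons_val_one, Matrix.cons_val]
  linear_combination (-2 * e * s * v 0 * v 1) * hc

theorem IsStPt.Q_n (h : IsStPt e c a n) : n 0 ^ 2 + n 1 * n 2 = 0 := by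
  obtain ⟨v, y, s, -, -, -, -, rfl, rfl⟩ := h
  simp only [stN, Matrix.cons_val_zero, Matrix.cons_val_one, Matrix.cons_val]
  ring

end StRel

/-! ### The certificates -/

section Cert

variable [IsLocalRing O] [IsNoetherianRing O] [IsAdicComplete (maximalIdeal O) O] {lam : O}

theorem C_mem_span {c : O} (hc : lam ∣ c) (x : P6 O) :
    (MvPowerSeries.C c : P6 O) * x ∈ Ideal.span {(MvPowerSeries.C lam : P6 O)} := by
  obtain ⟨r, rfl⟩ := hc
  rw [map_mul, mul_assoc]
  exact Ideal.mul_mem_right _ _ (Ideal.mem_span_singleton_self _)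

theorem evalPair_C {A : Type u} [CommRing A] [IsLocalRing A] [Algebra O A]
    [IsAdicComplete (maximalIdeal A) A] (a n : Fin 3 → A) (ha : ∀ i, a i ∈ maximalIdeal A)
    (hn : ∀ i, n i ∈ maximalIdeal A) (r : O) :
    evalPair (O := O) a n ha hn (MvPowerSeries.C r) = algebraMap O A r := by
  have := (evalPair (O := O) a n ha hn).commutes r
  rwa [MvPowerSeries.algebraMap_apply, Algebra.algebraMap_self_apply] at this

/-- certificate of the type `none` -/
theorem hasCert_none : G.HasCert (spec O) lam (Sum.inl none) := by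
  refine ⟨fun _ => 0, fun _ => zero_mem _, fun A _ _ _ _ a n h => ?_⟩
  have h' : IsPt O none a n := h
  obtain ⟨-, -, h0⟩ := h'
  have hn0 : ∀ i, n i = 0 := by
    rcases h0 with ⟨-, h0⟩ | ⟨c, hc, -⟩
    · exact h0
    · exact absurd hc (by simp)
  simp only [map_zero, hn0]
  refine ⟨by ring, by ring, by ring⟩

/-- certificate of the type `some c`, `lam ∣ c` -/
theorem hasCert_some {c : O} (hc : lam ∣ c) : G.HasCert (spec O) lam (Sum.inl (some c)) := by
  refine ⟨![0, 0, MvPowerSeries.C (c ^ 2)], fun k => ?_, fun A _ _ _ _ a n h => ?_⟩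
  · fin_cases k
    · exact zero_mem _
    · exact zero_mem _
    · show (MvPowerSeries.C (c ^ 2) : P6 O) ∈ _
      have := C_mem_span (lam := lam) (dvd_pow hc two_ne_zero) (1 : P6 O)
      rwa [mul_one] at this
  · have h' : IsPt O (some c) a n := h
    obtain ⟨-, -, h0⟩ := h'
    rcases h0 with ⟨h0, -⟩ | ⟨c', hc', s1, s2, u, -, -, -, hau, hnu, hrel⟩
    · exact absurd h0 (by simp)
    · have hcc : c' = c := (Option.some.inj hc').symm
      subst hcc
      refine ⟨?_, ?_, ?_⟩
      · show a 0 * n 2 - a 2 * n 0 = evalPair (O := O) a n _ _ 0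
        rw [map_zero, hau, hau, hnu, hnu]; ring
      · show a 1 * n 2 - a 2 * n 1 = evalPair (O := O) a n _ _ 0
        rw [map_zero, hau, hau, hnu, hnu]; ring
      · show n 0 ^ 2 + n 1 * n 2 = evalPair (O := O) a n _ _ (MvPowerSeries.C (c' ^ 2))
        rw [evalPair_C, map_pow, ← hrel, hnu, hnu, hnu, Qf]; ring

/-- certificate of the Steinberg type `(e, c)`, `lam ∣ c` -/
theorem hasCert_st {e c : O} (hc : lam ∣ c) : G.HasCert (spec O) lam (Sum.inr (e, c)) := by
  refine ⟨![-(MvPowerSeries.C (e * c)) * nVar O 2, MvPowerSeries.C (2 * (e * c)) * nVar O 0, 0],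
    fun k => ?_, fun A _ _ _ _ a n h => ?_⟩
  · fin_cases k
    · show -(MvPowerSeries.C (e * c) : P6 O) * nVar O 2 ∈ _
      rw [neg_mul]
      exact neg_mem (C_mem_span (Dvd.dvd.mul_left hc e) _)
    · exact C_mem_span (Dvd.dvd.mul_left (Dvd.dvd.mul_left hc e) 2) _
    · exact zero_mem _
  · have h' : IsStPt (algebraMap O A e) (algebraMap O A c) a n := h
    refine ⟨?_, ?_, ?_⟩
    · show a 0 * n 2 - a 2 * n 0 = evalPair (O := O) a n _ _ (-(MvPowerSeries.C (e * c)) * nVar O 2)
      rw [map_mul, map_neg, evalPair_C, evalPair_nVar, map_mul]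
      exact IsStPt.minor02 h'
    · show a 1 * n 2 - a 2 * n 1 =
        evalPair (O := O) a n _ _ (MvPowerSeries.C (2 * (e * c)) * nVar O 0)
      rw [map_mul, evalPair_C, evalPair_nVar, map_mul, map_mul, map_ofNat]
      exact IsStPt.minor12 h'
    · show n 0 ^ 2 + n 1 * n 2 = evalPair (O := O) a n _ _ 0
      rw [map_zero]
      exact IsStPt.Q_n h'

end Cert

end Fermat.Agent.GB.Local.Multi.R5
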