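/-
GATE-B / B1-MULTI (3.4) of helper53 5608, case `ξ_q = c` (helper51): the SPECIAL FIBRE of the
Weierstrass chart `WChart B c`, in the shape consumed by `GB/Alg/ChartDim.not_mem_radical_of_chart`.

For `l : B` with `c ∈ (l)` and `l ∈ rad (c)`:
* `spHom l hcl : WChart B c →+* (B ⧸ l)⟦y, u₁, u₂, s₁⟧` (kill `s₂` and `l`), surjective, with kernel
  `(s₂, l)`; `s₂ ↦ 0`, `u₀ ↦ -X 0`, `u₁ ↦ X 1`, `u₂ ↦ X 2`, `s₁ ↦ X 3`, hence
  `Q (aPair) ↦ X 3 ^ 2 * (X 0 ^ 2 + X 1 * X 2)`;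
* `l ∈ rad (s₂)` in `WChart B c` (relation `s₂² Q(u) = c²`);
* `dim WChart ⧸ (s₂, l) ≤ n + 4` if `dim B ⧸ l ≤ n`;
* the minimal primes over `(s₂, l)` are coefficientwise and miss `t = 4 Q(a) − d²` (`2` a unit,
  `d ∈ (l)`);
* **`not_mem_radical`** : `𝔓` prime of `WChart B c` with `dim WChart ⧸ 𝔓 = n + 4 + 1` ⟹
  `4 Q(aPair) − d² ∉ rad (𝔓 + (l))`.
-/
import Mathlib
import Fermat.Agent.GB.Local.Multi.WChart
import Fermat.Agent.GB.Local.Chart
import Fermat.Agent.GB.Alg.ChartDim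
import Fermat.Agent.GB.Alg.PSMinPrimes
import Fermat.Agent.GB.Alg.PSDim

set_option autoImplicit false
set_option linter.unusedSectionVars false
set_option linter.style.haveILetI false

open IsLocalRing

namespace Fermat.Agent.GB.Local.Multi.WChartSp

open Fermat.Agent.GB.Local.Multi.WChart Fermat.Agent.GB.Local.TamePoint

/-! ### Generic: coefficientwise maps -/

section Generic

variable {σ R S : Type*} [CommRing R] [CommRing S]

theorem mvMap_surjective (f : R →+* S) (hf : Function.Surjective f) :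
    Function.Surjective (MvPowerSeries.map (σ := σ) f) := by
  intro g
  choose G hG using fun n => hf (MvPowerSeries.coeff n g)
  let G' : MvPowerSeries σ R := fun n => G n
  refine ⟨G', ?_⟩
  ext n
  rw [MvPowerSeries.coeff_map]
  exact hG n

end Generic

/-! ### The special fibre map -/

section Sp

variable {B : Type*} [CommRing B] [IsLocalRing B] [IsNoetherianRing B]
  [IsAdicComplete (maximalIdeal B) B] {c : B} (l : B)

/-- `(B ⧸ l)⟦y, u₁, u₂, s₁⟧` -/
abbrev Sp4 := MvPowerSeries (Fin 4) (B ⧸ Ideal.span {l})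

/-- reduction of the coefficients modulo `l` -/
noncomputable def red4 : B4 B →+* Sp4 l :=
  MvPowerSeries.map (Ideal.Quotient.mk (Ideal.span {l}))

theorem red4_surjective : Function.Surjective (red4 l) :=
  mvMap_surjective _ Ideal.Quotient.mk_surjective

theorem red4_X (i : Fin 4) : red4 l (MvPowerSeries.X i) = MvPowerSeries.X i :=
  MvPowerSeries.map_X _ i

theorem red4_C (b : B) :
    red4 l (MvPowerSeries.C b) = MvPowerSeries.C (Ideal.Quotient.mk (Ideal.span {l}) b) :=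
  MvPowerSeries.map_C _ b

theorem red4_C_of_mem {b : B} (hb : b ∈ Ideal.span {l}) : red4 l (MvPowerSeries.C b) = 0 := by
  rw [red4_C, Ideal.Quotient.eq_zero_iff_mem.mpr hb, map_zero]

theorem red4_eq_zero_iff (a : B4 B) : red4 l a = 0 ↔ (MvPowerSeries.C l : B4 B) ∣ a :=
  (Fermat.Agent.GB.Local.Chart.C_dvd_iff_map_eq_zero l a).symm

/-- `B4⟦X⟧ → (B ⧸ l)⟦4⟧`: constant coefficient, then reduce -/
noncomputable def spHom0 : PowerSeries (B4 B) →+* Sp4 l :=
  (red4 l).comp PowerSeries.constantCoeff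

theorem spHom0_Fc (hcl : c ∈ Ideal.span {l}) :
    spHom0 l ((Fc B c : Polynomial (B4 B)) : PowerSeries (B4 B)) = 0 := by
  rw [coe_Fc]
  simp only [spHom0, RingHom.comp_apply, map_add, map_mul, map_pow, PowerSeries.constantCoeff_X,
    PowerSeries.constantCoeff_C, map_neg]
  rw [red4_C_of_mem l hcl]
  simp

variable {l}

/-- **the special fibre map** `WChart B c → (B ⧸ l)⟦y, u₁, u₂, s₁⟧` -/
noncomputable def spHom (hcl : c ∈ Ideal.span {l}) : WChart B c →+* Sp4 l :=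
  Ideal.Quotient.lift _ (spHom0 l) (fun x hx => by
    obtain ⟨y, rfl⟩ := Ideal.mem_span_singleton'.mp hx
    rw [map_mul, spHom0_Fc l hcl, mul_zero])

variable (hcl : c ∈ Ideal.span {l})

theorem spHom_mk (f : PowerSeries (B4 B)) :
    spHom hcl (Ideal.Quotient.mk _ f) = red4 l (PowerSeries.constantCoeff f) := by
  rw [spHom, Ideal.Quotient.lift_mk]
  rfl

theorem spHom_algebraMap (a : B4 B) :
    spHom hcl (algebraMap (B4 B) (WChart B c) a) = red4 l a := by
  rw [algebraMap_WChart_apply, spHom_mk, PowerSeries.constantCoeff_C]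

theorem spHom_algebraMap_B (b : B) :
    spHom hcl (algebraMap B (WChart B c) b) =
      MvPowerSeries.C (Ideal.Quotient.mk (Ideal.span {l}) b) := by
  rw [algebraMap_B_apply, spHom_algebraMap, red4_C]

theorem spHom_algebraMap_of_mem {b : B} (hb : b ∈ Ideal.span {l}) :
    spHom hcl (algebraMap B (WChart B c) b) = 0 := by
  rw [spHom_algebraMap_B, Ideal.Quotient.eq_zero_iff_mem.mpr hb, map_zero]

theorem spHom_s2 : spHom hcl (s2 B c) = 0 := by
  rw [s2, spHom_mk, PowerSeries.constantCoeff_X, map_zero]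

theorem spHom_yW : spHom hcl (yW B c) = MvPowerSeries.X 0 := by
  rw [yW, spHom_algebraMap, yv, red4_X]

theorem spHom_u1 : spHom hcl (u1 B c) = MvPowerSeries.X 1 := by
  rw [u1, spHom_algebraMap, u1v, red4_X]

theorem spHom_u2 : spHom hcl (u2 B c) = MvPowerSeries.X 2 := by
  rw [u2, spHom_algebraMap, u2v, red4_X]

theorem spHom_s1 : spHom hcl (s1 B c) = MvPowerSeries.X 3 := by
  rw [s1, spHom_algebraMap, s1v, red4_X]

theorem spHom_u0 : spHom hcl (u0 B c) = -MvPowerSeries.X 0 := by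
  rw [u0, map_sub, spHom_s2, spHom_yW, zero_sub]

theorem spHom_surjective : Function.Surjective (spHom hcl) := by
  intro g
  obtain ⟨a, rfl⟩ := red4_surjective l g
  exact ⟨algebraMap (B4 B) (WChart B c) a, spHom_algebraMap hcl a⟩

/-- the image of `Q (a)`, `a = s₁ • u` -/
theorem spHom_Q_aPair :
    spHom hcl (Q (aPair B c)) =
      MvPowerSeries.X 3 ^ 2 * (MvPowerSeries.X 0 ^ 2 + MvPowerSeries.X 1 * MvPowerSeries.X 2) := by
  rw [Q_aPair, map_mul, map_pow, map_add, map_pow, map_mul, spHom_s1, spHom_u0, spHom_u1,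
    spHom_u2]
  ring

/-- **the kernel of the special fibre map is `(s₂, l)`** -/
theorem ker_spHom :
    RingHom.ker (spHom hcl) =
      Ideal.span {s2 B c, algebraMap B (WChart B c) l} := by
  apply le_antisymm
  · intro x hx
    obtain ⟨f, rfl⟩ := Ideal.Quotient.mk_surjective x
    rw [RingHom.mem_ker, spHom_mk, red4_eq_zero_iff] at hx
    obtain ⟨h, hh⟩ := hx
    have hf := PowerSeries.eq_X_mul_shift_add_const f
    have h1 : (Ideal.Quotient.mk _ f : WChart B c) =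
        s2 B c * Ideal.Quotient.mk _ (PowerSeries.mk fun p => PowerSeries.coeff (p + 1) f) +
          algebraMap B (WChart B c) l * algebraMap (B4 B) (WChart B c) h := by
      conv_lhs => rw [hf]
      rw [map_add, map_mul, hh, map_mul, algebraMap_B_apply]
      rfl
    rw [h1]
    refine add_mem (Ideal.mul_mem_right _ _ (Ideal.subset_span (by simp)))
      (Ideal.mul_mem_right _ _ (Ideal.subset_span (by simp)))
  · rw [Ideal.span_le]
    intro x hx
    rcases hx with rfl | hx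
    · exact spHom_s2 hcl
    · rw [Set.mem_singleton_iff] at hx
      subst hx
      exact spHom_algebraMap_of_mem hcl (Ideal.mem_span_singleton_self l)

end Sp

/-! ### The inputs of `ChartDim.not_mem_radical_of_chart` -/

section Inputs

variable {B : Type*} [CommRing B] [IsLocalRing B] [IsNoetherianRing B]
  [IsAdicComplete (maximalIdeal B) B] {c l : B}

/-- `l ∈ rad (s₂)` : from `s₂² Q(u) = c²` and `l ∈ rad (c)` -/
theorem algebraMap_mem_radical_span_s2 (hlc : l ∈ (Ideal.span {c}).radical) :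
    algebraMap B (WChart B c) l ∈ (Ideal.span {s2 B c}).radical := by
  obtain ⟨k, hk⟩ := hlc
  obtain ⟨b, hb⟩ := Ideal.mem_span_singleton'.mp hk
  refine ⟨2 * k, ?_⟩
  have h1 : algebraMap B (WChart B c) l ^ (2 * k) =
      algebraMap B (WChart B c) (b ^ 2) * algebraMap B (WChart B c) (c ^ 2) := by
    rw [← map_pow, ← map_mul, pow_mul', ← hb]
    ring_nf
  rw [h1, algebraMap_B_apply B c (c ^ 2), ← relation]
  refine Ideal.mul_mem_left _ _ (Ideal.mul_mem_right _ _ ?_)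
  exact Ideal.pow_mem_of_mem _ (Ideal.mem_span_singleton_self _) 2 (by norm_num)

/-- `WChart ⧸ (s₂, l) ≃ (B ⧸ l)⟦y, u₁, u₂, s₁⟧` -/
noncomputable def quotEquivSp (hcl : c ∈ Ideal.span {l}) :
    (WChart B c ⧸ (Ideal.span {s2 B c, algebraMap B (WChart B c) l} : Ideal (WChart B c))) ≃+*
      Sp4 l :=
  (Ideal.quotEquivOfEq (ker_spHom hcl).symm).trans
    (RingHom.quotientKerEquivOfSurjective (spHom_surjective hcl))

/-- `dim WChart ⧸ (s₂, l) ≤ n + 4` if `dim B ⧸ l ≤ n` -/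
theorem ringKrullDim_quotient_le (hcl : c ∈ Ideal.span {l}) {n : ℕ}
    (hn : ringKrullDim (B ⧸ Ideal.span {l}) ≤ n) :
    ringKrullDim
        (WChart B c ⧸ (Ideal.span {s2 B c, algebraMap B (WChart B c) l} : Ideal (WChart B c))) ≤
      ((n + 4 : ℕ) : WithBot ℕ∞) := by
  rw [ringKrullDim_eq_of_ringEquiv (quotEquivSp hcl)]
  exact Fermat.Agent.GB.Alg.PSDim.ringKrullDim_mvPowerSeries_fin_le (B ⧸ Ideal.span {l}) hn 4

/-- the minimal primes over `(s₂, l)` are the coefficientwise ideals of the special fibre -/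
theorem exists_of_mem_minimalPrimes (hcl : c ∈ Ideal.span {l}) {𝔮 : Ideal (WChart B c)}
    (h𝔮 : 𝔮 ∈ (Ideal.span {s2 B c, algebraMap B (WChart B c) l} : Ideal (WChart B c)).minimalPrimes) :
    ∃ P ∈ minimalPrimes (B ⧸ Ideal.span {l}),
      𝔮 = (Fermat.Agent.GB.Alg.PSDim.coeffIdeal (Fin 4) P).comap (spHom hcl) := by
  rw [← ker_spHom hcl, RingHom.ker_eq_comap_bot,
    Ideal.comap_minimalPrimes_eq_of_surjective (spHom_surjective hcl)] at h𝔮
  obtain ⟨𝔮', h𝔮', rfl⟩ := h𝔮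
  have h2 : 𝔮' ∈ minimalPrimes (Sp4 l) := h𝔮'
  rw [Fermat.Agent.GB.Alg.PSDim.minimalPrimes_mvPowerSeries] at h2
  obtain ⟨P, hP, rfl⟩ := h2
  exact ⟨P, hP, rfl⟩

/-- `4 · X₃² (X₀² + X₁X₂)` lies in no coefficientwise prime when `2` is a unit -/
theorem four_mul_notMem_coeffIdeal (h2 : IsUnit (2 : B)) (P : Ideal (B ⧸ Ideal.span {l}))
    [P.IsPrime] :
    (4 * (MvPowerSeries.X 3 ^ 2 * (MvPowerSeries.X 0 ^ 2 + MvPowerSeries.X 1 * MvPowerSeries.X 2)) :
      Sp4 l) ∉ Fermat.Agent.GB.Alg.PSDim.coeffIdeal (Fin 4) P := by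
  intro hmem
  rw [Fermat.Agent.GB.Alg.PSDim.coeffIdeal, RingHom.mem_ker] at hmem
  simp only [map_mul, map_pow, map_add, MvPowerSeries.map_X, map_ofNat] at hmem
  have h4 : (4 : MvPowerSeries (Fin 4) ((B ⧸ Ideal.span {l}) ⧸ P)) ≠ 0 := by
    have hu : IsUnit (4 : MvPowerSeries (Fin 4) ((B ⧸ Ideal.span {l}) ⧸ P)) := by
      have h2' : IsUnit (2 : MvPowerSeries (Fin 4) ((B ⧸ Ideal.span {l}) ⧸ P)) := by
        have := h2.map (((MvPowerSeries.C : _ →+* MvPowerSeries (Fin 4)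
          ((B ⧸ Ideal.span {l}) ⧸ P)).comp (Ideal.Quotient.mk P)).comp
            (Ideal.Quotient.mk (Ideal.span {l})))
        rwa [map_ofNat] at this
      have : (4 : MvPowerSeries (Fin 4) ((B ⧸ Ideal.span {l}) ⧸ P)) = 2 * 2 := by norm_num
      rw [this]
      exact h2'.mul h2'
    exact hu.ne_zero
  have hX : (MvPowerSeries.X 3 : MvPowerSeries (Fin 4) ((B ⧸ Ideal.span {l}) ⧸ P)) ≠ 0 := by
    intro h
    have := congrArg (MvPowerSeries.coeff (Finsupp.single (3 : Fin 4) 1)) h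
    rw [MvPowerSeries.coeff_index_single_self_X, map_zero] at this
    exact one_ne_zero this
  have hQ := Fermat.Agent.GB.Local.Chart.Qform_ne_zero (k := (B ⧸ Ideal.span {l}) ⧸ P) 1
  rw [Fermat.Agent.GB.Local.Chart.Qform] at hQ
  rcases mul_eq_zero.mp hmem with h | h
  · exact h4 h
  · rcases mul_eq_zero.mp h with h | h
    · exact hX ((pow_eq_zero_iff (two_ne_zero)).mp h)
    · exact hQ h

end Inputs

/-! ### The radical test for the last chart -/

section Main

variable {B : Type*} [CommRing B] [IsLocalRing B] [IsNoetherianRing B]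
  [IsAdicComplete (maximalIdeal B) B] {c l : B}

/-- **(3.4), case `ξ_q = c`, general `t`** : a prime `𝔓` of the Weierstrass chart of coheight
`n + 4 + 1`, where `dim B ⧸ l ≤ n`; any `t` whose special fibre is `4 X₃² (X₀² + X₁X₂)` avoids
`rad (𝔓 + (l))`. -/
theorem not_mem_radical_of_spHom_eq (hc : c ∈ maximalIdeal B) (hcl : c ∈ Ideal.span {l})
    (hlc : l ∈ (Ideal.span {c}).radical) (h2 : IsUnit (2 : B)) {n : ℕ}
    (hn : ringKrullDim (B ⧸ Ideal.span {l}) ≤ n)
    (𝔓 : Ideal (WChart B c)) [𝔓.IsPrime]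
    (hdim : ringKrullDim (WChart B c ⧸ 𝔓) = ((n + 4 : ℕ) : WithBot ℕ∞) + 1)
    (t : WChart B c)
    (ht : spHom hcl t = 4 * (MvPowerSeries.X 3 ^ 2 *
      (MvPowerSeries.X 0 ^ 2 + MvPowerSeries.X 1 * MvPowerSeries.X 2))) :
    t ∉ (𝔓 ⊔ Ideal.span {algebraMap B (WChart B c) l}).radical := by
  haveI := isLocalRing_WChart hc
  refine Fermat.Agent.GB.Alg.ChartDim.not_mem_radical_of_chart 𝔓 (n + 4) hdim (s2 B c)
    (algebraMap B (WChart B c) l) t (s2_mem hc) (algebraMap_mem_radical_span_s2 hlc)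
    (ringKrullDim_quotient_le hcl hn) ?_
  intro 𝔮 h𝔮 htq
  obtain ⟨P, hP, rfl⟩ := exists_of_mem_minimalPrimes hcl h𝔮
  have hPp : P.IsPrime := hP.1.1
  rw [Ideal.mem_comap, ht] at htq
  exact four_mul_notMem_coeffIdeal h2 P htq

/-- the special fibre of `t = 4 Q(a) − d²`, `d ∈ (l)` -/
theorem spHom_tElt (hcl : c ∈ Ideal.span {l}) {d : B} (hd : d ∈ Ideal.span {l}) :
    spHom hcl (4 * Q (aPair B c) - algebraMap B (WChart B c) (d ^ 2)) =
      4 * (MvPowerSeries.X 3 ^ 2 *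
        (MvPowerSeries.X 0 ^ 2 + MvPowerSeries.X 1 * MvPowerSeries.X 2)) := by
  rw [map_sub, map_mul, map_ofNat, spHom_Q_aPair,
    spHom_algebraMap_of_mem hcl (Ideal.pow_mem_of_mem _ hd 2 (by norm_num)), sub_zero]

/-- **(3.4), case `ξ_q = c`** : `4 Q(a) − d² ∉ rad (𝔓 + (l))` for every prime `𝔓` of the
Weierstrass chart of coheight `n + 4 + 1`, where `dim B ⧸ l ≤ n`, `c ∈ (l)`, `l ∈ rad (c)`,
`d ∈ (l)`, `2` a unit. -/
theorem tElt_not_mem_radical (hc : c ∈ maximalIdeal B) (hcl : c ∈ Ideal.span {l})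
    (hlc : l ∈ (Ideal.span {c}).radical) (h2 : IsUnit (2 : B)) {n : ℕ}
    (hn : ringKrullDim (B ⧸ Ideal.span {l}) ≤ n)
    (𝔓 : Ideal (WChart B c)) [𝔓.IsPrime]
    (hdim : ringKrullDim (WChart B c ⧸ 𝔓) = ((n + 4 : ℕ) : WithBot ℕ∞) + 1)
    {d : B} (hd : d ∈ Ideal.span {l}) :
    4 * Q (aPair B c) - algebraMap B (WChart B c) (d ^ 2) ∉
      (𝔓 ⊔ Ideal.span {algebraMap B (WChart B c) l}).radical :=
  not_mem_radical_of_spHom_eq hc hcl hlc h2 hn 𝔓 hdim _ (spHom_tElt hcl hd)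

end Main

end Fermat.Agent.GB.Local.Multi.WChartSp
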