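/-
GATE-B / B1-MULTI (helper51): the Weierstrass chart as an INSTANCE of helper54's stage vocabulary
(`GB/Local/Multi/Stage.lean`).

For `c0 : O` with image `c` in the maximal ideal of the complete noetherian local `O`-algebra `B`:
* `isChartOver_WChart` : `IsChartOver O lam B (WChart B c) (some c0) aPair nPair`
  (tower, `𝔪_B → 𝔪_W`, `IsPt` from the relation `s₂² Q(u) = c²`, the universal property from
  helper59's `Lift.exists_extend_WChart`, the `NN` step `m ↦ m + 4` from `GB/Alg/NNStep`);
* `nn_WChart` : `NN lam B m → NN lam (WChart B c) (m + 4)`;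
* `chartHP_WChart` : `ChartHP lam d (WChart B c) aPair` — the `t`-test of RULING R4 §3.4, case
  `ξ_q = c`, from `NN lam B m` (`WChartSp.tElt_not_mem_radical` + `(N3)`, `(N4)`).
-/
import Mathlib
import Fermat.Agent.GB.Local.Multi.Stage
import Fermat.Agent.GB.Local.Multi.WChartSp
import Fermat.Agent.GB.Local.Multi.Lift
import Fermat.Agent.GB.Alg.NNStep

set_option autoImplicit false
set_option linter.unusedSectionVars false
set_option linter.style.haveILetI false

universe u

open IsLocalRing

namespace Fermat.Agent.GB.Local.Multi.WChartInst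

open Fermat.Agent.GB.Local.Multi Fermat.Agent.GB.Local.Multi.WChart
  Fermat.Agent.GB.Local.TamePoint Fermat.Agent.GB.Local.Rloc

variable {O : Type u} [CommRing O] {lam : O}
variable {B : Type u} [CommRing B] [IsLocalRing B] [IsNoetherianRing B]
  [IsAdicComplete (maximalIdeal B) B] [Algebra O B]

theorem Qf_eq_Q {R : Type*} [CommRing R] (x : Fin 3 → R) : Qf x = Q x := rfl

theorem C_mem_maximalIdeal_B4 {b : B} (hb : b ∈ maximalIdeal B) :
    (MvPowerSeries.C b : B4 B) ∈ maximalIdeal (B4 B) := by
  rw [Fermat.Agent.S53.PSC.mem_maximalIdeal_iff, MvPowerSeries.constantCoeff_C]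
  exact hb

theorem algebraMap_B_mem {c : B} (hc : c ∈ maximalIdeal B) {b : B} (hb : b ∈ maximalIdeal B) :
    haveI := isLocalRing_WChart hc
    algebraMap B (WChart B c) b ∈ maximalIdeal (WChart B c) := by
  haveI := isLocalRing_WChart hc
  rw [algebraMap_B_apply]
  exact algebraMap_mem_maximalIdeal hc (C_mem_maximalIdeal_B4 hb)

/-- the `NN` step of the Weierstrass chart: `m ↦ m + 4` -/
theorem nn_WChart {c : B} (hc : c ∈ maximalIdeal B) {m : ℕ} (h : NN lam B m) :
    NN lam (WChart B c) (m + 4) := by
  haveI := free_WChart hc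
  haveI := finite_WChart hc
  exact (h.mvPowerSeries 4).of_free (WChart B c)

variable (lam) in
/-- **the Weierstrass chart is a chart of type `some c0`** -/
theorem isChartOver_WChart (c0 : O) (hc : algebraMap O B c0 ∈ maximalIdeal B) :
    haveI := isLocalRing_WChart hc
    IsChartOver O lam B (WChart B (algebraMap O B c0)) (some c0)
      (aPair B (algebraMap O B c0)) (nPair B (algebraMap O B c0)) := by
  haveI := isLocalRing_WChart hc
  refine
    { tower := fun r => (IsScalarTower.algebraMap_apply O B _ r).symm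
      map_mem := fun b hb => algebraMap_B_mem hc hb
      isPt := ?_
      lift := ?_
      nn := fun m h => ⟨m + 4, nn_WChart hc h⟩ }
  · refine ⟨aPair_mem hc, nPair_mem hc, Or.inr ⟨c0, rfl, s1 B _, s2 B _, uVec B _, s1_mem hc,
      s2_mem hc, uVec_mem hc, fun _ => rfl, fun _ => rfl, ?_⟩⟩
    rw [Qf_eq_Q, Q_uVec, relation, IsScalarTower.algebraMap_apply O B (WChart B _), ← map_pow,
      algebraMap_B_apply]
    simp only [map_pow]
  · intro A _ _ _ _ ψ a' n' hpt
    obtain ⟨ha', hn', h⟩ := hpt
    rcases h with ⟨h0, -⟩ | ⟨c', hc', t1, t2, u, ht1, ht2, hu, hau, hnu, hrel⟩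
    · exact absurd h0 (by simp)
    · have hcc : c' = c0 := (Option.some.inj hc').symm
      subst hcc
      have hrel' : t2 ^ 2 * Q u = (ψ : B →+* A) (algebraMap O B c') ^ 2 := by
        rw [← Qf_eq_Q, hrel]
        congr 1
        exact (ψ.commutes c').symm
      obtain ⟨g', e1, e2, e3⟩ := Lift.exists_extend_WChart hc (ψ : B →+* A) t1 t2 u ht1 ht2 hu hrel'
      refine ⟨{ g' with commutes' := fun r => ?_ }, e1, fun i => ?_, fun i => ?_⟩
      · show g' (algebraMap O (WChart B _) r) = algebraMap O A r
        rw [IsScalarTower.algebraMap_apply O B (WChart B _), e1]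
        exact ψ.commutes r
      · show g' (aPair B _ i) = a' i
        rw [e2, hau]
      · show g' (nPair B _ i) = n' i
        rw [e3, hnu]

/-- **the `t`-test for the Weierstrass chart** (RULING R4 §3.4, case `ξ_q = c`) -/
theorem chartHP_WChart (c0 : O) (hc : algebraMap O B c0 ∈ maximalIdeal B)
    (hc0 : c0 ∈ Ideal.span {lam}) (hlam : lam ∈ (Ideal.span {c0}).radical) (h2 : IsUnit (2 : O))
    {m : ℕ} (hB : NN lam B m) {d : O} (hd : d ∈ Ideal.span {lam}) :
    ChartHP lam d (WChart B (algebraMap O B c0)) (aPair B (algebraMap O B c0)) := by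
  intro 𝔓 h𝔓
  have h𝔓p : 𝔓.IsPrime := h𝔓.1.1
  have hcl : algebraMap O B c0 ∈ Ideal.span {algebraMap O B lam} := by
    obtain ⟨x, rfl⟩ := Ideal.mem_span_singleton'.mp hc0
    rw [map_mul]
    exact Ideal.mul_mem_left _ _ (Ideal.mem_span_singleton_self _)
  have hlc : algebraMap O B lam ∈ (Ideal.span {algebraMap O B c0}).radical := by
    obtain ⟨k, hk⟩ := hlam
    obtain ⟨x, hx⟩ := Ideal.mem_span_singleton'.mp hk
    refine ⟨k, ?_⟩
    rw [← map_pow, ← hx, map_mul]
    exact Ideal.mul_mem_left _ _ (Ideal.mem_span_singleton_self _)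
  have h2B : IsUnit (2 : B) := by
    have := h2.map (algebraMap O B)
    rwa [map_ofNat] at this
  have hdB : algebraMap O B d ∈ Ideal.span {algebraMap O B lam} := by
    obtain ⟨x, rfl⟩ := Ideal.mem_span_singleton'.mp hd
    rw [map_mul]
    exact Ideal.mul_mem_left _ _ (Ideal.mem_span_singleton_self _)
  have hdim := (nn_WChart hc hB).ringKrullDim_quotient_minimalPrimes h𝔓
  have hn := hB.ringKrullDim_quotient_span_le
  have key := WChartSp.tElt_not_mem_radical hc hcl hlc h2B hn 𝔓 hdim hdB
  rw [Qf_eq_Q, IsScalarTower.algebraMap_apply O B (WChart B _) (d ^ 2), map_pow,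
    IsScalarTower.algebraMap_apply O B (WChart B _) lam]
  exact key

/-! ### Extending a stage by a Weierstrass chart -/

section Extend

variable [IsLocalRing O] [IsNoetherianRing O] [IsAdicComplete (maximalIdeal O) O] {g s : ℕ}

/-- one more prime, of type `some c0`, on top of a stage -/
noncomputable def extendW (X : Stage O lam g s) (c0 : O)
    (hc : algebraMap O X.E c0 ∈ maximalIdeal X.E) : Stage O lam g (s + 1) :=
  haveI := isLocalRing_WChart hc
  haveI := isAdicComplete_WChart hc
  X.extend (some c0) (WChart X.E (algebraMap O X.E c0)) (aPair X.E (algebraMap O X.E c0))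
    (nPair X.E (algebraMap O X.E c0)) (isChartOver_WChart lam c0 hc)

theorem extendW_ty (X : Stage O lam g s) (c0 : O)
    (hc : algebraMap O X.E c0 ∈ maximalIdeal X.E) :
    (extendW X c0 hc).ty = Fin.snoc X.ty (some c0) := rfl

/-- the `t`-test holds on a stage whose last chart is a Weierstrass chart -/
theorem extendW_HP (X : Stage O lam g s) (c0 : O)
    (hc : algebraMap O X.E c0 ∈ maximalIdeal X.E) (hc0 : c0 ∈ Ideal.span {lam})
    (hlam : lam ∈ (Ideal.span {c0}).radical) (h2 : IsUnit (2 : O)) {d : O}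
    (hd : d ∈ Ideal.span {lam}) : (extendW X c0 hc).HP d := by
  haveI := isLocalRing_WChart hc
  haveI := isAdicComplete_WChart hc
  exact Stage.extend_HP X (some c0) (WChart X.E (algebraMap O X.E c0))
    (aPair X.E (algebraMap O X.E c0)) (nPair X.E (algebraMap O X.E c0))
    (isChartOver_WChart lam c0 hc) d (chartHP_WChart c0 hc hc0 hlam h2 X.nn hd)

end Extend

end Fermat.Agent.GB.Local.Multi.WChartInst
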