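/-
GATE-B / B1-MULTI under RULING R5 (board 5804), helper51: the three chart steps as instances of
helper54's `G.IsChartOver (R5.spec O)`, the family of stages, and the final existential package.

* `isChartOver_ofOpt` : a chart in the sense of `Multi/Stage.lean` (types `Option O`) is a chart for
  `R5.spec O` of type `inl o` — hence `D1` (`D1Inst`) and `W_c` (`WChartInst`);
* `isChartOver_St`    : helper6's `StChart B c` is a chart of type `inr (e, c)`;
* `step`, `stageOf`   : the tower of charts with a prescribed type vector;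
* `exists_family`, **`exists_package`** : `∃ J₂ ⊆ RM O (s + 1) g`, `hdim ∧ hP ∧ kill₂`, for allowed
  types `𝒯 v ⊆ R5.Ty O` (all constants divisible by `lam`; at the last prime only the types
  `inl none`, `inl (some c)` with `lam ∈ rad (c)`).
-/
import Mathlib
import Fermat.Agent.GB.Local.Multi.R5Spec
import Fermat.Agent.GB.Local.Multi.WChartInst
import Fermat.Agent.GB.Local.Multi.D1Inst

set_option autoImplicit false
set_option linter.unusedSectionVars false
set_option linter.style.haveILetI false

universe u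

open IsLocalRing

namespace Fermat.Agent.GB.Local.Multi.R5

open Fermat.Agent.GB.Local.Multi Fermat.Agent.GB.Local.Rloc Fermat.Agent.GB.Local.Multi.StPt

/-! ### Chart instances for `R5.spec` -/

section Inst

variable {O : Type u} [CommRing O] {lam : O}
variable {B : Type u} [CommRing B] [IsLocalRing B] [Algebra O B]

/-- charts of `Multi/Stage.lean` are charts for `R5.spec` -/
theorem isChartOver_ofOpt {E : Type u} [CommRing E] [IsLocalRing E] [Algebra O E] [Algebra B E]
    {o : Option O} {a n : Fin 3 → E} (h : Multi.IsChartOver O lam B E o a n) :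
    G.IsChartOver (spec O) lam B E (Sum.inl o) a n where
  tower := h.tower
  map_mem := h.map_mem
  isPt := h.isPt
  lift := fun A _ _ _ _ ψ a' n' hpt => h.lift A ψ a' n' hpt
  nn := h.nn

variable [IsNoetherianRing B] [IsAdicComplete (maximalIdeal B) B]

open Fermat.Agent.GB.Local.Multi.StChart in
theorem algebraMap_B_mem_St {c : B} (hc : c ∈ maximalIdeal B) {b : B}
    (hb : b ∈ maximalIdeal B) :
    haveI := isLocalRing_StChart hc
    algebraMap B (StChart B c) b ∈ maximalIdeal (StChart B c) := by
  haveI := isLocalRing_StChart hc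
  rw [StChart.algebraMap_B_apply]
  exact StChart.algebraMap_mem_maximalIdeal hc (WChartInst.C_mem_maximalIdeal_B4 hb)

open Fermat.Agent.GB.Local.Multi.StChart in
/-- the `NN` step of the Steinberg chart: `m ↦ m + 4` -/
theorem nn_St {c : B} (hc : c ∈ maximalIdeal B) {m : ℕ} (h : NN lam B m) :
    NN lam (StChart B c) (m + 4) := by
  haveI := free_StChart hc
  haveI := finite_StChart hc
  exact (h.mvPowerSeries 4).of_free (StChart B c)

open Fermat.Agent.GB.Local.Multi.StChart in
variable (lam) in
/-- **helper6's Steinberg chart is a chart of type `inr (e, c)`** -/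
theorem isChartOver_St {h0 : O} (hh : 2 * h0 = 1) (e c : O)
    (hc : algebraMap O B c ∈ maximalIdeal B) :
    haveI := isLocalRing_StChart hc
    G.IsChartOver (spec O) lam B (StChart B (algebraMap O B c)) (Sum.inr (e, c))
      (StChart.aPair B (algebraMap O B c) (algebraMap O B e))
      (StChart.nPair B (algebraMap O B c)) := by
  haveI := isLocalRing_StChart hc
  have htower : ∀ r : O, algebraMap B (StChart B (algebraMap O B c)) (algebraMap O B r) =
      algebraMap O (StChart B (algebraMap O B c)) r := fun r =>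
    (IsScalarTower.algebraMap_apply O B _ r).symm
  refine
    { tower := htower
      map_mem := fun b hb => algebraMap_B_mem_St hc hb
      isPt := ?_
      lift := ?_
      nn := fun m h => ⟨m + 4, nn_St hc h⟩ }
  · show IsStPt (algebraMap O (StChart B _) e) (algebraMap O (StChart B _) c) _ _
    rw [← htower e, ← htower c]
    exact isStPt_chart hc (algebraMap O B e)
  · intro A _ _ _ _ ψ a' n' hpt
    have hpt' : IsStPt (algebraMap O A e) (algebraMap O A c) a' n' := hpt
    letI : Algebra B A := (ψ : B →+* A).toAlgebra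
    have hBA : ∀ b, algebraMap B A b = ψ b := fun _ => rfl
    have hhB : 2 * algebraMap O B h0 = 1 := by
      have := congrArg (algebraMap O B) hh
      rwa [map_mul, map_ofNat, map_one] at this
    have hpt'' : IsStPt (algebraMap B A (algebraMap O B e)) (algebraMap B A (algebraMap O B c))
        a' n' := by
      rw [hBA, hBA, ψ.commutes, ψ.commutes]
      exact hpt'
    obtain ⟨φ, e1, e2⟩ := exists_algHom_of_isStPt (B := B) (c := algebraMap O B c) (T := A) hhB
      (algebraMap O B e) hpt''
    refine ⟨{ (φ : StChart B (algebraMap O B c) →+* A) with commutes' := fun r => ?_ },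
      fun b => ?_, e1, e2⟩
    · show φ (algebraMap O (StChart B _) r) = algebraMap O A r
      rw [← htower r, φ.commutes, hBA]
      exact ψ.commutes r
    · show φ (algebraMap B (StChart B _) b) = ψ b
      rw [φ.commutes, hBA]

end Inst

/-! ### Extending a stage -/

section Build

variable {O : Type u} [CommRing O] [IsLocalRing O] [IsNoetherianRing O]
  [IsAdicComplete (maximalIdeal O) O] {lam : O} {g : ℕ}

/-- the constant of a type (`0` for `none`) -/
def const : Ty O → O
  | Sum.inl none => 0
  | Sum.inl (some c) => c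
  | Sum.inr (_, c) => c

/-- the structure map of an `R5`-stage is local -/
theorem algebraMap_mem {s : ℕ} (X : G.Stage (spec O) lam g s)
    (hty : ∀ v, const (X.ty v) ∈ maximalIdeal O) {r : O} (hr : r ∈ maximalIdeal O) :
    algebraMap O X.E r ∈ maximalIdeal X.E := by
  have hbot : maximalIdeal (ResidueField O) = ⊥ := IsLocalRing.maximalIdeal_eq_bot
  haveI : IsAdicComplete (maximalIdeal (ResidueField O)) (ResidueField O) := by
    rw [hbot]; infer_instance
  have hres : ∀ c ∈ maximalIdeal O, algebraMap O (ResidueField O) c = 0 := fun c hc =>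
    (IsLocalRing.residue_eq_zero_iff c).mpr hc
  have hpt : ∀ v, (spec O).pred (X.ty v) (ResidueField O) (fun _ => 0) (fun _ => 0) := by
    intro v
    have hv := hty v
    rcases hX : X.ty v with (_ | c) | ⟨e, c⟩
    · exact ⟨fun _ => zero_mem _, fun _ => zero_mem _, Or.inl ⟨rfl, fun _ => rfl⟩⟩
    · rw [hX] at hv
      refine ⟨fun _ => zero_mem _, fun _ => zero_mem _, Or.inr ⟨c, rfl, 0, 0, fun _ => 0,
        zero_mem _, zero_mem _, fun _ => zero_mem _, fun _ => (mul_zero _).symm,
        fun _ => (mul_zero _).symm, ?_⟩⟩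
      rw [hres c hv]
      simp
    · rw [hX] at hv
      show IsStPt (algebraMap O (ResidueField O) e) (algebraMap O (ResidueField O) c) _ _
      refine ⟨fun _ => 0, fun _ => 0, 0, fun _ => zero_mem _, fun _ => zero_mem _, zero_mem _,
        ?_, ?_, ?_⟩
      · rw [hres c hv]; simp
      · funext i; fin_cases i <;> simp [stA]
      · funext i; fin_cases i <;> simp [stN]
  obtain ⟨ψ, -, -, -⟩ := X.lift (ResidueField O) (fun _ _ => 0) (fun _ _ => 0) (fun _ => 0) hpt
    (fun _ => zero_mem _)
  by_contra hnot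
  have hu : IsUnit (algebraMap O X.E r) := by
    by_contra hnu
    exact hnot ((mem_maximalIdeal _).mpr hnu)
  have := hu.map ψ
  rw [ψ.commutes, hres r hr] at this
  exact not_isUnit_zero this

variable {h0 : O} (hh : 2 * h0 = 1)
include hh

/-- one more prime of type `t` -/
noncomputable def step {s : ℕ} (X : G.Stage (spec O) lam g s)
    (hty : ∀ v, const (X.ty v) ∈ maximalIdeal O) :
    ∀ t : Ty O, const t ∈ maximalIdeal O → G.Stage (spec O) lam g (s + 1)
  | Sum.inl none, _ =>
    haveI := Fermat.Agent.S53.isAdicComplete_mvPowerSeries X.E (Fin 3)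
    X.extend (Sum.inl none) (D1Inst.D1 X.E) (fun i => MvPowerSeries.X i) (fun _ => 0)
      (isChartOver_ofOpt (D1Inst.isChartOver_D1 lam X.E))
  | Sum.inl (some c), hc =>
    have hcE : algebraMap O X.E c ∈ maximalIdeal X.E := algebraMap_mem X hty hc
    haveI := WChart.isLocalRing_WChart hcE
    haveI := WChart.isAdicComplete_WChart hcE
    X.extend (Sum.inl (some c)) (WChart.WChart X.E (algebraMap O X.E c))
      (WChart.aPair X.E (algebraMap O X.E c)) (WChart.nPair X.E (algebraMap O X.E c))
      (isChartOver_ofOpt (WChartInst.isChartOver_WChart lam c hcE))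
  | Sum.inr (e, c), hc =>
    have hcE : algebraMap O X.E c ∈ maximalIdeal X.E := algebraMap_mem X hty hc
    haveI := StChart.isLocalRing_StChart hcE
    haveI := StChart.isAdicComplete_StChart hcE
    X.extend (Sum.inr (e, c)) (StChart.StChart X.E (algebraMap O X.E c))
      (StChart.aPair X.E (algebraMap O X.E c) (algebraMap O X.E e))
      (StChart.nPair X.E (algebraMap O X.E c)) (isChartOver_St lam hh e c hcE)

theorem step_ty {s : ℕ} (X : G.Stage (spec O) lam g s)
    (hty : ∀ v, const (X.ty v) ∈ maximalIdeal O) (t : Ty O) (ht : const t ∈ maximalIdeal O) :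
    (step hh X hty t ht).ty = Fin.snoc X.ty t := by
  rcases t with (_ | c) | ⟨e, c⟩ <;> rfl

/-- the `t`-test after a step of type `inl o` -/
theorem step_HP {s : ℕ} (X : G.Stage (spec O) lam g s)
    (hty : ∀ v, const (X.ty v) ∈ maximalIdeal O) (o : Option O)
    (ht : const (Sum.inl o : Ty O) ∈ maximalIdeal O)
    (hq : ∀ c, o = some c → c ∈ Ideal.span {lam} ∧ lam ∈ (Ideal.span {c}).radical)
    (hlam : lam ∈ maximalIdeal O) (h2 : IsUnit (2 : O)) {d : O} (hd : d ∈ Ideal.span {lam}) :
    (step hh X hty (Sum.inl o) ht).HP d := by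
  have hdm : d ∈ maximalIdeal O := by
    obtain ⟨x, rfl⟩ := Ideal.mem_span_singleton'.mp hd
    exact Ideal.mul_mem_left _ _ hlam
  cases o with
  | none =>
    haveI := Fermat.Agent.S53.isAdicComplete_mvPowerSeries X.E (Fin 3)
    exact G.Stage.extend_HP X (Sum.inl none) (D1Inst.D1 X.E) (fun i => MvPowerSeries.X i)
      (fun _ => 0) (isChartOver_ofOpt (D1Inst.isChartOver_D1 lam X.E)) d
      (D1Inst.chartHP_D1 X.lam_mem h2 (algebraMap_mem X hty hdm))
  | some c =>
    have hcE : algebraMap O X.E c ∈ maximalIdeal X.E := algebraMap_mem X hty ht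
    haveI := WChart.isLocalRing_WChart hcE
    haveI := WChart.isAdicComplete_WChart hcE
    exact G.Stage.extend_HP X (Sum.inl (some c)) (WChart.WChart X.E (algebraMap O X.E c))
      (WChart.aPair X.E (algebraMap O X.E c)) (WChart.nPair X.E (algebraMap O X.E c))
      (isChartOver_ofOpt (WChartInst.isChartOver_WChart lam c hcE)) d
      (WChartInst.chartHP_WChart c hcE (hq c rfl).1 (hq c rfl).2 h2 X.nn hd)

/-- the tower of charts with prescribed type vector -/
noncomputable def stageOf (base : G.Stage (spec O) lam g 0) :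
    ∀ (s : ℕ) (o : Fin s → Ty O), (∀ v, const (o v) ∈ maximalIdeal O) →
      {X : G.Stage (spec O) lam g s // X.ty = o}
  | 0, _, _ => ⟨base, funext fun v => v.elim0⟩
  | s + 1, o, h =>
    let X := stageOf base s (Fin.init o) (fun v => h v.castSucc)
    ⟨step hh X.1 (by rw [X.2]; exact fun v => h v.castSucc) (o (Fin.last s)) (h _), by
      rw [step_ty, X.2]
      exact Fin.snoc_init_self o⟩

theorem stageOf_HP (base : G.Stage (spec O) lam g 0) (s : ℕ) (o : Fin (s + 1) → Ty O)
    (h : ∀ v, const (o v) ∈ maximalIdeal O) (oq : Option O) (hoq : o (Fin.last s) = Sum.inl oq)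
    (hq : ∀ c, oq = some c → c ∈ Ideal.span {lam} ∧ lam ∈ (Ideal.span {c}).radical)
    (hlam : lam ∈ maximalIdeal O) (h2 : IsUnit (2 : O)) {d : O} (hd : d ∈ Ideal.span {lam}) :
    (stageOf hh base (s + 1) o h).1.HP d := by
  have hty : ∀ v, const ((stageOf hh base s (Fin.init o) (fun v => h v.castSucc)).1.ty v) ∈
      maximalIdeal O := by
    rw [(stageOf hh base s (Fin.init o) (fun v => h v.castSucc)).2]
    exact fun v => h v.castSucc
  have e : (stageOf hh base (s + 1) o h).1 =
      step hh (stageOf hh base s (Fin.init o) (fun v => h v.castSucc)).1 hty (o (Fin.last s))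
        (h _) := rfl
  rw [e]
  have key : ∀ (t : Ty O) (ht : const t ∈ maximalIdeal O), t = Sum.inl oq →
      (step hh (stageOf hh base s (Fin.init o) (fun v => h v.castSucc)).1 hty t ht).HP d := by
    intro t ht htq
    subst htq
    exact step_HP hh _ hty oq ht hq hlam h2 hd
  exact key _ _ hoq

end Build

/-! ### The family and the package -/

section Package

variable {O : Type u} [CommRing O] [IsLocalRing O] [IsNoetherianRing O]
  [IsAdicComplete (maximalIdeal O) O] {lam : O} {g : ℕ}

/-- the certificate of every type whose constant is divisible by `lam` -/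
theorem hasCert_of_dvd (t : Ty O) (ht : lam ∣ const t) : G.HasCert (spec O) lam t := by
  rcases t with (_ | c) | ⟨e, c⟩
  · exact hasCert_none
  · exact hasCert_some ht
  · exact hasCert_st ht

/-- **the family of multi-charts of R5** -/
theorem exists_family {h0 : O} (hh : 2 * h0 = 1) (hbase : NN lam (MvPowerSeries (Fin g) O) g)
    (hlam : lam ∈ maximalIdeal O) {s : ℕ} (𝒯 : Fin (s + 1) → Finset (Ty O))
    (hadm : ∀ v, ∀ t ∈ 𝒯 v, lam ∣ const t)
    (hlast : ∀ t ∈ 𝒯 (Fin.last s), ∃ o : Option O, t = Sum.inl o ∧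
      ∀ c, o = some c → lam ∈ (Ideal.span {c}).radical)
    {d : O} (hd : d ∈ Ideal.span {lam}) :
    ∃ Fam : G.TyVec (T := (spec O).T) 𝒯 → G.Stage (spec O) lam g (s + 1),
      (∀ ξ, (Fam ξ).ty = G.toVec ξ) ∧ ∀ ξ, (Fam ξ).HP d := by
  have h2 : IsUnit (2 : O) := IsUnit.of_mul_eq_one h0 hh
  have hmem : ∀ (ξ : G.TyVec (T := (spec O).T) 𝒯) v, const (G.toVec ξ v) ∈ maximalIdeal O := by
    intro ξ v
    obtain ⟨r, hr⟩ := hadm v _ (G.toVec_mem ξ v)
    exact hr ▸ Ideal.mul_mem_right _ _ hlam
  refine ⟨fun ξ => (stageOf hh (G.Stage.base (spec O) lam g hbase hlam) (s + 1) (G.toVec ξ)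
      (hmem ξ)).1,
    fun ξ => (stageOf hh (G.Stage.base (spec O) lam g hbase hlam) (s + 1) (G.toVec ξ)
      (hmem ξ)).2, fun ξ => ?_⟩
  obtain ⟨oq, hoq, hrad⟩ := hlast _ (G.toVec_mem ξ (Fin.last s))
  refine stageOf_HP hh _ s (G.toVec ξ) (hmem ξ) oq hoq (fun c hc => ⟨?_, hrad c hc⟩) hlam h2 hd
  have := hadm _ _ (G.toVec_mem ξ (Fin.last s))
  rw [hoq, hc] at this
  exact Ideal.mem_span_singleton.mpr this

/-- **B1-MULTI under RULING R5, existential package**: allowed chart types `𝒯 v ⊆ R5.Ty O` at
`s + 1` framed primes, all constants divisible by `lam`; at the LAST prime only the types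
`inl none` (`D1`) and `inl (some c)` (`W_c`) with `lam ∈ rad (c)`.  Then there is an ideal `J₂` of
the flat ring `RM O (s + 1) g` with
* (hdim) `dim RM ⧸ J₂ ≤ 1 + 3 (s + 1) + g`,
* (hP) `t = 4 Q(a_q) − d²` passes the radical test on every minimal prime of `RM ⧸ J₂`,
* (kill₂) every point all of whose blocks are points of allowed types kills `J₂`. -/
theorem exists_package [IsDomain O] (hmax : maximalIdeal O = Ideal.span {lam})
    (hO : ringKrullDim O = 1) {h0 : O} (hh : 2 * h0 = 1) {s : ℕ}
    (𝒯 : Fin (s + 1) → Finset (Ty O)) (hne : ∀ v, (𝒯 v).Nonempty)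
    (hadm : ∀ v, ∀ t ∈ 𝒯 v, lam ∣ const t)
    (hlast : ∀ t ∈ 𝒯 (Fin.last s), ∃ o : Option O, t = Sum.inl o ∧
      ∀ c, o = some c → lam ∈ (Ideal.span {c}).radical)
    {d : O} (hd : d ∈ Ideal.span {lam}) :
    ∃ J₂ : Ideal (RM O (s + 1) g),
      ringKrullDim (RM O (s + 1) g ⧸ J₂) ≤ ((1 + 3 * (s + 1) + g : ℕ) : WithBot ℕ∞) ∧
      (∀ P ∈ minimalPrimes (RM O (s + 1) g ⧸ J₂),
        Ideal.Quotient.mk J₂ (tM O d) ∉
          (P ⊔ Ideal.span {Ideal.Quotient.mk J₂ (MvPowerSeries.C lam)}).radical) ∧
      ∀ (A : Type u) [CommRing A] [IsLocalRing A] [Algebra O A]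
        [IsAdicComplete (maximalIdeal A) A] (θ : RM O (s + 1) g →ₐ[O] A),
        (∀ v, ∃ t ∈ 𝒯 v, (spec O).pred t A (fun i => θ (aV O v i)) (fun i => θ (nV O v i))) →
        (∀ j, θ (xV O j) ∈ maximalIdeal A) → J₂ ≤ RingHom.ker θ := by
  have hlam : lam ∈ maximalIdeal O := by rw [hmax]; exact Ideal.mem_span_singleton_self _
  have hOlam : ringKrullDim (O ⧸ Ideal.span {lam}) ≤ 0 := by
    rw [← hmax]
    exact (ringKrullDim_eq_zero_of_field (ResidueField O)).le
  have hbase : NN lam (MvPowerSeries (Fin g) O) g := NN.base hO hOlam g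
  obtain ⟨Fam, hFam, hHP⟩ := exists_family (g := g) hh hbase hlam 𝒯 hadm hlast hd
  exact ⟨G.J2M Fam,
    G.ringKrullDim_quot_J2M_le Fam hFam hmax hne (fun v t ht => hasCert_of_dvd t (hadm v t ht)),
    G.hP_J2M Fam d hHP, fun A _ _ _ _ θ hpt hx => G.J2M_le_ker Fam hFam θ hpt hx⟩

end Package

end Fermat.Agent.GB.Local.Multi.R5
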