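/-
GATE-B / B1-MULTI, design (III) (board 5688, referee 5729), helper6: the LOCAL DICHOTOMY at a framed
prime `ℓ ≠ q`.

Over a domain `D` with `2 h = 1` and `ℓ ∉ {0, 1, −1}` in `D`: a pair `(S, F)` of `2 × 2` matrices with
`tr S = 2`, `(S − 1)² = 0` (unipotent inertia, S34), `F S = S ^ ℓ F` (tame relation) and
`det F = ℓ` (fixed determinant) is
* either UNRAMIFIED: `S = 1`,
* or of STEINBERG SHAPE, automatically: `tr F = ε (1 + ℓ)` with `ε = ± 1`, and in the traceless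
  coordinates `a = tl h F`, `n = tl h S` (with `c = h (ℓ − 1)`):
  `Q a = c²`, `Q n = 0`, `⟨a, n⟩ = 0`, `a₁n₂ − a₂n₁ = 2 ε c n₀`, `a₀n₁ − a₁n₀ = ε c n₁`,
  `a₀n₂ − a₂n₀ = − ε c n₂`   (i.e. `[A₀, N] = 2 ε c N`),
  which are exactly the relations of the chart `Multi/StChart.lean` (`e = ε`).
No `ℓ`-newness, no `B7` at `ℓ`: the shape follows from `N ≠ 0`.
-/
import Mathlib
import Fermat.Agent.GB.Local.TamePoint

set_option autoImplicit false

namespace Fermat.Agent.GB.Local.Multi.UnrSt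

open Matrix Fermat.Agent.GB.Local.TamePoint

variable {D : Type*} [CommRing D]

/-- `(1 + N) ^ k = 1 + k • N` when `N² = 0`. -/
theorem one_add_pow_of_sq (N : Matrix (Fin 2) (Fin 2) D) (hN : N * N = 0) (k : ℕ) :
    (1 + N) ^ k = 1 + (k : D) • N := by
  induction k with
  | zero => simp
  | succ k ih =>
    rw [pow_succ, ih, add_mul, mul_add, mul_add, one_mul, mul_one, smul_mul_assoc, hN, smul_zero,
      add_zero, Nat.cast_succ, add_smul, one_smul]
    simp only [one_mul]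
    abel

/-- `S ^ k = 1 + k • (S − 1)` when `(S − 1)² = 0`. -/
theorem pow_eq_of_sub_one_sq (S : Matrix (Fin 2) (Fin 2) D) (hS : (S - 1) ^ 2 = 0) (k : ℕ) :
    S ^ k = 1 + (k : D) • (S - 1) := by
  have hN : (S - 1) * (S - 1) = 0 := by rw [← pow_two]; exact hS
  have h := one_add_pow_of_sq (S - 1) hN k
  rwa [add_sub_cancel] at h

/-- with `tr S = 2`: the matrix `S − 1` in terms of `n = tl h S`. -/
theorem sub_one_eq {h : D} (hh : 2 * h = 1) (S : Matrix (Fin 2) (Fin 2) D) (htr : S.trace = 2) :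
    S - 1 = !![tl h S 0, tl h S 1; tl h S 2, -tl h S 0] := by
  rw [Matrix.trace_fin_two] at htr
  ext i j
  fin_cases i <;> fin_cases j
  · show (S - 1) 0 0 = h * (S 0 0 - S 1 1)
    rw [Matrix.sub_apply, Matrix.one_apply_eq]
    linear_combination (-(S 0 0) + 1) * hh + h * htr
  · show (S - 1) 0 1 = S 0 1
    rw [Matrix.sub_apply, Matrix.one_apply_ne (by decide), sub_zero]
  · show (S - 1) 1 0 = S 1 0
    rw [Matrix.sub_apply, Matrix.one_apply_ne (by decide), sub_zero]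
  · show (S - 1) 1 1 = -(h * (S 0 0 - S 1 1))
    rw [Matrix.sub_apply, Matrix.one_apply_eq]
    linear_combination (-(S 1 1) + 1) * hh + h * htr

/-- `F` in terms of `a = tl h F` and its trace. -/
theorem eq_of_tl {h : D} (hh : 2 * h = 1) (F : Matrix (Fin 2) (Fin 2) D) :
    F = !![h * F.trace + tl h F 0, tl h F 1; tl h F 2, h * F.trace - tl h F 0] := by
  rw [Matrix.trace_fin_two]
  ext i j
  fin_cases i <;> fin_cases j
  · show F 0 0 = h * (F 0 0 + F 1 1) + h * (F 0 0 - F 1 1)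
    linear_combination (-(F 0 0)) * hh
  · rfl
  · rfl
  · show F 1 1 = h * (F 0 0 + F 1 1) - h * (F 0 0 - F 1 1)
    linear_combination (-(F 1 1)) * hh

/-- `S = 1` iff the traceless coordinates of `S` vanish (given `tr S = 2`). -/
theorem eq_one_of_tl_eq_zero {h : D} (hh : 2 * h = 1) (S : Matrix (Fin 2) (Fin 2) D)
    (htr : S.trace = 2) (hn : ∀ i, tl h S i = 0) : S = 1 := by
  have h1 := sub_one_eq hh S htr
  rw [hn 0, hn 1, hn 2, neg_zero] at h1
  have h2 : S - 1 = 0 := by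
    rw [h1]
    ext i j
    fin_cases i <;> fin_cases j <;> simp
  exact sub_eq_zero.mp h2

/-- the entry equations of `F N = ℓ N F` in traceless coordinates. -/
theorem entries_of_rel {h : D} (hh : 2 * h = 1) (S F : Matrix (Fin 2) (Fin 2) D)
    (htr : S.trace = 2) (hS : (S - 1) ^ 2 = 0) {ℓ : ℕ} (hrel : F * S = S ^ ℓ * F) :
    let a := tl h F
    let n := tl h S
    let τ := F.trace
    ((h * τ + a 0) * n 0 + a 1 * n 2 = (ℓ : D) * (n 0 * (h * τ + a 0) + n 1 * a 2)) ∧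
    ((h * τ + a 0) * n 1 - a 1 * n 0 = (ℓ : D) * (n 0 * a 1 + n 1 * (h * τ - a 0))) ∧
    (a 2 * n 0 + (h * τ - a 0) * n 2 = (ℓ : D) * (n 2 * (h * τ + a 0) - n 0 * a 2)) ∧
    (a 2 * n 1 - (h * τ - a 0) * n 0 = (ℓ : D) * (n 2 * a 1 - n 0 * (h * τ - a 0))) := by
  intro a n τ
  have hFN : F * (S - 1) = (ℓ : D) • ((S - 1) * F) := by
    have h1 : F * S = F + F * (S - 1) := by rw [mul_sub, mul_one]; abel
    have h2 : S ^ ℓ * F = F + (ℓ : D) • ((S - 1) * F) := by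
      rw [pow_eq_of_sub_one_sq S hS, add_mul, one_mul, smul_mul_assoc]
    rw [h1, h2] at hrel
    exact add_left_cancel hrel
  rw [sub_one_eq hh S htr] at hFN
  have hF := eq_of_tl hh F
  rw [hF] at hFN
  have e00 := congrFun (congrFun hFN 0) 0
  have e01 := congrFun (congrFun hFN 0) 1
  have e10 := congrFun (congrFun hFN 1) 0
  have e11 := congrFun (congrFun hFN 1) 1
  simp only [Matrix.mul_apply, Fin.sum_univ_two, Matrix.smul_apply, of_apply, cons_val',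
    cons_val_zero, cons_val_one, cons_val_fin_one, smul_eq_mul] at e00 e01 e10 e11
  refine ⟨?_, ?_, ?_, ?_⟩
  · linear_combination e00
  · linear_combination e01
  · linear_combination e10
  · linear_combination e11

/-- **the local dichotomy**: unramified, or Steinberg shape (automatically). -/
theorem unr_or_st [IsDomain D] {h : D} (hh : 2 * h = 1) {ℓ : ℕ} (hℓ0 : (ℓ : D) ≠ 0)
    (hℓ1 : (ℓ : D) ≠ 1) (hℓ2 : (ℓ : D) + 1 ≠ 0) (S F : Matrix (Fin 2) (Fin 2) D)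
    (htr : S.trace = 2) (hS : (S - 1) ^ 2 = 0) (hrel : F * S = S ^ ℓ * F)
    (hdet : F.det = (ℓ : D)) :
    S = 1 ∨ ∃ ε : D, (ε = 1 ∨ ε = -1) ∧ F.trace = ε * (1 + (ℓ : D)) ∧
      Q (tl h F) = (h * ((ℓ : D) - 1)) ^ 2 ∧ Q (tl h S) = 0 ∧
      2 * (tl h F 0 * tl h S 0) + tl h F 1 * tl h S 2 + tl h F 2 * tl h S 1 = 0 ∧
      tl h F 1 * tl h S 2 - tl h F 2 * tl h S 1 = 2 * (ε * (h * ((ℓ : D) - 1))) * tl h S 0 ∧
      tl h F 0 * tl h S 1 - tl h F 1 * tl h S 0 = ε * (h * ((ℓ : D) - 1)) * tl h S 1 ∧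
      tl h F 0 * tl h S 2 - tl h F 2 * tl h S 0 = -(ε * (h * ((ℓ : D) - 1)) * tl h S 2) := by
  obtain ⟨e00, e01, e10, e11⟩ := entries_of_rel hh S F htr hS hrel
  set a := tl h F with ha
  set n := tl h S with hn
  set τ := F.trace with hτ
  -- `Q n = 0`
  have hQn : Q n = 0 := by
    have h1 := sub_one_eq hh S htr
    have h2 : (S - 1) * (S - 1) = 0 := by rw [← pow_two]; exact hS
    rw [h1] at h2
    have := congrFun (congrFun h2 0) 0
    simp only [Matrix.mul_apply, Fin.sum_univ_two, of_apply, cons_val', cons_val_zero,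
      cons_val_one, cons_val_fin_one, Matrix.zero_apply] at this
    rw [Q]
    linear_combination this
  have h4 : 4 * h ^ 2 = 1 := by linear_combination (2 * h + 1) * hh
  -- `Q a = (h τ)² − ℓ`
  have hQa : Q a = (h * τ) ^ 2 - (ℓ : D) := by rw [ha, Q_tl hh, hdet]
  -- `σ = ⟨a, n⟩ = 0`
  have hσ : 2 * (a 0 * n 0) + a 1 * n 2 + a 2 * n 1 = 0 := by
    have h1 : (1 - (ℓ : D)) * (2 * (a 0 * n 0) + a 1 * n 2 + a 2 * n 1) = 0 := by
      linear_combination e00 + e11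
    rcases mul_eq_zero.mp h1 with h | h
    · exact absurd (sub_eq_zero.mp h).symm hℓ1
    · exact h
  -- `(1 + ℓ) N A₀ = (1 − ℓ) h τ N`
  have hi : (1 + (ℓ : D)) * (n 0 * a 0 + n 1 * a 2) = (1 - (ℓ : D)) * (h * τ) * n 0 := by
    linear_combination (-1 : D) * e00 + hσ
  have hii : (1 + (ℓ : D)) * (n 0 * a 1 - n 1 * a 0) = (1 - (ℓ : D)) * (h * τ) * n 1 := by
    linear_combination (-1 : D) * e01
  have hiii : (1 + (ℓ : D)) * (n 2 * a 0 - n 0 * a 2) = (1 - (ℓ : D)) * (h * τ) * n 2 := by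
    linear_combination (-1 : D) * e10
  by_cases hn0 : ∀ i, n i = 0
  · left
    exact eq_one_of_tl_eq_zero hh S htr hn0
  right
  push Not at hn0
  obtain ⟨i0, hi0⟩ := hn0
  have hL0 : (1 + (ℓ : D)) ≠ 0 := by rw [add_comm]; exact hℓ2
  -- `(L² Q a − κ²) n_i = 0`
  have k0 : ((1 + (ℓ : D)) ^ 2 * Q a - ((1 - (ℓ : D)) * (h * τ)) ^ 2) * n 0 = 0 := by
    rw [Q]
    linear_combination ((1 + (ℓ : D)) * a 0 + (1 - (ℓ : D)) * (h * τ)) * hi +
      ((1 + (ℓ : D)) * a 2) * hii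
  have k1 : ((1 + (ℓ : D)) ^ 2 * Q a - ((1 - (ℓ : D)) * (h * τ)) ^ 2) * n 1 = 0 := by
    rw [Q]
    linear_combination ((1 + (ℓ : D)) * a 1) * hi +
      ((1 - (ℓ : D)) * (h * τ) - (1 + (ℓ : D)) * a 0) * hii
  have k2 : ((1 + (ℓ : D)) ^ 2 * Q a - ((1 - (ℓ : D)) * (h * τ)) ^ 2) * n 2 = 0 := by
    rw [Q]
    linear_combination (-((1 + (ℓ : D)) * a 2)) * hi +
      ((1 + (ℓ : D)) * a 0 + (1 - (ℓ : D)) * (h * τ)) * hiii + ((1 + (ℓ : D)) ^ 2 * a 2) * hσ
  have hkey : (1 + (ℓ : D)) ^ 2 * Q a - ((1 - (ℓ : D)) * (h * τ)) ^ 2 = 0 := by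
    have : ((1 + (ℓ : D)) ^ 2 * Q a - ((1 - (ℓ : D)) * (h * τ)) ^ 2) * n i0 = 0 := by
      fin_cases i0
      · exact k0
      · exact k1
      · exact k2
    exact (mul_eq_zero.mp this).resolve_right hi0
  -- `τ² = (1 + ℓ)²`
  have hτ2 : (τ - (1 + (ℓ : D))) * (τ + (1 + (ℓ : D))) = 0 := by
    have h1 : (ℓ : D) * ((τ - (1 + (ℓ : D))) * (τ + (1 + (ℓ : D)))) = 0 := by
      rw [hQa] at hkey
      linear_combination hkey + (-(ℓ : D) * τ ^ 2) * h4
    exact (mul_eq_zero.mp h1).resolve_left hℓ0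
  have hfin : ∀ ε : D, (ε = 1 ∨ ε = -1) → τ = ε * (1 + (ℓ : D)) →
      ∃ ε : D, (ε = 1 ∨ ε = -1) ∧ τ = ε * (1 + (ℓ : D)) ∧
      Q a = (h * ((ℓ : D) - 1)) ^ 2 ∧ Q n = 0 ∧
      2 * (a 0 * n 0) + a 1 * n 2 + a 2 * n 1 = 0 ∧
      a 1 * n 2 - a 2 * n 1 = 2 * (ε * (h * ((ℓ : D) - 1))) * n 0 ∧
      a 0 * n 1 - a 1 * n 0 = ε * (h * ((ℓ : D) - 1)) * n 1 ∧
      a 0 * n 2 - a 2 * n 0 = -(ε * (h * ((ℓ : D) - 1)) * n 2) := by
    intro ε hε hτε
    have hε2 : ε ^ 2 = 1 := by rcases hε with rfl | rfl <;> ring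
    refine ⟨ε, hε, hτε, ?_, hQn, hσ, ?_, ?_, ?_⟩
    · rw [hQa, hτε]
      linear_combination ((1 + (ℓ : D)) ^ 2 * h ^ 2) * hε2 + ((ℓ : D)) * h4
    · have h1 : (1 + (ℓ : D)) *
          (a 1 * n 2 - a 2 * n 1 - 2 * (ε * (h * ((ℓ : D) - 1))) * n 0) = 0 := by
        rw [hτε] at hi
        linear_combination (-2 : D) * hi + (1 + (ℓ : D)) * hσ
      exact sub_eq_zero.mp ((mul_eq_zero.mp h1).resolve_left hL0)
    · have h1 : (1 + (ℓ : D)) *
          (a 0 * n 1 - a 1 * n 0 - ε * (h * ((ℓ : D) - 1)) * n 1) = 0 := by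
        rw [hτε] at hii
        linear_combination (-1 : D) * hii
      exact sub_eq_zero.mp ((mul_eq_zero.mp h1).resolve_left hL0)
    · have h1 : (1 + (ℓ : D)) *
          (a 0 * n 2 - a 2 * n 0 + ε * (h * ((ℓ : D) - 1)) * n 2) = 0 := by
        rw [hτε] at hiii
        linear_combination hiii
      have h2 := (mul_eq_zero.mp h1).resolve_left hL0
      linear_combination h2
  rcases mul_eq_zero.mp hτ2 with h | h
  · exact hfin 1 (Or.inl rfl) (by rw [one_mul]; exact sub_eq_zero.mp h)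
  · exact hfin (-1) (Or.inr rfl) (by rw [neg_one_mul]; exact eq_neg_of_add_eq_zero_left h)

/-- from the characteristic polynomial `(X − 1)²` (the shape of `IsUnipotentOnInertiaAt`):
`tr S = 2` and `(S − 1)² = 0`. -/
theorem trace_and_sq_of_charpoly [Nontrivial D] (S : Matrix (Fin 2) (Fin 2) D)
    (hc : S.charpoly = (Polynomial.X - 1) ^ 2) : S.trace = 2 ∧ (S - 1) ^ 2 = 0 := by
  constructor
  · have hexp : (Polynomial.X - 1 : Polynomial D) ^ 2 =
        Polynomial.X ^ 2 - Polynomial.C 2 * Polynomial.X + Polynomial.C 1 := by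
      simp only [map_ofNat, map_one]; ring
    have h1 := hc
    rw [Matrix.charpoly_fin_two, hexp] at h1
    have h2 := congrArg (fun f => Polynomial.coeff f 1) h1
    simp only [Polynomial.coeff_add, Polynomial.coeff_sub, Polynomial.coeff_X_pow,
      Polynomial.coeff_C_mul, Polynomial.coeff_X_one, Polynomial.coeff_C] at h2
    norm_num at h2
    exact h2
  · have h1 := Matrix.aeval_self_charpoly S
    rw [hc] at h1
    simpa using h1

end Fermat.Agent.GB.Local.Multi.UnrSt
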