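/-
GATE-B / B1-MULTI, design (III) = RULING R5 (board 5804), helper6: THE POINT SUPPLY OF STEINBERG TYPE.

A DVR point of the deformation ring gives, at a prime `v ∈ Σ_u ∖ {q}` (`v ≡ 1 mod p`, scalar
residual Frobenius), a pair `F = ρ(φ_v)`, `S = ρ(σ_v)` over the DVR `O'` with `S` unipotent,
`F S = S^ℓ F`, `det F = ℓ`.  By `UnrSt.unr_or_st`, either `S = 1` (type `none` = unramified) or the
traceless coordinates `a = tl F`, `n = tl S` satisfy the relations of the chart `StChart` with
`c = (ℓ − 1)/2` and a sign `ε`.  Here we show that such a pair IS a point of Steinberg type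
(`StPt.IsStPt`) — after adjoining a CUBE ROOT `μ₃` of the uniformiser `π` (needed to move the
parameters `v, y, s` into the maximal ideal), and after ANY framing conjugation.

Abstract frame of helper59 (board 5841), twin of `KillMulti.exists_decomp_conj` / `isPt_of_tame`:
`O'` local principal ideal domain with `𝔪 = (π)`, `B''` a local `O'`-algebra with local structure
map and `μ₃ : B''`, `μ₃ ^ 3 = π` (e.g. `B'' = Broot 6 π`, `μ₃ = μ ^ 2`), `A = B''⟦σ⟧`.

* `exists_params`   : over a valuation domain, the St relations + `n ≠ 0` produce `v, y, s` with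
                      `a = stA ε v y`, `n = stN s v`, `v · y = c` (`y, s` in the ideal, `v` primitive);
* `isStPt_of_params`: rescaling by the cube root: `v ↦ μ₃ v`, `y ↦ μ₃² y/π`, `s ↦ μ₃ s/π`;
* `isStPt_conj`     : the framed statement over `A = B''⟦σ⟧`;
* `none_or_isStPt`  : THE DICHOTOMY in one lemma, from `F S = S^ℓ F`, `det F = ℓ`, `S` unipotent.
-/
import Mathlib
import Fermat.Agent.GB.Local.Multi.StPt
import Fermat.Agent.GB.Local.Multi.UnrSt
import Fermat.Agent.GB.Local.Multi.KillMulti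
import Fermat.Agent.GB.Local.RootUnif

set_option autoImplicit false
set_option linter.unusedSectionVars false
set_option linter.unusedSimpArgs false
set_option linter.style.haveILetI false

open IsLocalRing

namespace Fermat.Agent.GB.Local.Multi.StPoint

open Matrix Fermat.Agent.GB.Local.TamePoint Fermat.Agent.GB.Local.R4Point
open Fermat.Agent.GB.Local.Multi.StPt Fermat.Agent.GB.Local.Multi.KillMulti

/-! ### The parameters over a valuation domain -/

section Core

variable {D : Type*} [CommRing D] [IsDomain D] [ValuationRing D]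

/-- `z² + x · (x w) = 0`, `x ≠ 0` ⟹ `x ∣ z` (a valuation domain is integrally closed). -/
theorem dvd_of_sq_add {x z w : D} (hx : x ≠ 0) (h : z ^ 2 + x * (x * w) = 0) : x ∣ z := by
  rcases ValuationRing.dvd_total x z with h1 | ⟨k, hk⟩
  · exact h1
  · have hz : z ≠ 0 := by
      rintro rfl
      exact hx (by rw [hk, zero_mul])
    have h2 : z ^ 2 * (1 + k ^ 2 * w) = 0 := by
      rw [hk] at h
      linear_combination h
    have h3 : 1 + k ^ 2 * w = 0 := by
      rcases mul_eq_zero.mp h2 with h4 | h4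
      · exact absurd ((pow_eq_zero_iff two_ne_zero).mp h4) hz
      · exact h4
    refine ⟨-(k * w), ?_⟩
    rw [hk]
    linear_combination z * h3

/-- **the parameters**: the St relations and `n ≠ 0` give `a = stA ε v y`, `n = stN s v`,
`v · y = c` with `y`, `s` in any ideal containing the entries of `a`, `n` and `c`. -/
theorem exists_params {h ε c : D} (hh : 2 * h = 1) (hε : ε ^ 2 = 1) (I : Ideal D)
    (a n : Fin 3 → D) (ha : ∀ i, a i ∈ I) (hn : ∀ i, n i ∈ I) (hc : c ∈ I) (hQn : Q n = 0)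
    (h12 : a 1 * n 2 - a 2 * n 1 = 2 * (ε * c) * n 0)
    (h01 : a 0 * n 1 - a 1 * n 0 = ε * c * n 1)
    (h02 : a 0 * n 2 - a 2 * n 0 = -(ε * c * n 2))
    (hn0 : n ≠ 0) :
    ∃ (v y : Fin 2 → D) (s : D), (∀ i, y i ∈ I) ∧ s ∈ I ∧ v 0 * y 0 + v 1 * y 1 = c ∧
      a = stA ε v y ∧ n = stN s v := by
  have hQ : n 0 ^ 2 + n 1 * n 2 = 0 := hQn
  rcases ValuationRing.dvd_total (n 1) (n 2) with ⟨r, hr⟩ | ⟨r, hr⟩
  · -- `n₁ ∣ n₂`: `v = (1, −t)`, `s = n₁`
    have hn1 : n 1 ≠ 0 := by
      intro h1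
      apply hn0
      have h2 : n 2 = 0 := by rw [hr, h1, zero_mul]
      have h0 : n 0 = 0 := by
        rw [h1, zero_mul, add_zero] at hQ
        exact (pow_eq_zero_iff two_ne_zero).mp hQ
      funext i
      fin_cases i
      · exact h0
      · exact h1
      · exact h2
    obtain ⟨t, ht⟩ := dvd_of_sq_add (x := n 1) (z := n 0) (w := r) hn1 (by rw [← hr]; exact hQ)
    have hr2 : r = -t ^ 2 := by
      have h3 : n 1 ^ 2 * (r + t ^ 2) = 0 := by
        rw [hr, ht] at hQ
        linear_combination hQ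
      rcases mul_eq_zero.mp h3 with h4 | h4
      · exact absurd ((pow_eq_zero_iff two_ne_zero).mp h4) hn1
      · linear_combination h4
    have e0 : a 0 = ε * c + t * a 1 := by
      have h3 : n 1 * (a 0 - a 1 * t - ε * c) = 0 := by
        rw [ht] at h01
        linear_combination h01
      rcases mul_eq_zero.mp h3 with h4 | h4
      · exact absurd h4 hn1
      · linear_combination h4
    have e2 : a 2 = -(2 * ε * c * t) - t ^ 2 * a 1 := by
      have h3 : n 1 * (a 2 + 2 * ε * c * t + t ^ 2 * a 1) = 0 := by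
        rw [hr, ht, hr2] at h12
        linear_combination (-1 : D) * h12
      rcases mul_eq_zero.mp h3 with h4 | h4
      · exact absurd h4 hn1
      · linear_combination h4
    refine ⟨![1, -t], ![c + t * (ε * h * a 1), ε * h * a 1], n 1, ?_, hn 1, ?_, ?_, ?_⟩
    · intro i
      fin_cases i
      · exact I.add_mem hc (I.mul_mem_left _ (I.mul_mem_left _ (ha 1)))
      · exact I.mul_mem_left _ (ha 1)
    · simp only [Matrix.cons_val_zero, Matrix.cons_val_one, Matrix.cons_val_fin_one]
      ring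
    · funext i
      fin_cases i
      · simp only [stA, Fin.zero_eta, Matrix.cons_val_zero, Matrix.cons_val_one,
          Matrix.cons_val_fin_one]
        linear_combination e0 - (t * a 1) * hh - (2 * h * t * a 1) * hε
      · simp only [stA, Fin.mk_one, Matrix.cons_val_zero, Matrix.cons_val_one,
          Matrix.cons_val_fin_one]
        linear_combination (-(a 1)) * hh - (2 * h * a 1) * hε
      · simp only [stA, Fin.reduceFinMk, Matrix.cons_val_zero, Matrix.cons_val_one,
          Matrix.cons_val_fin_one, Matrix.cons_val]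
        linear_combination e2 + (t ^ 2 * a 1) * hh + (2 * h * t ^ 2 * a 1) * hε
    · funext i
      fin_cases i
      · simp only [stN, Fin.zero_eta, Matrix.cons_val_zero, Matrix.cons_val_one,
          Matrix.cons_val_fin_one]
        linear_combination ht
      · simp only [stN, Fin.mk_one, Matrix.cons_val_zero, Matrix.cons_val_one,
          Matrix.cons_val_fin_one]
        ring
      · simp only [stN, Fin.reduceFinMk, Matrix.cons_val_zero, Matrix.cons_val_one,
          Matrix.cons_val_fin_one, Matrix.cons_val]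
        linear_combination hr + (n 1) * hr2
  · -- `n₂ ∣ n₁`: `v = (t, 1)`, `s = −n₂`
    have hn2 : n 2 ≠ 0 := by
      intro h2
      apply hn0
      have h1 : n 1 = 0 := by rw [hr, h2, zero_mul]
      have h0 : n 0 = 0 := by
        rw [h1, zero_mul, add_zero] at hQ
        exact (pow_eq_zero_iff two_ne_zero).mp hQ
      funext i
      fin_cases i
      · exact h0
      · exact h1
      · exact h2
    obtain ⟨t, ht⟩ := dvd_of_sq_add (x := n 2) (z := n 0) (w := r) hn2
      (by rw [← hr, mul_comm]; exact hQ)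
    have hr2 : r = -t ^ 2 := by
      have h3 : n 2 ^ 2 * (r + t ^ 2) = 0 := by
        rw [hr, ht] at hQ
        linear_combination hQ
      rcases mul_eq_zero.mp h3 with h4 | h4
      · exact absurd ((pow_eq_zero_iff two_ne_zero).mp h4) hn2
      · linear_combination h4
    have e0 : a 0 = t * a 2 - ε * c := by
      have h3 : n 2 * (a 0 - a 2 * t + ε * c) = 0 := by
        rw [ht] at h02
        linear_combination h02
      rcases mul_eq_zero.mp h3 with h4 | h4
      · exact absurd h4 hn2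
      · linear_combination h4
    have e1 : a 1 = 2 * ε * c * t - t ^ 2 * a 2 := by
      have h3 : n 2 * (a 1 - 2 * ε * c * t + t ^ 2 * a 2) = 0 := by
        rw [hr, ht, hr2] at h12
        linear_combination h12
      rcases mul_eq_zero.mp h3 with h4 | h4
      · exact absurd h4 hn2
      · linear_combination h4
    refine ⟨![t, 1], ![ε * h * a 2, c - t * (ε * h * a 2)], -n 2, ?_, I.neg_mem (hn 2), ?_, ?_, ?_⟩
    · intro i
      fin_cases i
      · exact I.mul_mem_left _ (ha 2)
      · exact I.sub_mem hc (I.mul_mem_left _ (I.mul_mem_left _ (ha 2)))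
    · simp only [Matrix.cons_val_zero, Matrix.cons_val_one, Matrix.cons_val_fin_one]
      ring
    · funext i
      fin_cases i
      · simp only [stA, Fin.zero_eta, Matrix.cons_val_zero, Matrix.cons_val_one,
          Matrix.cons_val_fin_one]
        linear_combination e0 - (t * a 2) * hh - (2 * h * t * a 2) * hε
      · simp only [stA, Fin.mk_one, Matrix.cons_val_zero, Matrix.cons_val_one,
          Matrix.cons_val_fin_one]
        linear_combination e1 + (t ^ 2 * a 2) * hh + (2 * h * t ^ 2 * a 2) * hε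
      · simp only [stA, Fin.reduceFinMk, Matrix.cons_val_zero, Matrix.cons_val_one,
          Matrix.cons_val_fin_one, Matrix.cons_val]
        linear_combination (-(a 2)) * hh - (2 * h * a 2) * hε
    · funext i
      fin_cases i
      · simp only [stN, Fin.zero_eta, Matrix.cons_val_zero, Matrix.cons_val_one,
          Matrix.cons_val_fin_one]
        linear_combination ht
      · simp only [stN, Fin.mk_one, Matrix.cons_val_zero, Matrix.cons_val_one,
          Matrix.cons_val_fin_one]
        linear_combination hr + (n 2) * hr2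
      · simp only [stN, Fin.reduceFinMk, Matrix.cons_val_zero, Matrix.cons_val_one,
          Matrix.cons_val_fin_one, Matrix.cons_val]
        ring

end Core

/-! ### Rescaling by a cube root of the uniformiser -/

section Rescale

variable {O' : Type*} [CommRing O'] [IsLocalRing O']
variable {B'' : Type*} [CommRing B''] [IsLocalRing B''] [Algebra O' B'']
  [IsLocalHom (algebraMap O' B'')]

theorem algebraMap_mem_maximalIdeal {x : O'} (hx : x ∈ maximalIdeal O') :
    algebraMap O' B'' x ∈ maximalIdeal B'' := by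
  rw [mem_maximalIdeal, mem_nonunits_iff] at hx ⊢
  exact fun hu => hx (isUnit_of_map_unit (algebraMap O' B'') x hu)

/-- a cube root of a non-unit is a non-unit -/
theorem mu_mem {π : O'} (hπ : π ∈ maximalIdeal O') {μ₃ : B''}
    (hμ : μ₃ ^ 3 = algebraMap O' B'' π) : μ₃ ∈ maximalIdeal B'' := by
  have h3 : μ₃ ^ 3 ∈ maximalIdeal B'' := by
    rw [hμ]
    exact algebraMap_mem_maximalIdeal hπ
  exact (maximalIdeal.isMaximal B'').isPrime.mem_of_pow_mem 3 h3

/-- **rescaling**: parameters `v` (arbitrary), `y, s ∈ 𝔪 = (π)` over `O'` become parameters in the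
maximal ideal of `B'' ∋ μ₃ = ∛π`: `v ↦ μ₃ v`, `y ↦ μ₃² (y/π)`, `s ↦ μ₃ (s/π)`. -/
theorem isStPt_of_params {π : O'} (hπ : maximalIdeal O' = Ideal.span {π}) {μ₃ : B''}
    (hμ : μ₃ ^ 3 = algebraMap O' B'' π) (ε c : O') (v y : Fin 2 → O') (s : O')
    (hy : ∀ i, y i ∈ maximalIdeal O') (hs : s ∈ maximalIdeal O')
    (hc : v 0 * y 0 + v 1 * y 1 = c) :
    IsStPt (algebraMap O' B'' ε) (algebraMap O' B'' c)
      (fun i => algebraMap O' B'' (stA ε v y i)) (fun i => algebraMap O' B'' (stN s v i)) := by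
  have hπm : π ∈ maximalIdeal O' := by
    rw [hπ]
    exact Ideal.mem_span_singleton_self π
  have hμm := mu_mem hπm hμ
  have hy1 : ∀ i, ∃ y', y' * π = y i := fun i => Ideal.mem_span_singleton'.mp (hπ ▸ hy i)
  choose y' hy' using hy1
  obtain ⟨s', hs'⟩ := Ideal.mem_span_singleton'.mp (hπ ▸ hs)
  have hjy : ∀ i, algebraMap O' B'' (y i) = μ₃ ^ 3 * algebraMap O' B'' (y' i) := by
    intro i
    rw [← hy' i, map_mul, hμ, mul_comm]
  have hjs : algebraMap O' B'' s = μ₃ ^ 3 * algebraMap O' B'' s' := by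
    rw [← hs', map_mul, hμ, mul_comm]
  refine ⟨fun i => μ₃ * algebraMap O' B'' (v i), fun i => μ₃ ^ 2 * algebraMap O' B'' (y' i),
    μ₃ * algebraMap O' B'' s', fun i => Ideal.mul_mem_right _ _ hμm,
    fun i => Ideal.mul_mem_right _ _ (Ideal.pow_mem_of_mem _ hμm 2 (by norm_num)),
    Ideal.mul_mem_right _ _ hμm, ?_, ?_, ?_⟩
  · rw [← hc]
    simp only [map_add, map_mul, hjy]
    ring
  · funext i
    fin_cases i <;>
      simp only [stA, map_mul, map_sub, map_ofNat, hjy, Matrix.cons_val_zero, Matrix.cons_val_one,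
        Matrix.cons_val_fin_one, Matrix.cons_val, Fin.zero_eta, Fin.mk_one, Fin.reduceFinMk] <;>
      ring
  · funext i
    fin_cases i <;>
      simp only [stN, map_mul, map_neg, map_pow, hjs, Matrix.cons_val_zero, Matrix.cons_val_one,
        Matrix.cons_val_fin_one, Matrix.cons_val, Fin.zero_eta, Fin.mk_one, Fin.reduceFinMk] <;>
      ring

end Rescale

/-! ### The framed statement over `A = B''⟦σ⟧` -/

section Framed

variable {O' : Type*} [CommRing O'] [IsDomain O'] [IsPrincipalIdealRing O'] [IsLocalRing O']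
variable {B'' : Type*} [CommRing B''] [IsLocalRing B''] [Algebra O' B'']
  [IsLocalHom (algebraMap O' B'')]
variable {σ : Type*}

/-- the image of the framed coordinates under the coefficientwise map -/
theorem jmap_tl_conj {h : O'} (hh : 2 * h = 1) (M : Matrix (Fin 2) (Fin 2) O')
    {γ γi : Matrix (Fin 2) (Fin 2) (MvPowerSeries σ O')} (hγ : γ * γi = 1) (i : Fin 3) :
    jmap O' B'' σ (tl (MvPowerSeries.C h) (γ * M.map MvPowerSeries.C * γi) i) =
      conjTl (MvPowerSeries.C (algebraMap O' B'' h)) (γ.map (jmap O' B'' σ))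
        (γi.map (jmap O' B'' σ))
        (fun k => (MvPowerSeries.C (algebraMap O' B'' (tl h M k)) : MvPowerSeries σ B'')) i := by
  have hh' : 2 * (MvPowerSeries.C h : MvPowerSeries σ O') = 1 := by
    rw [← map_ofNat (MvPowerSeries.C (σ := σ) (R := O')) 2, ← map_mul, hh, map_one]
  rw [tl_conj hh' hγ, map_conjTl (jmap O' B'' σ) (MvPowerSeries.C h) γ γi
    (tl (MvPowerSeries.C h) (M.map MvPowerSeries.C)) i, jmap_C]
  congr 1
  funext k
  rw [tl_map, jmap_C]

/-- **the framed point of Steinberg type.**  `F, S ∈ M₂(O')` residually scalar with the relations of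
the St chart (output of `UnrSt.unr_or_st`; `c = (ℓ − 1)/2 ∈ 𝔪`), `tl S ≠ 0`, `γ ∈ GL₂(O'⟦σ⟧)` any
framing ⟹ the framed pair is a point of Steinberg type over `A = B''⟦σ⟧`. -/
theorem isStPt_conj {π : O'} (hπ : maximalIdeal O' = Ideal.span {π}) {μ₃ : B''}
    (hμ : μ₃ ^ 3 = algebraMap O' B'' π) {h : O'} (hh : 2 * h = 1)
    (F S : Matrix (Fin 2) (Fin 2) O') (ha : ∀ i, tl h F i ∈ maximalIdeal O')
    (hn : ∀ i, tl h S i ∈ maximalIdeal O') {ε c : O'} (hε : ε ^ 2 = 1)
    (hc : c ∈ maximalIdeal O') (hQn : Q (tl h S) = 0)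
    (h12 : tl h F 1 * tl h S 2 - tl h F 2 * tl h S 1 = 2 * (ε * c) * tl h S 0)
    (h01 : tl h F 0 * tl h S 1 - tl h F 1 * tl h S 0 = ε * c * tl h S 1)
    (h02 : tl h F 0 * tl h S 2 - tl h F 2 * tl h S 0 = -(ε * c * tl h S 2))
    (hn0 : tl h S ≠ 0) {γ γi : Matrix (Fin 2) (Fin 2) (MvPowerSeries σ O')} (hγ : γ * γi = 1) :
    IsStPt (MvPowerSeries.C (algebraMap O' B'' ε) : MvPowerSeries σ B'')
      (MvPowerSeries.C (algebraMap O' B'' c))
      (fun i => jmap O' B'' σ (tl (MvPowerSeries.C h) (γ * F.map MvPowerSeries.C * γi) i))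
      (fun i => jmap O' B'' σ (tl (MvPowerSeries.C h) (γ * S.map MvPowerSeries.C * γi) i)) := by
  have : ValuationRing O' :=
    ValuationRing.iff_local_bezout_domain.mpr ⟨inferInstance, inferInstance⟩
  obtain ⟨v, y, s, hy, hs, hvy, haE, hnE⟩ := exists_params hh hε (maximalIdeal O') (tl h F)
    (tl h S) ha hn hc hQn h12 h01 h02 hn0
  have h1 := isStPt_of_params (B'' := B'') hπ hμ ε c v y s hy hs hvy
  rw [← haE, ← hnE] at h1
  have h2 := h1.map (MvPowerSeries.C : B'' →+* MvPowerSeries σ B'')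
    (fun x hx => C_mem_maximalIdeal σ hx)
  have hh' : 2 * (MvPowerSeries.C h : MvPowerSeries σ O') = 1 := by
    rw [← map_ofNat (MvPowerSeries.C (σ := σ) (R := O')) 2, ← map_mul, hh, map_one]
  have hhB2 : 2 * (MvPowerSeries.C (algebraMap O' B'' h) : MvPowerSeries σ B'') = 1 := by
    have := congrArg (jmap O' B'' σ) hh'
    rwa [map_mul, map_ofNat, map_one, jmap_C] at this
  have hγB1 : γ.map (jmap O' B'' σ) * γi.map (jmap O' B'' σ) = 1 := by
    have := congrArg (fun M : Matrix (Fin 2) (Fin 2) (MvPowerSeries σ O') =>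
      M.map (jmap O' B'' σ)) hγ
    simpa [Matrix.map_mul] using this
  have h3 := h2.conj hhB2 hγB1
  have eF : (fun i => jmap O' B'' σ (tl (MvPowerSeries.C h) (γ * F.map MvPowerSeries.C * γi) i)) =
      conjTl (MvPowerSeries.C (algebraMap O' B'' h)) (γ.map (jmap O' B'' σ))
        (γi.map (jmap O' B'' σ))
        (fun k => (MvPowerSeries.C (algebraMap O' B'' (tl h F k)) : MvPowerSeries σ B'')) :=
    funext fun i => jmap_tl_conj hh F hγ i
  have eS : (fun i => jmap O' B'' σ (tl (MvPowerSeries.C h) (γ * S.map MvPowerSeries.C * γi) i)) =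
      conjTl (MvPowerSeries.C (algebraMap O' B'' h)) (γ.map (jmap O' B'' σ))
        (γi.map (jmap O' B'' σ))
        (fun k => (MvPowerSeries.C (algebraMap O' B'' (tl h S k)) : MvPowerSeries σ B'')) :=
    funext fun i => jmap_tl_conj hh S hγ i
  rw [eF, eS]
  exact h3

/-- **THE DICHOTOMY, one lemma.**  `F = ρ(φ_v)`, `S = ρ(σ_v)` over the DVR `O'`, residually scalar,
`S` unipotent (`tr S = 2`, `(S − 1)² = 0`), `F S = S^ℓ F`, `det F = ℓ`, `ℓ ≢ 0, −1`, `ℓ ≠ 1` in
`O'`, `ℓ ≡ 1` modulo `𝔪`.  Then for ANY framing `γ ∈ GL₂(O'⟦σ⟧)` the framed pair is of type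
`none` (the tame coordinates vanish), or of Steinberg type with a sign `ε = ± 1`,
`tr F = ε (1 + ℓ)`, and constant `c = (ℓ − 1)/2`, over `A = B''⟦σ⟧`. -/
theorem none_or_isStPt {π : O'} (hπ : maximalIdeal O' = Ideal.span {π}) {μ₃ : B''}
    (hμ : μ₃ ^ 3 = algebraMap O' B'' π) {h : O'} (hh : 2 * h = 1) {ℓ : ℕ}
    (hℓ0 : (ℓ : O') ≠ 0) (hℓ1 : (ℓ : O') ≠ 1) (hℓ2 : (ℓ : O') + 1 ≠ 0)
    (hℓm : (ℓ : O') - 1 ∈ maximalIdeal O')
    (F S : Matrix (Fin 2) (Fin 2) O') (ha : ∀ i, tl h F i ∈ maximalIdeal O')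
    (hn : ∀ i, tl h S i ∈ maximalIdeal O') (htr : S.trace = 2) (hS : (S - 1) ^ 2 = 0)
    (hrel : F * S = S ^ ℓ * F) (hdet : F.det = (ℓ : O'))
    {γ γi : Matrix (Fin 2) (Fin 2) (MvPowerSeries σ O')} (hγ : γ * γi = 1) :
    (∀ i, tl (MvPowerSeries.C h) (γ * S.map MvPowerSeries.C * γi) i = 0) ∨
      ∃ ε : O', (ε = 1 ∨ ε = -1) ∧ F.trace = ε * (1 + (ℓ : O')) ∧
        IsStPt (MvPowerSeries.C (algebraMap O' B'' ε) : MvPowerSeries σ B'')
          (MvPowerSeries.C (algebraMap O' B'' (h * ((ℓ : O') - 1))))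
          (fun i => jmap O' B'' σ (tl (MvPowerSeries.C h) (γ * F.map MvPowerSeries.C * γi) i))
          (fun i => jmap O' B'' σ (tl (MvPowerSeries.C h) (γ * S.map MvPowerSeries.C * γi) i)) := by
  by_cases hn0 : tl h S = 0
  · exact Or.inl fun i => tl_conj_eq_zero hh S hn0 hγ i
  rcases UnrSt.unr_or_st hh hℓ0 hℓ1 hℓ2 S F htr hS hrel hdet with h1 | ⟨ε, hε, htrF, -, hQn, -,
    h12, h01, h02⟩
  · exfalso
    apply hn0
    rw [h1]
    funext i
    fin_cases i <;> simp [tl]
  · refine Or.inr ⟨ε, hε, htrF, ?_⟩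
    have hε2 : ε ^ 2 = 1 := by
      rcases hε with rfl | rfl <;> ring
    exact isStPt_conj hπ hμ hh F S ha hn hε2 (Ideal.mul_mem_left _ _ hℓm) hQn h12 h01 h02 hn0 hγ

end Framed

/-! ### The instance `B'' = Broot 6 π` (sixth root `μ` of the uniformiser: `ϖ = μ³`, `μ₃ = μ²`) -/

section Broot6

open Fermat.Agent.GB.Local.RootUnif

variable {O' : Type*} [CommRing O'] [IsDomain O'] [IsDiscreteValuationRing O'] {σ : Type*}

/-- the square root of the uniformiser in `Broot 6 π` (for the `q`-chart, helper59 `KillMulti`) -/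
theorem mu_cube_sq (π : O') : (mu 6 π ^ 3) ^ 2 = algebraMap O' (Broot 6 π) π := by
  rw [← pow_mul]
  exact mu_pow 6 π

/-- the cube root of the uniformiser in `Broot 6 π` -/
theorem mu_sq_cube (π : O') : (mu 6 π ^ 2) ^ 3 = algebraMap O' (Broot 6 π) π := by
  rw [← pow_mul]
  exact mu_pow 6 π

/-- **the dichotomy over `A = (Broot 6 π)⟦σ⟧`** — the ring that serves ALL framed primes. -/
theorem none_or_isStPt_broot6 {π : O'} (hπ : Irreducible π) {h : O'} (hh : 2 * h = 1) {ℓ : ℕ}
    (hℓ0 : (ℓ : O') ≠ 0) (hℓ1 : (ℓ : O') ≠ 1) (hℓ2 : (ℓ : O') + 1 ≠ 0)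
    (hℓm : (ℓ : O') - 1 ∈ maximalIdeal O')
    (F S : Matrix (Fin 2) (Fin 2) O') (ha : ∀ i, tl h F i ∈ maximalIdeal O')
    (hn : ∀ i, tl h S i ∈ maximalIdeal O') (htr : S.trace = 2) (hS : (S - 1) ^ 2 = 0)
    (hrel : F * S = S ^ ℓ * F) (hdet : F.det = (ℓ : O'))
    {γ γi : Matrix (Fin 2) (Fin 2) (MvPowerSeries σ O')} (hγ : γ * γi = 1) :
    haveI := isLocalRing_of_irreducible 6 π hπ
    (∀ i, tl (MvPowerSeries.C h) (γ * S.map MvPowerSeries.C * γi) i = 0) ∨
      ∃ ε : O', (ε = 1 ∨ ε = -1) ∧ F.trace = ε * (1 + (ℓ : O')) ∧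
        IsStPt (MvPowerSeries.C (algebraMap O' (Broot 6 π) ε) : MvPowerSeries σ (Broot 6 π))
          (MvPowerSeries.C (algebraMap O' (Broot 6 π) (h * ((ℓ : O') - 1))))
          (fun i => jmap O' (Broot 6 π) σ
            (tl (MvPowerSeries.C h) (γ * F.map MvPowerSeries.C * γi) i))
          (fun i => jmap O' (Broot 6 π) σ
            (tl (MvPowerSeries.C h) (γ * S.map MvPowerSeries.C * γi) i)) := by
  haveI := isLocalRing_of_irreducible 6 π hπ
  haveI := isLocalHom_algebraMap 6 π
  exact none_or_isStPt hπ.maximalIdeal_eq (mu_sq_cube π) hh hℓ0 hℓ1 hℓ2 hℓm F S ha hn htr hS hrel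
    hdet hγ

end Broot6

end Fermat.Agent.GB.Local.Multi.StPoint
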