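/-
GATE-B / B1-MULTI → B9, PLUG:kill₂ FINAL under RULING R5 (helper59).

The `TWInput.kill₂` FIELD `∀ r ∈ J₂, ∀ n, a₂ (coeff n (Θ r)) = 0` for the `J₂` of helper51's
`R5.exists_package` (chart types `D1/Unr | W_c | St_{e,c}`), from `T`-LEVEL hypotheses on the
Hecke algebra `T = T_Q` and its Galois representation:

* `isPt_v` — **the supply at `v ≠ q`** (`Unr | St±`): `F = ρ(φ_v)`, `S = ρ(σ_v)` over `T`, `S`
  unipotent (`tr S = 2`, `(S − 1)² = 0`), `F S = S^ℓ F`, `det F = ℓ`, `ℓ ≡ 1 (𝔪_O)`, both residually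
  scalar.  At every DVR point `i` of `Tχ` the framed block is of type `inl none` or
  `inr (±1, h (ℓ − 1))` over `A6 (Rq i) σ`  (helper6 `StPoint.none_or_isStPt`, cube root `cbrtPi`).
* `isPt_q'` — the supply at `q` (`Kill2Q.isPt_q`, square root `sqrtPi`) in the `R5.spec` vocabulary.
* `kill₂_R5` — **the field**, against the kill-criterion (third clause) of `R5.exists_package`.
  The ONLY non-formal input is `hnu` (B5: at no DVR point of `Tχ` is `ρ(σ_q)` non-trivially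
  unipotent).
* `exists_package_kill₂` — `R5.exists_package` with its third clause replaced by the field (for
  one `Θ`; plug-test of the two signatures).
-/
import Mathlib
import Fermat.Agent.GB.Local.Multi.Kill2Q
import Fermat.Agent.GB.Local.Multi.StPoint
import Fermat.Agent.GB.Local.Multi.R5Build

set_option autoImplicit false
set_option linter.unusedSectionVars false
set_option linter.unusedVariables false
set_option linter.style.haveILetI false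

open IsLocalRing Module

namespace Fermat.Agent.GB.Local.Multi.Kill2R5

open Fermat.Agent.GB.Local.TamePoint Fermat.Agent.GB.Local.R4Point Fermat.Agent.GB.Local.TameC
open Fermat.Agent.GB.Local.Rloc Fermat.Agent.GB.Local.Multi Matrix
open Fermat.Agent.GB.Local.Multi.Kill2Field Fermat.Agent.GB.Local.Multi.Kill2FieldG
open Fermat.Agent.GB.Local.Multi.RootSix Fermat.Agent.GB.Local.Multi.KillMulti
open Fermat.Agent.GB.Local.Multi.Kill2Q Fermat.Agent.GB.Local.Multi.StPt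
open Fermat.Agent.GB.Glue.Points

variable {O : Type} [CommRing O] [IsDomain O] [IsDiscreteValuationRing O]
  [IsAdicComplete (maximalIdeal O) O] [CharZero O]
  {T : Type} [CommRing T] [Algebra O T] [Module.Finite O T] [IsReduced T] [IsLocalRing T]
  {M : Type} [AddCommGroup M] [Module O M] [IsTorsionFree O M] [Nontrivial M]
  (a₂ : T →ₐ[O] Module.End O M)
  {R : Type*} [CommRing R] [Algebra O R] {σ : Type}

/-- constants of `O` in `A6 (Rq i) σ` -/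
theorem algebraMap_A6 (i : Fermat.Agent.GB.Glue.Points.Idx O (Tchi a₂)) (c : O) :
    algebraMap O (A6 (Rq i) σ) c =
      MvPowerSeries.C (algebraMap (Rq i) (B6 (Rq i)) (algebraMap O (Rq i) c)) := by
  rw [MvPowerSeries.algebraMap_apply, ← IsScalarTower.algebraMap_apply]

/-- **the supply at `v ≠ q`** (`Unr | St±`), from `T`-level hypotheses. -/
theorem isPt_v [Finite σ] (Θ : R →ₐ[O] MvPowerSeries σ T) (aR nR : Fin 3 → R)
    (S F : Matrix (Fin 2) (Fin 2) T) {ℓ : ℕ} (hℓ : 2 ≤ ℓ)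
    (hℓm : (ℓ : O) - 1 ∈ maximalIdeal O) (hFdet : F.det = (ℓ : T)) (htr : S.trace = 2)
    (hSu : (S - 1) ^ 2 = 0) (hrel : F * S = S ^ ℓ * F) {h : O} (hh : 2 * h = 1)
    (hFres : ∀ k, tl (algebraMap O T h) F k ∈ maximalIdeal T)
    (hSres : ∀ k, tl (algebraMap O T h) S k ∈ maximalIdeal T)
    {γ γi : Matrix (Fin 2) (Fin 2) (MvPowerSeries σ T)} (hγ : γ * γi = 1)
    (hΘa : ∀ k, Θ (aR k) =
      tl (MvPowerSeries.C (algebraMap O T h)) (γ * F.map MvPowerSeries.C * γi) k)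
    (hΘn : ∀ k, Θ (nR k) =
      tl (MvPowerSeries.C (algebraMap O T h)) (γ * S.map MvPowerSeries.C * γi) k)
    (i : Fermat.Agent.GB.Glue.Points.Idx O (Tchi a₂)) :
    (R5.spec O).pred (Sum.inl none) (A6 (Rq i) σ)
        (fun k => theta a₂ Θ (j6fam a₂ σ) i (aR k)) (fun k => theta a₂ Θ (j6fam a₂ σ) i (nR k)) ∨
      (R5.spec O).pred (Sum.inr (1, h * ((ℓ : O) - 1))) (A6 (Rq i) σ)
        (fun k => theta a₂ Θ (j6fam a₂ σ) i (aR k)) (fun k => theta a₂ Θ (j6fam a₂ σ) i (nR k)) ∨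
      (R5.spec O).pred (Sum.inr (-1, h * ((ℓ : O) - 1))) (A6 (Rq i) σ)
        (fun k => theta a₂ Θ (j6fam a₂ σ) i (aR k))
        (fun k => theta a₂ Θ (j6fam a₂ σ) i (nR k)) := by
  have hh' : 2 * algebraMap O (Rq i) h = 1 := by
    rw [← map_ofNat (algebraMap O (Rq i)) 2, ← map_mul, hh, map_one]
  have hℓ0 : ((ℓ : ℕ) : Rq i) ≠ 0 := Nat.cast_ne_zero.mpr (by omega)
  have hℓ1 : ((ℓ : ℕ) : Rq i) ≠ 1 := by
    rw [Ne, Nat.cast_eq_one]
    omega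
  have hℓ2 : ((ℓ : ℕ) : Rq i) + 1 ≠ 0 := Nat.cast_add_one_ne_zero ℓ
  have hℓm' : ((ℓ : ℕ) : Rq i) - 1 ∈ maximalIdeal (Rq i) := by
    have h1 : algebraMap O (Rq i) ((ℓ : O) - 1) ∈ maximalIdeal (Rq i) :=
      _root_.map_nonunit (algebraMap O (Rq i)) _ hℓm
    rwa [map_sub, map_natCast, map_one] at h1
  have htr' : (S.map (phi a₂ i)).trace = 2 := by
    have h1 : (S.map (phi a₂ i)).trace = phi a₂ i S.trace := by
      rw [Matrix.trace_fin_two, Matrix.trace_fin_two, map_add]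
      rfl
    rw [h1, htr, map_ofNat]
  have hSu' : (S.map (phi a₂ i) - 1) ^ 2 = 0 := by
    have := congrArg ((phi a₂ i : T →+* Rq i).mapMatrix (m := Fin 2)) hSu
    rw [map_pow, map_sub, map_one, map_zero] at this
    exact this
  have hrel' : F.map (phi a₂ i) * S.map (phi a₂ i) = S.map (phi a₂ i) ^ ℓ * F.map (phi a₂ i) := by
    have := congrArg ((phi a₂ i : T →+* Rq i).mapMatrix (m := Fin 2)) hrel
    rw [map_mul, map_mul, map_pow] at this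
    exact this
  have hdet' : (F.map (phi a₂ i)).det = ((ℓ : ℕ) : Rq i) := by
    have h1 : (F.map (phi a₂ i)).det = phi a₂ i F.det := (AlgHom.map_det (phi a₂ i) F).symm
    rw [h1, hFdet, map_natCast]
  have hγ' := gamma_map a₂ hγ i
  have ha : (fun k => theta a₂ Θ (j6fam a₂ σ) i (aR k)) = fun k =>
      jmap (Rq i) (B6 (Rq i)) σ (tl (MvPowerSeries.C (algebraMap O (Rq i) h))
        (γ.map (MvPowerSeries.map (phi a₂ i : T →+* Rq i)) *
          (F.map (phi a₂ i)).map MvPowerSeries.C *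
          γi.map (MvPowerSeries.map (phi a₂ i : T →+* Rq i))) k) :=
    funext fun k => theta_tl a₂ Θ h F γ γi (hΘa k) i
  have hn : (fun k => theta a₂ Θ (j6fam a₂ σ) i (nR k)) = fun k =>
      jmap (Rq i) (B6 (Rq i)) σ (tl (MvPowerSeries.C (algebraMap O (Rq i) h))
        (γ.map (MvPowerSeries.map (phi a₂ i : T →+* Rq i)) *
          (S.map (phi a₂ i)).map MvPowerSeries.C *
          γi.map (MvPowerSeries.map (phi a₂ i : T →+* Rq i))) k) :=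
    funext fun k => theta_tl a₂ Θ h S γ γi (hΘn k) i
  rw [ha, hn]
  have hc : algebraMap O (A6 (Rq i) σ) (h * ((ℓ : O) - 1)) =
      MvPowerSeries.C (algebraMap (Rq i) (B6 (Rq i))
        (algebraMap O (Rq i) h * (((ℓ : ℕ) : Rq i) - 1))) := by
    rw [algebraMap_A6, map_mul, map_sub, map_natCast, map_one]
  rcases StPoint.none_or_isStPt (O' := Rq i) (B'' := B6 (Rq i)) (σ := σ)
    (maximalIdeal_eq_span_unif (Rq i)) (cbrtPi_cube (Rq i)) hh' hℓ0 hℓ1 hℓ2 hℓm'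
    (F.map (phi a₂ i)) (S.map (phi a₂ i)) (tl_phi_mem a₂ F hFres i) (tl_phi_mem a₂ S hSres i)
    htr' hSu' hrel' hdet' hγ' with h0 | ⟨ε, hε, -, hpt⟩
  · -- unramified at the point
    left
    rw [R5.pred_inl]
    refine ⟨fun k => ?_, fun k => ?_, Or.inl ⟨rfl, fun k => ?_⟩⟩
    · exact j6_mem O (Rq i) σ (tl_conj_mem_maximalIdeal hh' (F.map (phi a₂ i))
        (tl_phi_mem a₂ F hFres i) hγ' k)
    · exact j6_mem O (Rq i) σ (tl_conj_mem_maximalIdeal hh' (S.map (phi a₂ i))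
        (tl_phi_mem a₂ S hSres i) hγ' k)
    · show jmap (Rq i) (B6 (Rq i)) σ _ = 0
      rw [h0 k, map_zero]
  · rcases hε with rfl | rfl
    · right; left
      rw [R5.pred_inr, hc, map_one]
      rw [map_one, map_one] at hpt
      exact hpt
    · right; right
      rw [R5.pred_inr, hc, map_neg, map_one]
      rw [map_neg, map_one, map_neg, map_one] at hpt
      exact hpt

/-- **the supply at `q`** in the `R5.spec` vocabulary. -/
theorem isPt_q' [Finite σ] (Θ : R →ₐ[O] MvPowerSeries σ T) (aR nR : Fin 3 → R)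
    {p : ℕ} (hp : p.Prime) (hp2 : p ≠ 2) (hpO : (p : O) ∈ maximalIdeal O)
    (S F : Matrix (Fin 2) (Fin 2) T) {q a n' : ℕ} (hFdet : F.det = (q : T)) (hS : S.det = 1)
    (hfac : q - 1 = p ^ a * n') (hn' : ¬ p ∣ n') (hpq : p ∣ q - 1) (hq : 1 ≤ q)
    (hrel : F * S = S ^ q * F) (hres : S.trace - 2 ∈ maximalIdeal T)
    {h ζ : O} (hh : 2 * h = 1) (hζ : IsPrimitiveRoot ζ (p ^ a))
    (hFres : ∀ k, tl (algebraMap O T h) F k ∈ maximalIdeal T)
    (hSres : ∀ k, tl (algebraMap O T h) S k ∈ maximalIdeal T)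
    {γ γi : Matrix (Fin 2) (Fin 2) (MvPowerSeries σ T)} (hγ : γ * γi = 1)
    (hΘa : ∀ k, Θ (aR k) =
      tl (MvPowerSeries.C (algebraMap O T h)) (γ * F.map MvPowerSeries.C * γi) k)
    (hΘn : ∀ k, Θ (nR k) =
      tl (MvPowerSeries.C (algebraMap O T h)) (γ * S.map MvPowerSeries.C * γi) k)
    (i : Fermat.Agent.GB.Glue.Points.Idx O (Tchi a₂))
    (hnu : (S.map (phi a₂ i) - 1) ^ 2 = 0 → S.map (phi a₂ i) = 1) :
    (R5.spec O).pred (Sum.inl none) (A6 (Rq i) σ)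
        (fun k => theta a₂ Θ (j6fam a₂ σ) i (aR k)) (fun k => theta a₂ Θ (j6fam a₂ σ) i (nR k)) ∨
      ∃ c ∈ cSet h ζ (p ^ a), (R5.spec O).pred (Sum.inl (some c)) (A6 (Rq i) σ)
        (fun k => theta a₂ Θ (j6fam a₂ σ) i (aR k))
        (fun k => theta a₂ Θ (j6fam a₂ σ) i (nR k)) := by
  obtain ⟨o, ho, hpt⟩ := isPt_q a₂ Θ aR nR hp hp2 hpO S F hFdet hS hfac hn' hpq hq hrel hres hh hζ
    hFres hSres hγ hΘa hΘn i hnu
  rcases ho with rfl | ⟨c, hc, rfl⟩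
  · exact Or.inl hpt
  · exact Or.inr ⟨c, hc, hpt⟩

/-- **PLUG:kill₂ under RULING R5** — the `TWInput.kill₂` field for an ideal `J₂` satisfying the
kill-criterion of `R5.exists_package`.  Framed primes `v : Fin (s + 1)`, the last one is `q`. -/
theorem kill₂_R5 [Finite σ] {s g : ℕ} (𝒯 : Fin (s + 1) → Finset (R5.Ty O))
    (J₂ : Ideal (RM O (s + 1) g))
    (hcrit : ∀ (A : Type) [CommRing A] [IsLocalRing A] [Algebra O A]
      [IsAdicComplete (maximalIdeal A) A] (θ : RM O (s + 1) g →ₐ[O] A),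
      (∀ v, ∃ t ∈ 𝒯 v, (R5.spec O).pred t A (fun i => θ (aV O v i)) (fun i => θ (nV O v i))) →
      (∀ j, θ (xV O j) ∈ maximalIdeal A) → J₂ ≤ RingHom.ker θ)
    (Θ : RM O (s + 1) g →ₐ[O] MvPowerSeries σ T)
    {p : ℕ} (hp : p.Prime) (hp2 : p ≠ 2) (hpO : (p : O) ∈ maximalIdeal O)
    {h : O} (hh : 2 * h = 1)
    (S F : Fin (s + 1) → Matrix (Fin 2) (Fin 2) T) (ℓ : Fin (s + 1) → ℕ)
    (hFdet : ∀ v, (F v).det = (ℓ v : T)) (hrel : ∀ v, F v * S v = S v ^ ℓ v * F v)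
    (hFres : ∀ v k, tl (algebraMap O T h) (F v) k ∈ maximalIdeal T)
    (hSres : ∀ v k, tl (algebraMap O T h) (S v) k ∈ maximalIdeal T)
    (γ γi : Fin (s + 1) → Matrix (Fin 2) (Fin 2) (MvPowerSeries σ T))
    (hγ : ∀ v, γ v * γi v = 1)
    (hΘa : ∀ v k, Θ (aV O v k) =
      tl (MvPowerSeries.C (algebraMap O T h)) (γ v * (F v).map MvPowerSeries.C * γi v) k)
    (hΘn : ∀ v k, Θ (nV O v k) =
      tl (MvPowerSeries.C (algebraMap O T h)) (γ v * (S v).map MvPowerSeries.C * γi v) k)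
    (hΘx : ∀ j, Θ (xV O j) ∈ maximalIdeal (MvPowerSeries σ T))
    -- the primes `v ≠ q`: unipotent inertia, `ℓ_v ≡ 1`
    (hℓ2 : ∀ v, v ≠ Fin.last s → 2 ≤ ℓ v)
    (hℓm : ∀ v, v ≠ Fin.last s → (ℓ v : O) - 1 ∈ maximalIdeal O)
    (htr : ∀ v, v ≠ Fin.last s → (S v).trace = 2)
    (hSu : ∀ v, v ≠ Fin.last s → (S v - 1) ^ 2 = 0)
    (h𝒯v : ∀ v, v ≠ Fin.last s → Sum.inl none ∈ 𝒯 v ∧
      Sum.inr (1, h * ((ℓ v : O) - 1)) ∈ 𝒯 v ∧ Sum.inr (-1, h * ((ℓ v : O) - 1)) ∈ 𝒯 v)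
    -- the prime `q`: tame relation, `χ`-types
    {a n' : ℕ} (hSdet : (S (Fin.last s)).det = 1)
    (hfac : ℓ (Fin.last s) - 1 = p ^ a * n') (hn' : ¬ p ∣ n') (hpq : p ∣ ℓ (Fin.last s) - 1)
    (hq : 1 ≤ ℓ (Fin.last s)) (hres : (S (Fin.last s)).trace - 2 ∈ maximalIdeal T)
    {ζ : O} (hζ : IsPrimitiveRoot ζ (p ^ a))
    (hnu : ∀ i : Fermat.Agent.GB.Glue.Points.Idx O (Tchi a₂),
      ((S (Fin.last s)).map (phi a₂ i) - 1) ^ 2 = 0 → (S (Fin.last s)).map (phi a₂ i) = 1)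
    (h𝒯q : Sum.inl none ∈ 𝒯 (Fin.last s) ∧
      ∀ c ∈ cSet h ζ (p ^ a), Sum.inl (some c) ∈ 𝒯 (Fin.last s)) :
    ∀ r ∈ J₂, ∀ n, a₂ (MvPowerSeries.coeff n (Θ r)) = 0 := by
  refine kill₂_of_points a₂ J₂ Θ (j6fam a₂ σ) (j6fam_injective a₂ σ) fun i => ?_
  refine hcrit (A6 (Rq i) σ) (theta a₂ Θ (j6fam a₂ σ) i) (fun v => ?_)
    (fun j => theta_mem a₂ Θ (hΘx j) i)
  by_cases hv : v = Fin.last s
  · subst hv
    rcases isPt_q' a₂ Θ (aV O (Fin.last s)) (nV O (Fin.last s)) hp hp2 hpO (S (Fin.last s))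
      (F (Fin.last s)) (hFdet _) hSdet hfac hn' hpq hq (hrel _) hres hh hζ (hFres _) (hSres _)
      (hγ _) (hΘa _) (hΘn _) i (hnu i) with h0 | ⟨c, hc, h1⟩
    · exact ⟨_, h𝒯q.1, h0⟩
    · exact ⟨_, h𝒯q.2 c hc, h1⟩
  · obtain ⟨m0, m1, m2⟩ := h𝒯v v hv
    rcases isPt_v a₂ Θ (aV O v) (nV O v) (S v) (F v) (hℓ2 v hv) (hℓm v hv) (hFdet v) (htr v hv)
      (hSu v hv) (hrel v) hh (hFres v) (hSres v) (hγ v) (hΘa v) (hΘn v) i with h0 | h1 | h2
    · exact ⟨_, m0, h0⟩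
    · exact ⟨_, m1, h1⟩
    · exact ⟨_, m2, h2⟩

/-- **PLUG-TEST / convenience**: `R5.exists_package` with its kill-criterion replaced by the
`kill₂` field for ONE `Θ` (in B9 the ideal `J₂` is obtained once, and `kill₂_R5` is applied to its
criterion at every Taylor–Wiles level). -/
theorem exists_package_kill₂ [Finite σ] {lam : O} (hmax : maximalIdeal O = Ideal.span {lam})
    (hO : ringKrullDim O = 1) {h0 : O} (hh : 2 * h0 = 1) {s g : ℕ}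
    (𝒯 : Fin (s + 1) → Finset (R5.Ty O)) (hne : ∀ v, (𝒯 v).Nonempty)
    (hadm : ∀ v, ∀ t ∈ 𝒯 v, lam ∣ R5.const t)
    (hlast : ∀ t ∈ 𝒯 (Fin.last s), ∃ o : Option O, t = Sum.inl o ∧
      ∀ c, o = some c → lam ∈ (Ideal.span {c}).radical)
    {d : O} (hd : d ∈ Ideal.span {lam})
    (Θ : RM O (s + 1) g →ₐ[O] MvPowerSeries σ T)
    {p : ℕ} (hp : p.Prime) (hp2 : p ≠ 2) (hpO : (p : O) ∈ maximalIdeal O)
    (S F : Fin (s + 1) → Matrix (Fin 2) (Fin 2) T) (ℓ : Fin (s + 1) → ℕ)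
    (hFdet : ∀ v, (F v).det = (ℓ v : T)) (hrel : ∀ v, F v * S v = S v ^ ℓ v * F v)
    (hFres : ∀ v k, tl (algebraMap O T h0) (F v) k ∈ maximalIdeal T)
    (hSres : ∀ v k, tl (algebraMap O T h0) (S v) k ∈ maximalIdeal T)
    (γ γi : Fin (s + 1) → Matrix (Fin 2) (Fin 2) (MvPowerSeries σ T))
    (hγ : ∀ v, γ v * γi v = 1)
    (hΘa : ∀ v k, Θ (aV O v k) =
      tl (MvPowerSeries.C (algebraMap O T h0)) (γ v * (F v).map MvPowerSeries.C * γi v) k)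
    (hΘn : ∀ v k, Θ (nV O v k) =
      tl (MvPowerSeries.C (algebraMap O T h0)) (γ v * (S v).map MvPowerSeries.C * γi v) k)
    (hΘx : ∀ j, Θ (xV O j) ∈ maximalIdeal (MvPowerSeries σ T))
    (hℓ2 : ∀ v, v ≠ Fin.last s → 2 ≤ ℓ v)
    (hℓm : ∀ v, v ≠ Fin.last s → (ℓ v : O) - 1 ∈ maximalIdeal O)
    (htr : ∀ v, v ≠ Fin.last s → (S v).trace = 2)
    (hSu : ∀ v, v ≠ Fin.last s → (S v - 1) ^ 2 = 0)
    (h𝒯v : ∀ v, v ≠ Fin.last s → Sum.inl none ∈ 𝒯 v ∧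
      Sum.inr (1, h0 * ((ℓ v : O) - 1)) ∈ 𝒯 v ∧ Sum.inr (-1, h0 * ((ℓ v : O) - 1)) ∈ 𝒯 v)
    {a n' : ℕ} (hSdet : (S (Fin.last s)).det = 1)
    (hfac : ℓ (Fin.last s) - 1 = p ^ a * n') (hn' : ¬ p ∣ n') (hpq : p ∣ ℓ (Fin.last s) - 1)
    (hq : 1 ≤ ℓ (Fin.last s)) (hres : (S (Fin.last s)).trace - 2 ∈ maximalIdeal T)
    {ζ : O} (hζ : IsPrimitiveRoot ζ (p ^ a))
    (hnu : ∀ i : Fermat.Agent.GB.Glue.Points.Idx O (Tchi a₂),
      ((S (Fin.last s)).map (phi a₂ i) - 1) ^ 2 = 0 → (S (Fin.last s)).map (phi a₂ i) = 1)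
    (h𝒯q : Sum.inl none ∈ 𝒯 (Fin.last s) ∧
      ∀ c ∈ cSet h0 ζ (p ^ a), Sum.inl (some c) ∈ 𝒯 (Fin.last s)) :
    ∃ J₂ : Ideal (RM O (s + 1) g),
      ringKrullDim (RM O (s + 1) g ⧸ J₂) ≤ ((1 + 3 * (s + 1) + g : ℕ) : WithBot ℕ∞) ∧
      (∀ P ∈ minimalPrimes (RM O (s + 1) g ⧸ J₂),
        Ideal.Quotient.mk J₂ (tM O d) ∉
          (P ⊔ Ideal.span {Ideal.Quotient.mk J₂ (MvPowerSeries.C lam)}).radical) ∧
      ∀ r ∈ J₂, ∀ n, a₂ (MvPowerSeries.coeff n (Θ r)) = 0 := by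
  obtain ⟨J₂, hdim, hP, hcrit⟩ := R5.exists_package (g := g) hmax hO hh 𝒯 hne hadm hlast hd
  exact ⟨J₂, hdim, hP, kill₂_R5 a₂ 𝒯 J₂ hcrit Θ hp hp2 hpO hh S F ℓ hFdet hrel hFres hSres γ γi hγ
    hΘa hΘn hΘx hℓ2 hℓm htr hSu h𝒯v hSdet hfac hn' hpq hq hres hζ hnu h𝒯q⟩

end Fermat.Agent.GB.Local.Multi.Kill2R5
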