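/-
GATE-B / B1-MULTI → B9 (helper59): the CONCRETE family of chart types of RULING R5 and its side
conditions, from DVR arithmetic only.

* `tyV h ℓ = {inl none, inr (1, h (ℓ − 1)), inr (−1, h (ℓ − 1))}`   (a prime `v ≠ q`: `Unr | St±`);
* `tyQ h ζ N = {inl none} ∪ {inl (some c) : c ∈ cSet h ζ N}`        (the prime `q`: `D1 | W_c`);
* `tyFam h ζ N ℓ v` : `tyQ` at `v = Fin.last s`, `tyV h (ℓ v)` otherwise;
* `tyFam_nonempty`, `tyFam_adm`, `tyFam_last` : the binders `hne hadm hlast` of helper51's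
  `R5.exists_package` / `AlgHypMulti.exists_algHyp_SRing`;
* `tyFam_mem_v`, `tyFam_mem_q` : the binders `h𝒯v h𝒯q` of `Kill2R5.kill₂_R5`.
-/
import Mathlib
import Fermat.Agent.GB.Local.Multi.R5Build
import Fermat.Agent.GB.Local.Consts
import Fermat.Agent.GB.Local.ConstsBridge

set_option autoImplicit false
set_option linter.unusedSectionVars false
set_option linter.unusedVariables false

open IsLocalRing

namespace Fermat.Agent.GB.Local.Multi.TyPkg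

open Fermat.Agent.GB.Local.Multi Fermat.Agent.GB.Local.TameC Fermat.Agent.GB.Local.Consts

section Defs

variable {O : Type} [CommRing O]

open Classical in
/-- the types at a prime `v ≠ q` -/
noncomputable def tyV (h : O) (ℓ : ℕ) : Finset (R5.Ty O) :=
  {Sum.inl none, Sum.inr (1, h * ((ℓ : O) - 1)), Sum.inr (-1, h * ((ℓ : O) - 1))}

open Classical in
/-- the types at `q` -/
noncomputable def tyQ (h ζ : O) (N : ℕ) : Finset (R5.Ty O) :=
  insert (Sum.inl none) ((cSet h ζ N).image fun c => Sum.inl (some c))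

open Classical in
/-- the family of types: the last prime is `q` -/
noncomputable def tyFam {s : ℕ} (h ζ : O) (N : ℕ) (ℓ : Fin (s + 1) → ℕ) (v : Fin (s + 1)) :
    Finset (R5.Ty O) :=
  if v = Fin.last s then tyQ h ζ N else tyV h (ℓ v)

theorem mem_tyV {h : O} {ℓ : ℕ} {t : R5.Ty O} :
    t ∈ tyV h ℓ ↔ t = Sum.inl none ∨ t = Sum.inr (1, h * ((ℓ : O) - 1)) ∨
      t = Sum.inr (-1, h * ((ℓ : O) - 1)) := by
  classical
  simp only [tyV, Finset.mem_insert, Finset.mem_singleton]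

theorem mem_tyQ {h ζ : O} {N : ℕ} {t : R5.Ty O} :
    t ∈ tyQ h ζ N ↔ t = Sum.inl none ∨ ∃ c ∈ cSet h ζ N, t = Sum.inl (some c) := by
  classical
  simp only [tyQ, Finset.mem_insert, Finset.mem_image]
  constructor
  · rintro (h1 | ⟨c, hc, rfl⟩)
    · exact Or.inl h1
    · exact Or.inr ⟨c, hc, rfl⟩
  · rintro (h1 | ⟨c, hc, rfl⟩)
    · exact Or.inl h1
    · exact Or.inr ⟨c, hc, rfl⟩

theorem tyFam_last {s : ℕ} (h ζ : O) (N : ℕ) (ℓ : Fin (s + 1) → ℕ) :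
    tyFam h ζ N ℓ (Fin.last s) = tyQ h ζ N := by
  classical
  rw [tyFam, if_pos rfl]

theorem tyFam_of_ne {s : ℕ} (h ζ : O) (N : ℕ) (ℓ : Fin (s + 1) → ℕ) {v : Fin (s + 1)}
    (hv : v ≠ Fin.last s) : tyFam h ζ N ℓ v = tyV h (ℓ v) := by
  classical
  rw [tyFam, if_neg hv]

/-- `hne` -/
theorem tyFam_nonempty {s : ℕ} (h ζ : O) (N : ℕ) (ℓ : Fin (s + 1) → ℕ) (v : Fin (s + 1)) :
    (tyFam h ζ N ℓ v).Nonempty := by
  by_cases hv : v = Fin.last s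
  · subst hv
    rw [tyFam_last]
    exact ⟨Sum.inl none, mem_tyQ.2 (Or.inl rfl)⟩
  · rw [tyFam_of_ne h ζ N ℓ hv]
    exact ⟨Sum.inl none, mem_tyV.2 (Or.inl rfl)⟩

/-- `h𝒯v` of `Kill2R5.kill₂_R5` -/
theorem tyFam_mem_v {s : ℕ} (h ζ : O) (N : ℕ) (ℓ : Fin (s + 1) → ℕ) (v : Fin (s + 1))
    (hv : v ≠ Fin.last s) :
    Sum.inl none ∈ tyFam h ζ N ℓ v ∧ Sum.inr (1, h * ((ℓ v : O) - 1)) ∈ tyFam h ζ N ℓ v ∧
      Sum.inr (-1, h * ((ℓ v : O) - 1)) ∈ tyFam h ζ N ℓ v := by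
  rw [tyFam_of_ne h ζ N ℓ hv]
  exact ⟨mem_tyV.2 (Or.inl rfl), mem_tyV.2 (Or.inr (Or.inl rfl)),
    mem_tyV.2 (Or.inr (Or.inr rfl))⟩

/-- `h𝒯q` of `Kill2R5.kill₂_R5` -/
theorem tyFam_mem_q {s : ℕ} (h ζ : O) (N : ℕ) (ℓ : Fin (s + 1) → ℕ) :
    Sum.inl none ∈ tyFam h ζ N ℓ (Fin.last s) ∧
      ∀ c ∈ cSet h ζ N, Sum.inl (some c) ∈ tyFam h ζ N ℓ (Fin.last s) := by
  rw [tyFam_last]
  exact ⟨mem_tyQ.2 (Or.inl rfl), fun c hc => mem_tyQ.2 (Or.inr ⟨c, hc, rfl⟩)⟩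

end Defs

section DVR

variable {O : Type} [CommRing O] [IsDomain O] [IsDiscreteValuationRing O]

/-- `hadm`: `lam` divides every chart constant. -/
theorem tyFam_adm {s : ℕ} {p : ℕ} (hp : p.Prime) (hpO : (p : O) ∈ maximalIdeal O) {a : ℕ}
    {ζ : O} (hζ : ζ ^ (p ^ a) = 1) (h : O) {lam : O} (hlam : Irreducible lam)
    (ℓ : Fin (s + 1) → ℕ) (hℓm : ∀ v, v ≠ Fin.last s → (ℓ v : O) - 1 ∈ maximalIdeal O)
    (v : Fin (s + 1)) : ∀ t ∈ tyFam h ζ (p ^ a) ℓ v, lam ∣ R5.const t := by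
  intro t ht
  by_cases hv : v = Fin.last s
  · subst hv
    rw [tyFam_last] at ht
    rcases mem_tyQ.1 ht with rfl | ⟨c, hc, rfl⟩
    · exact dvd_zero lam
    · show lam ∣ c
      rw [Fermat.Agent.GB.Local.ConstsBridge.cSet_eq_consts] at hc
      exact consts_dvd hp hpO hζ h hlam c hc
  · rw [tyFam_of_ne h ζ (p ^ a) ℓ hv] at ht
    have hdvd : lam ∣ h * ((ℓ v : O) - 1) := by
      have h1 := hℓm v hv
      rw [hlam.maximalIdeal_eq] at h1
      exact Dvd.dvd.mul_left (Ideal.mem_span_singleton.1 h1) h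
    rcases mem_tyV.1 ht with rfl | rfl | rfl
    · exact dvd_zero lam
    · exact hdvd
    · exact hdvd

/-- `hlast`: the types at `q` are of kind `inl`, with `lam ∈ rad (c)`. -/
theorem tyFam_hlast {s : ℕ} {p : ℕ} (hp : p.Prime) (hp2 : p ≠ 2)
    (hpO : (p : O) ∈ maximalIdeal O) {a : ℕ} {ζ : O} (hζ : IsPrimitiveRoot ζ (p ^ a)) {h : O}
    (hh : 2 * h = 1) {lam : O} (hlam : Irreducible lam) (ℓ : Fin (s + 1) → ℕ) :
    ∀ t ∈ tyFam h ζ (p ^ a) ℓ (Fin.last s), ∃ o : Option O, t = Sum.inl o ∧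
      ∀ c, o = some c → lam ∈ (Ideal.span {c}).radical := by
  intro t ht
  rw [tyFam_last] at ht
  rcases mem_tyQ.1 ht with rfl | ⟨c, hc, rfl⟩
  · exact ⟨none, rfl, fun c hc => absurd hc (by simp)⟩
  · refine ⟨some c, rfl, fun c' hc' => ?_⟩
    obtain rfl : c = c' := Option.some.inj hc'
    rw [Fermat.Agent.GB.Local.ConstsBridge.cSet_eq_consts] at hc
    obtain ⟨u, e, he, hce⟩ := consts_unit_mul_pow hp hp2 hpO hζ hh hlam c hc
    refine ⟨e, ?_⟩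
    rw [Ideal.mem_span_singleton]
    refine ⟨((u⁻¹ : Oˣ) : O), ?_⟩
    rw [hce]
    calc lam ^ e = ((u : O) * ((u⁻¹ : Oˣ) : O)) * lam ^ e := by
          rw [Units.mul_inv, one_mul]
      _ = (u : O) * lam ^ e * ((u⁻¹ : Oˣ) : O) := by ring

end DVR

end Fermat.Agent.GB.Local.Multi.TyPkg
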