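/-
GATE-B / GRAPH v2 leaf L1 GB-LOC-MULTI-FILT (helper14): the filtration `G` on the MULTI patching
ring — a plain iterated power-series ring

  `R = O⟦(a_v, n_v, …)_{v ∈ Σ_u}⟧⟦x₁,…,x_r⟧ = MvPowerSeries τ (MvPowerSeries σ O)`

for ARBITRARY finite index types `σ` (local variables at the framed primes, e.g. `Su × Fin 6` or
`Fin (6 * s)`) and `τ` (patching variables, e.g. `Fin r`): the twice iterated coefficientwise
filtration of helper9's `PatchSupp/PS.lean`, with finite quotients and cofinal in the `𝔪`-adic
filtration (so that `hcont` is `PatchSupp.hcont_of_cofinal`).  Generic twin of helper54's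
`GB/Local/RlocFilt.lean` (`σ = Fin 6`, `τ = Fin g`); also the once-iterated version `G1` and the
transport of all three facts along a ring isomorphism (for other spellings of the same ring).
-/
import Mathlib
import Fermat.Agent.GB.PatchSupp.PSCofinal
import Fermat.Agent.GB.PatchSupp.Inst

set_option autoImplicit false
set_option linter.unusedSectionVars false

open IsLocalRing MvPowerSeries

namespace Fermat.Agent.GB.Local.Multi.Filt

open Fermat.Agent.GB.PatchSupp

variable (O : Type*) [CommRing O] [IsLocalRing O] [IsNoetherianRing O]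
  [IsAdicComplete (maximalIdeal O) O]
variable (σ : Type*) [Fintype σ] (τ : Type*) [Fintype τ]

/-- the coefficientwise filtration of `O⟦σ⟧` -/
noncomputable def G1 : Filt (MvPowerSeries σ O) :=
  (Filt.ofAdic (maximalIdeal O)).mvPowerSeries σ

/-- the filtration of the multi patching ring `O⟦σ⟧⟦τ⟧` -/
noncomputable def G2 : Filt (MvPowerSeries τ (MvPowerSeries σ O)) :=
  (G1 O σ).mvPowerSeries τ

instance finite_quotient_ofAdic [Finite (ResidueField O)] (n : ℕ) :
    Finite (O ⧸ (Filt.ofAdic (maximalIdeal O)).c n) :=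
  Filt.finite_quotient_maximalIdeal_pow n

instance finite_quotient_G1 [Finite (ResidueField O)] (n : ℕ) :
    Finite (MvPowerSeries σ O ⧸ (G1 O σ).c n) :=
  Filt.finite_quotient_mvPowerSeries (Filt.ofAdic (maximalIdeal O)) σ n

instance finite_quotient_G2 [Finite (ResidueField O)] (n : ℕ) :
    Finite (MvPowerSeries τ (MvPowerSeries σ O) ⧸ (G2 O σ τ).c n) :=
  Filt.finite_quotient_mvPowerSeries (G1 O σ) τ n

theorem G1_cofinal (N : ℕ) : ∃ k, (G1 O σ).c k ≤ maximalIdeal (MvPowerSeries σ O) ^ N :=
  exists_mvPowerSeries_c_le (Filt.ofAdic (maximalIdeal O)) (fun N => ⟨N, le_rfl⟩) N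

/-- `G2` is finer than the `𝔪`-adic filtration of the local ring `O⟦σ⟧⟦τ⟧`; feed this to
`PatchSupp.hcont_of_cofinal`. -/
theorem G2_cofinal (N : ℕ) :
    ∃ k, (G2 O σ τ).c k ≤ maximalIdeal (MvPowerSeries τ (MvPowerSeries σ O)) ^ N :=
  exists_mvPowerSeries_c_le (G1 O σ) (G1_cofinal O σ) N

/-! ### transport along a ring isomorphism (for other spellings of the same ring) -/

section Transport

variable {S S' : Type*} [CommRing S] [CommRing S']

/-- transport of a filtration along a ring isomorphism -/
noncomputable def transport (e : S ≃+* S') (F : Filt S) : Filt S' where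
  c := fun n => (F.c n).comap e.symm
  anti := fun _ _ h => Ideal.comap_mono (F.anti h)
  complete := by
    intro f hf
    obtain ⟨s, hs⟩ := F.complete (fun n => e.symm (f n)) (fun n => by
      have := hf n
      rw [Ideal.mem_comap, map_sub] at this
      exact this)
    refine ⟨e s, fun n => ?_⟩
    rw [Ideal.mem_comap, map_sub, RingEquiv.symm_apply_apply]
    exact hs n
  separated := fun s hs => by
    have h0 := F.separated (e.symm s) (fun n => hs n)
    rw [← e.apply_symm_apply s, h0, map_zero]

@[simp] theorem transport_c (e : S ≃+* S') (F : Filt S) (n : ℕ) :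
    (transport e F).c n = (F.c n).comap e.symm := rfl

theorem finite_quotient_transport (e : S ≃+* S') (F : Filt S) [∀ n, Finite (S ⧸ F.c n)] (n : ℕ) :
    Finite (S' ⧸ (transport e F).c n) := by
  have hI : (transport e F).c n = (F.c n).map (e : S →+* S') := by
    rw [transport_c, Ideal.comap_symm]
    rfl
  exact Finite.of_equiv _ (Ideal.quotientEquiv _ _ e hI).toEquiv

theorem transport_cofinal [IsLocalRing S] [IsLocalRing S'] (e : S ≃+* S') (F : Filt S)
    (hF : ∀ N, ∃ k, F.c k ≤ maximalIdeal S ^ N) (N : ℕ) :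
    ∃ k, (transport e F).c k ≤ maximalIdeal S' ^ N := by
  obtain ⟨k, hk⟩ := hF N
  refine ⟨k, ?_⟩
  have hmax : (maximalIdeal S).comap e.symm = maximalIdeal S' := by
    ext x
    rw [Ideal.mem_comap, mem_maximalIdeal, mem_maximalIdeal, mem_nonunits_iff, mem_nonunits_iff,
      isUnit_map_iff]
  have hpow : (maximalIdeal S ^ N).comap e.symm = maximalIdeal S' ^ N := by
    rw [← hmax, Ideal.comap_symm, Ideal.comap_symm, Ideal.map_pow]
  rw [transport_c, ← hpow]
  exact Ideal.comap_mono hk

end Transport

end Fermat.Agent.GB.Local.Multi.Filt
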