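/-
GATE-B / B1-MULTI (helper51): the FAMILY of stages of helper54's `Family.lean`, built by iterating
the two chart steps `extendD1` (type `none`) and `extendW c` (type `some c`) from `Stage.base`.

* `step X hty o ho` : one more prime of type `o` on top of the stage `X`;
* `stageOf base s o h` : the tower of charts with type vector `o : Fin s → Option O` (all constants
  in `𝔪_O`), together with the proof that its type vector is `o`;
* `stageOf_HP` : the `t`-test at the last prime;
* `exists_family` : for constants `𝒞 : Fin (s + 1) → Finset O` in `𝔪_O`, those at the last prime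
  with `c ∈ (lam)`, `lam ∈ rad (c)`:  a family `Fam : TyVec 𝒞 → Stage O lam g (s + 1)` with
  `(Fam ξ).ty = toVec ξ` and `(Fam ξ).HP d` — the inputs of `Family.J2M_le_ker`,
  `Family.ringKrullDim_quot_J2M_le`, `Family.hP_J2M`.
-/
import Mathlib
import Fermat.Agent.GB.Local.Multi.Family
import Fermat.Agent.GB.Local.Multi.WChartInst
import Fermat.Agent.GB.Local.Multi.D1Inst

set_option autoImplicit false
set_option linter.unusedSectionVars false

universe u

open IsLocalRing

namespace Fermat.Agent.GB.Local.Multi.FamilyBuild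

open Fermat.Agent.GB.Local.Multi Fermat.Agent.GB.Local.Multi.WChartInst
  Fermat.Agent.GB.Local.Multi.D1Inst

variable {O : Type u} [CommRing O] [IsLocalRing O] [IsNoetherianRing O]
  [IsAdicComplete (maximalIdeal O) O] {lam : O} {g : ℕ}

/-- all chart constants are non-units -/
def Adm {s : ℕ} (o : Fin s → Option O) : Prop := ∀ v c, o v = some c → c ∈ maximalIdeal O

theorem Adm.init {s : ℕ} {o : Fin (s + 1) → Option O} (h : Adm o) : Adm (Fin.init o) :=
  fun v c hv => h v.castSucc c hv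

/-- one more prime of type `o` -/
noncomputable def step {s : ℕ} (X : Stage O lam g s) (hty : Adm X.ty) :
    ∀ o : Option O, (∀ c, o = some c → c ∈ maximalIdeal O) → Stage O lam g (s + 1)
  | none, _ => extendD1 X
  | some c0, ho => extendW X c0 (algebraMap_mem_of_ty X hty (ho c0 rfl))

theorem step_ty {s : ℕ} (X : Stage O lam g s) (hty : Adm X.ty) (o : Option O)
    (ho : ∀ c, o = some c → c ∈ maximalIdeal O) : (step X hty o ho).ty = Fin.snoc X.ty o := by
  cases o <;> rfl

theorem step_HP {s : ℕ} (X : Stage O lam g s) (hty : Adm X.ty) (o : Option O)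
    (ho : ∀ c, o = some c → c ∈ maximalIdeal O)
    (hq : ∀ c, o = some c → c ∈ Ideal.span {lam} ∧ lam ∈ (Ideal.span {c}).radical)
    (hlam : lam ∈ maximalIdeal O) (h2 : IsUnit (2 : O)) {d : O} (hd : d ∈ Ideal.span {lam}) :
    (step X hty o ho).HP d := by
  have hdm : d ∈ maximalIdeal O := by
    obtain ⟨x, rfl⟩ := Ideal.mem_span_singleton'.mp hd
    exact Ideal.mul_mem_left _ _ hlam
  cases o with
  | none => exact extendD1_HP' X hty hlam h2 hdm
  | some c0 =>
    exact extendW_HP X c0 (algebraMap_mem_of_ty X hty (ho c0 rfl)) (hq c0 rfl).1 (hq c0 rfl).2 h2 hd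

/-- the tower of charts with prescribed type vector -/
noncomputable def stageOf (base : Stage O lam g 0) :
    ∀ (s : ℕ) (o : Fin s → Option O), Adm o → {X : Stage O lam g s // X.ty = o}
  | 0, _, _ => ⟨base, funext fun v => v.elim0⟩
  | s + 1, o, h =>
    let X := stageOf base s (Fin.init o) h.init
    ⟨step X.1 (by rw [X.2]; exact h.init) (o (Fin.last s)) (fun c hc => h _ c hc), by
      rw [step_ty, X.2, Fin.snoc_init_self]⟩

theorem stageOf_HP (base : Stage O lam g 0) (s : ℕ) (o : Fin (s + 1) → Option O) (h : Adm o)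
    (hq : ∀ c, o (Fin.last s) = some c → c ∈ Ideal.span {lam} ∧ lam ∈ (Ideal.span {c}).radical)
    (hlam : lam ∈ maximalIdeal O) (h2 : IsUnit (2 : O)) {d : O} (hd : d ∈ Ideal.span {lam}) :
    (stageOf base (s + 1) o h).1.HP d := by
  have hty : Adm (stageOf base s (Fin.init o) h.init).1.ty := by
    rw [(stageOf base s (Fin.init o) h.init).2]; exact h.init
  have e : (stageOf base (s + 1) o h).1 =
      step (stageOf base s (Fin.init o) h.init).1 hty (o (Fin.last s)) (fun c hc => h _ c hc) :=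
    rfl
  rw [e]
  exact step_HP _ hty _ _ hq hlam h2 hd

/-- **the family of multi-charts** -/
theorem exists_family (hbase : NN lam (MvPowerSeries (Fin g) O) g) {s : ℕ}
    (𝒞 : Fin (s + 1) → Finset O) (h𝒞 : ∀ v, ∀ c ∈ 𝒞 v, c ∈ maximalIdeal O)
    (hq : ∀ c ∈ 𝒞 (Fin.last s), c ∈ Ideal.span {lam} ∧ lam ∈ (Ideal.span {c}).radical)
    (hlam : lam ∈ maximalIdeal O) (h2 : IsUnit (2 : O)) {d : O} (hd : d ∈ Ideal.span {lam}) :
    ∃ Fam : TyVec 𝒞 → Stage O lam g (s + 1),
      (∀ ξ, (Fam ξ).ty = toVec ξ) ∧ ∀ ξ, (Fam ξ).HP d := by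
  have hadm : ∀ ξ : TyVec 𝒞, Adm (toVec ξ) := by
    intro ξ v c hv
    rcases toVec_adm ξ v with h | ⟨c', hc', h⟩
    · rw [h] at hv; exact absurd hv (by simp)
    · rw [h] at hv
      have : c' = c := Option.some.inj hv
      rw [← this]
      exact h𝒞 v c' hc'
  refine ⟨fun ξ => (stageOf (Stage.base lam g hbase) (s + 1) (toVec ξ) (hadm ξ)).1,
    fun ξ => (stageOf (Stage.base lam g hbase) (s + 1) (toVec ξ) (hadm ξ)).2, fun ξ => ?_⟩
  refine stageOf_HP _ s (toVec ξ) (hadm ξ) (fun c hc => ?_) hlam h2 hd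
  rcases toVec_adm ξ (Fin.last s) with h | ⟨c', hc', h⟩
  · rw [h] at hc; exact absurd hc (by simp)
  · rw [h] at hc
    have : c' = c := Option.some.inj hc
    rw [← this]
    exact hq c' hc'

/-! ### The package for several framed primes (types `none | some c` at every prime) -/

/-- **B1-MULTI, existential package (RULING R4 form)**: for constants `𝒞 v ⊆ (lam)` at `s + 1`
framed primes, those of the last prime with `lam ∈ rad (c)`, there is an ideal `J₂` of the flat
ring `RM O (s + 1) g` with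
* (hdim) `dim RM ⧸ J₂ ≤ 1 + 3 (s + 1) + g`,
* (hP) `t = 4 Q(a_q) − d²` passes the radical test on every minimal prime of `RM ⧸ J₂`,
* (kill₂) every point all of whose blocks are points of admissible types kills `J₂`. -/
theorem exists_package [IsDomain O] (hmax : maximalIdeal O = Ideal.span {lam})
    (hO : ringKrullDim O = 1) (h2 : IsUnit (2 : O)) {s : ℕ} (𝒞 : Fin (s + 1) → Finset O)
    (h𝒞 : ∀ v, ∀ c ∈ 𝒞 v, lam ∣ c)
    (hq : ∀ c ∈ 𝒞 (Fin.last s), lam ∈ (Ideal.span {c}).radical) {d : O}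
    (hd : d ∈ Ideal.span {lam}) :
    ∃ J₂ : Ideal (RM O (s + 1) g),
      ringKrullDim (RM O (s + 1) g ⧸ J₂) ≤ ((1 + 3 * (s + 1) + g : ℕ) : WithBot ℕ∞) ∧
      (∀ P ∈ minimalPrimes (RM O (s + 1) g ⧸ J₂),
        Ideal.Quotient.mk J₂ (tM O d) ∉
          (P ⊔ Ideal.span {Ideal.Quotient.mk J₂ (MvPowerSeries.C lam)}).radical) ∧
      ∀ (A : Type u) [CommRing A] [IsLocalRing A] [Algebra O A]
        [IsAdicComplete (maximalIdeal A) A] (θ : RM O (s + 1) g →ₐ[O] A),
        (∀ v, ∃ o : Option O, (o = none ∨ ∃ c ∈ 𝒞 v, o = some c) ∧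
          IsPt O o (fun i => θ (aV O v i)) (fun i => θ (nV O v i))) →
        (∀ j, θ (xV O j) ∈ maximalIdeal A) → J₂ ≤ RingHom.ker θ := by
  have hlam : lam ∈ maximalIdeal O := by rw [hmax]; exact Ideal.mem_span_singleton_self _
  have hOlam : ringKrullDim (O ⧸ Ideal.span {lam}) ≤ 0 := by
    rw [← hmax]
    exact (ringKrullDim_eq_zero_of_field (ResidueField O)).le
  have hbase : NN lam (MvPowerSeries (Fin g) O) g := NN.base hO hOlam g
  have hmem : ∀ v, ∀ c ∈ 𝒞 v, c ∈ Ideal.span {lam} := fun v c hc =>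
    Ideal.mem_span_singleton.mpr (h𝒞 v c hc)
  obtain ⟨Fam, hFam, hHP⟩ := exists_family (g := g) hbase 𝒞
    (fun v c hc => by rw [hmax]; exact hmem v c hc)
    (fun c hc => ⟨hmem _ c hc, hq c hc⟩) hlam h2 hd
  exact ⟨J2M Fam, ringKrullDim_quot_J2M_le Fam hFam hmax h𝒞, hP_J2M Fam d hHP,
    fun A _ _ _ _ θ hpt hx => J2M_le_ker Fam hFam θ hpt hx⟩

end Fermat.Agent.GB.Local.Multi.FamilyBuild
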