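/-
GATE-B / B1-MULTI → B9, PLUG:kill₁ for SEVERAL framed primes (helper51), twin of `Kill1`
(single prime, `Rinf`) on helper54's flat ring `RM O (s + 1) g`.

If the `a`-block of `Θ : RM O (s + 1) g →ₐ[O] T⟦σ⟧` at the LAST prime `q` is given by the framed
traceless coordinates of `F = ρ(φ_q) ∈ M₂(T)` with `det F = q` (the `hΘa` binder of helper59's
`Kill2R5.kill₂_R5` at `v = Fin.last s`, VERBATIM), then

  `Θ (tM O (q − 1)) = C ((tr F)² − (1 + q)²)`,

so the `TWInput.kill₁` field on `J₁ = AlgHypMulti.J1 s g (q − 1) = (tM O (q − 1))` is B7's output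
`a₁ ((tr F)² − (1 + q)²) = 0` (helper52 `TKill.trace_sq_kill`, via `Kill1Plug.kill_of_C`).
No completeness / locality / reducedness of `T` is needed.
-/
import Mathlib
import Fermat.Agent.GB.Local.Kill1
import Fermat.Agent.GB.Local.Multi.Family
import Fermat.Agent.GB.B7.Kill1Plug
import Fermat.Agent.GB.B9.AlgHypMulti

set_option autoImplicit false
set_option linter.unusedSectionVars false

open IsLocalRing

namespace Fermat.Agent.GB.Local.Multi.Kill1Multi

open Fermat.Agent.GB.Local.TamePoint Fermat.Agent.GB.Local.Rloc Fermat.Agent.GB.Local.R4Point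
open Fermat.Agent.GB.Local.Multi Matrix

variable {O : Type} [CommRing O] [IsLocalRing O] [IsNoetherianRing O]
  [IsAdicComplete (maximalIdeal O) O]
variable {T : Type*} [CommRing T] [Algebra O T] {σ : Type*} {s g : ℕ}

/-- constants of `O` under an `O`-algebra hom out of the flat ring -/
theorem map_C (Θ : RM O (s + 1) g →ₐ[O] MvPowerSeries σ T) (r : O) :
    Θ (MvPowerSeries.C r) = MvPowerSeries.C (algebraMap O T r) := by
  have h1 : (MvPowerSeries.C r : RM O (s + 1) g) = algebraMap O (RM O (s + 1) g) r := by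
    rw [MvPowerSeries.algebraMap_apply, Algebra.algebraMap_self_apply]
  rw [h1, AlgHom.commutes, MvPowerSeries.algebraMap_apply]

/-- **the image of the test element at the last prime** -/
theorem map_tM (Θ : RM O (s + 1) g →ₐ[O] MvPowerSeries σ T) (F : Matrix (Fin 2) (Fin 2) T)
    {q : ℕ} (hFdet : F.det = (q : T)) {h : O} (hh : 2 * h = 1)
    {γ γi : Matrix (Fin 2) (Fin 2) (MvPowerSeries σ T)} (hγ : γ * γi = 1)
    (hΘa : ∀ k, Θ (aV O (Fin.last s) k) =
      tl (MvPowerSeries.C (algebraMap O T h)) (γ * F.map MvPowerSeries.C * γi) k) :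
    Θ (tM O ((q : O) - 1)) = MvPowerSeries.C (F.trace ^ 2 - (1 + (q : T)) ^ 2) := by
  have hhT : 2 * algebraMap O T h = 1 := by
    rw [← map_ofNat (algebraMap O T) 2, ← map_mul, hh, map_one]
  have hhC : 2 * (MvPowerSeries.C (algebraMap O T h) : MvPowerSeries σ T) = 1 := by
    rw [← map_ofNat (MvPowerSeries.C (σ := σ) (R := T)) 2, ← map_mul, hhT, map_one]
  -- the quadratic form
  have hQ : Qf (fun k => Θ (aV O (Fin.last s) k)) =
      MvPowerSeries.C (Q (tl (algebraMap O T h) F)) := by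
    have h1 : (fun k => Θ (aV O (Fin.last s) k)) =
        conjTl (MvPowerSeries.C (algebraMap O T h)) γ γi
          (tl (MvPowerSeries.C (algebraMap O T h)) (F.map MvPowerSeries.C)) := by
      funext k
      rw [hΘa, tl_conj hhC hγ]
    have h2 : Qf (conjTl (MvPowerSeries.C (algebraMap O T h)) γ γi
        (tl (MvPowerSeries.C (algebraMap O T h)) (F.map MvPowerSeries.C))) =
        Q (tl (MvPowerSeries.C (algebraMap O T h)) (F.map MvPowerSeries.C)) :=
      Q_conjTl hhC hγ _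
    rw [h1, h2]
    have h3 : tl (MvPowerSeries.C (algebraMap O T h) : MvPowerSeries σ T)
        (F.map MvPowerSeries.C) = fun k => MvPowerSeries.C (tl (algebraMap O T h) F k) := by
      funext k; exact tl_map _ _ _ k
    rw [h3]
    simp only [Q, map_add, map_pow, map_mul]
  have h4 : Θ (tM O ((q : O) - 1)) =
      4 * Qf (fun k => Θ (aV O (Fin.last s) k)) -
        MvPowerSeries.C (algebraMap O T (((q : O) - 1) ^ 2)) := by
    rw [tM, map_sub, map_mul, map_ofNat, map_C]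
    congr 2
    simp only [Qf, map_add, map_pow, map_mul]
  rw [h4, hQ, ← four_Q_tl_sub hhT F hFdet, map_sub, map_mul, map_ofNat, map_pow, map_sub,
    map_natCast, map_one]

/-- if `(tr F)² = (1 + q)²` in `T` then `Θ` kills `J₁ = (t_q)` -/
theorem J1_le_ker (Θ : RM O (s + 1) g →ₐ[O] MvPowerSeries σ T) (F : Matrix (Fin 2) (Fin 2) T)
    {q : ℕ} (hFdet : F.det = (q : T)) {h : O} (hh : 2 * h = 1)
    {γ γi : Matrix (Fin 2) (Fin 2) (MvPowerSeries σ T)} (hγ : γ * γi = 1)
    (hΘa : ∀ k, Θ (aV O (Fin.last s) k) =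
      tl (MvPowerSeries.C (algebraMap O T h)) (γ * F.map MvPowerSeries.C * γi) k)
    (htr : F.trace ^ 2 = (1 + (q : T)) ^ 2) :
    Ideal.span {tM (g := g) O ((q : O) - 1)} ≤
      RingHom.ker (Θ : RM O (s + 1) g →+* MvPowerSeries σ T) := by
  rw [Ideal.span_le, Set.singleton_subset_iff, SetLike.mem_coe, RingHom.mem_ker]
  show Θ _ = 0
  rw [map_tM Θ F hFdet hh hγ hΘa, htr, sub_self, map_zero]

section Field

variable {M : Type*} [AddCommGroup M] [Module O M]

/-- **PLUG:kill₁ (several framed primes)** — the `TWInput.kill₁` field on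
`J₁ = Ideal.span {tM O (q − 1)}` from B7's `a₁ ((tr F)² − (1 + q)²) = 0`. -/
theorem kill₁_tM (Θ : RM O (s + 1) g →ₐ[O] MvPowerSeries σ T) (F : Matrix (Fin 2) (Fin 2) T)
    {q : ℕ} (hFdet : F.det = (q : T)) {h : O} (hh : 2 * h = 1)
    {γ γi : Matrix (Fin 2) (Fin 2) (MvPowerSeries σ T)} (hγ : γ * γi = 1)
    (hΘa : ∀ k, Θ (aV O (Fin.last s) k) =
      tl (MvPowerSeries.C (algebraMap O T h)) (γ * F.map MvPowerSeries.C * γi) k)
    (a₁ : T →ₐ[O] Module.End O M)
    (he : a₁ (F.trace ^ 2 - (1 + (q : T)) ^ 2) = 0) :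
    ∀ r ∈ Ideal.span {tM (g := g) O ((q : O) - 1)},
      ∀ n, a₁ (MvPowerSeries.coeff n (Θ r)) = 0 :=
  Fermat.Agent.GB.B7.Kill1Plug.kill_of_C Θ a₁ _ _ (map_tM Θ F hFdet hh hγ hΘa) he

end Field

section J1

variable [IsDomain O] {M : Type*} [AddCommGroup M] [Module O M]

/-- the same, spelled on `AlgHypMulti.J1 s g (q − 1)` (= `TWSystem.J₁` of
`SystemMulti.nonempty_TWSystem` at `d := q − 1`). -/
theorem kill₁_J1 (Θ : RM O (s + 1) g →ₐ[O] MvPowerSeries σ T) (F : Matrix (Fin 2) (Fin 2) T)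
    {q : ℕ} (hFdet : F.det = (q : T)) {h : O} (hh : 2 * h = 1)
    {γ γi : Matrix (Fin 2) (Fin 2) (MvPowerSeries σ T)} (hγ : γ * γi = 1)
    (hΘa : ∀ k, Θ (aV O (Fin.last s) k) =
      tl (MvPowerSeries.C (algebraMap O T h)) (γ * F.map MvPowerSeries.C * γi) k)
    (a₁ : T →ₐ[O] Module.End O M)
    (he : a₁ (F.trace ^ 2 - (1 + (q : T)) ^ 2) = 0) :
    ∀ r ∈ Fermat.Agent.GB.B9.AlgHypMulti.J1 s g ((q : O) - 1),
      ∀ n, a₁ (MvPowerSeries.coeff n (Θ r)) = 0 :=
  kill₁_tM Θ F hFdet hh hγ hΘa a₁ he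

end J1

end Fermat.Agent.GB.Local.Multi.Kill1Multi
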