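/-
GATE-B / PLUG:kill₂, side (c) (ASSIGN-6 board 6050; helper54 = second seat of helper59): THE SUPPLY AT
A FRAMED PRIME `ℓ ≠ q` IN THE VOCABULARY OF THE PACKAGE OF RECORD `R5.spec` (helper51 `R5Spec`).

At a DVR point `x : T → O'` of the Hecke algebra, the pair `F = ρ(φ_ℓ)`, `S = ρ(σ_ℓ)` at a prime
`ℓ ∈ Σ_u ∖ {q}` is unipotent on inertia (`tr S = 2`, `(S − 1)² = 0`; S34 at the point), satisfies the
tame relation `F S = S^ℓ F` and `det F = ℓ`.  helper6's dichotomy `StPoint.none_or_isStPt` then says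
that, after ANY framing conjugation `γ` and over `A = B''⟦σ⟧` (`B'' ∋ μ₃`, `μ₃³ = π`; e.g.
`B'' = Broot 6 π`), the framed pair is of type `inl none` (unramified) or `inr (±1, (ℓ − 1)/2)`
(Steinberg).  Here: exactly that, as `∃ t, IsVType h ℓ t ∧ (R5.spec O).pred t A a' n'` — the `hpt`
binder of helper59's `Kill2FieldG.kill₂_of_pred` / the third clause of `R5.exists_package`.

* `IsVType h ℓ t`      : `t ∈ {inl none, inr (1, h (ℓ − 1)), inr (−1, h (ℓ − 1))}`;
* `vTypes h ℓ`         : the same as a `Finset (R5.Ty O)` (classical), `mem_vTypes`;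
* `exists_pred_of_unipotent`        : the supply over an abstract `B''`;
* `exists_pred_of_unipotent_broot6` : the instance `B'' = Broot 6 π`;
* `isVType_good`       : the types are `Good` for `R5.exists_package` when `lam ∣ (ℓ − 1)`.
-/
import Mathlib
import Fermat.Agent.GB.Local.Multi.R5Spec
import Fermat.Agent.GB.Local.Multi.R5Build
import Fermat.Agent.GB.Local.Multi.StPoint
import Fermat.Agent.GB.Local.Multi.KillMultiT

set_option autoImplicit false
set_option linter.unusedSectionVars false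
set_option linter.unusedVariables false
set_option linter.style.haveILetI false

universe u

open IsLocalRing

namespace Fermat.Agent.GB.Local.Multi.Kill2V

open Matrix Fermat.Agent.GB.Local.TamePoint Fermat.Agent.GB.Local.R4Point
open Fermat.Agent.GB.Local.Multi Fermat.Agent.GB.Local.Multi.StPt
  Fermat.Agent.GB.Local.Multi.KillMulti Fermat.Agent.GB.Local.Multi.StPoint

/-! ### The types allowed at a prime `ℓ ≠ q` -/

section Types

variable {O : Type u} [CommRing O]

/-- the chart types allowed at a framed prime `ℓ ≠ q`: unramified, or Steinberg of sign `±1` with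
constant `(ℓ − 1)/2` -/
def IsVType (h : O) (ℓ : ℕ) (t : R5.Ty O) : Prop :=
  t = Sum.inl none ∨ t = Sum.inr (1, h * ((ℓ : O) - 1)) ∨ t = Sum.inr (-1, h * ((ℓ : O) - 1))

open scoped Classical in
/-- the same as a finite set -/
noncomputable def vTypes (h : O) (ℓ : ℕ) : Finset (R5.Ty O) :=
  {Sum.inl none, Sum.inr (1, h * ((ℓ : O) - 1)), Sum.inr (-1, h * ((ℓ : O) - 1))}

theorem mem_vTypes {h : O} {ℓ : ℕ} {t : R5.Ty O} : t ∈ vTypes h ℓ ↔ IsVType h ℓ t := by
  classical
  simp only [vTypes, Finset.mem_insert, Finset.mem_singleton, IsVType]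

theorem vTypes_nonempty (h : O) (ℓ : ℕ) : (vTypes h ℓ).Nonempty :=
  ⟨Sum.inl none, mem_vTypes.2 (Or.inl rfl)⟩

/-- the `hadm` binder of `R5.exists_package` at a prime `ℓ ≠ q` with `lam ∣ ℓ − 1` -/
theorem dvd_const_of_isVType {lam h : O} {ℓ : ℕ} (hℓ : lam ∣ (ℓ : O) - 1) {t : R5.Ty O}
    (ht : IsVType h ℓ t) : lam ∣ R5.const t := by
  rcases ht with rfl | rfl | rfl
  · exact dvd_zero _
  · exact Dvd.dvd.mul_left hℓ h
  · exact Dvd.dvd.mul_left hℓ h

theorem dvd_const_of_mem_vTypes {lam h : O} {ℓ : ℕ} (hℓ : lam ∣ (ℓ : O) - 1) {t : R5.Ty O}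
    (ht : t ∈ vTypes h ℓ) : lam ∣ R5.const t :=
  dvd_const_of_isVType hℓ (mem_vTypes.1 ht)

end Types

/-! ### The supply -/

section Supply

variable {O : Type u} [CommRing O]
variable {O' : Type*} [CommRing O'] [IsDomain O'] [IsPrincipalIdealRing O'] [IsLocalRing O']
  [Algebra O O']
variable {B'' : Type u} [CommRing B''] [IsLocalRing B''] [Algebra O' B''] [Algebra O B'']
  [IsScalarTower O O' B''] [IsLocalHom (algebraMap O' B'')]
variable {σ : Type u} [Finite σ]

theorem algebraMap_eq_C (r : O) :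
    algebraMap O (MvPowerSeries σ B'') r =
      MvPowerSeries.C (algebraMap O' B'' (algebraMap O O' r)) := by
  rw [MvPowerSeries.algebraMap_apply, ← IsScalarTower.algebraMap_apply O O' B'']

/-- `j` maps the maximal ideal into the maximal ideal -/
theorem jmap_mem' {x : MvPowerSeries σ O'} (hx : x ∈ maximalIdeal (MvPowerSeries σ O')) :
    jmap O' B'' σ x ∈ maximalIdeal (MvPowerSeries σ B'') := by
  rw [Fermat.Agent.S53.PSC.mem_maximalIdeal_iff] at hx ⊢
  rw [jmap, ← MvPowerSeries.coeff_zero_eq_constantCoeff_apply, MvPowerSeries.coeff_map,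
    MvPowerSeries.coeff_zero_eq_constantCoeff_apply]
  exact _root_.map_nonunit (algebraMap O' B'') _ hx

/-- **the supply at a framed prime `ℓ ≠ q`**: unipotent inertia + tame relation + `det F = ℓ` ⟹
the framed pair over `A = B''⟦σ⟧` is a point of one of the three allowed types. -/
theorem exists_pred_of_unipotent {π : O'} (hπ : maximalIdeal O' = Ideal.span {π}) {μ₃ : B''}
    (hμ : μ₃ ^ 3 = algebraMap O' B'' π) {h : O} (hh : 2 * h = 1) {ℓ : ℕ}
    (hℓ0 : (ℓ : O') ≠ 0) (hℓ1 : (ℓ : O') ≠ 1) (hℓ2 : (ℓ : O') + 1 ≠ 0)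
    (hℓm : (ℓ : O') - 1 ∈ maximalIdeal O')
    (F S : Matrix (Fin 2) (Fin 2) O')
    (ha : ∀ i, tl (algebraMap O O' h) F i ∈ maximalIdeal O')
    (hn : ∀ i, tl (algebraMap O O' h) S i ∈ maximalIdeal O') (htr : S.trace = 2)
    (hS : (S - 1) ^ 2 = 0) (hrel : F * S = S ^ ℓ * F) (hdet : F.det = (ℓ : O'))
    {γ γi : Matrix (Fin 2) (Fin 2) (MvPowerSeries σ O')} (hγ : γ * γi = 1) :
    ∃ t : R5.Ty O, IsVType h ℓ t ∧ (R5.spec O).pred t (MvPowerSeries σ B'')
      (fun i => jmap O' B'' σ (tl (MvPowerSeries.C (algebraMap O O' h))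
        (γ * F.map MvPowerSeries.C * γi) i))
      (fun i => jmap O' B'' σ (tl (MvPowerSeries.C (algebraMap O O' h))
        (γ * S.map MvPowerSeries.C * γi) i)) := by
  have hh' : 2 * algebraMap O O' h = 1 := by
    rw [← map_ofNat (algebraMap O O') 2, ← map_mul, hh, map_one]
  have hc : algebraMap O (MvPowerSeries σ B'') (h * ((ℓ : O) - 1)) =
      MvPowerSeries.C (algebraMap O' B'' (algebraMap O O' h * ((ℓ : O') - 1))) := by
    rw [algebraMap_eq_C (O' := O'), map_mul, map_sub, map_natCast, map_one]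
  rcases none_or_isStPt (B'' := B'') (σ := σ) hπ hμ hh' hℓ0 hℓ1 hℓ2 hℓm F S ha hn htr hS hrel hdet
    hγ with h0 | ⟨ε, hε, -, hSt⟩
  · refine ⟨Sum.inl none, Or.inl rfl, ?_⟩
    show IsPt O none _ _
    refine ⟨fun i => jmap_mem' (tl_conj_mem_maximalIdeal hh' F ha hγ i),
      fun i => jmap_mem' (tl_conj_mem_maximalIdeal hh' S hn hγ i),
      Or.inl ⟨rfl, fun i => ?_⟩⟩
    show jmap O' B'' σ _ = 0
    rw [h0 i, map_zero]
  · rcases hε with rfl | rfl
    · refine ⟨Sum.inr (1, h * ((ℓ : O) - 1)), Or.inr (Or.inl rfl), ?_⟩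
      show IsStPt (algebraMap O (MvPowerSeries σ B'') 1)
        (algebraMap O (MvPowerSeries σ B'') (h * ((ℓ : O) - 1))) _ _
      rw [hc, map_one]
      rw [map_one, map_one] at hSt
      exact hSt
    · refine ⟨Sum.inr (-1, h * ((ℓ : O) - 1)), Or.inr (Or.inr rfl), ?_⟩
      show IsStPt (algebraMap O (MvPowerSeries σ B'') (-1))
        (algebraMap O (MvPowerSeries σ B'') (h * ((ℓ : O) - 1))) _ _
      rw [hc, map_neg, map_one]
      rw [map_neg, map_one, map_neg, map_one] at hSt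
      exact hSt

end Supply

/-! ### The instance `B'' = Broot 6 π` -/

section Broot6

open Fermat.Agent.GB.Local.RootUnif

variable {O : Type} [CommRing O]
variable {O' : Type} [CommRing O'] [IsDomain O'] [IsDiscreteValuationRing O'] [Algebra O O']
variable {σ : Type} [Finite σ]

/-- **the supply over `A = (Broot 6 π)⟦σ⟧`** — the ring that serves ALL framed primes
(`ϖ = μ³` for the `q`-chart, `μ₃ = μ²` for the Steinberg charts). -/
theorem exists_pred_of_unipotent_broot6 {π : O'} (hπ : Irreducible π) {h : O} (hh : 2 * h = 1)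
    {ℓ : ℕ} (hℓ0 : (ℓ : O') ≠ 0) (hℓ1 : (ℓ : O') ≠ 1) (hℓ2 : (ℓ : O') + 1 ≠ 0)
    (hℓm : (ℓ : O') - 1 ∈ maximalIdeal O')
    (F S : Matrix (Fin 2) (Fin 2) O')
    (ha : ∀ i, tl (algebraMap O O' h) F i ∈ maximalIdeal O')
    (hn : ∀ i, tl (algebraMap O O' h) S i ∈ maximalIdeal O') (htr : S.trace = 2)
    (hS : (S - 1) ^ 2 = 0) (hrel : F * S = S ^ ℓ * F) (hdet : F.det = (ℓ : O'))
    {γ γi : Matrix (Fin 2) (Fin 2) (MvPowerSeries σ O')} (hγ : γ * γi = 1) :
    haveI := isLocalRing_of_irreducible 6 π hπ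
    ∃ t : R5.Ty O, IsVType h ℓ t ∧ (R5.spec O).pred t (MvPowerSeries σ (Broot 6 π))
      (fun i => jmap O' (Broot 6 π) σ (tl (MvPowerSeries.C (algebraMap O O' h))
        (γ * F.map MvPowerSeries.C * γi) i))
      (fun i => jmap O' (Broot 6 π) σ (tl (MvPowerSeries.C (algebraMap O O' h))
        (γ * S.map MvPowerSeries.C * γi) i)) := by
  haveI := isLocalRing_of_irreducible 6 π hπ
  haveI := isLocalHom_algebraMap 6 π
  exact exists_pred_of_unipotent (B'' := Broot 6 π) hπ.maximalIdeal_eq (mu_sq_cube π) hh hℓ0 hℓ1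
    hℓ2 hℓm F S ha hn htr hS hrel hdet hγ

end Broot6

end Fermat.Agent.GB.Local.Multi.Kill2V
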