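/-
GATE-B / B1-MULTI (RULING R5 5804), helper54: the point specification of record.

Chart types `CType O`:
* `opt none`      : `D1` / `Unr`  (`n = 0`),                         chart `B⟦a₀,a₁,a₂⟧`  (helper51 `D1Inst`);
* `opt (some c)`  : `χ`-type      (`(a,n) = (s₁u, s₂u)`, `s₂²Q(u) = c²`), chart `WChart B c` (helper51);
* `st e c`        : Steinberg     (`a = e • (v₁y₁ − v₂y₂, 2v₁y₂, 2v₂y₁)`, `n = s • (−v₁v₂, v₁², −v₂²)`,
                    `v₁y₁ + v₂y₂ = c`, `v₁ = α + β`, `y₁ = α − β`),   chart `StChart B c` (helper6).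

* `IsPtSt`, `spec3 O : G.PtSpec O`;
* `IsChartOver.toSpec3` : the `Option`-charts of `Multi/Stage.lean` are `spec3`-charts;
* `isChartOver_StChart` : helper6's Steinberg chart is a `spec3`-chart of type `st e c`;
* `hasCert_opt`, `hasCert_st` : the per-type certificates for (hdim) (`G.HasCert`).
-/
import Mathlib
import Fermat.Agent.GB.Local.Multi.FamilyG
import Fermat.Agent.GB.Local.Multi.StChart
import Fermat.Agent.GB.Alg.NNStep

set_option autoImplicit false
set_option linter.unusedSectionVars false
set_option linter.unusedVariables false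
set_option linter.style.haveILetI false

universe u

open IsLocalRing MvPowerSeries Fermat.Agent.GB.Local.Rloc

namespace Fermat.Agent.GB.Local.Multi.G

/-! ### Steinberg points -/

section St

/-- `(v₁y₁ − v₂y₂, 2 v₁y₂, 2 v₂y₁)` with `v₁ = α + β`, `y₁ = α − β` -/
def stA {A : Type*} [CommRing A] (al be v2 y2 : A) : Fin 3 → A :=
  ![(al + be) * (al - be) - v2 * y2, 2 * ((al + be) * y2), 2 * (v2 * (al - be))]

/-- `(−v₁v₂, v₁², −v₂²)` with `v₁ = α + β` -/
def stN {A : Type*} [CommRing A] (al be v2 : A) : Fin 3 → A :=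
  ![-((al + be) * v2), (al + be) ^ 2, -(v2 ^ 2)]

theorem map_stA {A A' F : Type*} [CommRing A] [CommRing A'] [FunLike F A A']
    [RingHomClass F A A'] (φ : F) (al be v2 y2 : A)
    (i : Fin 3) : φ (stA al be v2 y2 i) = stA (φ al) (φ be) (φ v2) (φ y2) i := by
  fin_cases i <;> simp [stA, map_ofNat]

theorem map_stN {A A' F : Type*} [CommRing A] [CommRing A'] [FunLike F A A']
    [RingHomClass F A A'] (φ : F) (al be v2 : A)
    (i : Fin 3) : φ (stN al be v2 i) = stN (φ al) (φ be) (φ v2) i := by
  fin_cases i <;> simp [stN]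

variable (O : Type u) [CommRing O]

/-- `(a, n)` is a Steinberg point of sign `e` and constant `c` over the local `O`-algebra `A`. -/
def IsPtSt {A : Type*} [CommRing A] [IsLocalRing A] [Algebra O A] (e c : O)
    (a n : Fin 3 → A) : Prop :=
  (∀ i, a i ∈ maximalIdeal A) ∧ (∀ i, n i ∈ maximalIdeal A) ∧
    ∃ al be v2 y2 s : A, al ∈ maximalIdeal A ∧ be ∈ maximalIdeal A ∧ v2 ∈ maximalIdeal A ∧
      y2 ∈ maximalIdeal A ∧ s ∈ maximalIdeal A ∧
      al ^ 2 = be ^ 2 - v2 * y2 + algebraMap O A c ∧
      (∀ i, a i = algebraMap O A e * stA al be v2 y2 i) ∧ (∀ i, n i = s * stN al be v2 i)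

variable {O}

theorem IsPtSt.map {A A' : Type*} [CommRing A] [IsLocalRing A] [Algebra O A] [CommRing A']
    [IsLocalRing A'] [Algebra O A'] {e c : O} {a n : Fin 3 → A} (h : IsPtSt O e c a n)
    (φ : A →+* A') (hφ : ∀ x ∈ maximalIdeal A, φ x ∈ maximalIdeal A')
    (hφO : ∀ r : O, φ (algebraMap O A r) = algebraMap O A' r) :
    IsPtSt O e c (fun i => φ (a i)) (fun i => φ (n i)) := by
  obtain ⟨ha, hn, al, be, v2, y2, s, h1, h2, h3, h4, h5, hrel, hau, hnu⟩ := h
  refine ⟨fun i => hφ _ (ha i), fun i => hφ _ (hn i), φ al, φ be, φ v2, φ y2, φ s, hφ _ h1,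
    hφ _ h2, hφ _ h3, hφ _ h4, hφ _ h5, ?_, fun i => ?_, fun i => ?_⟩
  · have := congrArg φ hrel
    rw [map_pow, map_add, map_sub, map_pow, map_mul, hφO] at this
    exact this
  · show φ (a i) = _
    rw [hau i, map_mul, hφO, map_stA]
  · show φ (n i) = _
    rw [hnu i, map_mul, map_stN]

end St

/-! ### The specification -/

/-- the chart types of RULING R5 -/
inductive CType (O : Type u) : Type u
  | opt (o : Option O)
  | st (e c : O)

/-- the point specification of RULING R5 -/
def spec3 (O : Type u) [CommRing O] : PtSpec O where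
  T := CType O
  pred := fun t A _ _ _ a n =>
    match t with
    | .opt o => IsPt O o a n
    | .st e c => IsPtSt O e c a n
  mem_a := fun {t} _ _ _ _ _ _ h => by
    cases t with
    | opt o => exact h.1
    | st e c => exact h.1
  mem_n := fun {t} _ _ _ _ _ _ h => by
    cases t with
    | opt o => exact h.2.1
    | st e c => exact h.2.1
  map := fun {t} _ _ _ _ _ _ _ _ _ _ h φ hφ hφO => by
    cases t with
    | opt o => exact IsPt.map h φ hφ hφO
    | st e c => exact IsPtSt.map h φ hφ hφO

@[simp] theorem spec3_pred_opt {O : Type u} [CommRing O] (o : Option O) {A : Type u}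
    [CommRing A] [IsLocalRing A] [Algebra O A] (a n : Fin 3 → A) :
    (spec3 O).pred (CType.opt o) A a n ↔ IsPt O o a n := Iff.rfl

@[simp] theorem spec3_pred_st {O : Type u} [CommRing O] (e c : O) {A : Type u}
    [CommRing A] [IsLocalRing A] [Algebra O A] (a n : Fin 3 → A) :
    (spec3 O).pred (CType.st e c) A a n ↔ IsPtSt O e c a n := Iff.rfl

/-- the `Option`-charts of `Multi/Stage.lean` are `spec3`-charts -/
theorem _root_.Fermat.Agent.GB.Local.Multi.IsChartOver.toSpec3 {O : Type u} [CommRing O] {lam : O}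
    {B : Type u} [CommRing B] [IsLocalRing B] [Algebra O B]
    {E : Type u} [CommRing E] [IsLocalRing E] [Algebra O E] [Algebra B E]
    {o : Option O} {a n : Fin 3 → E} (h : Multi.IsChartOver O lam B E o a n) :
    IsChartOver (spec3 O) lam B E (CType.opt o) a n where
  tower := h.tower
  map_mem := h.map_mem
  isPt := h.isPt
  lift := fun A _ _ _ _ ψ a' n' hpt => h.lift A ψ a' n' hpt
  nn := h.nn

/-! ### The certificates for (hdim) -/

section Cert

variable {O : Type u} [CommRing O] [IsLocalRing O] [IsNoetherianRing O]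
  [IsAdicComplete (maximalIdeal O) O] {lam : O}

theorem evalPair_C {A : Type*} [CommRing A] [IsLocalRing A] [Algebra O A]
    [IsAdicComplete (maximalIdeal A) A] (a n : Fin 3 → A) (ha : ∀ i, a i ∈ maximalIdeal A)
    (hn : ∀ i, n i ∈ maximalIdeal A) (r : O) :
    evalPair (O := O) a n ha hn (C r) = algebraMap O A r := by
  have := (evalPair (O := O) a n ha hn).commutes r
  simpa [MvPowerSeries.algebraMap_apply] using this

theorem C_mem_span_of_dvd {c : O} (hc : lam ∣ c) (f : P6 O) :
    C c * f ∈ Ideal.span {(C lam : P6 O)} := by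
  obtain ⟨r, rfl⟩ := hc
  rw [map_mul, mul_assoc]
  exact Ideal.mul_mem_right _ _ (Ideal.mem_span_singleton_self _)

/-- the certificate for the types `none` and `some c`, `c ∈ (lam)` -/
theorem hasCert_opt (o : Option O) (ho : ∀ c, o = some c → lam ∣ c) :
    HasCert (spec3 O) lam (CType.opt o) := by
  rcases o with _ | c
  · refine ⟨fun _ => 0, fun _ => zero_mem _, ?_⟩
    intro A _ _ _ _ a n h
    have h' : IsPt O none a n := h
    have hn0 : ∀ i, n i = 0 := by
      rcases h'.2.2 with ⟨-, h0⟩ | ⟨c', hc', -⟩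
      · exact h0
      · exact absurd hc' (by simp)
    simp only [map_zero, hn0]
    refine ⟨by ring, by ring, by ring⟩
  · have hc : lam ∣ c := ho c rfl
    refine ⟨![0, 0, C (c ^ 2)], fun k => ?_, ?_⟩
    · fin_cases k
      · exact zero_mem _
      · exact zero_mem _
      · show (C (c ^ 2) : P6 O) ∈ _
        have : (C (c ^ 2) : P6 O) = C c * C c := by rw [← map_mul, pow_two]
        rw [this]
        exact C_mem_span_of_dvd hc _
    · intro A _ _ _ _ a n h
      have h' : IsPt O (some c) a n := h
      rcases h'.2.2 with ⟨h0, -⟩ | ⟨c', hc', s1, s2, w, -, -, -, hau, hnu, hrel⟩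
      · exact absurd h0 (by simp)
      · have hcc : c' = c := (Option.some.inj hc').symm
        subst hcc
        simp only [Matrix.cons_val_zero, Matrix.cons_val_one, Matrix.cons_val, map_zero,
          evalPair_C, hau, hnu]
        refine ⟨by ring, by ring, ?_⟩
        rw [map_pow, ← hrel, Qf]
        ring

/-- the certificate for the Steinberg types, `c ∈ (lam)` -/
theorem hasCert_st (e c : O) (hc : lam ∣ c) : HasCert (spec3 O) lam (CType.st e c) := by
  refine ⟨![-(C (e * c) * nVar O 2), C (e * c) * (2 * nVar O 0), 0], fun k => ?_, ?_⟩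
  · fin_cases k
    · show -(C (e * c) * nVar O 2) ∈ _
      exact neg_mem (C_mem_span_of_dvd (Dvd.dvd.mul_left hc e) _)
    · exact C_mem_span_of_dvd (Dvd.dvd.mul_left hc e) _
    · exact zero_mem _
  · intro A _ _ _ _ a n h
    have h' : IsPtSt O e c a n := h
    obtain ⟨-, -, al, be, v2, y2, s, -, -, -, -, -, hrel, hau, hnu⟩ := h'
    simp only [Matrix.cons_val_zero, Matrix.cons_val_one, Matrix.cons_val, map_zero, map_neg,
      map_mul, evalPair_C, evalPair_nVar, map_ofNat]
    have a0 := hau 0
    have a1 := hau 1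
    have a2 := hau 2
    have n0 := hnu 0
    have n1 := hnu 1
    have n2 := hnu 2
    simp only [stA, stN, Matrix.cons_val_zero, Matrix.cons_val_one, Matrix.cons_val] at a0 a1 a2 n0 n1 n2
    rw [a0, a1, a2, n0, n1, n2]
    refine ⟨?_, ?_, by ring⟩
    · linear_combination (algebraMap O A e * s * v2 ^ 2) * hrel
    · linear_combination (-2 * algebraMap O A e * s * (al + be) * v2) * hrel

end Cert

/-! ### The Steinberg chart is a `spec3`-chart -/

section StInst

open Fermat.Agent.GB.Local.Multi.StChart Fermat.Agent.GB.Local.Multi.WChart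

variable {O : Type u} [CommRing O] {lam : O}
variable {B : Type u} [CommRing B] [IsLocalRing B] [IsNoetherianRing B]
  [IsAdicComplete (maximalIdeal B) B] [Algebra O B]

theorem C_mem_B4 {b : B} (hb : b ∈ maximalIdeal B) :
    (MvPowerSeries.C b : B4 B) ∈ maximalIdeal (B4 B) := by
  rw [Fermat.Agent.S53.PSC.mem_maximalIdeal_iff, MvPowerSeries.constantCoeff_C]
  exact hb

/-- the `NN` step of the Steinberg chart: `m ↦ m + 4` -/
theorem nn_StChart {c : B} (hc : c ∈ maximalIdeal B) {m : ℕ} (h : NN lam B m) :
    NN lam (StChart B c) (m + 4) := by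
  haveI := free_StChart hc
  haveI := finite_StChart hc
  exact (h.mvPowerSeries 4).of_free (StChart B c)

variable (lam) in
/-- **the Steinberg chart is a chart of type `st e c`** -/
theorem isChartOver_StChart (e c : O) (hc : algebraMap O B c ∈ maximalIdeal B) :
    haveI := isLocalRing_StChart hc
    IsChartOver (spec3 O) lam B (StChart B (algebraMap O B c)) (CType.st e c)
      (StChart.aPair B (algebraMap O B c) (algebraMap O B e))
      (StChart.nPair B (algebraMap O B c)) := by
  haveI := isLocalRing_StChart hc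
  refine
    { tower := fun r => (IsScalarTower.algebraMap_apply O B _ r).symm
      map_mem := fun b hb => by
        rw [StChart.algebraMap_B_apply]
        exact StChart.algebraMap_mem_maximalIdeal hc (C_mem_B4 hb)
      isPt := ?_
      lift := ?_
      nn := fun m h => ⟨m + 4, nn_StChart hc h⟩ }
  · show IsPtSt O e c _ _
    refine ⟨StChart.aPair_mem hc _, StChart.nPair_mem hc, al B _, be B _, v2 B _, y2 B _,
      sc B _, al_mem hc, be_mem hc, v2_mem hc, y2_mem hc, sc_mem hc, ?_, fun i => ?_, fun i => ?_⟩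
    · rw [al_sq, IsScalarTower.algebraMap_apply O B (StChart B _), StChart.algebraMap_B_apply]
    · show algebraMap B (StChart B _) (algebraMap O B e) * aVec B _ i = _
      rw [← IsScalarTower.algebraMap_apply O B (StChart B _)]
      rfl
    · rfl
  · intro A _ _ _ _ ψ a' n' hpt
    have hpt' : IsPtSt O e c a' n' := hpt
    obtain ⟨-, -, al', be', v2', y2', s', h1, h2, h3, h4, h5, hrel, hau, hnu⟩ := hpt'
    letI : Algebra B A := (ψ : B →+* A).toAlgebra
    have halg : ∀ b : B, algebraMap B A b = ψ b := fun b => rfl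
    have hrel' : al' ^ 2 = be' ^ 2 - v2' * y2' + algebraMap B A (algebraMap O B c) := by
      rw [halg, ψ.commutes]; exact hrel
    obtain ⟨φ, f1, f2, f3, f4, f5⟩ := exists_algHom_StChart (B := B) (c := algebraMap O B c)
      al' be' v2' y2' s' h1 h2 h3 h4 h5 hrel'
    have hcomm : ∀ b : B, φ (algebraMap B (StChart B _) b) = ψ b := fun b => by
      rw [φ.commutes]; rfl
    refine ⟨{ (φ : StChart B _ →+* A) with commutes' := fun r => ?_ }, fun b => hcomm b,
      fun i => ?_, fun i => ?_⟩
    · show φ (algebraMap O (StChart B _) r) = algebraMap O A r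
      rw [IsScalarTower.algebraMap_apply O B (StChart B _), hcomm]
      exact ψ.commutes r
    · show φ (StChart.aPair B _ (algebraMap O B e) i) = a' i
      rw [hau i]
      show φ (algebraMap B (StChart B _) (algebraMap O B e) * aVec B _ i) = _
      rw [map_mul, hcomm, ψ.commutes]
      congr 1
      have : aVec B (algebraMap O B c) i =
          stA (al B _) (be B _) (v2 B _) (y2 B _) i := rfl
      rw [this, map_stA φ, f1, f2, f3, f4]
    · show φ (StChart.nPair B _ i) = n' i
      rw [hnu i]
      show φ (sc B _ * nVec B _ i) = _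
      rw [map_mul, f5]
      congr 1
      have : nVec B (algebraMap O B c) i = stN (al B _) (be B _) (v2 B _) i := rfl
      rw [this, map_stN φ, f1, f2, f3]

end StInst

end Fermat.Agent.GB.Local.Multi.G
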