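/-
GATE-B / B1-MULTI (RULING R5 5804), helper54: THE B1 PACKAGE FOR SEVERAL FRAMED PRIMES.

For the point specification `G.spec3 O` (types `opt none = D1/Unr`, `opt (some c) = χ/W_c`,
`st e c = Steinberg`), finite sets `𝒯 v` of allowed types at the framed primes `v < s + 1`
(the LAST one is `q`), all constants in `(lam)`, and only `opt`-types (with `c ≠ 0`, i.e.
`lam ∈ rad (c)`) at `q`:

* `G.exists_stage`     : every vector of good types is the type of a stage (induction on `s`:
                         `D1Inst` / `WChartInst` (helper51) / `Spec3.isChartOver_StChart`);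
* `G.exists_stage_HP`  : the same with the `t`-test at the last prime;
* `G.exists_family`    : a family of stages over all type vectors, with `HP`;
* `G.exists_J2`        : **∃ J₂ ⊆ RM O (s+1) g = O⟦(a_v,n_v)_{v ≤ s}, x₁..x_g⟧ with
                         (hdim) `dim RM ⧸ J₂ ≤ 1 + 3 (s+1) + g`,
                         (hP)   `t_q = 4 Q(a_q) − d² ∉ rad (𝔓 + (lam))` for every minimal prime `𝔓` of `RM ⧸ J₂`,
                         (kill₂) every point of `RM` whose blocks are points of allowed types kills `J₂`.**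
-/
import Mathlib
import Fermat.Agent.GB.Local.Multi.Spec3
import Fermat.Agent.GB.Local.Multi.D1Inst
import Fermat.Agent.GB.Local.Multi.WChartInst

set_option autoImplicit false
set_option linter.unusedSectionVars false
set_option linter.unusedVariables false
set_option linter.style.haveILetI false

universe u

open IsLocalRing MvPowerSeries Fermat.Agent.GB.Local.Rloc

namespace Fermat.Agent.GB.Local.Multi.G

open Fermat.Agent.GB.Local.Multi.StChart Fermat.Agent.GB.Local.Multi.WChart
  Fermat.Agent.GB.Local.Multi.D1Inst Fermat.Agent.GB.Local.Multi.WChartInst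

/-- the constant of a type is divisible by `lam` -/
def CType.Good {O : Type u} [CommRing O] (lam : O) : CType O → Prop
  | .opt none => True
  | .opt (some c) => lam ∣ c
  | .st _ c => lam ∣ c

/-- a type allowed at the last prime `q`: `D1`, or `W_c` with `c ∈ (lam)`, `lam ∈ rad (c)` -/
def CType.GoodLast {O : Type u} [CommRing O] (lam : O) : CType O → Prop
  | .opt none => True
  | .opt (some c) => c ∈ Ideal.span {lam} ∧ lam ∈ (Ideal.span {c}).radical
  | .st _ _ => False

theorem CType.GoodLast.good {O : Type u} [CommRing O] {lam : O} {t : CType O}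
    (h : t.GoodLast lam) : t.Good lam := by
  rcases t with (_ | c) | ⟨e, c⟩
  · trivial
  · exact Ideal.mem_span_singleton.1 h.1
  · exact h.elim

section Exists

variable {O : Type u} [CommRing O] [IsLocalRing O] [IsNoetherianRing O]
  [IsAdicComplete (maximalIdeal O) O] {lam : O} {g : ℕ}

theorem Stage.algebraMap_mem_of_dvd {s : ℕ} (X : Stage (spec3 O) lam g s) {c : O}
    (hc : lam ∣ c) : algebraMap O X.E c ∈ maximalIdeal X.E := by
  obtain ⟨r, rfl⟩ := hc
  rw [map_mul]
  exact Ideal.mul_mem_right _ _ X.lam_mem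

/-- one more chart of a good type on top of a stage -/
theorem Stage.exists_extend {s : ℕ} (X : Stage (spec3 O) lam g s) (t : CType O)
    (ht : t.Good lam) : ∃ Y : Stage (spec3 O) lam g (s + 1), Y.ty = Fin.snoc X.ty t := by
  rcases t with (_ | c) | ⟨e, c⟩
  · haveI := Fermat.Agent.S53.isAdicComplete_mvPowerSeries X.E (Fin 3)
    exact ⟨X.extend (CType.opt none) (D1 X.E) (fun i => MvPowerSeries.X i) (fun _ => 0)
      (isChartOver_D1 lam X.E).toSpec3, rfl⟩
  · have hc : algebraMap O X.E c ∈ maximalIdeal X.E := X.algebraMap_mem_of_dvd ht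
    haveI := isLocalRing_WChart hc
    haveI := isAdicComplete_WChart hc
    exact ⟨X.extend (CType.opt (some c)) (WChart X.E (algebraMap O X.E c))
      (WChart.aPair X.E (algebraMap O X.E c)) (WChart.nPair X.E (algebraMap O X.E c))
      (isChartOver_WChart lam c hc).toSpec3, rfl⟩
  · have hc : algebraMap O X.E c ∈ maximalIdeal X.E := X.algebraMap_mem_of_dvd ht
    haveI := isLocalRing_StChart hc
    haveI := isAdicComplete_StChart hc
    exact ⟨X.extend (CType.st e c) (StChart X.E (algebraMap O X.E c))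
      (StChart.aPair X.E (algebraMap O X.E c) (algebraMap O X.E e))
      (StChart.nPair X.E (algebraMap O X.E c)) (isChartOver_StChart lam e c hc), rfl⟩

/-- one more chart of a type allowed at `q`, with the `t`-test -/
theorem Stage.exists_extend_HP {s : ℕ} (X : Stage (spec3 O) lam g s) (t : CType O)
    (ht : t.GoodLast lam) (h2 : IsUnit (2 : O)) {d : O} (hd : lam ∣ d) :
    ∃ Y : Stage (spec3 O) lam g (s + 1), Y.ty = Fin.snoc X.ty t ∧ Y.HP d := by
  rcases t with (_ | c) | ⟨e, c⟩
  · haveI := Fermat.Agent.S53.isAdicComplete_mvPowerSeries X.E (Fin 3)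
    refine ⟨X.extend (CType.opt none) (D1 X.E) (fun i => MvPowerSeries.X i) (fun _ => 0)
      (isChartOver_D1 lam X.E).toSpec3, rfl, ?_⟩
    exact Stage.extend_HP X _ _ _ _ _ d
      (chartHP_D1 X.lam_mem h2 (X.algebraMap_mem_of_dvd hd))
  · have hc : algebraMap O X.E c ∈ maximalIdeal X.E :=
      X.algebraMap_mem_of_dvd (Ideal.mem_span_singleton.1 ht.1)
    haveI := isLocalRing_WChart hc
    haveI := isAdicComplete_WChart hc
    refine ⟨X.extend (CType.opt (some c)) (WChart X.E (algebraMap O X.E c))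
      (WChart.aPair X.E (algebraMap O X.E c)) (WChart.nPair X.E (algebraMap O X.E c))
      (isChartOver_WChart lam c hc).toSpec3, rfl, ?_⟩
    exact Stage.extend_HP X _ _ _ _ _ d
      (chartHP_WChart c hc ht.1 ht.2 h2 X.nn (Ideal.mem_span_singleton.2 hd))
  · exact ht.elim

variable [IsDomain O]

/-- **every vector of good types is the type of a stage** -/
theorem exists_stage (hO : ringKrullDim O = 1) (hmax : maximalIdeal O = Ideal.span {lam}) :
    ∀ (s : ℕ) (ty : Fin s → CType O), (∀ v, (ty v).Good lam) →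
      ∃ X : Stage (spec3 O) lam g s, X.ty = ty := by
  have hlam : lam ∈ maximalIdeal O := by rw [hmax]; exact Ideal.mem_span_singleton_self _
  have h0 : ringKrullDim (O ⧸ Ideal.span {lam}) ≤ 0 := by
    rw [← hmax]
    letI : Field (O ⧸ maximalIdeal O) := Ideal.Quotient.field (maximalIdeal O)
    exact (ringKrullDim_eq_zero_of_field (O ⧸ maximalIdeal O)).le
  intro s
  induction s with
  | zero =>
    intro ty _
    exact ⟨Stage.base (spec3 O) lam g (Fermat.Agent.GB.Local.Multi.NN.base hO h0 g) hlam,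
      funext fun v => v.elim0⟩
  | succ s ih =>
    intro ty hty
    obtain ⟨X, hX⟩ := ih (Fin.init ty) (fun v => hty v.castSucc)
    obtain ⟨Y, hY⟩ := X.exists_extend (ty (Fin.last s)) (hty (Fin.last s))
    refine ⟨Y, ?_⟩
    rw [hY, hX]
    exact Fin.snoc_init_self ty

/-- the same with the `t`-test at the last prime -/
theorem exists_stage_HP (hO : ringKrullDim O = 1) (hmax : maximalIdeal O = Ideal.span {lam})
    (h2 : IsUnit (2 : O)) {d : O} (hd : lam ∣ d) (s : ℕ) (ty : Fin (s + 1) → CType O)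
    (hty : ∀ v, (ty v).Good lam) (hlast : (ty (Fin.last s)).GoodLast lam) :
    ∃ X : Stage (spec3 O) lam g (s + 1), X.ty = ty ∧ X.HP d := by
  obtain ⟨X, hX⟩ := exists_stage (g := g) hO hmax s (Fin.init ty) (fun v => hty v.castSucc)
  obtain ⟨Y, hY, hHP⟩ := X.exists_extend_HP (ty (Fin.last s)) hlast h2 hd
  refine ⟨Y, ?_, hHP⟩
  rw [hY, hX]
  exact Fin.snoc_init_self ty

/-- **a family of stages over all type vectors, with the `t`-test at the last prime** -/
theorem exists_family (hO : ringKrullDim O = 1) (hmax : maximalIdeal O = Ideal.span {lam})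
    (h2 : IsUnit (2 : O)) {d : O} (hd : lam ∣ d) (s : ℕ) (𝒯 : Fin (s + 1) → Finset (CType O))
    (hgood : ∀ v, ∀ t ∈ 𝒯 v, t.Good lam) (hlast : ∀ t ∈ 𝒯 (Fin.last s), t.GoodLast lam) :
    ∃ Fam : TyVec (T := (spec3 O).T) 𝒯 → Stage (spec3 O) lam g (s + 1),
      (∀ ξ, (Fam ξ).ty = toVec ξ) ∧ ∀ ξ, (Fam ξ).HP d := by
  have h : ∀ ξ : TyVec 𝒯, ∃ X : Stage (spec3 O) lam g (s + 1), X.ty = toVec ξ ∧ X.HP d :=
    fun ξ => exists_stage_HP hO hmax h2 hd s (toVec ξ) (fun v => hgood v _ (toVec_mem ξ v))
      (hlast _ (toVec_mem ξ (Fin.last s)))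
  choose Fam h1 h2 using h
  exact ⟨Fam, h1, h2⟩

theorem CType.Good.hasCert {t : CType O} (ht : t.Good lam) : HasCert (spec3 O) lam t := by
  rcases t with (_ | c) | ⟨e, c⟩
  · exact hasCert_opt none (fun c hc => absurd hc (by simp))
  · refine hasCert_opt (some c) (fun c' hc' => ?_)
    have : c = c' := Option.some.inj hc'
    rw [← this]; exact ht
  · exact hasCert_st e c ht

/-- **THE B1 PACKAGE FOR SEVERAL FRAMED PRIMES** (RULING R5). -/
theorem exists_J2 (hO : ringKrullDim O = 1) (hmax : maximalIdeal O = Ideal.span {lam})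
    (h2 : IsUnit (2 : O)) {d : O} (hd : lam ∣ d) (g s : ℕ)
    (𝒯 : Fin (s + 1) → Finset (CType O)) (hne : ∀ v, (𝒯 v).Nonempty)
    (hgood : ∀ v, ∀ t ∈ 𝒯 v, t.Good lam) (hlast : ∀ t ∈ 𝒯 (Fin.last s), t.GoodLast lam) :
    ∃ J₂ : Ideal (RM O (s + 1) g),
      ringKrullDim (RM O (s + 1) g ⧸ J₂) ≤ ((1 + 3 * (s + 1) + g : ℕ) : WithBot ℕ∞) ∧
      (∀ Q ∈ minimalPrimes (RM O (s + 1) g ⧸ J₂),
        Ideal.Quotient.mk J₂ (tM O d) ∉
          (Q ⊔ Ideal.span {Ideal.Quotient.mk J₂ (C lam)}).radical) ∧
      ∀ (A : Type u) [CommRing A] [IsLocalRing A] [Algebra O A]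
        [IsAdicComplete (maximalIdeal A) A] (θ : RM O (s + 1) g →ₐ[O] A),
        (∀ v, ∃ t ∈ 𝒯 v, (spec3 O).pred t A (fun i => θ (aV O v i)) (fun i => θ (nV O v i))) →
        (∀ j, θ (xV O j) ∈ maximalIdeal A) → J₂ ≤ RingHom.ker θ := by
  obtain ⟨Fam, hFam, hHP⟩ := exists_family (g := g) hO hmax h2 hd s 𝒯 hgood hlast
  refine ⟨J2M (P := spec3 O) Fam, ?_, hP_J2M (P := spec3 O) Fam d hHP, ?_⟩
  · exact ringKrullDim_quot_J2M_le (P := spec3 O) Fam hFam hmax hne
      (fun v t ht => (hgood v t ht).hasCert)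
  · intro A _ _ _ _ θ hpt hx
    exact J2M_le_ker (P := spec3 O) Fam hFam θ hpt hx

end Exists

end Fermat.Agent.GB.Local.Multi.G
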