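/-
GATE-B / B1-MULTI (helper54): the generic "power series over a quotient" layer.

For ANY commutative ring `P` and ideal `J`:
`Rinf g := MvPowerSeries (Fin g) P`, `toQX : Rinf g →+* MvPowerSeries (Fin g) (P ⧸ J)`
(coefficientwise, surjective), `J2 := ker toQX`, `quotEquiv : Rinf g ⧸ J2 ≃+* (P ⧸ J)⟦x⟧`, and the
transport of the three hypotheses of helper9's `isEmpty_of_patch_fin_quot`:

* `ringKrullDim_quot_le` : `dim (P ⧸ J) ≤ n` ⟹ `dim (Rinf g ⧸ J2) ≤ n + g`;
* `notMem_radical_quot`  : the `t`-test on the minimal primes of `P ⧸ J` ⟹ the `t`-test on the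
  minimal primes of `Rinf g ⧸ J2`;
* `J2_le_ker` : a ring hom `θ : Rinf g → B` into a separated local ring with `θ (X j) ∈ 𝔪_B` and
  `θ ∘ C` killing `J` kills `J2`.

This is `GB/Local/RlocMain.lean` with `(P6 O, J O 𝒞)` replaced by an arbitrary `(P, J)`.
-/
import Mathlib
import Fermat.Agent.GB.Local.Cert
import Fermat.Agent.GB.Local.RlocMain
import Fermat.Agent.GB.Alg.PSMinPrimes
import Fermat.Agent.GB.Alg.PSDim

set_option autoImplicit false
set_option linter.unusedSectionVars false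

open IsLocalRing MvPowerSeries

namespace Fermat.Agent.GB.Local.Multi.PSQuot

open Fermat.Agent.GB.Alg Fermat.Agent.GB.Local

variable (P : Type*) [CommRing P] (J : Ideal P)

/-- the patching ring `P⟦x₁,…,x_g⟧` -/
abbrev Rinf (g : ℕ) := MvPowerSeries (Fin g) P

/-- `(P ⧸ J)⟦x₁,…,x_g⟧` -/
abbrev QX (g : ℕ) := MvPowerSeries (Fin g) (P ⧸ J)

/-- the coefficientwise quotient map -/
noncomputable def toQX (g : ℕ) : Rinf P g →+* QX P J g :=
  MvPowerSeries.map (Ideal.Quotient.mk J)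

theorem toQX_surjective (g : ℕ) : Function.Surjective (toQX P J g) := by
  intro F
  choose p hp using fun e : Fin g →₀ ℕ => Ideal.Quotient.mk_surjective (coeff e F)
  let G : Rinf P g := fun e => p e
  have hG : ∀ e, coeff e G = p e := fun e => rfl
  refine ⟨G, ?_⟩
  ext e
  rw [toQX, coeff_map, hG]
  exact hp e

@[simp] theorem toQX_C (g : ℕ) (f : P) : toQX P J g (C f) = C (Ideal.Quotient.mk J f) := by
  rw [toQX, MvPowerSeries.map_C]

@[simp] theorem toQX_X (g : ℕ) (j : Fin g) : toQX P J g (X j) = X j := by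
  rw [toQX, MvPowerSeries.map_X]

/-- the killing ideal `J₂ = ker (P⟦x⟧ → (P ⧸ J)⟦x⟧)` -/
noncomputable def J2 (g : ℕ) : Ideal (Rinf P g) := RingHom.ker (toQX P J g)

theorem mem_J2_iff (g : ℕ) (f : Rinf P g) : f ∈ J2 P J g ↔ ∀ e, coeff e f ∈ J := by
  rw [J2, RingHom.mem_ker, MvPowerSeries.ext_iff]
  refine forall_congr' fun e => ?_
  rw [toQX, coeff_map, map_zero, Ideal.Quotient.eq_zero_iff_mem]

theorem C_mem_J2 (g : ℕ) {f : P} (hf : f ∈ J) : (C f : Rinf P g) ∈ J2 P J g := by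
  rw [J2, RingHom.mem_ker, toQX_C, Ideal.Quotient.eq_zero_iff_mem.2 hf, map_zero]

/-- `P⟦x⟧ ⧸ J₂ ≃ (P ⧸ J)⟦x⟧` -/
noncomputable def quotEquiv (g : ℕ) : (Rinf P g ⧸ J2 P J g) ≃+* QX P J g :=
  RingHom.quotientKerEquivOfSurjective (toQX_surjective P J g)

@[simp] theorem quotEquiv_mk (g : ℕ) (f : Rinf P g) :
    quotEquiv P J g (Ideal.Quotient.mk (J2 P J g) f) = toQX P J g f := rfl

variable {P} {J}

/-- **`hdim`** -/
theorem ringKrullDim_quot_le [IsNoetherianRing (P ⧸ J)] {n : ℕ}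
    (h : ringKrullDim (P ⧸ J) ≤ ((n : ℕ) : WithBot ℕ∞)) (g : ℕ) :
    ringKrullDim (Rinf P g ⧸ J2 P J g) ≤ ((n + g : ℕ) : WithBot ℕ∞) := by
  rw [ringKrullDim_eq_of_ringEquiv (quotEquiv P J g)]
  exact PSDim.ringKrullDim_mvPowerSeries_fin_le (P ⧸ J) h g

/-- **`hP`** -/
theorem notMem_radical_quot [IsNoetherianRing (P ⧸ J)] {t l : P}
    (h : ∀ Q ∈ minimalPrimes (P ⧸ J),
      Ideal.Quotient.mk J t ∉ (Q ⊔ Ideal.span {Ideal.Quotient.mk J l}).radical) (g : ℕ) :
    ∀ Q ∈ minimalPrimes (Rinf P g ⧸ J2 P J g),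
      Ideal.Quotient.mk (J2 P J g) (C t) ∉
        (Q ⊔ Ideal.span {Ideal.Quotient.mk (J2 P J g) (C l)}).radical := by
  refine RlocMain.notMem_radical_of_ringEquiv (quotEquiv P J g) ?_
  intro Q hQ
  rw [quotEquiv_mk, quotEquiv_mk, toQX_C, toQX_C]
  exact PSDim.not_mem_radical_of_minimalPrimes h Q hQ

section Kill

variable {B : Type*} [CommRing B] [IsLocalRing B] [IsHausdorff (maximalIdeal B) B]

theorem map_coe_eq_zero {g : ℕ} (θ : Rinf P g →+* B) (hJ : ∀ f ∈ J, θ (C f) = 0)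
    (p : MvPolynomial (Fin g) P) (hp : ∀ e, MvPolynomial.coeff e p ∈ J) :
    θ (p : Rinf P g) = 0 := by
  classical
  have h1 : (p : Rinf P g) =
      ∑ v ∈ p.support, (C (MvPolynomial.coeff v p) : Rinf P g) * monomial v 1 := by
    conv_lhs => rw [p.as_sum]
    rw [← MvPolynomial.coeToMvPowerSeries.ringHom_apply, map_sum]
    refine Finset.sum_congr rfl fun v _ => ?_
    rw [MvPolynomial.coeToMvPowerSeries.ringHom_apply, MvPolynomial.coe_monomial,
      ← MvPowerSeries.monomial_zero_eq_C_apply, MvPowerSeries.monomial_mul_monomial, zero_add,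
      mul_one]
  rw [h1, map_sum]
  refine Finset.sum_eq_zero fun v _ => ?_
  rw [map_mul, hJ _ (hp v), zero_mul]

/-- **how `kill₂` is proved** -/
theorem J2_le_ker [Nontrivial P] {g : ℕ} (θ : Rinf P g →+* B) (hJ : ∀ f ∈ J, θ (C f) = 0)
    (hx : ∀ j, θ (X j) ∈ maximalIdeal B) : J2 P J g ≤ RingHom.ker θ := by
  intro f hf
  rw [mem_J2_iff] at hf
  rw [RingHom.mem_ker]
  apply IsHausdorff.haus (inferInstance : IsHausdorff (maximalIdeal B) B)
  intro N
  rw [smul_eq_mul, Ideal.mul_top, SModEq.zero]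
  have hg := Cert.sub_truncTotal_mem_span_pow N f
  set p := truncTotal N f with hp
  have hp0 : θ (p : Rinf P g) = 0 := by
    refine map_coe_eq_zero θ hJ p fun e => ?_
    rw [hp, coeff_truncTotal_eq_ite]
    split_ifs
    · exact hf e
    · exact zero_mem _
  have h1 : (Ideal.span (Set.range X) : Ideal (Rinf P g)).map θ ≤ maximalIdeal B := by
    rw [Ideal.map_span, Ideal.span_le]
    rintro _ ⟨_, ⟨j, rfl⟩, rfl⟩
    exact hx j
  have h2 : θ (f - (p : Rinf P g)) ∈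
      ((Ideal.span (Set.range X) : Ideal (Rinf P g)) ^ N).map θ := Ideal.mem_map_of_mem _ hg
  rw [Ideal.map_pow] at h2
  have h3 := Ideal.pow_right_mono h1 N h2
  rwa [map_sub, hp0, sub_zero] at h3

end Kill

end Fermat.Agent.GB.Local.Multi.PSQuot
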