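/-
GATE-B / B1-MULTI, RULING R5, helper6: the Steinberg chart `StChart` in the vocabulary of the stage
construction (helper54 `Multi/StageG.lean`, consumer: helper51 GB-MULTI-R5BUILD) — the
`PtSpec`-AGNOSTIC ingredients of `G.IsChartOver P lam B (StChart B c) (st ε c0) aPair nPair`:

* `tower_StChart`, `algebraMap_B_mem` (`𝔪_B → 𝔪_E`),
* `isStPt_chart_O`  : the coordinate pair is a point of type `St (ε, c0)` (constants from `O`),
* `exists_lift_St`  : the universal property in the exact shape of `IsChartOver.lift`,
* `nn_StChart`      : the `NN` step `m ↦ m + 4`.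
-/
import Mathlib
import Fermat.Agent.GB.Local.Multi.StPt
import Fermat.Agent.GB.Alg.NNStep

set_option autoImplicit false
set_option linter.unusedSectionVars false
set_option linter.style.haveILetI false

universe u

open IsLocalRing

namespace Fermat.Agent.GB.Local.Multi.StChartInst

open Fermat.Agent.GB.Local.Multi Fermat.Agent.GB.Local.Multi.StChart
  Fermat.Agent.GB.Local.Multi.StPt

variable {O : Type u} [CommRing O] {lam : O}
variable {B : Type u} [CommRing B] [IsLocalRing B] [IsNoetherianRing B]
  [IsAdicComplete (maximalIdeal B) B] [Algebra O B]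

theorem C_mem_maximalIdeal_B4 {b : B} (hb : b ∈ maximalIdeal B) :
    (MvPowerSeries.C b : WChart.B4 B) ∈ maximalIdeal (WChart.B4 B) := by
  rw [Fermat.Agent.S53.PSC.mem_maximalIdeal_iff, MvPowerSeries.constantCoeff_C]
  exact hb

/-- `B → StChart B c` maps the maximal ideal into the maximal ideal -/
theorem algebraMap_B_mem {c : B} (hc : c ∈ maximalIdeal B) {b : B} (hb : b ∈ maximalIdeal B) :
    haveI := isLocalRing_StChart hc
    algebraMap B (StChart B c) b ∈ maximalIdeal (StChart B c) := by
  haveI := isLocalRing_StChart hc
  rw [algebraMap_B_apply]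
  exact algebraMap_mem_maximalIdeal hc (C_mem_maximalIdeal_B4 hb)

/-- the tower `O → B → StChart B c` -/
theorem tower_StChart (c : B) (r : O) :
    algebraMap B (StChart B c) (algebraMap O B r) = algebraMap O (StChart B c) r :=
  (IsScalarTower.algebraMap_apply O B _ r).symm

/-- the `NN` step of the Steinberg chart: `m ↦ m + 4` -/
theorem nn_StChart {c : B} (hc : c ∈ maximalIdeal B) {m : ℕ} (h : NN lam B m) :
    NN lam (StChart B c) (m + 4) := by
  haveI := free_StChart hc
  haveI := finite_StChart hc
  exact (h.mvPowerSeries 4).of_free (StChart B c)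

/-- the coordinate pair of `StChart B c`, `c` the image of `c0 : O`, with sign the image of
`ε : O`, is a point of type `St (ε, c0)` — constants written from `O`. -/
theorem isStPt_chart_O (ε c0 : O) (hc : algebraMap O B c0 ∈ maximalIdeal B) :
    haveI := isLocalRing_StChart hc
    IsStPt (algebraMap O (StChart B (algebraMap O B c0)) ε)
      (algebraMap O (StChart B (algebraMap O B c0)) c0)
      (aPair B (algebraMap O B c0) (algebraMap O B ε)) (nPair B (algebraMap O B c0)) := by
  haveI := isLocalRing_StChart hc
  rw [← tower_StChart (algebraMap O B c0) ε, ← tower_StChart (algebraMap O B c0) c0]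
  exact isStPt_chart hc (algebraMap O B ε)

/-- **the universal property, in the shape of `IsChartOver.lift`**: an `O`-algebra map
`ψ : B → A` and a point of type `St (ε, c0)` over the complete local `O`-algebra `A` define an
`O`-algebra map `StChart B c → A` extending `ψ` and sending the coordinate pair to the point. -/
theorem exists_lift_St (h2 : IsUnit (2 : O)) (ε c0 : O)
    (A : Type u) [CommRing A] [IsLocalRing A] [Algebra O A] [IsAdicComplete (maximalIdeal A) A]
    (ψ : B →ₐ[O] A) (a' n' : Fin 3 → A)
    (hpt : IsStPt (algebraMap O A ε) (algebraMap O A c0) a' n') :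
    ∃ ψ' : StChart B (algebraMap O B c0) →ₐ[O] A,
      (∀ b, ψ' (algebraMap B (StChart B (algebraMap O B c0)) b) = ψ b) ∧
      (∀ i, ψ' (aPair B (algebraMap O B c0) (algebraMap O B ε) i) = a' i) ∧
      ∀ i, ψ' (nPair B (algebraMap O B c0) i) = n' i := by
  obtain ⟨u, hu⟩ := h2
  have hh : 2 * algebraMap O B (↑u⁻¹ : O) = 1 := by
    rw [← map_ofNat (algebraMap O B) 2, ← map_mul, ← hu, Units.mul_inv, map_one]
  letI : Algebra B A := (ψ : B →+* A).toAlgebra
  have hpt' : IsStPt (algebraMap B A (algebraMap O B ε)) (algebraMap B A (algebraMap O B c0))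
      a' n' := by
    have e1 : algebraMap B A (algebraMap O B ε) = algebraMap O A ε := ψ.commutes ε
    have e2 : algebraMap B A (algebraMap O B c0) = algebraMap O A c0 := ψ.commutes c0
    rw [e1, e2]
    exact hpt
  obtain ⟨φ, h1, h2'⟩ := exists_algHom_of_isStPt (B := B) (c := algebraMap O B c0) (T := A) hh
    (algebraMap O B ε) hpt'
  refine ⟨{ (φ : StChart B (algebraMap O B c0) →+* A) with commutes' := fun r => ?_ },
    fun b => φ.commutes b, h1, h2'⟩
  show φ (algebraMap O (StChart B (algebraMap O B c0)) r) = algebraMap O A r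
  rw [← tower_StChart (algebraMap O B c0) r, φ.commutes]
  exact ψ.commutes r

end Fermat.Agent.GB.Local.Multi.StChartInst
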