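/-
GATE-B / B1-MULTI, RULING R5, helper6: THE RELATIONS SATISFIED BY EVERY POINT OF STEINBERG TYPE
(`StPt.IsStPt e c a n`), in the shape of the per-type certificate `G.HasCert` of helper54's
`Multi/FamilyG.lean` (consumer: helper51 GB-MULTI-R5BUILD):

  `a₀n₂ − a₂n₀ = −(e c) n₂`,  `a₁n₂ − a₂n₁ = 2 (e c) n₀`,  `Q(n) = n₀² + n₁n₂ = 0`,

together with `a₀n₁ − a₁n₀ = (e c) n₁`, `Q(a) = e² c²`, `⟨a, n⟩ = 0`.
-/
import Mathlib
import Fermat.Agent.GB.Local.Multi.StPt
import Fermat.Agent.GB.Local.Rloc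

set_option autoImplicit false
set_option linter.unusedSectionVars false
set_option linter.unusedSimpArgs false

universe u

open IsLocalRing

namespace Fermat.Agent.GB.Local.Multi.StPt

open Fermat.Agent.GB.Local.TamePoint

section Raw

variable {D : Type*} [CommRing D] (e s : D) (v y : Fin 2 → D)

theorem stN_Q : stN s v 0 ^ 2 + stN s v 1 * stN s v 2 = 0 := by
  simp only [stN, Matrix.cons_val_zero, Matrix.cons_val_one, Matrix.cons_val]
  ring

theorem st_minor02 : stA e v y 0 * stN s v 2 - stA e v y 2 * stN s v 0 =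
    -(e * (v 0 * y 0 + v 1 * y 1) * stN s v 2) := by
  simp only [stA, stN, Matrix.cons_val_zero, Matrix.cons_val_one, Matrix.cons_val]
  ring

theorem st_minor12 : stA e v y 1 * stN s v 2 - stA e v y 2 * stN s v 1 =
    2 * (e * (v 0 * y 0 + v 1 * y 1)) * stN s v 0 := by
  simp only [stA, stN, Matrix.cons_val_zero, Matrix.cons_val_one, Matrix.cons_val]
  ring

theorem st_minor01 : stA e v y 0 * stN s v 1 - stA e v y 1 * stN s v 0 =
    e * (v 0 * y 0 + v 1 * y 1) * stN s v 1 := by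
  simp only [stA, stN, Matrix.cons_val_zero, Matrix.cons_val_one, Matrix.cons_val]
  ring

theorem stA_Q : stA e v y 0 ^ 2 + stA e v y 1 * stA e v y 2 =
    e ^ 2 * (v 0 * y 0 + v 1 * y 1) ^ 2 := by
  simp only [stA, Matrix.cons_val_zero, Matrix.cons_val_one, Matrix.cons_val]
  ring

theorem st_inner : 2 * (stA e v y 0 * stN s v 0) + stA e v y 1 * stN s v 2 +
    stA e v y 2 * stN s v 1 = 0 := by
  simp only [stA, stN, Matrix.cons_val_zero, Matrix.cons_val_one, Matrix.cons_val]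
  ring

end Raw

section Pt

variable {A : Type*} [CommRing A] [IsLocalRing A] {e c : A} {a n : Fin 3 → A}

/-- `Q(n) = 0` -/
theorem IsStPt.Q_n (h : IsStPt e c a n) : n 0 ^ 2 + n 1 * n 2 = 0 := by
  obtain ⟨v, y, s, -, -, -, -, rfl, rfl⟩ := h
  exact stN_Q s v

theorem IsStPt.Q_n' (h : IsStPt e c a n) : Q n = 0 := h.Q_n

/-- `a₀n₂ − a₂n₀ = −(e c) n₂` -/
theorem IsStPt.minor02 (h : IsStPt e c a n) : a 0 * n 2 - a 2 * n 0 = -(e * c * n 2) := by
  obtain ⟨v, y, s, -, -, -, rfl, rfl, rfl⟩ := h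
  exact st_minor02 e s v y

/-- `a₁n₂ − a₂n₁ = 2 (e c) n₀` -/
theorem IsStPt.minor12 (h : IsStPt e c a n) : a 1 * n 2 - a 2 * n 1 = 2 * (e * c) * n 0 := by
  obtain ⟨v, y, s, -, -, -, rfl, rfl, rfl⟩ := h
  exact st_minor12 e s v y

/-- `a₀n₁ − a₁n₀ = (e c) n₁` -/
theorem IsStPt.minor01 (h : IsStPt e c a n) : a 0 * n 1 - a 1 * n 0 = e * c * n 1 := by
  obtain ⟨v, y, s, -, -, -, rfl, rfl, rfl⟩ := h
  exact st_minor01 e s v y

/-- `Q(a) = e² c²` -/
theorem IsStPt.Q_a (h : IsStPt e c a n) : a 0 ^ 2 + a 1 * a 2 = e ^ 2 * c ^ 2 := by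
  obtain ⟨v, y, s, -, -, -, rfl, rfl, rfl⟩ := h
  exact stA_Q e v y

/-- `⟨a, n⟩ = 0` -/
theorem IsStPt.inner (h : IsStPt e c a n) : 2 * (a 0 * n 0) + a 1 * n 2 + a 2 * n 1 = 0 := by
  obtain ⟨v, y, s, -, -, -, -, rfl, rfl⟩ := h
  exact st_inner e s v y

end Pt

/-! ### The certificate in the shape of `G.HasCert` (helper54 `Multi/FamilyG.lean`) -/

section Cert

open Fermat.Agent.GB.Local.Rloc MvPowerSeries

variable {O : Type u} [CommRing O] [IsLocalRing O] [IsNoetherianRing O]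
  [IsAdicComplete (maximalIdeal O) O]

/-- the three certificate elements of the type `St (ε, c)`:
`m₀ = −(ε c) n₂`, `m₁ = 2 (ε c) n₀`, `m₂ = 0`. -/
noncomputable def certSt (ε c : O) : Fin 3 → P6 O :=
  ![C (-(ε * c)) * nVar O 2, C (2 * (ε * c)) * nVar O 0, 0]

theorem certSt_mem {lam : O} (ε : O) {c : O} (hc : c ∈ Ideal.span {lam}) (k : Fin 3) :
    certSt ε c k ∈ Ideal.span {(C lam : P6 O)} := by
  obtain ⟨r, rfl⟩ := Ideal.mem_span_singleton'.1 hc
  fin_cases k
  · show C (-(ε * (r * lam))) * nVar O 2 ∈ _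
    have : (C (-(ε * (r * lam))) : P6 O) * nVar O 2 = (C (-(ε * r)) * nVar O 2) * C lam := by
      rw [show -(ε * (r * lam)) = -(ε * r) * lam by ring, map_mul]
      ring
    rw [this]
    exact Ideal.mul_mem_left _ _ (Ideal.mem_span_singleton_self _)
  · show C (2 * (ε * (r * lam))) * nVar O 0 ∈ _
    have : (C (2 * (ε * (r * lam))) : P6 O) * nVar O 0 = (C (2 * (ε * r)) * nVar O 0) * C lam := by
      rw [show 2 * (ε * (r * lam)) = 2 * (ε * r) * lam by ring, map_mul]
      ring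
    rw [this]
    exact Ideal.mul_mem_left _ _ (Ideal.mem_span_singleton_self _)
  · show (0 : P6 O) ∈ _
    exact Ideal.zero_mem _

/-- **the certificate**: on every point of type `St (ε, c)` the two minors and `Q(n)` are the
values of `certSt ε c`. -/
theorem IsStPt.cert {A : Type*} [CommRing A] [IsLocalRing A] [Algebra O A]
    [IsAdicComplete (maximalIdeal A) A] (ε c : O) {a n : Fin 3 → A}
    (ha : ∀ i, a i ∈ maximalIdeal A) (hn : ∀ i, n i ∈ maximalIdeal A)
    (h : IsStPt (algebraMap O A ε) (algebraMap O A c) a n) :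
    a 0 * n 2 - a 2 * n 0 = evalPair (O := O) a n ha hn (certSt ε c 0) ∧
    a 1 * n 2 - a 2 * n 1 = evalPair (O := O) a n ha hn (certSt ε c 1) ∧
    n 0 ^ 2 + n 1 * n 2 = evalPair (O := O) a n ha hn (certSt ε c 2) := by
  have hC : ∀ r : O, evalPair (O := O) a n ha hn (C r) = algebraMap O A r := by
    intro r
    have := (evalPair (O := O) a n ha hn).commutes r
    rwa [MvPowerSeries.algebraMap_apply, Algebra.algebraMap_self, RingHom.id_apply] at this
  refine ⟨?_, ?_, ?_⟩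
  · rw [h.minor02]
    show _ = evalPair (O := O) a n ha hn (C (-(ε * c)) * nVar O 2)
    rw [map_mul, hC, evalPair_nVar, map_neg, map_mul]
    ring
  · rw [h.minor12]
    show _ = evalPair (O := O) a n ha hn (C (2 * (ε * c)) * nVar O 0)
    rw [map_mul, hC, evalPair_nVar, map_mul, map_mul, map_ofNat]
  · rw [h.Q_n]
    show _ = evalPair (O := O) a n ha hn 0
    rw [map_zero]

end Cert

end Fermat.Agent.GB.Local.Multi.StPt
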